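import Mathlib

/-!
# S37, block F, leaf L7: the counting lemma (pure algebra)

A finite family of points `pl w` (`w ∈ S`) with multiplicities `m w`, and two points `Q₁`, `Q₂`.
If the total multiplicity is `ℓ + 1` and, for every point `Q₀ ≠ Q₂` which is `Q₁` or one of the
`pl w`, there is a test function (given through its values `v w` at `pl w`, `b₁` at `Q₁`, `b₂` at
`Q₂`) vanishing at `Q₀`, not vanishing at `Q₂`, and not vanishing at `Q₁` unless `Q₀ = Q₁`, with
`∏ (X - v w)^(m w) = (X - b₁)(X - b₂)^ℓ`, then `Σ m w · [pl w] = [Q₁] + ℓ [Q₂]`.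
-/

set_option autoImplicit false

namespace Fermat.Agent.S37L

/-- comparing the multiplicities of a root `c` on both sides of the product identity -/
theorem esfc120_count {ι k : Type*} [Field k] [DecidableEq k] (S : Finset ι) (m : ι → ℕ) (v : ι → k)
    (b₁ b₂ : k) (ℓ : ℕ)
    (h : ∏ w ∈ S, (Polynomial.X - Polynomial.C (v w)) ^ m w
      = (Polynomial.X - Polynomial.C b₁) * (Polynomial.X - Polynomial.C b₂) ^ ℓ) (c : k) :
    ∑ w ∈ S, (if v w = c then m w else 0)
      = (if b₁ = c then 1 else 0) + (if b₂ = c then ℓ else 0) := by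
  have hne : (Polynomial.X - Polynomial.C b₁) * (Polynomial.X - Polynomial.C b₂) ^ ℓ ≠ 0 :=
    mul_ne_zero (Polynomial.X_sub_C_ne_zero _) (pow_ne_zero _ (Polynomial.X_sub_C_ne_zero _))
  have hne' : ∏ w ∈ S, (Polynomial.X - Polynomial.C (v w)) ^ m w ≠ 0 := by
    rw [h]
    exact hne
  have h1 : (∏ w ∈ S, (Polynomial.X - Polynomial.C (v w)) ^ m w).roots.count c
      = ((Polynomial.X - Polynomial.C b₁) * (Polynomial.X - Polynomial.C b₂) ^ ℓ).roots.count c := by
    rw [h]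
  rw [Polynomial.roots_prod _ _ hne', Multiset.count_bind, Polynomial.roots_mul hne,
    Multiset.count_add, Polynomial.roots_pow, Polynomial.roots_X_sub_C, Polynomial.roots_X_sub_C,
    Multiset.count_nsmul, Multiset.count_singleton, Multiset.count_singleton] at h1
  have h2 : (Multiset.map (fun w => Multiset.count c
      ((Polynomial.X - Polynomial.C (v w)) ^ m w).roots) S.val).sum
      = ∑ w ∈ S, (if v w = c then m w else 0) := by
    rw [Finset.sum_eq_multiset_sum]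
    congr 1
    refine Multiset.map_congr rfl fun w _ => ?_
    rw [Polynomial.roots_pow, Polynomial.roots_X_sub_C, Multiset.count_nsmul,
      Multiset.count_singleton]
    by_cases hw : v w = c
    · rw [if_pos hw, if_pos hw.symm, mul_one]
    · rw [if_neg hw, if_neg (fun h => hw h.symm), mul_zero]
  rw [h2] at h1
  rw [h1]
  by_cases hb1 : b₁ = c <;> by_cases hb2 : b₂ = c <;>
    simp [hb1, hb2, eq_comm]

theorem esf_count {ι X k : Type*} [Field k] (S : Finset ι) (pl : ι → X) (m : ι → ℕ)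
    (Q₁ Q₂ : X) (ℓ : ℕ) (hdeg : ∑ w ∈ S, m w = ℓ + 1)
    (htest : ∀ Q₀ : X, Q₀ ≠ Q₂ → (Q₀ = Q₁ ∨ ∃ w ∈ S, pl w = Q₀) →
      ∃ (v : ι → k) (b₁ b₂ : k),
        (∀ w ∈ S, pl w = Q₀ → v w = 0) ∧ (∀ w ∈ S, pl w = Q₁ → v w = b₁) ∧
        (∀ w ∈ S, pl w = Q₂ → v w = b₂) ∧ (Q₀ = Q₁ → b₁ = 0) ∧ (Q₀ ≠ Q₁ → b₁ ≠ 0) ∧ b₂ ≠ 0 ∧
        ∏ w ∈ S, (Polynomial.X - Polynomial.C (v w)) ^ m w
          = (Polynomial.X - Polynomial.C b₁) * (Polynomial.X - Polynomial.C b₂) ^ ℓ) :
    ∑ w ∈ S, Finsupp.single (pl w) (m w : ℤ)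
      = Finsupp.single Q₁ (1 : ℤ) + Finsupp.single Q₂ (ℓ : ℤ) := by
  classical
  -- Step A: points other than `Q₁`, `Q₂` carry no multiplicity
  have hA : ∀ w₀ ∈ S, pl w₀ ≠ Q₁ → pl w₀ ≠ Q₂ → m w₀ = 0 := by
    intro w₀ hw₀ h1 h2
    obtain ⟨v, b₁, b₂, hv0, -, -, -, hb1', hb2, hprod⟩ :=
      htest (pl w₀) h2 (Or.inr ⟨w₀, hw₀, rfl⟩)
    have hc := esfc120_count S m v b₁ b₂ ℓ hprod 0
    rw [if_neg (hb1' h1), if_neg hb2, add_zero] at hc
    have h3 := (Finset.sum_eq_zero_iff.1 hc) w₀ hw₀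
    rwa [if_pos (hv0 w₀ hw₀ rfl)] at h3
  have hother : ∀ Q : X, ¬ Q₁ = Q → ¬ Q₂ = Q → ∑ w ∈ S, (if pl w = Q then m w else 0) = 0 := by
    intro Q hQ1 hQ2
    refine Finset.sum_eq_zero fun w hw => ?_
    by_cases hwQ : pl w = Q
    · rw [if_pos hwQ]
      exact hA w hw (by rw [hwQ]; exact Ne.symm hQ1) (by rw [hwQ]; exact Ne.symm hQ2)
    · rw [if_neg hwQ]
  have hN : ∀ Q : X, ∑ w ∈ S, (if pl w = Q then m w else 0)
      = (if Q₁ = Q then 1 else 0) + (if Q₂ = Q then ℓ else 0) := by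
    intro Q
    by_cases h12 : Q₁ = Q₂
    · have hall : ∑ w ∈ S, (if pl w = Q₁ then m w else 0) = ℓ + 1 := by
        rw [← hdeg]
        refine Finset.sum_congr rfl fun w hw => ?_
        by_cases hw1 : pl w = Q₁
        · rw [if_pos hw1]
        · rw [if_neg hw1]
          exact (hA w hw hw1 (h12 ▸ hw1)).symm
      by_cases hQ : Q₁ = Q
      · have hQ2 : Q₂ = Q := h12 ▸ hQ
        rw [if_pos hQ, if_pos hQ2, ← hQ, hall, add_comm]
      · have hQ2 : ¬ Q₂ = Q := h12 ▸ hQ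
        rw [if_neg hQ, if_neg hQ2]
        exact hother Q hQ hQ2
    · obtain ⟨v, b₁, b₂, hv0, -, hv2, hb1, -, hb2, hprod⟩ := htest Q₁ h12 (Or.inl rfl)
      have hc := esfc120_count S m v b₁ b₂ ℓ hprod 0
      rw [if_pos (hb1 rfl), if_neg hb2, add_zero] at hc
      have h1 : ∑ w ∈ S, (if pl w = Q₁ then m w else 0) = 1 := by
        rw [← hc]
        refine Finset.sum_congr rfl fun w hw => ?_
        by_cases hw1 : pl w = Q₁
        · rw [if_pos hw1, if_pos (hv0 w hw hw1)]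
        · rw [if_neg hw1]
          by_cases hw2 : pl w = Q₂
          · rw [if_neg]
            rw [hv2 w hw hw2]
            exact hb2
          · rw [hA w hw hw1 hw2, ite_self]
      have h2 : ∑ w ∈ S, (if pl w = Q₂ then m w else 0) = ℓ := by
        have hsum : ∑ w ∈ S, m w = ∑ w ∈ S, (if pl w = Q₁ then m w else 0)
            + ∑ w ∈ S, (if pl w = Q₂ then m w else 0) := by
          rw [← Finset.sum_add_distrib]
          refine Finset.sum_congr rfl fun w hw => ?_
          by_cases hw1 : pl w = Q₁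
          · rw [if_pos hw1, if_neg (fun h => h12 (hw1.symm.trans h)), add_zero]
          · rw [if_neg hw1, zero_add]
            by_cases hw2 : pl w = Q₂
            · rw [if_pos hw2]
            · rw [if_neg hw2]
              exact hA w hw hw1 hw2
        rw [hdeg, h1] at hsum
        omega
      by_cases hQ1 : Q₁ = Q
      · have hQ2 : ¬ Q₂ = Q := fun h => h12 (hQ1.trans h.symm)
        rw [if_pos hQ1, if_neg hQ2, ← hQ1, h1]
      · by_cases hQ2 : Q₂ = Q
        · rw [if_neg hQ1, if_pos hQ2, ← hQ2, h2, zero_add]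
        · rw [if_neg hQ1, if_neg hQ2]
          exact hother Q hQ1 hQ2
  ext Q
  rw [Finsupp.finsetSum_apply, Finsupp.add_apply, Finsupp.single_apply, Finsupp.single_apply]
  have hcast : ∑ w ∈ S, (Finsupp.single (pl w) (m w : ℤ)) Q
      = ((∑ w ∈ S, (if pl w = Q then m w else 0) : ℕ) : ℤ) := by
    rw [Nat.cast_sum]
    refine Finset.sum_congr rfl fun w _ => ?_
    rw [Finsupp.single_apply]
    split_ifs <;> simp
  rw [hcast, hN Q]
  push_cast
  rfl

end Fermat.Agent.S37L
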