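import Mathlib
import Fermat.Prelude.Def_ModularCurve_X0ModL
import Fermat.Prelude.Def_AlgebraicCurve_BaseChangeGalois

/-!
# S37: the coefficientwise action of a ring automorphism of `k` on
`F̄_N = modularFunctionFieldFullC k N` and on `JZeroC k N`

For `e : k ≃+* k`, `esAut k N e : SemilinearAut k F̄_N` acts on `F̄_N ⊆ k((q))` by applying `e`
to the coefficients, and `esF0 k N e : JZeroC k N →+ JZeroC k N` is its action on divisor
classes (through the Prelude's action of `SemilinearAut` on places, divisors and `Pic0`).
For `e` the Frobenius `a ↦ a ^ ℓ` of a perfect field of characteristic `ℓ` this is the map `F₀`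
of the Eichler–Shimura relation.
-/

set_option autoImplicit false

noncomputable section

open ModularCurve AlgebraicCurve HahnSeries

namespace Fermat.Agent.S37L

variable (k : Type*) [Field k] (N : ℕ) [NeZero N]

omit [NeZero N] in
/-- coefficientwise ring endomorphisms preserve `F̄_N` -/
theorem coeffMap_mem_fullC (φ : k →+* k) {x : LaurentSeries k}
    (hx : x ∈ modularFunctionFieldFullC k N) :
    coeffMap φ x ∈ modularFunctionFieldFullC k N := by
  unfold modularFunctionFieldFullC at hx ⊢
  induction hx using IntermediateField.adjoin_induction with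
  | mem x hx =>
      obtain ⟨d, hd0, hd, rfl⟩ := hx
      rw [coeffMap_qExpand, coeffMap_jqModC]
      exact IntermediateField.subset_adjoin k _ ⟨d, hd0, hd, rfl⟩
  | algebraMap a =>
      rw [coeffMap_algebraMap]
      exact IntermediateField.algebraMap_mem _ _
  | add x y _ _ hx hy =>
      rw [map_add]
      exact add_mem hx hy
  | inv x _ hx =>
      rw [map_inv₀]
      exact inv_mem hx
  | mul x y _ _ hx hy =>
      rw [map_mul]
      exact mul_mem hx hy

/-- the coefficientwise action of a ring automorphism of `k` on `F̄_N` -/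
def esRingAut (e : k ≃+* k) :
    ↥(modularFunctionFieldFullC k N) ≃+* ↥(modularFunctionFieldFullC k N) where
  toFun x := ⟨coeffMap (e : k →+* k) (x : LaurentSeries k), coeffMap_mem_fullC k N _ x.2⟩
  invFun x := ⟨coeffMap (e.symm : k →+* k) (x : LaurentSeries k), coeffMap_mem_fullC k N _ x.2⟩
  left_inv x := Subtype.ext <| by
    show coeffMap (e.symm : k →+* k) (coeffMap (e : k →+* k) (x : LaurentSeries k))
      = (x : LaurentSeries k)
    rw [coeffMap_coeffMap,
      coeffMap_congr (g := RingHom.id k) (RingHom.ext fun a => e.symm_apply_apply a)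
        (x : LaurentSeries k),
      coeffMap_id]
  right_inv x := Subtype.ext <| by
    show coeffMap (e : k →+* k) (coeffMap (e.symm : k →+* k) (x : LaurentSeries k))
      = (x : LaurentSeries k)
    rw [coeffMap_coeffMap,
      coeffMap_congr (g := RingHom.id k) (RingHom.ext fun a => e.apply_symm_apply a)
        (x : LaurentSeries k),
      coeffMap_id]
  map_mul' x y :=
    Subtype.ext (map_mul (coeffMap (e : k →+* k)) (x : LaurentSeries k) (y : LaurentSeries k))
  map_add' x y :=
    Subtype.ext (map_add (coeffMap (e : k →+* k)) (x : LaurentSeries k) (y : LaurentSeries k))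

@[simp]
theorem coe_esRingAut_apply (e : k ≃+* k) (x : ↥(modularFunctionFieldFullC k N)) :
    (esRingAut k N e x : LaurentSeries k) = coeffMap (e : k →+* k) (x : LaurentSeries k) :=
  rfl

/-- the semilinear automorphism of `F̄_N / k` given by a ring automorphism of `k` -/
def esAut (e : k ≃+* k) : SemilinearAut k ↥(modularFunctionFieldFullC k N) :=
  ⟨(esRingAut k N e, e), fun a => Subtype.ext (coeffMap_algebraMap (e : k →+* k) a)⟩

@[simp]
theorem toRingAut_esAut (e : k ≃+* k) :
    SemilinearAut.toRingAut (esAut k N e) = esRingAut k N e := rfl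

@[simp]
theorem baseAut_esAut (e : k ≃+* k) : SemilinearAut.baseAut (esAut k N e) = e := rfl

theorem coe_esAut_smul (e : k ≃+* k) (x : ↥(modularFunctionFieldFullC k N)) :
    ((esAut k N e • x : ↥(modularFunctionFieldFullC k N)) : LaurentSeries k)
      = coeffMap (e : k →+* k) (x : LaurentSeries k) :=
  rfl

/-- the action on divisor classes: **the map `F₀`** (for `e` the Frobenius of `k`) -/
def esF0 (e : k ≃+* k) : JZeroC k N →+ JZeroC k N :=
  DistribSMul.toAddMonoidHom (JZeroC k N) (esAut k N e)

theorem esF0_apply (e : k ≃+* k) (x : JZeroC k N) : esF0 k N e x = esAut k N e • x := rfl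

theorem esF0_mk (e : k ≃+* k)
    (D : Divisor.degZero (K := k) (F := ↥(modularFunctionFieldFullC k N))) :
    esF0 k N e (Pic0.mk D) = Pic0.mk (SemilinearAut.degZeroSMulHom (esAut k N e) D) := rfl

end Fermat.Agent.S37L

end
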