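import Mathlib
import Fermat.Prelude.Def_ModularCurve_HeckeModule
import Fermat.Prelude.Def_ModularCurve_ReductionModL
import Fermat.Agent.S37L.EsFrob
import Fermat.Agent.S18L.AsmGaussProps

/-!
# S37, block F (owner helper3): definitions

* `EsfVal v y c`  : the function `y` has the value `c` at the place `v`
                    (`y = c ∨ 0 < ord_v (y - c)`; the encoding of block D).
* `EsfFin N A P`  : `j` is regular at the place `P` of `F_N` with value in `A`.
* `EsfTy N A Q`   : `j̄` is regular at the place `Q` of `F̄_N` (`Q` is not a cusp).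

Integral functions: `Fermat.Agent.S18L.asmO A N` (a subring of `F_N = modularFunctionFieldBar N`)
with reduction `Fermat.Agent.S18L.asmRed A N : asmO A N →+* F̄_N`.
-/

set_option autoImplicit false
set_option synthInstance.maxHeartbeats 400000

open ModularCurve AlgebraicCurve HahnSeries

namespace Fermat.Agent.S37L

open Fermat.Agent.S18L Fermat.Agent.X0S24

/-- `y` has the value `c` at the place `v` -/
def EsfVal {K F : Type*} [Field K] [Field F] [Algebra K F] (v : Place K F) (y : F) (c : K) :
    Prop :=
  y = algebraMap K F c ∨ 0 < v.ord (y - algebraMap K F c)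

variable (N : ℕ) [NeZero N] (A : ValuationSubring (AlgebraicClosure ℚ))

/-- `j` is regular at `P` with value in `A` -/
def EsfFin (P : Place (AlgebraicClosure ℚ) ↥(modularFunctionFieldBar N)) : Prop :=
  ∃ c : A, EsfVal P (Embed.jbar N) (c : AlgebraicClosure ℚ)

/-- `j̄` is regular at `Q` -/
def EsfTy (Q : Place (IsLocalRing.ResidueField A)
    ↥(modularFunctionFieldFullC (IsLocalRing.ResidueField A) N)) : Prop :=
  0 ≤ Q.ord (⟨jqModC (IsLocalRing.ResidueField A),
    jqModC_mem_full (IsLocalRing.ResidueField A) N⟩ :
      ↥(modularFunctionFieldFullC (IsLocalRing.ResidueField A) N))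

end Fermat.Agent.S37L
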