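import Mathlib
import Fermat.Agent.S37L.EsFDefs

/-!
# S37, block F, leaf L1: the calculus of values `EsfVal`

Everything here is for a general `Place K F` (Prelude `AlgebraicCurve.Place`).
-/

set_option autoImplicit false

open AlgebraicCurve Polynomial

namespace Fermat.Agent.S37L

variable {K F : Type*} [Field K] [Field F] [Algebra K F] (v : Place K F)

/-- elements of the valuation ring have nonnegative order -/
theorem esf222_ord_nonneg_of_mem {y : F} (hy : y ∈ v.toValuationSubring) : 0 ≤ v.ord y := by
  rcases eq_or_ne y 0 with rfl | h0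
  · simp
  have h1 : v.adicValuation y ≤ 1 := by
    have := v.adicValuation_coe ⟨y, hy⟩
    rw [show ((⟨y, hy⟩ : v.toValuationSubring) : F) = y from rfl] at this
    rw [this]
    exact IsDedekindDomain.HeightOneSpectrum.intValuation_le_one _ _
  have h2 : WithZero.log (v.adicValuation y) ≤ 0 := by
    rw [WithZero.log_le_iff_le_exp (v.adicValuation_ne_zero h0)]
    simpa using h1
  unfold Place.ord
  omega

/-- elements of nonnegative order lie in the valuation ring -/
theorem esf222_mem_of_ord_nonneg {y : F} (hy : 0 ≤ v.ord y) : y ∈ v.toValuationSubring := by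
  rcases eq_or_ne y 0 with rfl | h0
  · exact zero_mem _
  obtain ⟨π, hπ⟩ := IsDiscreteValuationRing.exists_irreducible v.toValuationSubring
  obtain ⟨u, hu⟩ := v.exists_unit_mul_zpow h0 hπ
  rw [hu]
  obtain ⟨n, hn⟩ := Int.eq_ofNat_of_zero_le hy
  rw [hn, zpow_natCast]
  exact mul_mem (u : v.toValuationSubring).2 (pow_mem π.2 n)

/-- the maximal ideal, in terms of `ord` -/
theorem esf222_small_iff {y : F} :
    (y = 0 ∨ 0 < v.ord y) ↔
      ∃ h : y ∈ v.toValuationSubring, IsLocalRing.residue v.toValuationSubring ⟨y, h⟩ = 0 := by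
  constructor
  · rintro (rfl | h)
    · exact ⟨zero_mem _, map_zero _⟩
    · have hm := esf222_mem_of_ord_nonneg v h.le
      refine ⟨hm, ?_⟩
      rw [IsLocalRing.residue_eq_zero_iff, IsLocalRing.mem_maximalIdeal, mem_nonunits_iff]
      intro hu
      have := v.ord_coe_unit hu.unit
      rw [IsUnit.unit_spec] at this
      rw [show ((⟨y, hm⟩ : v.toValuationSubring) : F) = y from rfl] at this
      omega
  · rintro ⟨hm, hr⟩
    rcases eq_or_ne y 0 with h0 | h0
    · exact Or.inl h0
    right
    rw [IsLocalRing.residue_eq_zero_iff, IsLocalRing.mem_maximalIdeal, mem_nonunits_iff,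
      ← v.adicValuation_coe_eq_one_iff] at hr
    have h1 := esf222_ord_nonneg_of_mem v hm
    rcases h1.lt_or_eq with h2 | h2
    · exact h2
    exfalso
    apply hr
    show v.adicValuation y = 1
    have h3 : WithZero.log (v.adicValuation y) = 0 := by
      unfold Place.ord at h2
      omega
    rw [← WithZero.exp_log (v.adicValuation_ne_zero h0), h3]
    rfl

/-- the residue characterisation of values -/
theorem esf222_val_iff {y : F} {c : K} :
    EsfVal v y c ↔
      ∃ h : y ∈ v.toValuationSubring, IsLocalRing.residue v.toValuationSubring ⟨y, h⟩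
        = IsLocalRing.residue v.toValuationSubring (algebraMap K v.toValuationSubring c) := by
  unfold EsfVal
  rw [← sub_eq_zero (a := y), esf222_small_iff]
  constructor
  · rintro ⟨h, hr⟩
    have hy : y ∈ v.toValuationSubring := by
      have := add_mem h (v.algebraMap_mem' c)
      simpa using this
    refine ⟨hy, ?_⟩
    rw [← sub_eq_zero, ← map_sub]
    exact hr
  · rintro ⟨h, hr⟩
    refine ⟨sub_mem h (v.algebraMap_mem' c), ?_⟩
    rw [← sub_eq_zero, ← map_sub] at hr
    exact hr

theorem esf222_val_sum {ι : Type*} (s : Finset ι) (f : ι → F) (g : ι → K)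
    (h : ∀ i ∈ s, EsfVal v (f i) (g i)) : EsfVal v (∑ i ∈ s, f i) (∑ i ∈ s, g i) := by
  classical
  induction s using Finset.induction_on with
  | empty =>
    left
    simp
  | insert a s ha ih =>
    rw [Finset.sum_insert ha, Finset.sum_insert ha]
    have h1 := h a (Finset.mem_insert_self a s)
    have h2 := ih (fun i hi => h i (Finset.mem_insert_of_mem hi))
    rw [esf222_val_iff] at h1 h2 ⊢
    obtain ⟨m1, r1⟩ := h1
    obtain ⟨m2, r2⟩ := h2
    refine ⟨add_mem m1 m2, ?_⟩
    rw [map_add, map_add, ← r1, ← r2, ← map_add]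
    rfl

/-- a constant has its own value -/
theorem esf_val_const (c : K) : EsfVal v (algebraMap K F c) c := by
  exact Or.inl rfl

/-- a function with a value is regular -/
theorem esf_val_nonneg {y : F} {c : K} (h : EsfVal v y c) : 0 ≤ v.ord y := by
  rw [esf222_val_iff] at h
  exact esf222_ord_nonneg_of_mem v h.1

/-- the value is unique -/
theorem esf_val_unique {y : F} {c c' : K} (h : EsfVal v y c) (h' : EsfVal v y c') : c = c' := by
  rw [esf222_val_iff] at h h'
  obtain ⟨m1, r1⟩ := h
  obtain ⟨m2, r2⟩ := h'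
  have := r1.symm.trans r2
  exact ((IsLocalRing.residue v.toValuationSubring).comp
    (algebraMap K v.toValuationSubring)).injective this

theorem esf_val_add {y y' : F} {c c' : K} (h : EsfVal v y c) (h' : EsfVal v y' c') :
    EsfVal v (y + y') (c + c') := by
  rw [esf222_val_iff] at h h' ⊢
  obtain ⟨m1, r1⟩ := h
  obtain ⟨m2, r2⟩ := h'
  refine ⟨add_mem m1 m2, ?_⟩
  rw [map_add, map_add, ← r1, ← r2, ← map_add]
  rfl

theorem esf_val_neg {y : F} {c : K} (h : EsfVal v y c) : EsfVal v (-y) (-c) := by
  rw [esf222_val_iff] at h ⊢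
  obtain ⟨m1, r1⟩ := h
  refine ⟨neg_mem m1, ?_⟩
  rw [map_neg, map_neg, ← r1, ← map_neg]
  rfl

theorem esf_val_sub {y y' : F} {c c' : K} (h : EsfVal v y c) (h' : EsfVal v y' c') :
    EsfVal v (y - y') (c - c') := by
  rw [sub_eq_add_neg, sub_eq_add_neg]
  exact esf_val_add v h (esf_val_neg v h')

theorem esf_val_mul {y y' : F} {c c' : K} (h : EsfVal v y c) (h' : EsfVal v y' c') :
    EsfVal v (y * y') (c * c') := by
  rw [esf222_val_iff] at h h' ⊢
  obtain ⟨m1, r1⟩ := h
  obtain ⟨m2, r2⟩ := h'
  refine ⟨mul_mem m1 m2, ?_⟩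
  rw [map_mul, map_mul, ← r1, ← r2, ← map_mul]
  rfl

theorem esf_val_pow {y : F} {c : K} (h : EsfVal v y c) (n : ℕ) : EsfVal v (y ^ n) (c ^ n) := by
  induction n with
  | zero =>
    left
    simp
  | succ n ih =>
    rw [pow_succ, pow_succ]
    exact esf_val_mul v ih h

/-- a function vanishing at `v` has the value `0` -/
theorem esf_val_zero_of_ord_pos {y : F} (h : 0 < v.ord y) : EsfVal v y 0 := by
  right
  simpa using h

/-- a unit at `v` has a nonzero value -/
theorem esf_val_ne_zero {y : F} {c : K} (hy : y ≠ 0) (h0 : v.ord y = 0) (h : EsfVal v y c) :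
    c ≠ 0 := by
  rintro rfl
  rcases h with h | h
  · exact hy (by simpa using h)
  · rw [map_zero, sub_zero] at h
    omega

/-- a function with value `0` is zero or vanishes at `v` -/
theorem esf_val_zero_iff {y : F} : EsfVal v y 0 ↔ y = 0 ∨ 0 < v.ord y := by
  unfold EsfVal
  rw [map_zero, sub_zero]

/-- evaluation of a polynomial with coefficients having values, at a constant -/
theorem esf_val_eval (p : Polynomial F) (p₀ : Polynomial K)
    (hp : ∀ i, EsfVal v (p.coeff i) (p₀.coeff i)) (c : K) :
    EsfVal v (p.eval (algebraMap K F c)) (p₀.eval c) := by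
  rw [Polynomial.eval_eq_sum_range' (n := max p.natDegree p₀.natDegree + 1) (by omega),
    Polynomial.eval_eq_sum_range' (n := max p.natDegree p₀.natDegree + 1) (by omega)]
  apply esf222_val_sum
  intro i _
  exact esf_val_mul v (hp i) (esf_val_pow v (esf_val_const v c) i)

/-- transport of values under a semilinear automorphism -/
theorem esf_val_smul (g : SemilinearAut K F) {y : F} {c : K} (h : EsfVal v y c) :
    EsfVal (g • v) (g • y) (SemilinearAut.baseAut g c) := by
  rcases h with h | h
  · left
    rw [h, SemilinearAut.smul_algebraMap]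
  · right
    rw [← SemilinearAut.smul_algebraMap, ← smul_sub, SemilinearAut.ord_smul]
    exact h

/-- at a place of degree one every regular function has a value -/
theorem esf_val_exists (hdeg : v.deg = 1) {y : F} (hy : 0 ≤ v.ord y) : ∃ c : K, EsfVal v y c := by
  have hm := esf222_mem_of_ord_nonneg v hy
  have hbot : (⊥ : Subalgebra K v.ResidueField) = ⊤ :=
    Subalgebra.bot_eq_top_of_finrank_eq_one hdeg
  have hx : IsLocalRing.residue v.toValuationSubring ⟨y, hm⟩ ∈ (⊥ : Subalgebra K v.ResidueField) := by
    rw [hbot]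
    exact Algebra.mem_top
  rw [Algebra.mem_bot] at hx
  obtain ⟨c, hc⟩ := hx
  refine ⟨c, ?_⟩
  rw [esf222_val_iff]
  exact ⟨hm, hc.symm⟩

end Fermat.Agent.S37L
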