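import Mathlib
import Fermat.Agent.S37L.EsFDefs
import Fermat.Agent.S37L.EsFVal

/-!
# S37, block F, leaf L4: the coefficientwise Frobenius

`k` a field of characteristic `ℓ`, `e : k ≃+* k` the Frobenius `a ↦ a ^ ℓ`,
`σ = esAut k N e` the induced semilinear automorphism of `F̄_N`.
-/

set_option autoImplicit false
set_option synthInstance.maxHeartbeats 400000

open ModularCurve AlgebraicCurve HahnSeries

namespace Fermat.Agent.S37L

open Fermat.Agent.S18L

/-- Frobenius on power series, coefficientwise -/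
theorem esf221_coeff_pow (ℓ : ℕ) (hℓ : ℓ.Prime) (k : Type*) [Field k] [CharP k ℓ]
    (p : PowerSeries k) (m : ℕ) :
    PowerSeries.coeff m (p ^ ℓ)
      = if ℓ ∣ m then (PowerSeries.coeff (m / ℓ) p) ^ ℓ else 0 := by
  have : ExpChar k ℓ := ExpChar.prime hℓ
  have h : (PowerSeries.expand ℓ hℓ.ne_zero p).map (frobenius k ℓ) = p ^ ℓ :=
    MvPowerSeries.map_frobenius_expand ℓ hℓ.ne_zero
  rw [← h, PowerSeries.coeff_map, PowerSeries.coeff_expand]
  split_ifs
  · rfl
  · exact map_zero _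

theorem esf221_ps_frob (ℓ : ℕ) [NeZero ℓ] (hℓ : ℓ.Prime) (k : Type*) [Field k] [CharP k ℓ]
    (e : k ≃+* k) (he : ∀ a : k, e a = a ^ ℓ) (p : PowerSeries k) :
    HahnSeries.ofPowerSeries ℤ k (p ^ ℓ)
      = qExpand k ℓ (HahnSeries.ofPowerSeries ℤ k (p.map (e : k →+* k))) := by
  ext m
  rcases lt_or_ge m 0 with hm | hm
  · rw [ofPowerSeries_coeff_of_neg _ hm]
    by_cases hd : (ℓ : ℤ) ∣ m
    · obtain ⟨m', rfl⟩ := hd
      rw [qExpand_coeff_mul]
      have hm' : m' < 0 := by
        by_contra hcon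
        have : (0 : ℤ) ≤ (ℓ : ℤ) * m' := mul_nonneg (by positivity) (not_lt.mp hcon)
        omega
      rw [ofPowerSeries_coeff_of_neg _ hm']
    · rw [qExpand_coeff_of_not_dvd ℓ _ hd]
  · lift m to ℕ using hm
    rw [HahnSeries.ofPowerSeries_apply_coeff, esf221_coeff_pow ℓ hℓ k p m]
    by_cases hd : ℓ ∣ m
    · rw [if_pos hd]
      obtain ⟨m', rfl⟩ := hd
      rw [Nat.mul_div_cancel_left _ hℓ.pos]
      push_cast
      rw [qExpand_coeff_mul, HahnSeries.ofPowerSeries_apply_coeff, PowerSeries.coeff_map]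
      exact (he _).symm
    · rw [if_neg hd, qExpand_coeff_of_not_dvd ℓ _ (by exact_mod_cast hd)]

theorem esf221_frob_series (ℓ : ℕ) [NeZero ℓ] (hℓ : ℓ.Prime) (k : Type*) [Field k] [CharP k ℓ]
    (e : k ≃+* k) (he : ∀ a : k, e a = a ^ ℓ) (y : LaurentSeries k) :
    y ^ ℓ = qExpand k ℓ (coeffMap (e : k →+* k) y) := by
  have key : ∀ (n : ℤ) (p : PowerSeries k),
      (HahnSeries.single n (1 : k) * HahnSeries.ofPowerSeries ℤ k p) ^ ℓ
        = qExpand k ℓ (coeffMap (e : k →+* k)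
            (HahnSeries.single n (1 : k) * HahnSeries.ofPowerSeries ℤ k p)) := by
    intro n p
    rw [mul_pow, map_mul, map_mul, coeffMap_single, qExpand_single, coeffMap_ofPowerSeries,
      ← esf221_ps_frob ℓ hℓ k e he, map_pow (HahnSeries.ofPowerSeries ℤ k), HahnSeries.single_pow,
      one_pow]
    congr 2
    all_goals simp
  have hy := LaurentSeries.single_order_mul_powerSeriesPart y
  have h := key y.order y.powerSeriesPart
  rwa [hy] at h

/-- `x(q^ℓ) = (σ⁻¹ x)^ℓ` in characteristic `ℓ` -/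
theorem esf_qexp_frob (ℓ : ℕ) [NeZero ℓ] (hℓ : ℓ.Prime) (k : Type*) [Field k] [CharP k ℓ]
    (e : k ≃+* k) (he : ∀ a : k, e a = a ^ ℓ) (x : LaurentSeries k) :
    qExpand k ℓ x = (coeffMap (e.symm : k →+* k) x) ^ ℓ := by
  rw [esf221_frob_series ℓ hℓ k e he, coeffMap_coeffMap,
    coeffMap_congr (g := RingHom.id k) (RingHom.ext fun a => e.apply_symm_apply a) x,
    coeffMap_id]

/-- the type of a place of `F̄_N` is invariant under coefficientwise automorphisms -/
theorem esf_ty_smul (N : ℕ) [NeZero N] (A : ValuationSubring (AlgebraicClosure ℚ))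
    (e : IsLocalRing.ResidueField A ≃+* IsLocalRing.ResidueField A)
    (Q : Place (IsLocalRing.ResidueField A)
      ↥(modularFunctionFieldFullC (IsLocalRing.ResidueField A) N)) :
    EsfTy N A (esAut (IsLocalRing.ResidueField A) N e • Q) ↔ EsfTy N A Q := by
  have hj : esAut (IsLocalRing.ResidueField A) N e •
      (⟨jqModC (IsLocalRing.ResidueField A),
        jqModC_mem_full (IsLocalRing.ResidueField A) N⟩ :
        ↥(modularFunctionFieldFullC (IsLocalRing.ResidueField A) N))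
      = ⟨jqModC (IsLocalRing.ResidueField A),
        jqModC_mem_full (IsLocalRing.ResidueField A) N⟩ :=
    Subtype.ext (coeffMap_jqModC (e : IsLocalRing.ResidueField A →+* IsLocalRing.ResidueField A))
  have h := SemilinearAut.ord_smul (esAut (IsLocalRing.ResidueField A) N e) Q
    (⟨jqModC (IsLocalRing.ResidueField A),
        jqModC_mem_full (IsLocalRing.ResidueField A) N⟩ :
        ↥(modularFunctionFieldFullC (IsLocalRing.ResidueField A) N))
  rw [hj] at h
  unfold EsfTy
  rw [h]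

/-- the values at `Q` of `x(q^ℓ)` and of `σ x`, from the values of `x` at `σ Q` and `σ⁻¹ Q` -/
theorem esf_frob_vals (N : ℕ) [NeZero N] (ℓ : ℕ) [NeZero ℓ] (hℓ : ℓ.Prime) (k : Type*) [Field k]
    [CharP k ℓ] (e : k ≃+* k) (he : ∀ a : k, e a = a ^ ℓ)
    (Q : Place k ↥(modularFunctionFieldFullC k N)) (x : ↥(modularFunctionFieldFullC k N))
    (b₁ b₂ : k) (h₁ : EsfVal (esAut k N e • Q) x b₁) (h₂ : EsfVal ((esAut k N e)⁻¹ • Q) x b₂) :
    (∃ hx : qExpand k ℓ (x : LaurentSeries k) ∈ modularFunctionFieldFullC k N,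
        EsfVal Q (⟨qExpand k ℓ (x : LaurentSeries k), hx⟩ : ↥(modularFunctionFieldFullC k N)) b₁) ∧
      (∃ hx : coeffMap (e : k →+* k) (x : LaurentSeries k) ∈ modularFunctionFieldFullC k N,
        EsfVal Q (⟨coeffMap (e : k →+* k) (x : LaurentSeries k), hx⟩ :
          ↥(modularFunctionFieldFullC k N)) (b₂ ^ ℓ)) := by
  constructor
  · have hmem : coeffMap (e.symm : k →+* k) (x : LaurentSeries k) ∈ modularFunctionFieldFullC k N :=
      coeffMap_mem_fullC k N _ x.2
    have hq : qExpand k ℓ (x : LaurentSeries k) ∈ modularFunctionFieldFullC k N := by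
      rw [esf_qexp_frob ℓ hℓ k e he]
      exact pow_mem hmem ℓ
    refine ⟨hq, ?_⟩
    have h := esf_val_smul (esAut k N e • Q) (esAut k N e)⁻¹ h₁
    rw [inv_smul_smul] at h
    have h' := esf_val_pow Q h ℓ
    have hb : (SemilinearAut.baseAut (esAut k N e)⁻¹ b₁) ^ ℓ = b₁ := by
      rw [← he]
      exact e.apply_symm_apply b₁
    rw [hb] at h'
    have hxe : (⟨qExpand k ℓ (x : LaurentSeries k), hq⟩ : ↥(modularFunctionFieldFullC k N))
        = ((esAut k N e)⁻¹ • x) ^ ℓ :=
      Subtype.ext (esf_qexp_frob ℓ hℓ k e he (x : LaurentSeries k))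
    rw [hxe]
    exact h'
  · refine ⟨coeffMap_mem_fullC k N _ x.2, ?_⟩
    have h := esf_val_smul ((esAut k N e)⁻¹ • Q) (esAut k N e) h₂
    rw [smul_inv_smul] at h
    have hb : SemilinearAut.baseAut (esAut k N e) b₂ = b₂ ^ ℓ := he b₂
    rw [hb] at h
    exact h

end Fermat.Agent.S37L
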