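import Mathlib

/-!
# S37, block D (helper6), leaf FIB-CORE: the characteristic polynomial of an element of a finite
free Dedekind algebra over a discrete valuation ring, reduced modulo the maximal ideal

Pure commutative algebra (no places).  `R` is a discrete valuation ring with uniformizer `ϖ`,
`S` a Dedekind domain which is a finite free `R`-algebra with finitely many height-one primes,
all of them with residue field `R / 𝔪` (`hres`).  For `x ∈ S` congruent to `a 𝔓 ∈ R` modulo every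
height-one prime `𝔓`, the characteristic polynomial of multiplication by `x` on the free
`R`-module `S` reduces modulo `𝔪` to `∏_𝔓 (X - a 𝔓) ^ e 𝔓`, where `e 𝔓` is the exact power of `𝔓`
containing `ϖ`.
-/

set_option autoImplicit false

open IsDedekindDomain

namespace Fermat.Agent.S37L

universe u

section Step1
variable {R S : Type*} [CommRing R] [CommRing S] [Algebra R S] [IsLocalRing R]
  [Module.Free R S] [Module.Finite R S]

attribute [local instance] Ideal.Quotient.field

theorem esdfc_step1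
    [Module.Finite (R ⧸ IsLocalRing.maximalIdeal R)
      (S ⧸ Ideal.map (algebraMap R S) (IsLocalRing.maximalIdeal R))] (x : S) :
    (LinearMap.charpoly (LinearMap.mulLeft R x)).map
        (Ideal.Quotient.mk (IsLocalRing.maximalIdeal R))
      = LinearMap.charpoly (LinearMap.mulLeft (R ⧸ IsLocalRing.maximalIdeal R)
          (Ideal.Quotient.mk (Ideal.map (algebraMap R S) (IsLocalRing.maximalIdeal R)) x)) := by
  let b : Module.Basis (Module.Free.ChooseBasisIndex R S) R S := Module.Free.chooseBasis R S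
  rw [← LinearMap.charpoly_toMatrix (LinearMap.mulLeft R x) b,
    ← LinearMap.charpoly_toMatrix _ (IsLocalRing.basisQuotient b), ← Matrix.charpoly_map]
  congr 1
  ext i j
  simp only [LinearMap.toMatrix_apply, IsLocalRing.basisQuotient_apply, LinearMap.mulLeft_apply,
    Matrix.map_apply, ← map_mul, IsLocalRing.basisQuotient_repr]
end Step1

section Generic
variable {k A : Type*} [Field k] [CommRing A] [Algebra k A] [Module.Finite k A]

theorem esdfc_nilp (y : A) (c : k) (h : IsNilpotent (y - algebraMap k A c)) :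
    LinearMap.charpoly (LinearMap.mulLeft k y)
      = (Polynomial.X - Polynomial.C c) ^ Module.finrank k A := by
  have h1 : LinearMap.mulLeft k y - c • (1 : Module.End k A)
      = LinearMap.mulLeft k (y - algebraMap k A c) := by
    ext z
    simp [sub_mul, Algebra.smul_def]
  have h2 : IsNilpotent (LinearMap.mulLeft k (y - algebraMap k A c)) := by
    obtain ⟨m, hm⟩ := h
    refine ⟨m, ?_⟩
    rw [LinearMap.pow_mulLeft, hm]
    ext z
    simp
  have h3 := LinearMap.charpoly_sub_smul (LinearMap.mulLeft k y) c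
  rw [h1, h2.charpoly_eq_X_pow_finrank] at h3
  have h4 := congrArg (fun p : Polynomial k => p.comp (Polynomial.X - Polynomial.C c)) h3
  simp only [Polynomial.comp_assoc, Polynomial.X_pow_comp, Polynomial.add_comp, Polynomial.X_comp,
    Polynomial.C_comp, sub_add_cancel, Polynomial.comp_X] at h4
  exact h4.symm

theorem esdfc_congr_ideal (x : A) {I J : Ideal A} (h : I = J) :
    LinearMap.charpoly (LinearMap.mulLeft k (Ideal.Quotient.mk I x))
      = LinearMap.charpoly (LinearMap.mulLeft k (Ideal.Quotient.mk J x)) := by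
  subst h
  rfl

theorem esdfc_crt2 (x : A) (I J : Ideal A) (h : IsCoprime I J) :
    LinearMap.charpoly (LinearMap.mulLeft k (Ideal.Quotient.mk (I ⊓ J) x))
      = LinearMap.charpoly (LinearMap.mulLeft k (Ideal.Quotient.mk I x))
        * LinearMap.charpoly (LinearMap.mulLeft k (Ideal.Quotient.mk J x)) := by
  have hΦ : ∀ a : A, Ideal.quotientInfEquivQuotientProd I J h (Ideal.Quotient.mk _ a)
      = (Ideal.Quotient.mk I a, Ideal.Quotient.mk J a) := fun a => rfl
  let Φ : (A ⧸ I ⊓ J) ≃ₗ[k] (A ⧸ I) × (A ⧸ J) :=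
    { Ideal.quotientInfEquivQuotientProd I J h with
      map_smul' := by
        intro c y
        obtain ⟨y, rfl⟩ := Ideal.Quotient.mk_surjective y
        simp only [RingHom.id_apply]
        rfl }
  have hconj : Φ.conj (LinearMap.mulLeft k (Ideal.Quotient.mk (I ⊓ J) x))
      = (LinearMap.mulLeft k (Ideal.Quotient.mk I x)).prodMap
          (LinearMap.mulLeft k (Ideal.Quotient.mk J x)) := by
    apply LinearMap.ext
    intro y
    obtain ⟨z, rfl⟩ := Φ.surjective y
    obtain ⟨z, rfl⟩ := Ideal.Quotient.mk_surjective z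
    rw [LinearEquiv.conj_apply_apply, LinearEquiv.symm_apply_apply]
    change Ideal.quotientInfEquivQuotientProd I J h (Ideal.Quotient.mk _ x * Ideal.Quotient.mk _ z)
      = _
    rw [← map_mul, hΦ]
    rfl
  rw [← Φ.charpoly_conj, hconj, LinearMap.charpoly_prodMap]

theorem esdfc_crt {ι : Type*} (x : A) (Q : ι → Ideal A) (s : Finset ι)
    (hQ : ∀ i ∈ s, ∀ j ∈ s, i ≠ j → IsCoprime (Q i) (Q j)) :
    LinearMap.charpoly (LinearMap.mulLeft k (Ideal.Quotient.mk (⨅ i ∈ s, Q i) x))
      = ∏ i ∈ s, LinearMap.charpoly (LinearMap.mulLeft k (Ideal.Quotient.mk (Q i) x)) := by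
  classical
  induction s using Finset.induction_on with
  | empty =>
    have htop : (⨅ i ∈ (∅ : Finset ι), Q i) = ⊤ := by simp
    rw [esdfc_congr_ideal x htop, Finset.prod_empty]
    have hsub : Subsingleton (A ⧸ (⊤ : Ideal A)) := Ideal.Quotient.subsingleton_iff.mpr rfl
    have hm := LinearMap.charpoly_monic
      (LinearMap.mulLeft k (Ideal.Quotient.mk (⊤ : Ideal A) x))
    have hd := LinearMap.charpoly_natDegree
      (LinearMap.mulLeft k (Ideal.Quotient.mk (⊤ : Ideal A) x))
    rw [Module.finrank_zero_of_subsingleton] at hd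
    exact hm.natDegree_eq_zero.mp hd
  | insert j s hj ih =>
    have hinf : (⨅ i ∈ insert j s, Q i) = Q j ⊓ ⨅ i ∈ s, Q i := Finset.iInf_insert _ _ _
    have hcop : IsCoprime (Q j) (⨅ i ∈ s, Q i) :=
      Ideal.isCoprime_biInf fun i hi => hQ j (Finset.mem_insert_self j s) i
        (Finset.mem_insert_of_mem hi) (fun h => hj (h ▸ hi))
    rw [esdfc_congr_ideal x hinf, esdfc_crt2 x _ _ hcop, Finset.prod_insert hj,
      ih fun i hi l hl => hQ i (Finset.mem_insert_of_mem hi) l (Finset.mem_insert_of_mem hl)]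

end Generic

theorem esdfc_finrank {k S : Type*} [Field k] [CommRing S] [IsDedekindDomain S] (P : Ideal S)
    [hPp : P.IsPrime] (hP : P ≠ ⊥) (e : ℕ) :
    ∀ (B : Type u) [CommRing B] [Algebra k B] [Module.Finite k B] (g : S →+* B),
      Function.Surjective g → (∀ z, g z = 0 ↔ z ∈ P ^ e) →
      (∀ s : S, ∃ c : k, ∃ z ∈ P, g s = algebraMap k B c + g z) → Module.finrank k B = e := by
  induction e with
  | zero =>
    intro B _ _ _ g _ hker _
    have h0 : g 1 = 0 := (hker 1).mpr (by simp)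
    have h1 : (0 : B) = 1 := by rw [← h0, map_one]
    have : Subsingleton B := subsingleton_of_zero_eq_one h1
    exact Module.finrank_zero_of_subsingleton (R := k) (M := B)
  | succ e ih =>
    intro B _ _ _ g hg hker hres
    let J : Ideal B := Ideal.map g (P ^ e)
    have hJ : ∀ z : S, g z ∈ J ↔ z ∈ P ^ e := by
      intro z
      constructor
      · intro hz
        obtain ⟨w, hw, hwz⟩ := (Ideal.mem_map_iff_of_surjective g hg).mp hz
        have h0 : g (z - w) = 0 := by rw [map_sub, hwz, sub_self]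
        have h1 : z - w ∈ P ^ e := Ideal.pow_le_pow_right (Nat.le_succ e) ((hker _).mp h0)
        have h2 := Ideal.add_mem _ h1 hw
        rwa [sub_add_cancel] at h2
      · exact fun hz => Ideal.mem_map_of_mem g hz
    have hquot : Module.finrank k (B ⧸ J) = e := by
      refine ih (B ⧸ J) ((Ideal.Quotient.mk J).comp g)
        ((Ideal.Quotient.mk_surjective).comp hg) ?_ ?_
      · intro z
        rw [RingHom.comp_apply, Ideal.Quotient.eq_zero_iff_mem]
        exact hJ z
      · intro s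
        obtain ⟨c, z, hz, hs⟩ := hres s
        refine ⟨c, z, hz, ?_⟩
        rw [RingHom.comp_apply, hs, map_add]
        rfl
    -- the ideal `J` is a line
    obtain ⟨c₀, hc₀, hc₀'⟩ := Ideal.exists_mem_pow_notMem_pow_succ P hP hPp.ne_top e
    have hline : Module.finrank k (J.restrictScalars k) = 1 := by
      have hv : (⟨g c₀, (hJ c₀).mpr hc₀⟩ : J.restrictScalars k) ≠ 0 := by
        intro h
        have h' : g c₀ = 0 := congrArg Subtype.val h
        exact hc₀' ((hker _).mp h')
      rw [finrank_eq_one_iff_of_nonzero' _ hv]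
      rintro ⟨w, hw⟩
      obtain ⟨z, hz, rfl⟩ := (Ideal.mem_map_iff_of_surjective g hg).mp hw
      obtain ⟨d, e', he', hde⟩ := Ideal.exists_mul_add_mem_pow_succ hP c₀ z hc₀ hc₀' hz
      obtain ⟨r, y, hy, hd⟩ := hres d
      refine ⟨r, Subtype.ext ?_⟩
      have h1 : g e' = 0 := (hker _).mpr he'
      have h2 : g (c₀ * y) = 0 := by
        rw [hker, pow_succ]
        exact Ideal.mul_mem_mul hc₀ hy
      change r • g c₀ = g z
      rw [← hde, map_add, map_mul, h1, add_zero, hd, mul_add, ← map_mul, h2, add_zero,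
        Algebra.smul_def, mul_comm]
    have hsum := Submodule.finrank_quotient_add_finrank (J.restrictScalars k)
    rw [hline, (Submodule.Quotient.restrictScalarsEquiv k J).finrank_eq, hquot] at hsum
    exact hsum.symm


section Generic2
variable {k A : Type*} [Field k] [CommRing A] [Algebra k A] [Module.Finite k A]

theorem esdfc_bot (x : A) :
    LinearMap.charpoly (LinearMap.mulLeft k (Ideal.Quotient.mk (⊥ : Ideal A) x))
      = LinearMap.charpoly (LinearMap.mulLeft k x) := by
  have hconj : (AlgEquiv.quotientBot k A).toLinearEquiv.conj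
      (LinearMap.mulLeft k (Ideal.Quotient.mk (⊥ : Ideal A) x)) = LinearMap.mulLeft k x := by
    apply LinearMap.ext
    intro y
    obtain ⟨z, rfl⟩ := (AlgEquiv.quotientBot k A).toLinearEquiv.surjective y
    obtain ⟨z, rfl⟩ := Ideal.Quotient.mk_surjective z
    rw [LinearEquiv.conj_apply_apply, LinearEquiv.symm_apply_apply]
    rfl
  rw [← hconj, LinearEquiv.charpoly_conj]

end Generic2

section Main

attribute [local instance] Ideal.Quotient.field

theorem esdfc_main (R S : Type*) [CommRing R] [IsDomain R] [IsDiscreteValuationRing R]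
    [CommRing S] [IsDedekindDomain S] [Algebra R S] [Module.Finite R S] [Module.Free R S]
    (hinj : Function.Injective (algebraMap R S)) [Fintype (HeightOneSpectrum S)]
    (ϖ : R) (hϖ : Irreducible ϖ) (e : HeightOneSpectrum S → ℕ)
    (he : ∀ 𝔓 : HeightOneSpectrum S, algebraMap R S ϖ ∈ 𝔓.asIdeal ^ e 𝔓 ∧
      algebraMap R S ϖ ∉ 𝔓.asIdeal ^ (e 𝔓 + 1))
    (hres : ∀ (𝔓 : HeightOneSpectrum S) (s : S), ∃ r : R, s - algebraMap R S r ∈ 𝔓.asIdeal)
    (x : S) (a : HeightOneSpectrum S → R)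
    (ha : ∀ 𝔓 : HeightOneSpectrum S, x - algebraMap R S (a 𝔓) ∈ 𝔓.asIdeal) :
    (LinearMap.charpoly (LinearMap.mulLeft R x)).map
        (Ideal.Quotient.mk (IsLocalRing.maximalIdeal R))
      = ∏ 𝔓 : HeightOneSpectrum S,
          (Polynomial.X - Polynomial.C (Ideal.Quotient.mk (IsLocalRing.maximalIdeal R) (a 𝔓)))
            ^ e 𝔓 := by
  classical
  have hfin : Module.Finite (R ⧸ IsLocalRing.maximalIdeal R)
      (S ⧸ Ideal.map (algebraMap R S) (IsLocalRing.maximalIdeal R)) :=
    Module.Finite.of_restrictScalars_finite R _ _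
  rw [esdfc_step1]
  -- notation
  set pS : Ideal S := Ideal.map (algebraMap R S) (IsLocalRing.maximalIdeal R) with hpS_def
  have hpS : pS = Ideal.span {algebraMap R S ϖ} := by
    rw [hpS_def, hϖ.maximalIdeal_eq, Ideal.map_span, Set.image_singleton]
  have hϖS : algebraMap R S ϖ ≠ 0 := fun h =>
    hϖ.ne_zero (hinj (by rw [h, map_zero]))
  have hspan0 : Ideal.span {algebraMap R S ϖ} ≠ 0 := by
    rw [Ne, Ideal.zero_eq_bot, Ideal.span_singleton_eq_bot]
    exact hϖS
  -- the factorisation of `ϖ S`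
  have hprod : ∏ 𝔓 : HeightOneSpectrum S, 𝔓.asIdeal ^ e 𝔓 = pS := by
    rw [hpS]
    conv_rhs => rw [← Ideal.finprod_heightOneSpectrum_factorization hspan0]
    rw [finprod_eq_prod_of_fintype]
    refine Finset.prod_congr rfl fun 𝔓 _ => ?_
    rw [HeightOneSpectrum.maxPowDividing_eq_pow_multiset_count 𝔓 hspan0]
    have := 𝔓.isPrime
    rw [Ideal.count_normalizedFactors_eq
      ((Ideal.span_singleton_le_iff_mem _).mpr (he 𝔓).1)
      (fun h => (he 𝔓).2 ((Ideal.span_singleton_le_iff_mem _).mp h))]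
  have hinfS : ∀ z : S, (∀ 𝔓 : HeightOneSpectrum S, z ∈ 𝔓.asIdeal ^ e 𝔓) → z ∈ pS := by
    intro z hz
    have hip : (Finset.univ.inf fun 𝔓 : HeightOneSpectrum S => 𝔓.asIdeal ^ e 𝔓)
        = ∏ 𝔓 : HeightOneSpectrum S, 𝔓.asIdeal ^ e 𝔓 :=
      HeightOneSpectrum.inf_pow_eq_prod Finset.univ e (fun 𝔓 => 𝔓) (fun i _ j _ hij => hij)
    rw [← hprod, ← hip, Finset.inf_eq_iInf]
    simp only [Finset.mem_univ, iInf_pos, Submodule.mem_iInf]
    exact hz
  set Q : HeightOneSpectrum S → Ideal (S ⧸ pS) := fun 𝔓 =>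
    Ideal.map (Ideal.Quotient.mk pS) (𝔓.asIdeal ^ e 𝔓) with hQ_def
  have hQmem : ∀ (𝔓 : HeightOneSpectrum S) (z : S),
      Ideal.Quotient.mk pS z ∈ Q 𝔓 ↔ z ∈ 𝔓.asIdeal ^ e 𝔓 := by
    intro 𝔓 z
    constructor
    · intro hz
      obtain ⟨w, hw, hwz⟩ :=
        (Ideal.mem_map_iff_of_surjective _ Ideal.Quotient.mk_surjective).mp hz
      have h1 : z - w ∈ pS := by
        rw [← Ideal.Quotient.eq_zero_iff_mem, map_sub, hwz, sub_self]
      have h2 : z - w ∈ 𝔓.asIdeal ^ e 𝔓 := by
        rw [hpS] at h1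
        exact (Ideal.span_singleton_le_iff_mem _).mpr (he 𝔓).1 h1
      have h3 := Ideal.add_mem _ h2 hw
      rwa [sub_add_cancel] at h3
    · exact fun hz => Ideal.mem_map_of_mem _ hz
  have hinf : (⨅ 𝔓 ∈ (Finset.univ : Finset (HeightOneSpectrum S)), Q 𝔓) = ⊥ := by
    rw [eq_bot_iff]
    intro y hy
    obtain ⟨z, rfl⟩ := Ideal.Quotient.mk_surjective y
    simp only [Finset.mem_univ, iInf_pos, Submodule.mem_iInf] at hy
    rw [Ideal.mem_bot, Ideal.Quotient.eq_zero_iff_mem]
    exact hinfS z fun 𝔓 => (hQmem 𝔓 z).mp (hy 𝔓)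
  have hcop : ∀ i ∈ (Finset.univ : Finset (HeightOneSpectrum S)), ∀ j ∈ Finset.univ, i ≠ j →
      IsCoprime (Q i) (Q j) := by
    intro i _ j _ hij
    have h := HeightOneSpectrum.isCoprime_pow_of_ne i j hij (e i) (e j)
    rw [Ideal.isCoprime_iff_sup_eq] at h ⊢
    rw [hQ_def]
    simp only
    rw [← Ideal.map_sup, h, Ideal.map_top]
  rw [← esdfc_bot, esdfc_congr_ideal _ hinf.symm, esdfc_crt _ Q Finset.univ hcop]
  refine Finset.prod_congr rfl fun 𝔓 _ => ?_
  have := 𝔓.isPrime
  have hnil : IsNilpotent (Ideal.Quotient.mk (Q 𝔓) (Ideal.Quotient.mk pS x)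
      - algebraMap (R ⧸ IsLocalRing.maximalIdeal R) ((S ⧸ pS) ⧸ Q 𝔓)
          (Ideal.Quotient.mk (IsLocalRing.maximalIdeal R) (a 𝔓))) := by
    refine ⟨e 𝔓, ?_⟩
    have h1 : Ideal.Quotient.mk (Q 𝔓) (Ideal.Quotient.mk pS x)
        - algebraMap (R ⧸ IsLocalRing.maximalIdeal R) ((S ⧸ pS) ⧸ Q 𝔓)
            (Ideal.Quotient.mk (IsLocalRing.maximalIdeal R) (a 𝔓))
        = Ideal.Quotient.mk (Q 𝔓) (Ideal.Quotient.mk pS (x - algebraMap R S (a 𝔓))) := by
      rw [map_sub, map_sub]
      rfl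
    rw [h1, ← map_pow, ← map_pow, Ideal.Quotient.eq_zero_iff_mem, hQmem]
    exact Ideal.pow_mem_pow (ha 𝔓) _
  rw [esdfc_nilp _ _ hnil]
  congr 1
  refine esdfc_finrank 𝔓.asIdeal 𝔓.ne_bot (e 𝔓) _
    ((Ideal.Quotient.mk (Q 𝔓)).comp (Ideal.Quotient.mk pS))
    (Ideal.Quotient.mk_surjective.comp Ideal.Quotient.mk_surjective) ?_ ?_
  · intro z
    rw [RingHom.comp_apply, Ideal.Quotient.eq_zero_iff_mem]
    exact hQmem 𝔓 z
  · intro s
    obtain ⟨r, hr⟩ := hres 𝔓 s
    refine ⟨Ideal.Quotient.mk _ r, s - algebraMap R S r, hr, ?_⟩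
    have h1 : algebraMap (R ⧸ IsLocalRing.maximalIdeal R) ((S ⧸ pS) ⧸ Q 𝔓)
        (Ideal.Quotient.mk (IsLocalRing.maximalIdeal R) r)
        = ((Ideal.Quotient.mk (Q 𝔓)).comp (Ideal.Quotient.mk pS)) (algebraMap R S r) := rfl
    rw [h1, ← map_add, add_sub_cancel]

end Main

theorem esdfc_charpoly_map (R S : Type*) [CommRing R] [IsDomain R] [IsDiscreteValuationRing R]
    [CommRing S] [IsDedekindDomain S] [Algebra R S] [Module.Finite R S] [Module.Free R S]
    (hinj : Function.Injective (algebraMap R S)) [Fintype (HeightOneSpectrum S)]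
    (ϖ : R) (hϖ : Irreducible ϖ) (e : HeightOneSpectrum S → ℕ)
    (he : ∀ 𝔓 : HeightOneSpectrum S, algebraMap R S ϖ ∈ 𝔓.asIdeal ^ e 𝔓 ∧
      algebraMap R S ϖ ∉ 𝔓.asIdeal ^ (e 𝔓 + 1))
    (hres : ∀ (𝔓 : HeightOneSpectrum S) (s : S), ∃ r : R, s - algebraMap R S r ∈ 𝔓.asIdeal)
    (x : S) (a : HeightOneSpectrum S → R)
    (ha : ∀ 𝔓 : HeightOneSpectrum S, x - algebraMap R S (a 𝔓) ∈ 𝔓.asIdeal) :
    (LinearMap.charpoly (LinearMap.mulLeft R x)).map (IsLocalRing.residue R)
      = ∏ 𝔓 : HeightOneSpectrum S,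
          (Polynomial.X - Polynomial.C (IsLocalRing.residue R (a 𝔓))) ^ e 𝔓 := by
  exact esdfc_main R S hinj ϖ hϖ e he hres x a ha

end Fermat.Agent.S37L
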