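import Mathlib
import Fermat.Prelude.Def_ModularCurve_HeckeOperatorTotal
import Fermat.Agent.S18L.AsmBar

/-!
# S37, block D (helper6): definitions

* `EsdFF K F`: `F / K` is a function field of one variable in the sense used by the curve
  library (`halg`, `hfin`, `hconst` are exactly the inputs of `curveOfPlaces`);
* `esdCharpoly`: the characteristic polynomial of an element of a finite extension `F' / F`
  (algebra structure on the left), and its `Along` form for an embedding `φ : F →ₐ[K] F'`.
-/

set_option autoImplicit false

open AlgebraicCurve
open scoped IntermediateField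

namespace Fermat.Agent.S37L

/-- `F / K` is a function field of one variable: algebraic over `K(u)` for non-constant `u`,
finitely many zeros and poles, no non-constant function without poles. -/
structure EsdFF (K F : Type*) [Field K] [Field F] [Algebra K F] : Prop where
  halg : ∀ u : F, (∀ c : K, u ≠ algebraMap K F c) → Algebra.IsAlgebraic K⟮u⟯ F
  hfin : ∀ x : F, x ≠ 0 → {Q : Place K F | Q.ord x ≠ 0}.Finite
  hconst : ∀ x : F, x ≠ 0 → (∀ Q : Place K F, 0 ≤ Q.ord x) → ∃ c : K, x = algebraMap K F c

/-- the function field of `X₀(M)` over `ℚ̄` -/
theorem esd_ff_bar (M : ℕ) [NeZero M] :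
    EsdFF (AlgebraicClosure ℚ) ↥(ModularCurve.modularFunctionFieldBar M) :=
  ⟨Fermat.Agent.S18L.halg_bar M, Fermat.Agent.S18L.finite_support_bar M,
    Fermat.Agent.S18L.const_of_nonneg_bar M⟩

section

variable {K F F' : Type*} [Field K] [Field F] [Field F'] [Algebra K F] [Algebra K F']

/-- the characteristic polynomial of (multiplication by) `x ∈ F'` over `F` -/
noncomputable def esdCharpoly (F : Type*) {F' : Type*} [Field F] [Field F'] [Algebra F F']
    [Module.Finite F F'] (x : F') : Polynomial F :=
  LinearMap.charpoly (LinearMap.mulLeft F x)

/-- the characteristic polynomial of `x ∈ F'` over `F`, for the algebra structure along `φ` -/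
noncomputable def esdCharpolyAlong (φ : F →ₐ[K] F') (hfin : FiniteAlong K φ) (x : F') :
    Polynomial F :=
  letI := algebraAlong φ
  haveI : Module.Finite F F' := hfin
  esdCharpoly F x

end

end Fermat.Agent.S37L
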