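import Mathlib
import Fermat.Agent.S37L.EsdDefs

/-!
# S37, block D (helper6), leaf ONE: degree one, principal divisors, inertia degree one
-/

set_option autoImplicit false

open AlgebraicCurve
open scoped IntermediateField

namespace Fermat.Agent.S37L

section one

variable {K F : Type*} [Field K] [Field F] [Algebra K F]

/-- every place has degree one -/
theorem esd_deg_eq_one [IsAlgClosed K] (h : EsdFF K F) (v : Place K F) : v.deg = 1 := by
  exact Fermat.Agent.X0S24.PlaceRes.deg_eq_one h.halg v

/-- principal divisors exist and have degree zero -/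
theorem esd_hasPrincipalDivisors [IsAlgClosed K] (h : EsdFF K F) : HasPrincipalDivisors K F := by
  refine ⟨fun f hf => ?_⟩
  have hfs : (Function.support fun v : Place K F => v.ord f).Finite := h.hfin f hf
  refine ⟨Finsupp.ofSupportFinite (fun v => v.ord f) hfs, fun v => rfl, ?_⟩
  have hsum := (Fermat.Agent.S18L.curveOfPlaces h.halg h.hfin h.hconst).finsum_ord_eq_zero hf
  have hsum' : ∑ᶠ v : Place K F, v.ord f = 0 := hsum
  rw [finsum_eq_sum _ hfs] at hsum'
  rw [Divisor.degree, Finsupp.liftAddHom_apply, Finsupp.sum]
  have hsupp : (Finsupp.ofSupportFinite (fun v : Place K F => v.ord f) hfs).support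
      = hfs.toFinset := by
    ext v
    simp [Finsupp.ofSupportFinite]
  rw [hsupp, ← hsum']
  apply Finset.sum_congr rfl
  intro v _
  rw [AddMonoidHom.coe_mulRight, esd_deg_eq_one h v, Nat.cast_one]
  exact mul_one _

end one

section two

variable {K F F' : Type*} [Field K] [Field F] [Field F'] [Algebra K F] [Algebra K F']
  [Algebra F F'] [IsScalarTower K F F'] [Algebra.IsIntegral F F'] [HasPrincipalDivisors K F']

/-- all inertia degrees are one -/
theorem esd_inertiaDeg_eq_one [IsAlgClosed K] (h : EsdFF K F) (h' : EsdFF K F')
    (w : Place K F') : w.inertiaDeg F = 1 := by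
  have h1 := w.deg_restrict_mul_inertiaDeg (F := F)
  rw [esd_deg_eq_one h, esd_deg_eq_one h', one_mul] at h1
  exact h1

end two

end Fermat.Agent.S37L
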