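import Mathlib
import Fermat.Agent.S37L.EsdOne
import Fermat.Agent.S18L.CrvDDFin
import Fermat.Agent.S18L.CrvDDBij
import Fermat.Agent.S18L.CrvDDOrd

/-!
# S37, block D (helper6), leaf LOC-A: the local dictionary above a place

Abstract setting: `R` is a discrete valuation ring with fraction field `F` whose image in `F` is
the valuation ring of the place `P`; `S` is the integral closure of `R` in the finite extension
`F' / F` (a Dedekind domain with fraction field `F'`).  Then the places of `F'` above `P` are
exactly the places `ddPlace S 𝔓` of the height-one primes `𝔓` of `S` (these are the prime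
factors of `𝔪_R S`); the ramification index is the order of a uniformizer of `R`, and all
residue fields are `K`.
-/

set_option autoImplicit false

open AlgebraicCurve IsDedekindDomain
open scoped IntermediateField

namespace Fermat.Agent.S37L

open Fermat.Agent.S18L

variable {K F F' : Type*} [Field K] [Field F] [Field F'] [Algebra K F] [Algebra K F']
  [Algebra F F'] [IsScalarTower K F F'] [Algebra.IsIntegral F F'] [HasPrincipalDivisors K F']
  [Module.Finite F F']
variable (R S : Type*) [CommRing R] [IsDomain R] [IsDiscreteValuationRing R]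
  [Algebra R F] [IsFractionRing R F]
  [CommRing S] [IsDedekindDomain S] [Algebra S F'] [IsFractionRing S F']
  [Algebra R S] [Algebra R F'] [IsScalarTower R F F'] [IsScalarTower R S F']
  [IsIntegralClosure S R F']
  [Algebra K R] [IsScalarTower K R F] [Algebra K S] [IsScalarTower K S F']
variable (P : Place K F)

/-- elements of `R` lie in the valuation ring of every place above `P` -/
theorem esdla_algebraMap_mem
    (hP : ∀ x : F, x ∈ P.toValuationSubring ↔ ∃ r : R, algebraMap R F r = x)
    (w : Place K F') (hw : w.restrict F = P) (r : R) :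
    algebraMap R F' r ∈ w.toValuationSubring := by
  have h1 : algebraMap R F r ∈ (w.restrict F).toValuationSubring := by
    rw [hw]; exact (hP _).mpr ⟨r, rfl⟩
  rw [Place.mem_restrict_iff, ← IsScalarTower.algebraMap_apply] at h1
  exact h1

/-- DL1: the place of a height-one prime of `S` lies above `P` -/
theorem esdl_restrict
    (hP : ∀ x : F, x ∈ P.toValuationSubring ↔ ∃ r : R, algebraMap R F r = x)
    (𝔓 : HeightOneSpectrum S) : (ddPlace (k := K) (L := F') S 𝔓).restrict F = P := by
  by_contra hne
  obtain ⟨u, hu, hu'⟩ := Fermat.Agent.X0S24.PlacePoint.exists_mem_not_mem (Ne.symm hne)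
  obtain ⟨r, rfl⟩ := (hP u).mp hu
  apply hu'
  rw [Place.mem_restrict_iff, ← IsScalarTower.algebraMap_apply,
    IsScalarTower.algebraMap_apply R S F']
  exact ddPlace_mem (k := K) S 𝔓 _

/-- DL2: every place above `P` is the place of a height-one prime of `S` -/
theorem esdl_surj
    (hP : ∀ x : F, x ∈ P.toValuationSubring ↔ ∃ r : R, algebraMap R F r = x)
    (w : Place K F') (hw : w.restrict F = P) :
    ∃ 𝔓 : HeightOneSpectrum S, ddPlace (k := K) (L := F') S 𝔓 = w := by
  refine ddPlace_surj (k := K) S w fun s => ?_
  have hR : ∀ r : R, algebraMap R F' r ∈ w.toValuationSubring :=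
    esdla_algebraMap_mem R P hP w hw
  let _ : Algebra R w.toValuationSubring :=
    ((algebraMap R F').codRestrict w.toValuationSubring.toSubring hR).toAlgebra
  have : IsScalarTower R w.toValuationSubring F' :=
    IsScalarTower.of_algebraMap_eq fun r => rfl
  have hs : IsIntegral R (algebraMap S F' s) :=
    (IsIntegralClosure.isIntegral R F' s).algebraMap
  have hx : IsIntegral w.toValuationSubring (algebraMap S F' s) := hs.tower_top
  obtain ⟨y, hy⟩ := IsIntegrallyClosed.isIntegral_iff.mp hx
  exact hy ▸ y.2

/-- a uniformizer of `R` has order one at `P` -/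
theorem esdla_ord_uniformizer
    (hP : ∀ x : F, x ∈ P.toValuationSubring ↔ ∃ r : R, algebraMap R F r = x)
    (ϖ : R) (hϖ : Irreducible ϖ) : P.ord (algebraMap R F ϖ) = 1 := by
  let φ : R →+* P.toValuationSubring :=
    (algebraMap R F).codRestrict P.toValuationSubring.toSubring fun r => (hP _).mpr ⟨r, rfl⟩
  have hbij : Function.Bijective φ := by
    constructor
    · intro a b hab
      exact IsFractionRing.injective R F (congrArg Subtype.val hab)
    · rintro ⟨x, hx⟩
      obtain ⟨r, hr⟩ := (hP x).mp hx
      exact ⟨r, Subtype.ext hr⟩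
  let e : R ≃+* P.toValuationSubring := RingEquiv.ofBijective φ hbij
  have hirr : Irreducible (e ϖ) := (MulEquiv.irreducible_iff e.toMulEquiv).mpr hϖ
  exact P.ord_coe_irreducible hirr

/-- DL3: the ramification index is the order of a uniformizer of `R` -/
theorem esdl_ramificationIndex
    (hP : ∀ x : F, x ∈ P.toValuationSubring ↔ ∃ r : R, algebraMap R F r = x)
    (𝔓 : HeightOneSpectrum S) (ϖ : R) (hϖ : Irreducible ϖ) :
    (((ddPlace (k := K) (L := F') S 𝔓).ramificationIndex F : ℕ) : ℤ)
      = (ddPlace (k := K) (L := F') S 𝔓).ord (algebraMap R F' ϖ) := by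
  rw [IsScalarTower.algebraMap_apply R F F', Place.ord_restrict, esdl_restrict R S P hP 𝔓,
    esdla_ord_uniformizer R P hP ϖ hϖ, mul_one]

/-- DL4: the residue field of `S` at every height-one prime is `K` -/
theorem esdl_residue [IsAlgClosed K] (h' : EsdFF K F') (𝔓 : HeightOneSpectrum S) (s : S) :
    ∃ c : K, s - algebraMap K S c ∈ 𝔓.asIdeal := by
  have hinj : Function.Injective (algebraMap S F') := IsFractionRing.injective S F'
  rcases eq_or_ne s 0 with rfl | hs
  · exact ⟨0, by simp⟩
  have hx : algebraMap S F' s ≠ 0 := by
    rw [Ne, map_eq_zero_iff _ hinj]; exact hs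
  have h0 : 0 ≤ (ddPlace (k := K) (L := F') S 𝔓).ord (algebraMap S F' s) :=
    (Fermat.Agent.X0S24.PlaceRes.mem_iff_ord_nonneg _ hx).mp (ddPlace_mem (k := K) S 𝔓 s)
  obtain ⟨c, hc⟩ := Fermat.Agent.X0S24.PlaceRes.exists_residue h'.halg
    (ddPlace (k := K) (L := F') S 𝔓) hx h0
  refine ⟨c, ?_⟩
  have hcast : algebraMap S F' s - algebraMap K F' c
      = algebraMap S F' (s - algebraMap K S c) := by
    rw [map_sub, ← IsScalarTower.algebraMap_apply]
  by_cases hz : s - algebraMap K S c = 0
  · rw [hz]; exact zero_mem _
  rcases hc with hc | hc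
  · exfalso
    apply hz
    apply hinj
    rw [← hcast, hc, sub_self, map_zero]
  · rw [hcast] at hc
    exact (ddPlace_ord_pos_iff (k := K) S 𝔓 _ hz).mp hc

variable (F') in
include F' in
/-- DL5: there are finitely many height-one primes of `S` (the field `F'` is an explicit
argument: the statement itself does not mention it) -/
theorem esdl_finite
    (hP : ∀ x : F, x ∈ P.toValuationSubring ↔ ∃ r : R, algebraMap R F r = x) :
    Finite (HeightOneSpectrum S) := by
  let f : HeightOneSpectrum S → ↥(P.fiber F') := fun 𝔓 =>
    ⟨ddPlace (k := K) (L := F') S 𝔓, Place.mem_fiber.mpr (esdl_restrict R S P hP 𝔓)⟩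
  have hf : Function.Injective f := by
    intro a b hab
    exact ddPlace_injective (k := K) (L := F') S (congrArg Subtype.val hab)
  exact Finite.of_injective f hf

end Fermat.Agent.S37L
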