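import Mathlib
import Fermat.Agent.S37L.EsdLocA
import Fermat.Agent.S37L.EsdFibCore

/-!
# S37, block D (helper6), leaf LOC-FIB: the fibre polynomial above `P`

Abstract local setting of `EsdLocA`: `R` a discrete valuation ring with fraction field `F` whose
image in `F` is the valuation ring of the place `P`, `S` its integral closure in the finite
extension `F' / F`.
-/

set_option autoImplicit false

open AlgebraicCurve IsDedekindDomain
open scoped IntermediateField

namespace Fermat.Agent.S37L

open Fermat.Agent.S18L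

variable {K F F' : Type*} [Field K] [Field F] [Field F'] [Algebra K F] [Algebra K F']
  [Algebra F F'] [IsScalarTower K F F'] [Algebra.IsIntegral F F'] [HasPrincipalDivisors K F']
  [Module.Finite F F']
variable (R S : Type*) [CommRing R] [IsDomain R] [IsDiscreteValuationRing R]
  [Algebra R F] [IsFractionRing R F]
  [CommRing S] [IsDedekindDomain S] [Algebra S F'] [IsFractionRing S F']
  [Algebra R S] [Algebra R F'] [IsScalarTower R F F'] [IsScalarTower R S F']
  [IsIntegralClosure S R F']
  [Algebra K R] [IsScalarTower K R F] [Algebra K S] [IsScalarTower K S F']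
variable (P : Place K F)

/-! ### glue with places -/

section Glue

open Polynomial IsLocalRing

include S in
/-- L3: an element without poles above `P` lies in `S` -/
theorem esdlf_mem (hP : ∀ x : F, x ∈ P.toValuationSubring ↔ ∃ r : R, algebraMap R F r = x)
    (x : F') (hx : ∀ w ∈ P.fiber F', 0 ≤ w.ord x) : ∃ s : S, algebraMap S F' s = x := by
  apply dd_mem_of_ord_nonneg (k := K) S x
  intro 𝔓
  exact hx _ (Place.mem_fiber.mpr (esdl_restrict R S P hP 𝔓))

include F F' in
/-- L4: `S` is a finite free faithful `R`-module -/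
theorem esdlf_free [CharZero K] :
    Module.Finite R S ∧ Module.Free R S ∧ FaithfulSMul R S := by
  have hcz : CharZero F := charZero_of_injective_algebraMap (algebraMap K F).injective
  have hsep : Algebra.IsSeparable F F' := inferInstance
  have hfin : Module.Finite R S := IsIntegralClosure.finite R F F' S
  have hinj' : Function.Injective (algebraMap R F') := by
    rw [IsScalarTower.algebraMap_eq R F F']
    exact (algebraMap F F').injective.comp (IsFractionRing.injective R F)
  have hinj : Function.Injective (algebraMap R S) := by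
    rw [IsScalarTower.algebraMap_eq R S F'] at hinj'
    exact Function.Injective.of_comp hinj'
  have hfaith : FaithfulSMul R S := (faithfulSMul_iff_algebraMap_injective R S).mpr hinj
  have hfaith' : FaithfulSMul R F' := (faithfulSMul_iff_algebraMap_injective R F').mpr hinj'
  have hfree : Module.Free R S := IsIntegralClosure.module_free R F F' S
  exact ⟨hfin, hfree, hfaith⟩

/-- L5: the characteristic polynomial over `F` comes from the one over `R` -/
theorem esdlf_charpoly_map [Module.Finite R S] [Module.Free R S] (s : S) :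
    esdCharpoly F (algebraMap S F' s)
      = (LinearMap.charpoly (LinearMap.mulLeft R s)).map (algebraMap R F) := by
  classical
  have hloc : IsLocalization (Algebra.algebraMapSubmonoid S (nonZeroDivisors R)) F' :=
    IsIntegralClosure.isLocalization R F F' S
  let b := Module.Free.chooseBasis R S
  let bF := b.localizationLocalization F (nonZeroDivisors R) F'
  have h1 := Algebra.map_leftMulMatrix_localization R (Rₘ := F) (Sₘ := F') (nonZeroDivisors R) b s
  unfold esdCharpoly
  rw [← LinearMap.charpoly_toMatrix (LinearMap.mulLeft F (algebraMap S F' s)) bF,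
    ← LinearMap.charpoly_toMatrix (LinearMap.mulLeft R s) b, Algebra.toMatrix_lmul_eq,
    Algebra.toMatrix_lmul_eq, ← h1, RingHom.mapMatrix_apply, Matrix.charpoly_map]

/-- L6: the residue homomorphism `R → K` at `P` -/
theorem esdlf_residue_hom [IsAlgClosed K] (h : EsdFF K F)
    (hP : ∀ x : F, x ∈ P.toValuationSubring ↔ ∃ r : R, algebraMap R F r = x) :
    ∃ ρ : R →+* K, (∀ c : K, ρ (algebraMap K R c) = c) ∧
      (∀ r : R, ρ r = 0 ↔ r ∈ maximalIdeal R) ∧
      (∀ r : R, r ∈ maximalIdeal R → r ≠ 0 → 0 < P.ord (algebraMap R F r)) := by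
  have hinj : Function.Injective (algebraMap R F) := IsFractionRing.injective R F
  have hne : ∀ r : R, r ≠ 0 → algebraMap R F r ≠ 0 := fun r hr h0 =>
    hr (hinj (by rw [h0, map_zero]))
  have hnonneg : ∀ r : R, r ≠ 0 → 0 ≤ P.ord (algebraMap R F r) := fun r hr =>
    (Fermat.Agent.X0S24.PlaceRes.mem_iff_ord_nonneg P (hne r hr)).mp ((hP _).mpr ⟨r, rfl⟩)
  have hpos : ∀ r : R, r ∈ maximalIdeal R → r ≠ 0 → 0 < P.ord (algebraMap R F r) := by
    intro r hr hr0
    rcases (hnonneg r hr0).lt_or_eq with hlt | heq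
    · exact hlt
    · exfalso
      have hinv : (algebraMap R F r)⁻¹ ∈ P.toValuationSubring := by
        rw [Fermat.Agent.X0S24.PlaceRes.mem_iff_ord_nonneg P (inv_ne_zero (hne r hr0)),
          P.ord_inv, ← heq, neg_zero]
      obtain ⟨r', hr'⟩ := (hP _).mp hinv
      have hmul : r * r' = 1 := by
        apply hinj
        rw [map_mul, hr', map_one, mul_inv_cancel₀ (hne r hr0)]
      exact (IsLocalRing.mem_maximalIdeal r).mp hr (IsUnit.of_mul_eq_one r' hmul)
  have hunit : ∀ r : R, r ∉ maximalIdeal R → P.ord (algebraMap R F r) = 0 := by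
    intro r hr
    have hu : IsUnit r := IsLocalRing.notMem_maximalIdeal.mp hr
    obtain ⟨r', hr'⟩ := hu.exists_right_inv
    have hr0 : r ≠ 0 := hu.ne_zero
    have hr'0 : r' ≠ 0 := by
      rintro rfl
      rw [mul_zero] at hr'
      exact zero_ne_one hr'
    have hsum : P.ord (algebraMap R F r) + P.ord (algebraMap R F r') = 0 := by
      rw [← P.ord_mul (hne r hr0) (hne r' hr'0), ← map_mul, hr', map_one, P.ord_one]
    have h1 := hnonneg r hr0
    have h2 := hnonneg r' hr'0
    omega
  let g : K →+* IsLocalRing.ResidueField R := (IsLocalRing.residue R).comp (algebraMap K R)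
  have hg_surj : Function.Surjective g := by
    intro y
    obtain ⟨r, rfl⟩ := IsLocalRing.residue_surjective y
    by_cases hr0 : r = 0
    · exact ⟨0, by rw [hr0, map_zero, map_zero]⟩
    obtain ⟨c, hc⟩ := Fermat.Agent.X0S24.PlaceRes.exists_residue h.halg P (hne r hr0)
      (hnonneg r hr0)
    refine ⟨c, ?_⟩
    have hmem : r - algebraMap K R c ∈ maximalIdeal R := by
      by_contra hnot
      have h0 := hunit _ hnot
      rw [map_sub, ← IsScalarTower.algebraMap_apply K R F] at h0
      rcases hc with hc | hc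
      · apply hnot
        have h00 : r - algebraMap K R c = 0 := by
          apply hinj
          rw [map_sub, ← IsScalarTower.algebraMap_apply K R F, hc, sub_self, map_zero]
        rw [h00]
        exact zero_mem _
      · omega
    have h5 := (IsLocalRing.residue_eq_zero_iff _).mpr hmem
    rw [map_sub, sub_eq_zero] at h5
    exact h5.symm
  have hg_bij : Function.Bijective g := ⟨g.injective, hg_surj⟩
  let eqv : K ≃+* IsLocalRing.ResidueField R := RingEquiv.ofBijective g hg_bij
  refine ⟨(eqv.symm : IsLocalRing.ResidueField R →+* K).comp (IsLocalRing.residue R), ?_, ?_,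
    hpos⟩
  · intro c
    exact eqv.symm_apply_apply c
  · intro r
    rw [RingHom.comp_apply, RingHom.coe_coe, map_eq_zero_iff _ eqv.symm.injective,
      IsLocalRing.residue_eq_zero_iff]

open scoped Classical in
/-- L7b: the fibre of `P` consists of the places of the height-one primes of `S` -/
theorem esdlf_fiber
    (hP : ∀ x : F, x ∈ P.toValuationSubring ↔ ∃ r : R, algebraMap R F r = x)
    [Fintype (HeightOneSpectrum S)] :
    P.fiber F' = Finset.univ.image
      (fun 𝔓 : HeightOneSpectrum S => ddPlace (k := K) (L := F') S 𝔓) := by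
  ext w
  rw [Place.mem_fiber, Finset.mem_image]
  constructor
  · intro hw
    obtain ⟨𝔓, h𝔓⟩ := esdl_surj R S P hP w hw
    exact ⟨𝔓, Finset.mem_univ _, h𝔓⟩
  · rintro ⟨𝔓, -, rfl⟩
    exact esdl_restrict R S P hP 𝔓

/-- the exact power of `𝔓` containing a uniformizer of `R` is the ramification index -/
theorem esdlf_e (hP : ∀ x : F, x ∈ P.toValuationSubring ↔ ∃ r : R, algebraMap R F r = x)
    (𝔓 : HeightOneSpectrum S) (ϖ : R) (hϖ : Irreducible ϖ) :
    algebraMap R S ϖ ∈ 𝔓.asIdeal ^ ((ddPlace (k := K) (L := F') S 𝔓).ramificationIndex F) ∧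
      algebraMap R S ϖ ∉
        𝔓.asIdeal ^ ((ddPlace (k := K) (L := F') S 𝔓).ramificationIndex F + 1) := by
  have hinj : Function.Injective (algebraMap R F') := by
    rw [IsScalarTower.algebraMap_eq R F F']
    exact (algebraMap F F').injective.comp (IsFractionRing.injective R F)
  have hb : algebraMap R S ϖ ≠ 0 := by
    intro h0
    apply hϖ.ne_zero
    apply hinj
    rw [IsScalarTower.algebraMap_apply R S F', h0, map_zero, map_zero]
  have h3 := esdl_ramificationIndex (F' := F') R S P hP 𝔓 ϖ hϖ
  rw [IsScalarTower.algebraMap_apply R S F'] at h3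
  constructor
  · exact (ddPlace_le_ord_iff (k := K) (L := F') S 𝔓 _ hb _).mp (le_of_eq h3)
  · intro hmem
    have h4 := (ddPlace_le_ord_iff (k := K) (L := F') S 𝔓 _ hb _).mpr hmem
    rw [← h3] at h4
    push_cast at h4
    omega

end Glue

open Polynomial IsLocalRing in
include S in
/-- for `x ∈ F'` without poles above `P`, the characteristic polynomial of `x` over `F` has
coefficients regular at `P` and its value at `P` is `∏_{w | P} (X - x(w)) ^ e(w | P)` -/
theorem esdl_fibre [IsAlgClosed K] [CharZero K] (h : EsdFF K F) (h' : EsdFF K F')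
    (hP : ∀ x : F, x ∈ P.toValuationSubring ↔ ∃ r : R, algebraMap R F r = x)
    (x : F') (hx : ∀ w ∈ P.fiber F', 0 ≤ w.ord x) :
    ∃ (a : Place K F' → K) (q : Polynomial K),
      (∀ w ∈ P.fiber F', x = algebraMap K F' (a w) ∨ 0 < w.ord (x - algebraMap K F' (a w))) ∧
      (∀ i : ℕ, (esdCharpoly F x).coeff i = algebraMap K F (q.coeff i) ∨
        0 < P.ord ((esdCharpoly F x).coeff i - algebraMap K F (q.coeff i))) ∧
      q = ∏ w ∈ P.fiber F', (Polynomial.X - Polynomial.C (a w)) ^ (w.ramificationIndex F) := by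
  classical
  obtain ⟨hfin, hfree, hfaith⟩ := esdlf_free (K := K) (F := F) (F' := F') R S
  have := hfin
  have := hfree
  have hinjS : Function.Injective (algebraMap R S) := FaithfulSMul.algebraMap_injective R S
  have hfinS : Finite (HeightOneSpectrum S) := by
    refine Finite.of_injective (fun 𝔓 : HeightOneSpectrum S =>
      (⟨ddPlace (k := K) (L := F') S 𝔓, Place.mem_fiber.mpr (esdl_restrict R S P hP 𝔓)⟩ :
        {w // w ∈ P.fiber F'})) ?_
    intro 𝔓 𝔔 h𝔓𝔔
    exact ddPlace_injective (k := K) (L := F') S (congrArg Subtype.val h𝔓𝔔)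
  let _ : Fintype (HeightOneSpectrum S) := Fintype.ofFinite _
  obtain ⟨s, rfl⟩ := esdlf_mem R S P hP x hx
  obtain ⟨ρ, hρK, hρ0, hρord⟩ := esdlf_residue_hom R P h hP
  obtain ⟨ϖ, hϖ⟩ := IsDiscreteValuationRing.exists_irreducible R
  have htower : ∀ d : K, algebraMap R S (algebraMap K R d) = algebraMap K S d := by
    intro d
    apply IsFractionRing.injective S F'
    rw [← IsScalarTower.algebraMap_apply R S F', IsScalarTower.algebraMap_apply R F F',
      ← IsScalarTower.algebraMap_apply K R F, ← IsScalarTower.algebraMap_apply K F F',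
      ← IsScalarTower.algebraMap_apply K S F']
  choose c hc using fun 𝔓 : HeightOneSpectrum S => esdl_residue S h' 𝔓 s
  have hres : ∀ (𝔓 : HeightOneSpectrum S) (t : S),
      ∃ r : R, t - algebraMap R S r ∈ 𝔓.asIdeal := by
    intro 𝔓 t
    obtain ⟨d, hd⟩ := esdl_residue S h' 𝔓 t
    exact ⟨algebraMap K R d, by rw [htower]; exact hd⟩
  have ha : ∀ 𝔓 : HeightOneSpectrum S,
      s - algebraMap R S (algebraMap K R (c 𝔓)) ∈ 𝔓.asIdeal := by
    intro 𝔓
    rw [htower]
    exact hc 𝔓
  have hcore := esdfc_charpoly_map R S hinjS ϖ hϖ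
    (fun 𝔓 => (ddPlace (k := K) (L := F') S 𝔓).ramificationIndex F)
    (fun 𝔓 => esdlf_e R S P hP 𝔓 ϖ hϖ) hres s (fun 𝔓 => algebraMap K R (c 𝔓)) ha
  let ρbar : IsLocalRing.ResidueField R →+* K :=
    Ideal.Quotient.lift (maximalIdeal R) ρ (fun r hr => (hρ0 r).mpr hr)
  have hρbar : ∀ r : R, ρbar (IsLocalRing.residue R r) = ρ r :=
    fun r => Ideal.Quotient.lift_mk _ _ _
  have hq : (LinearMap.charpoly (LinearMap.mulLeft R s)).map ρ =
      ∏ 𝔓 : HeightOneSpectrum S,
        (X - C (c 𝔓)) ^ ((ddPlace (k := K) (L := F') S 𝔓).ramificationIndex F) := by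
    have h1 := congrArg (Polynomial.map ρbar) hcore
    rw [Polynomial.map_map] at h1
    have h2 : ρbar.comp (IsLocalRing.residue R) = ρ := RingHom.ext hρbar
    rw [h2] at h1
    rw [h1, Polynomial.map_prod]
    refine Finset.prod_congr rfl fun 𝔓 _ => ?_
    rw [Polynomial.map_pow, Polynomial.map_sub, Polynomial.map_X, Polynomial.map_C, hρbar, hρK]
  let a : Place K F' → K := fun w =>
    if hw : ∃ 𝔓 : HeightOneSpectrum S, ddPlace (k := K) (L := F') S 𝔓 = w then c hw.choose
    else 0
  have ha' : ∀ 𝔓 : HeightOneSpectrum S, a (ddPlace (k := K) (L := F') S 𝔓) = c 𝔓 := by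
    intro 𝔓
    have hw : ∃ 𝔔 : HeightOneSpectrum S,
        ddPlace (k := K) (L := F') S 𝔔 = ddPlace (k := K) (L := F') S 𝔓 := ⟨𝔓, rfl⟩
    simp only [a, dif_pos hw]
    exact congrArg c (ddPlace_injective (k := K) (L := F') S hw.choose_spec)
  have hfib := esdlf_fiber (F' := F') R S P hP
  refine ⟨a, ∏ 𝔓 : HeightOneSpectrum S,
    (X - C (c 𝔓)) ^ ((ddPlace (k := K) (L := F') S 𝔓).ramificationIndex F), ?_, ?_, ?_⟩
  · intro w hw
    rw [hfib, Finset.mem_image] at hw
    obtain ⟨𝔓, -, rfl⟩ := hw
    rw [ha']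
    by_cases h0 : s - algebraMap K S (c 𝔓) = 0
    · left
      rw [IsScalarTower.algebraMap_apply K S F', ← sub_eq_zero.mp h0]
    · right
      have h5 := (ddPlace_ord_pos_iff (k := K) (L := F') S 𝔓 _ h0).mpr (hc 𝔓)
      rwa [map_sub, ← IsScalarTower.algebraMap_apply K S F'] at h5
  · intro i
    have hqi : (∏ 𝔓 : HeightOneSpectrum S,
        (X - C (c 𝔓)) ^ ((ddPlace (k := K) (L := F') S 𝔓).ramificationIndex F)).coeff i =
        ρ ((LinearMap.charpoly (LinearMap.mulLeft R s)).coeff i) := by
      rw [← hq, Polynomial.coeff_map]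
    rw [hqi, esdlf_charpoly_map R S s, Polynomial.coeff_map]
    generalize (LinearMap.charpoly (LinearMap.mulLeft R s)).coeff i = t
    have hr : t - algebraMap K R (ρ t) ∈ maximalIdeal R := by
      rw [← hρ0, map_sub, hρK, sub_self]
    have hmap : algebraMap R F (t - algebraMap K R (ρ t)) =
        algebraMap R F t - algebraMap K F (ρ t) := by
      rw [map_sub, ← IsScalarTower.algebraMap_apply K R F]
    by_cases h0 : t - algebraMap K R (ρ t) = 0
    · left
      have h6 := congrArg (algebraMap R F) h0
      rw [hmap, map_zero] at h6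
      exact sub_eq_zero.mp h6
    · right
      rw [← hmap]
      exact hρord _ hr h0
  · rw [hfib, Finset.prod_image (fun 𝔓 _ 𝔔 _ h𝔓𝔔 => ddPlace_injective (k := K) (L := F') S h𝔓𝔔)]
    refine Finset.prod_congr rfl fun 𝔓 _ => ?_
    rw [ha']

end Fermat.Agent.S37L
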