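import Mathlib
import Fermat.Agent.S37L.EsdLocA

/-!
# S37, block D (helper6), leaf LOC-NORM: the norm formula above `P`

Abstract local setting of `EsdLocA`: `R` a discrete valuation ring with fraction field `F` whose
image in `F` is the valuation ring of the place `P`, `S` its integral closure in the finite
extension `F' / F`.
-/

set_option autoImplicit false

open AlgebraicCurve IsDedekindDomain
open scoped IntermediateField

namespace Fermat.Agent.S37L

open Fermat.Agent.S18L

section esdln_aux

/-- units of `R` have order zero at `P` -/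
theorem esdln_ord_unit {K F : Type*} [Field K] [Field F] [Algebra K F]
    (R : Type*) [CommRing R] [Algebra R F] (P : Place K F)
    (hP : ∀ x : F, x ∈ P.toValuationSubring ↔ ∃ r : R, algebraMap R F r = x) (u : Rˣ) :
    P.ord (algebraMap R F (u : R)) = 0 := by
  have h1 : algebraMap R F (u : R) ∈ P.toValuationSubring := (hP _).mpr ⟨_, rfl⟩
  have h2 : algebraMap R F ((u⁻¹ : Rˣ) : R) ∈ P.toValuationSubring := (hP _).mpr ⟨_, rfl⟩
  have hmul : algebraMap R F (u : R) * algebraMap R F ((u⁻¹ : Rˣ) : R) = 1 := by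
    rw [← map_mul, Units.mul_inv, map_one]
  have hu0 : algebraMap R F (u : R) ≠ 0 := left_ne_zero_of_mul_eq_one hmul
  have hv0 : algebraMap R F ((u⁻¹ : Rˣ) : R) ≠ 0 := right_ne_zero_of_mul_eq_one hmul
  have h3 := (Fermat.Agent.X0S24.PlaceRes.mem_iff_ord_nonneg P hu0).mp h1
  have h4 := (Fermat.Agent.X0S24.PlaceRes.mem_iff_ord_nonneg P hv0).mp h2
  have h5 : P.ord (algebraMap R F (u : R)) + P.ord (algebraMap R F ((u⁻¹ : Rˣ) : R)) = 0 := by
    rw [← P.ord_mul hu0 hv0, hmul, P.ord_one]
  omega

variable {K F : Type*} [Field K] [Field F] [Algebra K F]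
variable (R : Type*) [CommRing R] [IsDomain R] [IsDiscreteValuationRing R]
  [Algebra R F] [IsFractionRing R F]
variable (P : Place K F)

/-- a uniformizer of `R` has order one at `P` -/
theorem esdln_ord_irreducible
    (hP : ∀ x : F, x ∈ P.toValuationSubring ↔ ∃ r : R, algebraMap R F r = x)
    (ϖ : R) (hϖ : Irreducible ϖ) : P.ord (algebraMap R F ϖ) = 1 := by
  have hinj := IsFractionRing.injective R F
  obtain ⟨t, ht0, ht⟩ := Fermat.Agent.X0S24.PlaceRes.exists_ord_eq_one P
  have htmem : t ∈ P.toValuationSubring :=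
    (Fermat.Agent.X0S24.PlaceRes.mem_iff_ord_nonneg P ht0).mpr (by omega)
  obtain ⟨r, rfl⟩ := (hP t).mp htmem
  have hr0 : r ≠ 0 := by
    rintro rfl
    exact ht0 (map_zero _)
  obtain ⟨n, u, hu⟩ := IsDiscreteValuationRing.eq_unit_mul_pow_irreducible hr0 hϖ
  have hϖF : algebraMap R F ϖ ≠ 0 := fun h0 => hϖ.ne_zero (hinj (h0.trans (map_zero _).symm))
  have huF : algebraMap R F (u : R) ≠ 0 := fun h0 => u.ne_zero (hinj (h0.trans (map_zero _).symm))
  have hϖmem : algebraMap R F ϖ ∈ P.toValuationSubring := (hP _).mpr ⟨_, rfl⟩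
  have hϖnn := (Fermat.Agent.X0S24.PlaceRes.mem_iff_ord_nonneg P hϖF).mp hϖmem
  have h1 : P.ord (algebraMap R F r) = (n : ℤ) * P.ord (algebraMap R F ϖ) := by
    rw [hu, map_mul, map_pow, P.ord_mul huF (pow_ne_zero n hϖF), esdln_ord_unit R P hP u,
      zero_add, ← zpow_natCast, P.ord_zpow]
  rw [ht] at h1
  exact Int.eq_one_of_dvd_one hϖnn (Dvd.intro_left _ h1.symm)

/-- the order at `P` of a generator of `𝔪 ^ n` is `n` -/
theorem esdln_ord_of_span
    (hP : ∀ x : F, x ∈ P.toValuationSubring ↔ ∃ r : R, algebraMap R F r = x)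
    (r : R) (n : ℕ) (hr : Ideal.span {r} = IsLocalRing.maximalIdeal R ^ n) :
    P.ord (algebraMap R F r) = n := by
  have hinj := IsFractionRing.injective R F
  obtain ⟨ϖ, hϖ⟩ := IsDiscreteValuationRing.exists_irreducible R
  rw [hϖ.maximalIdeal_eq, Ideal.span_singleton_pow, Ideal.span_singleton_eq_span_singleton] at hr
  obtain ⟨u, hu⟩ := hr
  have hϖF : algebraMap R F ϖ ≠ 0 := fun h0 => hϖ.ne_zero (hinj (h0.trans (map_zero _).symm))
  have huF : algebraMap R F (u : R) ≠ 0 := fun h0 => u.ne_zero (hinj (h0.trans (map_zero _).symm))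
  have hrF : algebraMap R F r ≠ 0 := by
    intro h0
    have h1 : algebraMap R F (r * (u : R)) = 0 := by rw [map_mul, h0, zero_mul]
    rw [hu, map_pow] at h1
    exact pow_ne_zero n hϖF h1
  have h1 : P.ord (algebraMap R F r) + P.ord (algebraMap R F (u : R))
      = (n : ℤ) * P.ord (algebraMap R F ϖ) := by
    rw [← P.ord_mul hrF huF, ← map_mul, hu, map_pow, ← zpow_natCast, P.ord_zpow]
  rw [esdln_ord_unit R P hP u, esdln_ord_irreducible R P hP ϖ hϖ] at h1
  omega

end esdln_aux

variable {K F F' : Type*} [Field K] [Field F] [Field F'] [Algebra K F] [Algebra K F']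
  [Algebra F F'] [IsScalarTower K F F'] [Algebra.IsIntegral F F'] [HasPrincipalDivisors K F']
  [Module.Finite F F']
variable (R S : Type*) [CommRing R] [IsDomain R] [IsDiscreteValuationRing R]
  [Algebra R F] [IsFractionRing R F]
  [CommRing S] [IsDedekindDomain S] [Algebra S F'] [IsFractionRing S F']
  [Algebra R S] [Algebra R F'] [IsScalarTower R F F'] [IsScalarTower R S F']
  [IsIntegralClosure S R F']
  [Algebra K R] [IsScalarTower K R F] [Algebra K S] [IsScalarTower K S F']
variable (P : Place K F)

omit [HasPrincipalDivisors K F'] in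
/-- the order of an element of `S` at the place of a prime is the multiplicity of the prime -/
theorem esdln_dd_ord (𝔓 : HeightOneSpectrum S) (s : S) (hs : s ≠ 0) :
    (ddPlace (k := K) (L := F') S 𝔓).ord (algebraMap S F' s)
      = (((Associates.mk 𝔓.asIdeal).count (Associates.mk (Ideal.span {s} : Ideal S)).factors : ℕ)
          : ℤ) := by
  rw [ddPlace_ord, HeightOneSpectrum.valuation_of_algebraMap,
    HeightOneSpectrum.intValuation_if_neg _ hs, WithZero.log_exp, neg_neg]

/-- the sum over the fibre is the sum over the height-one primes of `S` -/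
theorem esdln_sum_fiber [Fintype (HeightOneSpectrum S)]
    (hP : ∀ x : F, x ∈ P.toValuationSubring ↔ ∃ r : R, algebraMap R F r = x)
    (g : Place K F' → ℤ) :
    ∑ w ∈ P.fiber F', g w = ∑ 𝔓 : HeightOneSpectrum S, g (ddPlace (k := K) (L := F') S 𝔓) := by
  classical
  have himg : P.fiber F' = Finset.univ.image (ddPlace (k := K) (L := F') S) := by
    ext w
    rw [Place.mem_fiber, Finset.mem_image]
    constructor
    · intro hw
      obtain ⟨𝔓, h𝔓⟩ := esdl_surj R S P hP w hw
      exact ⟨𝔓, Finset.mem_univ _, h𝔓⟩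
    · rintro ⟨𝔓, -, rfl⟩
      exact esdl_restrict R S P hP 𝔓
  rw [himg, Finset.sum_image]
  intro a _ b _ hab
  exact ddPlace_injective S hab

omit [Algebra.IsIntegral F F'] [Module.Finite F F'] [IsFractionRing R F] in
include F in
/-- the relative norm of a height-one prime of `S` is the maximal ideal of `R` -/
theorem esdln_relNorm_prime [IsAlgClosed K] [CharZero K] (h' : EsdFF K F')
    [Module.Finite R S] [Module.IsTorsionFree R S] (𝔓 : HeightOneSpectrum S) :
    Ideal.relNorm R 𝔓.asIdeal = IsLocalRing.maximalIdeal R := by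
  have : Algebra.IsIntegral R S := IsIntegralClosure.isIntegral_algebra R F'
  have : 𝔓.asIdeal.IsMaximal := 𝔓.isMaximal
  have hmax : (𝔓.asIdeal.under R).IsMaximal := inferInstance
  have hlo : 𝔓.asIdeal.LiesOver (IsLocalRing.maximalIdeal R) :=
    ⟨(IsLocalRing.eq_maximalIdeal hmax).symm⟩
  have : CharZero R := charZero_of_injective_algebraMap (algebraMap K R).injective
  have : CharZero (FractionRing R) :=
    charZero_of_injective_algebraMap (IsFractionRing.injective R (FractionRing R))
  have hfin : Module.finrank (R ⧸ IsLocalRing.maximalIdeal R) (S ⧸ 𝔓.asIdeal) = 1 := by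
    let : Field (R ⧸ IsLocalRing.maximalIdeal R) := Ideal.Quotient.field _
    rw [finrank_eq_one_iff_of_nonzero' (1 : S ⧸ 𝔓.asIdeal) one_ne_zero]
    intro w
    obtain ⟨s, rfl⟩ := Ideal.Quotient.mk_surjective w
    obtain ⟨c, hc⟩ := esdl_residue (K := K) (F' := F') S h' 𝔓 s
    refine ⟨Ideal.Quotient.mk _ (algebraMap K R c), ?_⟩
    rw [Algebra.smul_def, mul_one, Ideal.Quotient.algebraMap_mk_of_liesOver, eq_comm,
      Ideal.Quotient.eq]
    have hcc : algebraMap R S (algebraMap K R c) = algebraMap K S c := by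
      apply IsFractionRing.injective S F'
      rw [← IsScalarTower.algebraMap_apply R S F', IsScalarTower.algebraMap_apply R F F',
        ← IsScalarTower.algebraMap_apply K R F, ← IsScalarTower.algebraMap_apply K F F',
        ← IsScalarTower.algebraMap_apply K S F']
    rw [hcc]
    exact hc
  rw [Ideal.relNorm_eq_pow_of_isMaximal 𝔓.asIdeal (IsLocalRing.maximalIdeal R),
    Ideal.inertiaDeg_eq_of_isMaximal (IsLocalRing.maximalIdeal R) 𝔓.asIdeal, hfin, pow_one]

omit [Algebra.IsIntegral F F'] [Module.Finite F F'] [IsFractionRing R F] in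
include F in
/-- the ideal generated by the norm of `s` -/
theorem esdln_span_intNorm [IsAlgClosed K] [CharZero K] (h' : EsdFF K F')
    [Module.Finite R S] [Module.IsTorsionFree R S] [Fintype (HeightOneSpectrum S)]
    (s : S) (hs : s ≠ 0) :
    Ideal.span {Algebra.intNorm R S s} = IsLocalRing.maximalIdeal R ^
      (∑ 𝔓 : HeightOneSpectrum S,
        (Associates.mk 𝔓.asIdeal).count (Associates.mk (Ideal.span {s} : Ideal S)).factors) := by
  classical
  have hI : (Ideal.span {s} : Ideal S) ≠ 0 := by
    rw [Ideal.zero_eq_bot, Ne, Ideal.span_singleton_eq_bot]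
    exact hs
  have hfac := Ideal.finprod_heightOneSpectrum_factorization hI
  rw [finprod_eq_prod_of_fintype] at hfac
  rw [← Ideal.relNorm_singleton]
  conv_lhs => rw [← hfac]
  rw [map_prod, ← Finset.prod_pow_eq_pow_sum]
  refine Finset.prod_congr rfl fun 𝔓 _ => ?_
  rw [HeightOneSpectrum.maxPowDividing, map_pow, esdln_relNorm_prime (K := K) (F := F) R S h' 𝔓]

include S in
/-- `ord_P (N_{F'/F} f) = Σ_{w | P} ord_w f` -/
theorem esdl_norm [IsAlgClosed K] [CharZero K] (h : EsdFF K F) (h' : EsdFF K F')
    (hP : ∀ x : F, x ∈ P.toValuationSubring ↔ ∃ r : R, algebraMap R F r = x)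
    (f : F') (hf : f ≠ 0) :
    P.ord (Algebra.norm F f) = ∑ w ∈ P.fiber F', w.ord f := by
  classical
  have _ := h
  have : CharZero F := charZero_of_injective_algebraMap (algebraMap K F).injective
  have : Algebra.IsIntegral R S := IsIntegralClosure.isIntegral_algebra R F'
  have : Module.Finite R S := IsIntegralClosure.finite R F F' S
  have hinjRS : Function.Injective (algebraMap R S) := by
    have h1 : Function.Injective (algebraMap R F') := by
      rw [IsScalarTower.algebraMap_eq R F F']
      exact (algebraMap F F').injective.comp (IsFractionRing.injective R F)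
    rw [IsScalarTower.algebraMap_eq R S F'] at h1
    exact Function.Injective.of_comp h1
  have : FaithfulSMul R S := (faithfulSMul_iff_algebraMap_injective R S).mpr hinjRS
  have : Module.IsTorsionFree R S := inferInstance
  have : Finite (HeightOneSpectrum S) := esdl_finite F' R S P hP
  cases nonempty_fintype (HeightOneSpectrum S)
  have hinjS := IsFractionRing.injective S F'
  have key : ∀ s : S, s ≠ 0 → P.ord (Algebra.norm F (algebraMap S F' s))
      = ∑ w ∈ P.fiber F', w.ord (algebraMap S F' s) := by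
    intro s hs
    rw [← Algebra.algebraMap_intNorm (A := R) (K := F) (L := F') (B := S),
      esdln_sum_fiber R S P hP,
      esdln_ord_of_span R P hP _ _ (esdln_span_intNorm (K := K) (F := F) (F' := F') R S h' s hs)]
    push_cast
    exact Finset.sum_congr rfl fun 𝔓 _ => (esdln_dd_ord S 𝔓 s hs).symm
  obtain ⟨s, t, ht, rfl⟩ := IsFractionRing.div_surjective (A := S) f
  have ht0 : t ≠ 0 := nonZeroDivisors.ne_zero ht
  have htF : algebraMap S F' t ≠ 0 := fun h0 => ht0 (hinjS (h0.trans (map_zero _).symm))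
  have hsF : algebraMap S F' s ≠ 0 := by
    intro h0
    apply hf
    rw [h0, zero_div]
  have hs0 : s ≠ 0 := by
    rintro rfl
    exact hsF (map_zero _)
  have hN : Algebra.norm F (algebraMap S F' s / algebraMap S F' t)
      * Algebra.norm F (algebraMap S F' t) = Algebra.norm F (algebraMap S F' s) := by
    rw [← map_mul, div_mul_cancel₀ _ htF]
  have h1 : P.ord (Algebra.norm F (algebraMap S F' s / algebraMap S F' t))
      + P.ord (Algebra.norm F (algebraMap S F' t))
      = P.ord (Algebra.norm F (algebraMap S F' s)) := by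
    rw [← P.ord_mul (Algebra.norm_ne_zero_iff.mpr hf) (Algebra.norm_ne_zero_iff.mpr htF), hN]
  rw [key s hs0, key t ht0] at h1
  have h2 : ∑ w ∈ P.fiber F', w.ord (algebraMap S F' s / algebraMap S F' t)
      = ∑ w ∈ P.fiber F', w.ord (algebraMap S F' s)
        - ∑ w ∈ P.fiber F', w.ord (algebraMap S F' t) := by
    rw [← Finset.sum_sub_distrib]
    refine Finset.sum_congr rfl fun w _ => ?_
    rw [div_eq_mul_inv, w.ord_mul hsF (inv_ne_zero htF), w.ord_inv, sub_eq_add_neg]
  rw [h2]
  omega

end Fermat.Agent.S37L
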