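import Mathlib
import Fermat.Agent.S37L.EsdLocA

/-!
# S37, block D (helper6), leaf LOC-SRI: the fundamental identity above `P`

Abstract local setting of `EsdLocA`: `R` a discrete valuation ring with fraction field `F` whose
image in `F` is the valuation ring of the place `P`, `S` its integral closure in the finite
extension `F' / F`.
-/

set_option autoImplicit false

open AlgebraicCurve IsDedekindDomain
open scoped IntermediateField

namespace Fermat.Agent.S37L

open Fermat.Agent.S18L

/-- height-one primes of `S` are the primes over the maximal ideal of the DVR `R` -/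
noncomputable def esdlsri_equiv (R S : Type*) [CommRing R] [IsDomain R] [IsDiscreteValuationRing R]
    [CommRing S] [IsDedekindDomain S] [Algebra R S] [Module.Finite R S]
    (hinj : Function.Injective (algebraMap R S)) :
    HeightOneSpectrum S ≃ (IsLocalRing.maximalIdeal R).primesOver S where
  toFun 𝔓 := ⟨𝔓.asIdeal, 𝔓.isPrime, ⟨by
    have h1 : (𝔓.asIdeal.comap (algebraMap R S)).IsPrime := Ideal.comap_isPrime _ _
    have h2 : 𝔓.asIdeal.comap (algebraMap R S) ≠ ⊥ :=
      Ideal.IsIntegral.comap_ne_bot R 𝔓.ne_bot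
    exact (IsLocalRing.eq_maximalIdeal (h1.isMaximal h2)).symm⟩⟩
  invFun q := ⟨q.1, q.2.1, by
    intro hbot
    have h1 : IsLocalRing.maximalIdeal R = q.1.under R := q.2.2.over
    rw [hbot, Ideal.under_def, Ideal.comap_bot_of_injective _ hinj] at h1
    exact IsDiscreteValuationRing.not_a_field R h1⟩
  left_inv 𝔓 := rfl
  right_inv q := rfl

/-- the fundamental identity for a finite extension of a DVR with all residue degrees one -/
theorem esdlsri_core {F F' : Type*} [Field F] [Field F'] [Algebra F F']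
    (R S : Type*) [CommRing R] [IsDomain R] [IsDiscreteValuationRing R]
    [Algebra R F] [IsFractionRing R F]
    [CommRing S] [IsDedekindDomain S] [Algebra S F'] [IsFractionRing S F']
    [Algebra R S] [Algebra R F'] [IsScalarTower R F F'] [IsScalarTower R S F']
    [Module.Finite R S] [Fintype (HeightOneSpectrum S)]
    (hinj : Function.Injective (algebraMap R S))
    (hres : ∀ (𝔓 : HeightOneSpectrum S) (s : S), ∃ r : R, s - algebraMap R S r ∈ 𝔓.asIdeal) :
    ∑ 𝔓 : HeightOneSpectrum S,
      multiplicity 𝔓.asIdeal ((IsLocalRing.maximalIdeal R).map (algebraMap R S)) =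
        Module.finrank F F' := by
  have : Module.IsTorsionFree R S := Module.isTorsionFree_iff_algebraMap_injective.mpr hinj
  have hp0 : (IsLocalRing.maximalIdeal R).map (algebraMap R S) ≠ ⊥ :=
    Ideal.map_ne_bot_of_ne_bot (IsDiscreteValuationRing.not_a_field R)
  let e := esdlsri_equiv R S hinj
  let _ : Fintype ((IsLocalRing.maximalIdeal R).primesOver S) := Fintype.ofEquiv _ e
  have hsum := Ideal.sum_ramification_inertia_eq_finrank (IsLocalRing.maximalIdeal R) S
  rw [IsFractionRing.finrank_eq R F S F', ← hsum, ← Equiv.sum_comp e]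
  refine Finset.sum_congr rfl fun 𝔓 _ => ?_
  have : (e 𝔓).1.IsPrime := (e 𝔓).2.1
  have : (e 𝔓).1.LiesOver (IsLocalRing.maximalIdeal R) := (e 𝔓).2.2
  have : (e 𝔓).1.IsMaximal := 𝔓.isMaximal
  have hf : (e 𝔓).1.inertiaDeg R = 1 := by
    rw [Ideal.inertiaDeg_eq_of_isMaximal (IsLocalRing.maximalIdeal R) (e 𝔓).1]
    let _ : Field (R ⧸ IsLocalRing.maximalIdeal R) := Ideal.Quotient.field _
    let _ : Field (S ⧸ (e 𝔓).1) := Ideal.Quotient.field _
    rw [finrank_eq_one_iff_of_nonzero' (1 : S ⧸ (e 𝔓).1) one_ne_zero]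
    intro w
    obtain ⟨s, rfl⟩ := Ideal.Quotient.mk_surjective w
    obtain ⟨r, hr⟩ := hres 𝔓 s
    refine ⟨Ideal.Quotient.mk _ r, ?_⟩
    rw [Algebra.smul_def, mul_one, Ideal.Quotient.algebraMap_mk_of_liesOver]
    exact (Ideal.Quotient.eq.mpr hr).symm
  rw [hf, mul_one, Ideal.IsDedekindDomain.ramificationIdx_eq_multiplicity
    (IsLocalRing.maximalIdeal R) (e 𝔓).1 hp0]
  rfl

/-- the order at the place of `𝔓` of an element of `S` is the multiplicity of `𝔓` in its ideal -/
theorem esdlsri_ord_eq_multiplicity {K F' : Type*} [Field K] [Field F'] [Algebra K F']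
    (S : Type*) [CommRing S] [IsDedekindDomain S] [Algebra S F'] [IsFractionRing S F']
    [Algebra K S] [IsScalarTower K S F'] (𝔓 : HeightOneSpectrum S) (b : S) (hb : b ≠ 0) :
    (ddPlace (k := K) (L := F') S 𝔓).ord (algebraMap S F' b) =
      (multiplicity 𝔓.asIdeal (Ideal.span {b}) : ℤ) := by
  have h0 : 0 ≤ (ddPlace (k := K) (L := F') S 𝔓).ord (algebraMap S F' b) := by
    have h := (ddPlace_le_ord_iff (k := K) (L := F') S 𝔓 b hb 0).mpr
      (by rw [pow_zero, Ideal.one_eq_top]; exact Submodule.mem_top)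
    exact_mod_cast h
  have h1 : multiplicity 𝔓.asIdeal (Ideal.span {b}) =
      ((ddPlace (k := K) (L := F') S 𝔓).ord (algebraMap S F' b)).toNat := by
    apply multiplicity_eq_of_dvd_of_not_dvd
    · rw [Ideal.dvd_span_singleton, ← ddPlace_le_ord_iff (k := K) (L := F') S 𝔓 b hb]
      omega
    · rw [Ideal.dvd_span_singleton, ← ddPlace_le_ord_iff (k := K) (L := F') S 𝔓 b hb]
      push_cast
      omega
  rw [h1]
  omega

variable {K F F' : Type*} [Field K] [Field F] [Field F'] [Algebra K F] [Algebra K F']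
  [Algebra F F'] [IsScalarTower K F F'] [Algebra.IsIntegral F F'] [HasPrincipalDivisors K F']
  [Module.Finite F F']
variable (R S : Type*) [CommRing R] [IsDomain R] [IsDiscreteValuationRing R]
  [Algebra R F] [IsFractionRing R F]
  [CommRing S] [IsDedekindDomain S] [Algebra S F'] [IsFractionRing S F']
  [Algebra R S] [Algebra R F'] [IsScalarTower R F F'] [IsScalarTower R S F']
  [IsIntegralClosure S R F']
  [Algebra K R] [IsScalarTower K R F] [Algebra K S] [IsScalarTower K S F']
variable (P : Place K F)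

include S in
/-- `Σ_{w | P} e(w | P) = [F' : F]` -/
theorem esdl_sum_e [IsAlgClosed K] [CharZero K] (h : EsdFF K F) (h' : EsdFF K F')
    (hP : ∀ x : F, x ∈ P.toValuationSubring ↔ ∃ r : R, algebraMap R F r = x) :
    ∑ w ∈ P.fiber F', ((w.ramificationIndex F : ℕ) : ℤ) = (Module.finrank F F' : ℤ) := by
  classical
  have _ := h
  -- finitely many primes of `S`
  have hfin : Finite (HeightOneSpectrum S) :=
    Finite.of_injective
      (fun 𝔓 => (⟨ddPlace (k := K) (L := F') S 𝔓,
        Place.mem_fiber.mpr (esdl_restrict R S P hP 𝔓)⟩ : {w // w ∈ P.fiber F'}))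
      (fun 𝔓₁ 𝔓₂ h12 => ddPlace_injective (k := K) (L := F') S (congrArg Subtype.val h12))
  let _ : Fintype (HeightOneSpectrum S) := Fintype.ofFinite _
  -- `S` is a finite `R`-module
  have hcz : CharZero F := charZero_of_injective_algebraMap (algebraMap K F).injective
  have hfinRS : Module.Finite R S := IsIntegralClosure.finite R F F' S
  have hinj : Function.Injective (algebraMap R S) := by
    have h1 : Function.Injective (algebraMap R F') := by
      rw [IsScalarTower.algebraMap_eq R F F']
      exact (algebraMap F F').injective.comp (IsFractionRing.injective R F)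
    rw [IsScalarTower.algebraMap_eq R S F'] at h1
    exact Function.Injective.of_comp h1
  -- residue degree one
  have hKRS : ∀ c : K, algebraMap R S (algebraMap K R c) = algebraMap K S c := by
    intro c
    apply IsFractionRing.injective S F'
    rw [← IsScalarTower.algebraMap_apply R S F', IsScalarTower.algebraMap_apply R F F',
      ← IsScalarTower.algebraMap_apply K R F, ← IsScalarTower.algebraMap_apply K F F',
      ← IsScalarTower.algebraMap_apply K S F']
  have hres : ∀ (𝔓 : HeightOneSpectrum S) (s : S),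
      ∃ r : R, s - algebraMap R S r ∈ 𝔓.asIdeal := by
    intro 𝔓 s
    obtain ⟨c, hc⟩ := esdl_residue S h' 𝔓 s
    exact ⟨algebraMap K R c, by rw [hKRS]; exact hc⟩
  have hcore := esdlsri_core (F := F) (F' := F') R S hinj hres
  -- a uniformizer of `R`
  obtain ⟨ϖ, hϖ⟩ := IsDiscreteValuationRing.exists_irreducible R
  have hb : algebraMap R S ϖ ≠ 0 := fun h0 => hϖ.ne_zero (hinj (by rw [h0, map_zero]))
  have hmap : (IsLocalRing.maximalIdeal R).map (algebraMap R S) =
      Ideal.span {algebraMap R S ϖ} := by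
    rw [hϖ.maximalIdeal_eq, Ideal.map_span, Set.image_singleton]
  -- reindexing by the primes of `S`
  have hsum : ∑ w ∈ P.fiber F', ((w.ramificationIndex F : ℕ) : ℤ) =
      ∑ 𝔓 : HeightOneSpectrum S,
        (((ddPlace (k := K) (L := F') S 𝔓).ramificationIndex F : ℕ) : ℤ) := by
    symm
    refine Finset.sum_bij (fun 𝔓 _ => ddPlace (k := K) (L := F') S 𝔓) ?_ ?_ ?_ ?_
    · intro 𝔓 _
      exact Place.mem_fiber.mpr (esdl_restrict R S P hP 𝔓)
    · intro 𝔓₁ _ 𝔓₂ _ h12
      exact ddPlace_injective (k := K) (L := F') S h12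
    · intro w hw
      obtain ⟨𝔓, h𝔓⟩ := esdl_surj R S P hP w (Place.mem_fiber.mp hw)
      exact ⟨𝔓, Finset.mem_univ _, h𝔓⟩
    · intro 𝔓 _
      rfl
  rw [hsum, ← hcore, Nat.cast_sum]
  refine Finset.sum_congr rfl fun 𝔓 _ => ?_
  rw [esdl_ramificationIndex R S P hP 𝔓 ϖ hϖ, IsScalarTower.algebraMap_apply R S F',
    esdlsri_ord_eq_multiplicity (K := K) S 𝔓 _ hb, hmap]

end Fermat.Agent.S37L
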