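import Mathlib
import Fermat.Agent.S37L.EsdDefs

/-!
# S37, block D (helper6), leaf MOVE: functions with prescribed orders at finitely many places
-/

set_option autoImplicit false

open AlgebraicCurve
open scoped IntermediateField

namespace Fermat.Agent.S37L

variable {K F : Type*} [Field K] [Field F] [Algebra K F]

/-- functions with prescribed orders at finitely many places -/
theorem esd_moving [IsAlgClosed K] (h : EsdFF K F) (S : Finset (Place K F)) (n : Place K F → ℤ) :
    ∃ f : F, f ≠ 0 ∧ ∀ P ∈ S, P.ord f = n P := by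
  rcases S.eq_empty_or_nonempty with rfl | ⟨P₀, hP₀⟩
  · exact ⟨1, one_ne_zero, fun P hP => absurd hP (Finset.notMem_empty P)⟩
  · obtain ⟨x, hx⟩ :=
      (Fermat.Agent.S18L.curveOfPlaces h.halg h.hfin h.hconst).exists_approx S (fun _ => 0) n
    have hx' : ∀ P ∈ S, x ≠ 0 ∧ P.ord x = n P := by
      intro P hP
      have h1 := hx P hP
      rw [sub_zero] at h1
      exact h1
    exact ⟨x, (hx' P₀ hP₀).1, fun P hP => (hx' P hP).2⟩

end Fermat.Agent.S37L
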