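import Mathlib
import Fermat.Agent.S37L.EsdOne
import Fermat.Agent.S37L.EsdMove
import Fermat.Agent.S37L.EsdLocSri
import Fermat.Agent.S37L.EsdLocNorm
import Fermat.Agent.S37L.EsdLocFib

/-!
# S37, block D (helper6): generic facts on a finite extension `F' / F` of function fields of
one variable over an algebraically closed field `K` of characteristic zero

* `esd_hasPrincipalDivisors`: principal divisors exist and have degree `0`;
* `esd_deg_eq_one`, `esd_inertiaDeg_eq_one`: all places have degree one;
* `esd_fundamentalIdentity`: `Σ_{w | v} e(w | v) = [F' : F]`;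
* `esd_normFormula`: `ord_v (N_{F'/F} f) = Σ_{w | v} ord_w f`;
* `esd_fibre_charpoly`: the characteristic polynomial of `x ∈ F'` regular above `P`, evaluated
  at `P`, is `∏_{w | P} (X - x(w)) ^ e(w | P)`;
* `esd_moving`: functions with prescribed orders at finitely many places.
-/

set_option autoImplicit false

open AlgebraicCurve
open scoped IntermediateField

namespace Fermat.Agent.S37L

universe uK uF uF'

variable {K : Type uK} {F : Type uF} {F' : Type uF'} [Field K] [Field F] [Field F']
  [Algebra K F] [Algebra K F'] [Algebra F F'] [IsScalarTower K F F']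

/-- the local setting above a place: `R = O_P`, `S` = the integral closure of `R` in `F'` -/
theorem esd_inst [CharZero K] [Module.Finite F F'] (P : Place K F) {motive : Prop}
    (H : ∀ (R : Type uF) (S : Type uF') [CommRing R] [IsDomain R] [IsDiscreteValuationRing R]
      [Algebra R F] [IsFractionRing R F] [CommRing S] [IsDedekindDomain S] [Algebra S F']
      [IsFractionRing S F'] [Algebra R S] [Algebra R F'] [IsScalarTower R F F']
      [IsScalarTower R S F'] [IsIntegralClosure S R F'] [Algebra K R] [IsScalarTower K R F]
      [Algebra K S] [IsScalarTower K S F'],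
      (∀ x : F, x ∈ P.toValuationSubring ↔ ∃ r : R, algebraMap R F r = x) → motive) : motive := by
  have : CharZero F := charZero_of_injective_algebraMap (algebraMap K F).injective
  let _ : Algebra P.toValuationSubring F' :=
    ((algebraMap F F').comp (algebraMap P.toValuationSubring F)).toAlgebra
  have : IsScalarTower P.toValuationSubring F F' := IsScalarTower.of_algebraMap_eq (fun _ => rfl)
  have : Algebra.IsSeparable F F' := inferInstance
  have : IsDedekindDomain (integralClosure P.toValuationSubring F') :=
    integralClosure.isDedekindDomain P.toValuationSubring F F'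
  have : IsFractionRing (integralClosure P.toValuationSubring F') F' :=
    integralClosure.isFractionRing_of_finite_extension F F'
  let _ : Algebra K (integralClosure P.toValuationSubring F') :=
    ((algebraMap P.toValuationSubring (integralClosure P.toValuationSubring F')).comp
      (algebraMap K P.toValuationSubring)).toAlgebra
  have : IsScalarTower K (integralClosure P.toValuationSubring F') F' :=
    IsScalarTower.of_algebraMap_eq (fun a => by
      rw [IsScalarTower.algebraMap_apply K F F']
      rfl)
  exact H P.toValuationSubring (integralClosure P.toValuationSubring F')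
    (fun x => ⟨fun hx => ⟨⟨x, hx⟩, rfl⟩, fun ⟨r, hr⟩ => hr ▸ r.2⟩)

variable [Algebra.IsIntegral F F'] [HasPrincipalDivisors K F']

/-- the fundamental identity `Σ_{w | v} e(w | v) f(w | v) = [F' : F]` -/
theorem esd_sumRamificationInertia [IsAlgClosed K] [CharZero K] (h : EsdFF K F)
    (h' : EsdFF K F') [Module.Finite F F'] : SumRamificationInertia K F F' := by
  refine ⟨fun v => ?_⟩
  have key : ∑ w ∈ v.fiber F', ((w.ramificationIndex F : ℕ) : ℤ) = (Module.finrank F F' : ℤ) :=
    esd_inst (F' := F') v (fun R S _ _ _ _ _ _ _ _ _ _ _ _ _ _ _ _ _ _ hP =>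
      esdl_sum_e R S v h h' hP)
  rw [← key]
  refine Finset.sum_congr rfl fun w _ => ?_
  rw [esd_inertiaDeg_eq_one h h' w, Nat.cast_one, mul_one]

/-- the fundamental identity in the form used by `Divisor.pullback` -/
theorem esd_fundamentalIdentity [IsAlgClosed K] [CharZero K] (h : EsdFF K F)
    (h' : EsdFF K F') [Module.Finite F F'] : FundamentalIdentity K F F' := by
  have := esd_sumRamificationInertia h h'
  infer_instance

/-- the norm formula `ord_v (N f) = Σ_{w | v} f(w | v) ord_w f` -/
theorem esd_normFormula [IsAlgClosed K] [CharZero K] (h : EsdFF K F) (h' : EsdFF K F')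
    [Module.Finite F F'] : Divisor.PushforwardNormFormula K F F' := by
  classical
  intro f hf D hD v
  have key : v.ord (Algebra.norm F f) = ∑ w ∈ v.fiber F', w.ord f :=
    esd_inst (F' := F') v (fun R S _ _ _ _ _ _ _ _ _ _ _ _ _ _ _ _ _ _ hP =>
      esdl_norm R S v h h' hP f hf)
  rw [key, Divisor.pushforward_apply]
  have h1 : ∀ w ∈ D.support, (if w.restrict F = v then D w * (w.inertiaDeg F : ℤ) else 0)
      = if w ∈ v.fiber F' then w.ord f else 0 := by
    intro w _
    rw [esd_inertiaDeg_eq_one h h' w, Nat.cast_one, mul_one, hD w]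
    exact if_congr Place.mem_fiber.symm rfl rfl
  rw [Finset.sum_congr rfl h1, ← Finset.sum_filter, ← Finset.sum_filter_ne_zero (s := v.fiber F')]
  refine Finset.sum_congr ?_ fun _ _ => rfl
  ext w
  simp only [Finset.mem_filter, Finsupp.mem_support_iff, hD w]
  tauto

/-- **fibre polynomial**: for `x ∈ F'` without poles above `P`, the characteristic polynomial
of `x` over `F` has coefficients regular at `P`, and its value at `P` is
`∏_{w | P} (X - x(w)) ^ e(w | P)`. The values are given as elements of `K`:
`a w = x(w)` means `x = a w ∨ 0 < ord_w (x - a w)`. -/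
theorem esd_fibre_charpoly [IsAlgClosed K] [CharZero K] (h : EsdFF K F) (h' : EsdFF K F')
    [Module.Finite F F'] (P : Place K F) (x : F') (hx : ∀ w ∈ P.fiber F', 0 ≤ w.ord x) :
    ∃ (a : Place K F' → K) (q : Polynomial K),
      (∀ w ∈ P.fiber F', x = algebraMap K F' (a w) ∨ 0 < w.ord (x - algebraMap K F' (a w))) ∧
      (∀ i : ℕ, (esdCharpoly F x).coeff i = algebraMap K F (q.coeff i) ∨
        0 < P.ord ((esdCharpoly F x).coeff i - algebraMap K F (q.coeff i))) ∧
      q = ∏ w ∈ P.fiber F', (Polynomial.X - Polynomial.C (a w)) ^ (w.ramificationIndex F) :=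
  esd_inst (F' := F') P (fun R S _ _ _ _ _ _ _ _ _ _ _ _ _ _ _ _ _ _ hP =>
    esdl_fibre R S P h h' hP x hx)

end Fermat.Agent.S37L
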