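import Mathlib
import Fermat.Agent.S37L.EsdDefs

/-!
# S37, block D (helper6), leaf MOD-INT: `F_{Nℓ}` is integral and finite over `α(F_N)` and over
`β(F_N)`
-/

set_option autoImplicit false

open AlgebraicCurve ModularCurve
open scoped IntermediateField

namespace Fermat.Agent.S37L

section Generic

variable {K F F' : Type*} [Field K] [Field F] [Field F'] [Algebra K F] [Algebra K F']

/-- if `F'` is finite over an intermediate field contained in the range of `φ`, then `F'` is
finite over `F` along `φ` -/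
theorem esdmi_finite_of_range (φ : F →ₐ[K] F') (E : IntermediateField K F') [Module.Finite E F']
    (hE : ∀ e ∈ E, ∃ f : F, φ f = e) : FiniteAlong K φ := by
  let _ := algebraAlong φ
  change Module.Finite F F'
  obtain ⟨s, hs⟩ := Module.Finite.fg_top (R := E) (M := F')
  refine ⟨⟨s, ?_⟩⟩
  rw [eq_top_iff]
  intro x _
  have hx : x ∈ Submodule.span E (s : Set F') := by
    rw [hs]
    exact Submodule.mem_top
  induction hx using Submodule.span_induction with
  | mem y hy => exact Submodule.subset_span hy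
  | zero => exact Submodule.zero_mem _
  | add y z _ _ hy hz => exact Submodule.add_mem _ (hy trivial) (hz trivial)
  | smul e y _ hy =>
    obtain ⟨f, hf⟩ := hE e e.2
    have h1 : e • y = f • y := by
      change (e : F') * y = φ f * y
      rw [hf]
    rw [h1]
    exact Submodule.smul_mem _ _ (hy trivial)

/-- finiteness along `φ` from finiteness over `K(φ u)` -/
theorem esdmi_finite_of_adjoin (φ : F →ₐ[K] F') (u : F) [Module.Finite K⟮φ u⟯ F'] :
    FiniteAlong K φ := by
  refine esdmi_finite_of_range φ K⟮φ u⟯ fun e he => ?_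
  have hle : K⟮φ u⟯ ≤ φ.fieldRange := by
    rw [IntermediateField.adjoin_le_iff]
    rintro _ rfl
    exact ⟨u, rfl⟩
  exact hle he

/-- finiteness along `φ` implies integrality of `φ` -/
theorem esdmi_integral_of_finite (φ : F →ₐ[K] F') (h : FiniteAlong K φ) :
    φ.toRingHom.IsIntegral := by
  let _ := algebraAlong φ
  have : Module.Finite F F' := h
  have h2 : Algebra.IsIntegral F F' := Algebra.IsIntegral.of_finite F F'
  exact fun x => h2.isIntegral x

/-- the image of a non-constant function under an embedding is non-constant -/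
theorem esdmi_ne_algebraMap (φ : F →ₐ[K] F') {u : F} (hu : ∀ c : K, u ≠ algebraMap K F c)
    (c : K) : φ u ≠ algebraMap K F' c := by
  intro h
  rw [← φ.commutes c] at h
  exact hu c (φ.injective h)

end Generic

variable (N ℓ : ℕ) [NeZero N] [NeZero ℓ]

/-- `F_{Nℓ}` is finite over `α(F_N)` -/
theorem esdmi_finite_alpha :
    FiniteAlong (AlgebraicClosure ℚ) (heckeAlphaBar (AlgebraicClosure ℚ) N ℓ) := by
  have := (Fermat.Agent.S18L.curveBar (N * ℓ)).finite_adjoin_of_nonconst
    (esdmi_ne_algebraMap (heckeAlphaBar (AlgebraicClosure ℚ) N ℓ)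
      (Fermat.Agent.X0S24.Embed.jbar_ne_algebraMap N))
  exact esdmi_finite_of_adjoin _ (Fermat.Agent.X0S24.Embed.jbar N)

/-- `F_{Nℓ}` is finite over `β(F_N)` -/
theorem esdmi_finite_beta :
    FiniteAlong (AlgebraicClosure ℚ) (heckeBetaBar (AlgebraicClosure ℚ) N ℓ) := by
  have := (Fermat.Agent.S18L.curveBar (N * ℓ)).finite_adjoin_of_nonconst
    (esdmi_ne_algebraMap (heckeBetaBar (AlgebraicClosure ℚ) N ℓ)
      (Fermat.Agent.X0S24.Embed.jbar_ne_algebraMap N))
  exact esdmi_finite_of_adjoin _ (Fermat.Agent.X0S24.Embed.jbar N)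

/-- `F_{Nℓ}` is integral over `α(F_N)` -/
theorem esd_alpha_integral : HeckeAlphaBarIntegral (AlgebraicClosure ℚ) N ℓ := by
  exact esdmi_integral_of_finite _ (esdmi_finite_alpha N ℓ)

/-- `F_{Nℓ}` is integral over `β(F_N)` -/
theorem esd_beta_integral : HeckeBetaBarIntegral (AlgebraicClosure ℚ) N ℓ := by
  exact esdmi_integral_of_finite _ (esdmi_finite_beta N ℓ)

/-- `F_{Nℓ}` is finite over `α(F_N)` -/
theorem esd_finite_alpha :
    FiniteAlong (AlgebraicClosure ℚ) (heckeAlphaBar (AlgebraicClosure ℚ) N ℓ) := by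
  exact esdmi_finite_alpha N ℓ

/-- `F_{Nℓ}` is finite over `β(F_N)` -/
theorem esd_finite_beta :
    FiniteAlong (AlgebraicClosure ℚ) (heckeBetaBar (AlgebraicClosure ℚ) N ℓ) := by
  exact esdmi_finite_beta N ℓ

end Fermat.Agent.S37L
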