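import Mathlib
import Fermat.Agent.S37L.EsdGen
import Fermat.Agent.S37L.EsdModInt

/-!
# S37, block D (helper6): the Hecke inputs `HeckeInputsAlong ℚ̄ N ℓ` and the Dedekind half of the
Eichler–Shimura relation on divisors

* `esd_heckeInputs`: all inputs of the Prelude's Hecke operator hold, hence
  `heckeOperatorAlong ℚ̄ N ℓ` is the genuine correspondence `α_* ∘ β^*`;
* `esd_heckeDiv_single`: `T_ℓ P = Σ_{w | P via β} e_β(w) · (w ∘ α)`;
* `esd_heckeOperator_mk`: the operator on classes;
* `esd_fibre_poly_beta`: the characteristic polynomial of `x ∈ F_{Nℓ}` over `β(F_N)`, evaluated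
  at `P`, is `∏_{w | P via β} (X - x(w)) ^ e_β(w)`.
-/

set_option autoImplicit false

open AlgebraicCurve ModularCurve
open scoped IntermediateField

namespace Fermat.Agent.S37L

/-- principal divisors on `X₀(M)` over `ℚ̄` -/
instance esdInstHPD (M : ℕ) [NeZero M] :
    HasPrincipalDivisors (AlgebraicClosure ℚ) ↥(modularFunctionFieldBar M) :=
  esd_hasPrincipalDivisors (esd_ff_bar M)

variable (N ℓ : ℕ) [NeZero N] [NeZero ℓ]

/-- the fundamental identity along `β` -/
theorem esd_fundamentalIdentity_beta :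
    FundamentalIdentityAlong (AlgebraicClosure ℚ) (heckeBetaBar (AlgebraicClosure ℚ) N ℓ)
      (esd_beta_integral N ℓ) := by
  letI := algebraAlong (heckeBetaBar (AlgebraicClosure ℚ) N ℓ)
  haveI := isScalarTower_along (heckeBetaBar (AlgebraicClosure ℚ) N ℓ)
  haveI := isIntegral_along (heckeBetaBar (AlgebraicClosure ℚ) N ℓ) (esd_beta_integral N ℓ)
  haveI : Module.Finite ↥(modularFunctionFieldBar N) ↥(modularFunctionFieldBar (N * ℓ)) :=
    esd_finite_beta N ℓ
  exact esd_fundamentalIdentity (esd_ff_bar N) (esd_ff_bar (N * ℓ))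

/-- the norm formula along `α` -/
theorem esd_normFormula_alpha :
    NormFormulaAlong (AlgebraicClosure ℚ) (heckeAlphaBar (AlgebraicClosure ℚ) N ℓ)
      (esd_finite_alpha N ℓ) := by
  letI := algebraAlong (heckeAlphaBar (AlgebraicClosure ℚ) N ℓ)
  haveI := isScalarTower_along (heckeAlphaBar (AlgebraicClosure ℚ) N ℓ)
  haveI := isIntegral_along (heckeAlphaBar (AlgebraicClosure ℚ) N ℓ) (esd_alpha_integral N ℓ)
  haveI : Module.Finite ↥(modularFunctionFieldBar N) ↥(modularFunctionFieldBar (N * ℓ)) :=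
    esd_finite_alpha N ℓ
  exact esd_normFormula (esd_ff_bar N) (esd_ff_bar (N * ℓ))

/-- **D1**: the inputs of the Prelude's Hecke operator -/
theorem esd_heckeInputs : HeckeInputsAlong (AlgebraicClosure ℚ) N ℓ :=
  ⟨esd_alpha_integral N ℓ, esd_beta_integral N ℓ, esdInstHPD (N * ℓ), esd_finite_alpha N ℓ,
    esd_fundamentalIdentity_beta N ℓ, esd_normFormula_alpha N ℓ⟩

/-- the Hecke operator is the genuine correspondence -/
theorem esd_heckeOperator_eq :
    heckeOperatorAlong (AlgebraicClosure ℚ) N ℓ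
      = heckePic0Bar (esd_alpha_integral N ℓ) (esd_beta_integral N ℓ)
          (esd_fundamentalIdentity_beta N ℓ) (esd_finite_alpha N ℓ) (esd_normFormula_alpha N ℓ) :=
  heckeOperatorAlong_eq _ _ _ _ _

/-- the Hecke operator on the class of a divisor of degree zero -/
theorem esd_heckeOperator_mk
    (D : Divisor.degZero (K := AlgebraicClosure ℚ) (F := ↥(modularFunctionFieldBar N))) :
    ∃ hD' : heckeDivBar (esd_alpha_integral N ℓ) (esd_beta_integral N ℓ)
        (D : Divisor (AlgebraicClosure ℚ) ↥(modularFunctionFieldBar N))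
          ∈ Divisor.degZero (K := AlgebraicClosure ℚ) (F := ↥(modularFunctionFieldBar N)),
      heckeOperatorAlong (AlgebraicClosure ℚ) N ℓ (Pic0.mk D)
        = Pic0.mk ⟨heckeDivBar (esd_alpha_integral N ℓ) (esd_beta_integral N ℓ)
            (D : Divisor (AlgebraicClosure ℚ) ↥(modularFunctionFieldBar N)), hD'⟩ := by
  rw [esd_heckeOperator_eq]
  exact ⟨(Pic0.degZeroCorrespondence (heckeBetaBar (AlgebraicClosure ℚ) N ℓ)
    (heckeAlphaBar (AlgebraicClosure ℚ) N ℓ) (esd_beta_integral N ℓ) (esd_alpha_integral N ℓ)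
    (esd_fundamentalIdentity_beta N ℓ) D).2, rfl⟩

/-- `T_ℓ P = Σ_{w | P via β} e_β(w) · (w ∘ α)` -/
theorem esd_heckeDiv_single (P : Place (AlgebraicClosure ℚ) ↥(modularFunctionFieldBar N)) (n : ℤ) :
    heckeDivBar (esd_alpha_integral N ℓ) (esd_beta_integral N ℓ) (Finsupp.single P n)
      = ∑ w ∈ Place.fiberAlong (heckeBetaBar (AlgebraicClosure ℚ) N ℓ) (esd_beta_integral N ℓ) P,
          Finsupp.single
            (w.restrictAlong (heckeAlphaBar (AlgebraicClosure ℚ) N ℓ) (esd_alpha_integral N ℓ))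
            (n * (w.ramificationIndexAlong (heckeBetaBar (AlgebraicClosure ℚ) N ℓ) : ℤ)) := by
  have hin : ∀ w : Place (AlgebraicClosure ℚ) ↥(modularFunctionFieldBar (N * ℓ)),
      w.inertiaDegAlong (heckeAlphaBar (AlgebraicClosure ℚ) N ℓ) (esd_alpha_integral N ℓ) = 1 := by
    intro w
    letI := algebraAlong (heckeAlphaBar (AlgebraicClosure ℚ) N ℓ)
    haveI := isScalarTower_along (heckeAlphaBar (AlgebraicClosure ℚ) N ℓ)
    haveI := isIntegral_along (heckeAlphaBar (AlgebraicClosure ℚ) N ℓ) (esd_alpha_integral N ℓ)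
    exact esd_inertiaDeg_eq_one (esd_ff_bar N) (esd_ff_bar (N * ℓ)) w
  show Divisor.pushforwardAlong (heckeAlphaBar (AlgebraicClosure ℚ) N ℓ) (esd_alpha_integral N ℓ)
    (Divisor.pullbackAlong (heckeBetaBar (AlgebraicClosure ℚ) N ℓ) (esd_beta_integral N ℓ)
      (Finsupp.single P n)) = _
  rw [Divisor.pullbackAlong_single, map_sum]
  refine Finset.sum_congr rfl fun w _ => ?_
  rw [Divisor.pushforwardAlong_single, hin w, Nat.cast_one, mul_one]

/-- **D2, fibre polynomial along `β`**: for `x ∈ F_{Nℓ}` without poles above `P` (via `β`), the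
characteristic polynomial of `x` over `β(F_N)` (coefficients read in `F_N`) has coefficients
regular at `P` and its value at `P` is `∏_{w | P via β} (X - x(w)) ^ e_β(w)`.
Values in `ℚ̄`: `a w = x(w)` means `x = a w ∨ 0 < ord_w (x - a w)`. -/
theorem esd_fibre_poly_beta (P : Place (AlgebraicClosure ℚ) ↥(modularFunctionFieldBar N))
    (x : ↥(modularFunctionFieldBar (N * ℓ)))
    (hx : ∀ w ∈ Place.fiberAlong (heckeBetaBar (AlgebraicClosure ℚ) N ℓ)
      (esd_beta_integral N ℓ) P, 0 ≤ w.ord x) :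
    ∃ (a : Place (AlgebraicClosure ℚ) ↥(modularFunctionFieldBar (N * ℓ)) → AlgebraicClosure ℚ)
      (q : Polynomial (AlgebraicClosure ℚ)),
      (∀ w ∈ Place.fiberAlong (heckeBetaBar (AlgebraicClosure ℚ) N ℓ) (esd_beta_integral N ℓ) P,
        x = algebraMap (AlgebraicClosure ℚ) ↥(modularFunctionFieldBar (N * ℓ)) (a w) ∨
          0 < w.ord (x - algebraMap (AlgebraicClosure ℚ) ↥(modularFunctionFieldBar (N * ℓ)) (a w))) ∧
      (∀ i : ℕ,
        (esdCharpolyAlong (heckeBetaBar (AlgebraicClosure ℚ) N ℓ) (esd_finite_beta N ℓ) x).coeff i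
            = algebraMap (AlgebraicClosure ℚ) ↥(modularFunctionFieldBar N) (q.coeff i) ∨
          0 < P.ord
            ((esdCharpolyAlong (heckeBetaBar (AlgebraicClosure ℚ) N ℓ)
                (esd_finite_beta N ℓ) x).coeff i
              - algebraMap (AlgebraicClosure ℚ) ↥(modularFunctionFieldBar N) (q.coeff i))) ∧
      q = ∏ w ∈ Place.fiberAlong (heckeBetaBar (AlgebraicClosure ℚ) N ℓ) (esd_beta_integral N ℓ) P,
          (Polynomial.X - Polynomial.C (a w))
            ^ (w.ramificationIndexAlong (heckeBetaBar (AlgebraicClosure ℚ) N ℓ)) := by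
  letI := algebraAlong (heckeBetaBar (AlgebraicClosure ℚ) N ℓ)
  haveI := isScalarTower_along (heckeBetaBar (AlgebraicClosure ℚ) N ℓ)
  haveI := isIntegral_along (heckeBetaBar (AlgebraicClosure ℚ) N ℓ) (esd_beta_integral N ℓ)
  haveI : Module.Finite ↥(modularFunctionFieldBar N) ↥(modularFunctionFieldBar (N * ℓ)) :=
    esd_finite_beta N ℓ
  exact esd_fibre_charpoly (esd_ff_bar N) (esd_ff_bar (N * ℓ)) P x hx

end Fermat.Agent.S37L
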