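import Mathlib
import Fermat.Agent.S37L.EsFDefs
import Fermat.Agent.S37L.EsFVal
import Fermat.Agent.S37L.EsdMod
import Fermat.Agent.S28L.ModPoly

/-!
# S37, block F, leaf L3: Hecke neighbours have the same type

For a place `W` of `F_{Nℓ}`: `j` has a value in `A` at `W ∘ α` iff it has one at `W ∘ β`
(`Φ_ℓ(j(q), j(q^ℓ)) = 0 = Φ_ℓ(j(q^ℓ), j(q))`, `Φ_ℓ` monic with integer coefficients, from
`Fermat.Agent.S28L.exists_modPoly`).
-/

set_option autoImplicit false
set_option synthInstance.maxHeartbeats 400000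

open ModularCurve AlgebraicCurve HahnSeries

namespace Fermat.Agent.S37L

open Fermat.Agent.S18L

section esfcl175

variable {K F : Type*} [Field K] [Field F] [Algebra K F] (W : Place K F)

/-- values of finite sums -/
theorem esfcl175_val_sum {ι : Type*} (s : Finset ι) (f : ι → F) (g : ι → K)
    (h : ∀ i ∈ s, EsfVal W (f i) (g i)) : EsfVal W (∑ i ∈ s, f i) (∑ i ∈ s, g i) := by
  classical
  induction s using Finset.induction_on with
  | empty =>
    rw [Finset.sum_empty, Finset.sum_empty]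
    have h0 := esf_val_const W (0 : K)
    rwa [map_zero] at h0
  | insert a s ha ih =>
    rw [Finset.sum_insert ha, Finset.sum_insert ha]
    exact esf_val_add W (h a (Finset.mem_insert_self a s))
      (ih fun i hi => h i (Finset.mem_insert_of_mem hi))

/-- value of an integer polynomial at a function with a value -/
theorem esfcl175_val_eval₂ (q : Polynomial ℤ) {y : F} {c : K} (hy : EsfVal W y c) :
    EsfVal W (q.eval₂ (Int.castRingHom F) y) (q.eval₂ (Int.castRingHom K) c) := by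
  rw [Polynomial.eval₂_eq_sum_range, Polynomial.eval₂_eq_sum_range]
  refine esfcl175_val_sum W _ _ _ fun i _ => ?_
  refine esf_val_mul W ?_ (esf_val_pow W hy i)
  have h0 := esf_val_const W ((q.coeff i : ℤ) : K)
  rw [map_intCast] at h0
  rw [eq_intCast, eq_intCast]
  exact h0

/-- value of `Φ(x, y)` -/
theorem esfcl175_val_ev2 (Φ : Polynomial (Polynomial ℤ)) {x y : F} {a c : K}
    (hx : EsfVal W x a) (hy : EsfVal W y c) :
    EsfVal W ((Fermat.Agent.S28L.ev2 Φ y).eval x) ((Fermat.Agent.S28L.ev2 Φ c).eval a) := by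
  rw [Polynomial.eval_eq_sum_range' (Nat.lt_succ_of_le (Fermat.Agent.S28L.ev2_natDegree_le Φ y)),
    Polynomial.eval_eq_sum_range' (Nat.lt_succ_of_le (Fermat.Agent.S28L.ev2_natDegree_le Φ c))]
  refine esfcl175_val_sum W _ _ _ fun i _ => ?_
  rw [Fermat.Agent.S28L.ev2_coeff, Fermat.Agent.S28L.ev2_coeff]
  exact esf_val_mul W (esfcl175_val_eval₂ W _ hy) (esf_val_pow W hx i)

/-- a root of `Φ(X, y)`, `Φ` monic, `y` in a valuation subring, lies in the valuation subring -/
theorem esfcl175_mem {L : Type*} [Field L] (O : ValuationSubring L)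
    (Φ : Polynomial (Polynomial ℤ)) (hΦ : Φ.Monic) (y : O) (x : L)
    (h : (Fermat.Agent.S28L.ev2 Φ (y : L)).eval x = 0) : x ∈ O := by
  have hint : IsIntegral O x := by
    refine ⟨Fermat.Agent.S28L.ev2 Φ y, Fermat.Agent.S28L.ev2_monic hΦ y, ?_⟩
    rw [Polynomial.eval₂_eq_eval_map, Fermat.Agent.S28L.ev2_map]
    exact h
  obtain ⟨z, hz⟩ := IsIntegrallyClosed.isIntegral_iff.mp hint
  rw [← hz]
  exact z.2

/-- if `Φ(x, y) = 0` with `Φ` monic in `x` and `y` has a value in `A`, then so has `x` -/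
theorem esfcl175_key (hdeg : W.deg = 1) (A : ValuationSubring K)
    (Φ : Polynomial (Polynomial ℤ)) (hΦ : Φ.Monic) (x y : F)
    (hxy : (Fermat.Agent.S28L.ev2 Φ y).eval x = 0) (c : A) (hy : EsfVal W y (c : K)) :
    ∃ a : A, EsfVal W x (a : K) := by
  have hy0 : y ∈ W.toValuationSubring := by
    rcases eq_or_ne y 0 with rfl | hne
    · exact zero_mem _
    · exact (Fermat.Agent.X0S24.PlaceRes.mem_iff_ord_nonneg W hne).mpr (esf_val_nonneg W hy)
  have hx0 : x ∈ W.toValuationSubring :=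
    esfcl175_mem W.toValuationSubring Φ hΦ ⟨y, hy0⟩ x hxy
  have hx1 : 0 ≤ W.ord x := by
    rcases eq_or_ne x 0 with rfl | hne
    · rw [W.ord_zero]
    · exact (Fermat.Agent.X0S24.PlaceRes.mem_iff_ord_nonneg W hne).mp hx0
  obtain ⟨a, ha⟩ := esf_val_exists W hdeg hx1
  have hv := esfcl175_val_ev2 W Φ ha hy
  rw [hxy] at hv
  have h0 := esf_val_const W (0 : K)
  rw [map_zero] at h0
  have hroot : (Fermat.Agent.S28L.ev2 Φ (c : K)).eval a = 0 := esf_val_unique W hv h0
  exact ⟨⟨a, esfcl175_mem A Φ hΦ c a hroot⟩, ha⟩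

end esfcl175

/-- transport of values along a restriction of places -/
theorem esfcl175_transport {K F F' : Type*} [Field K] [Field F] [Field F'] [Algebra K F]
    [Algebra K F'] (φ : F →ₐ[K] F') (hφ : φ.toRingHom.IsIntegral) (W : Place K F') (f : F)
    (c : K) : EsfVal (W.restrictAlong φ hφ) f c ↔ EsfVal W (φ f) c := by
  have hpos : 0 < Place.ramificationIndexAlong φ W := by
    let := algebraAlong φ
    have := isIntegral_along φ hφ
    exact W.ramificationIndex_pos (F := F)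
  have hord := Place.ord_restrictAlong φ hφ W (f - algebraMap K F c)
  rw [map_sub, AlgHom.commutes] at hord
  have hposZ : (0 : ℤ) < (Place.ramificationIndexAlong φ W : ℤ) := Int.natCast_pos.mpr hpos
  unfold EsfVal
  constructor
  · rintro (h | h)
    · left
      rw [h, AlgHom.commutes]
    · right
      rw [hord]
      exact mul_pos hposZ h
  · rintro (h | h)
    · left
      exact φ.toRingHom.injective (h.trans (φ.commutes c).symm)
    · right
      rw [hord] at h
      exact (mul_pos_iff_of_pos_left hposZ).mp h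

theorem esf_cl (N ℓ : ℕ) [NeZero N] [NeZero ℓ] (hℓ : ℓ.Prime)
    (A : ValuationSubring (AlgebraicClosure ℚ))
    (hα : HeckeAlphaBarIntegral (AlgebraicClosure ℚ) N ℓ)
    (hβ : HeckeBetaBarIntegral (AlgebraicClosure ℚ) N ℓ)
    (W : Place (AlgebraicClosure ℚ) ↥(modularFunctionFieldBar (N * ℓ))) :
    EsfFin N A (W.restrictAlong (heckeAlphaBar (AlgebraicClosure ℚ) N ℓ) hα)
      ↔ EsfFin N A (W.restrictAlong (heckeBetaBar (AlgebraicClosure ℚ) N ℓ) hβ) := by
  have : Fact ℓ.Prime := ⟨hℓ⟩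
  obtain ⟨Φ, hΦ, -, hspec⟩ := Fermat.Agent.S28L.exists_modPoly ℓ
  -- a primitive `ℓ`-th root of unity
  obtain ⟨z, hz⟩ := HasEnoughRootsOfUnity.exists_primitiveRoot (AlgebraicClosure ℚ) ℓ
  have hz0 : z ≠ 0 := hz.ne_zero hℓ.ne_zero
  have hζ : (∑ i ∈ Finset.range ℓ,
      (((Units.mk0 z hz0) ^ i : (AlgebraicClosure ℚ)ˣ) : AlgebraicClosure ℚ)) = 0 := by
    simp only [Units.val_pow_eq_pow_val, Units.val_mk0]
    exact hz.geom_sum_eq_zero hℓ.one_lt
  have hsp := hspec (AlgebraicClosure ℚ) (Units.mk0 z hz0) hζ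
  -- the two modular relations between `j(q)` and `j(q^ℓ)`
  have h1 : (Fermat.Agent.S28L.ev2 Φ
      (qExpand (AlgebraicClosure ℚ) ℓ (jqModC (AlgebraicClosure ℚ)))).eval
        (jqModC (AlgebraicClosure ℚ)) = 0 := by
    rw [hsp, Polynomial.eval_mul, Polynomial.eval_prod,
      Finset.prod_eq_zero (Finset.mem_range.mpr hℓ.pos)
        (by rw [pow_zero, Fermat.Agent.S28L.tw_one_unit, Polynomial.eval_sub, Polynomial.eval_X,
          Polynomial.eval_C, sub_self]), mul_zero]
  have h2 : (Fermat.Agent.S28L.ev2 Φ (jqModC (AlgebraicClosure ℚ))).eval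
      (qExpand (AlgebraicClosure ℚ) ℓ (jqModC (AlgebraicClosure ℚ))) = 0 := by
    apply qExpand_injective (R := AlgebraicClosure ℚ) ℓ
    rw [map_zero, ← Polynomial.eval₂_at_apply, ← Polynomial.eval_map,
      Fermat.Agent.S28L.ev2_map, qExpand_qExpand, hsp, Polynomial.eval_mul, Polynomial.eval_sub,
      Polynomial.eval_X, Polynomial.eval_C, sub_self, zero_mul]
  -- the same relations in `F_{Nℓ}`
  have hj : ((Fermat.Agent.X0S24.Embed.jbar N : ↥(modularFunctionFieldBar N)) :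
      LaurentSeries (AlgebraicClosure ℚ)) = jqModC (AlgebraicClosure ℚ) := by
    rw [Fermat.Agent.X0S24.Embed.coe_jbar, coeffEmb, ← jqModC_rat, coeffMap_jqModC]
  have hinj : Function.Injective (algebraMap ↥(modularFunctionFieldBar (N * ℓ))
      (LaurentSeries (AlgebraicClosure ℚ))) := fun a b hab => Subtype.ext hab
  have e1 : algebraMap ↥(modularFunctionFieldBar (N * ℓ)) (LaurentSeries (AlgebraicClosure ℚ))
      (heckeBetaBar (AlgebraicClosure ℚ) N ℓ (Fermat.Agent.X0S24.Embed.jbar N))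
      = qExpand (AlgebraicClosure ℚ) ℓ (jqModC (AlgebraicClosure ℚ)) := by
    rw [← hj]
    rfl
  have e2 : algebraMap ↥(modularFunctionFieldBar (N * ℓ)) (LaurentSeries (AlgebraicClosure ℚ))
      (heckeAlphaBar (AlgebraicClosure ℚ) N ℓ (Fermat.Agent.X0S24.Embed.jbar N))
      = jqModC (AlgebraicClosure ℚ) := by
    rw [← hj]
    rfl
  have hxy : (Fermat.Agent.S28L.ev2 Φ
      (heckeBetaBar (AlgebraicClosure ℚ) N ℓ (Fermat.Agent.X0S24.Embed.jbar N))).eval
        (heckeAlphaBar (AlgebraicClosure ℚ) N ℓ (Fermat.Agent.X0S24.Embed.jbar N)) = 0 := by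
    apply hinj
    rw [map_zero, ← Polynomial.eval₂_at_apply, ← Polynomial.eval_map,
      Fermat.Agent.S28L.ev2_map, e1, e2]
    exact h1
  have hyx : (Fermat.Agent.S28L.ev2 Φ
      (heckeAlphaBar (AlgebraicClosure ℚ) N ℓ (Fermat.Agent.X0S24.Embed.jbar N))).eval
        (heckeBetaBar (AlgebraicClosure ℚ) N ℓ (Fermat.Agent.X0S24.Embed.jbar N)) = 0 := by
    apply hinj
    rw [map_zero, ← Polynomial.eval₂_at_apply, ← Polynomial.eval_map,
      Fermat.Agent.S28L.ev2_map, e1, e2]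
    exact h2
  have hdeg : W.deg = 1 := esd_deg_eq_one (esd_ff_bar (N * ℓ)) W
  constructor
  · rintro ⟨a, ha⟩
    have ha' := (esfcl175_transport (heckeAlphaBar (AlgebraicClosure ℚ) N ℓ) hα W
      (Fermat.Agent.X0S24.Embed.jbar N) (a : AlgebraicClosure ℚ)).mp ha
    obtain ⟨c, hc⟩ := esfcl175_key W hdeg A Φ hΦ _ _ hyx a ha'
    exact ⟨c, (esfcl175_transport (heckeBetaBar (AlgebraicClosure ℚ) N ℓ) hβ W
      (Fermat.Agent.X0S24.Embed.jbar N) (c : AlgebraicClosure ℚ)).mpr hc⟩
  · rintro ⟨c, hc⟩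
    have hc' := (esfcl175_transport (heckeBetaBar (AlgebraicClosure ℚ) N ℓ) hβ W
      (Fermat.Agent.X0S24.Embed.jbar N) (c : AlgebraicClosure ℚ)).mp hc
    obtain ⟨a, ha⟩ := esfcl175_key W hdeg A Φ hΦ _ _ hxy c hc'
    exact ⟨a, (esfcl175_transport (heckeAlphaBar (AlgebraicClosure ℚ) N ℓ) hα W
      (Fermat.Agent.X0S24.Embed.jbar N) (a : AlgebraicClosure ℚ)).mpr ha⟩

end Fermat.Agent.S37L
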