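import Mathlib
import Fermat.Agent.S37L.EsFDefs
import Fermat.Agent.S18L.AsmBar
import Fermat.Agent.S18L.AsmRes
import Fermat.Agent.X0S24.PlaceRes

/-!
# S37, block F, leaf L2: conservation and evaluation for integral functions

`r` is an arbitrary place reduction (`IsPlaceReductionModL A N r`).

* `esf_cons`   : `r_* (div u) = div (red u)` for `u ∈ asmO A N` with nonzero reduction.
* `esf_ev_val` : if `u ∈ asmO A N` has the value `c` at `P` and no pole of `u` has the same
                 reduction as `P`, then `c ∈ A` and `red u` has the value `c̄` at `r P`.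
* `esf_ev_reg` : if no pole of `u` reduces to `Q`, then `red u` is regular at `Q`.
-/

set_option autoImplicit false
set_option synthInstance.maxHeartbeats 400000

open ModularCurve AlgebraicCurve HahnSeries

namespace Fermat.Agent.S37L

open Fermat.Agent.S18L

/-- the value of a push-forward at a point -/
theorem esfc_mapDomain_apply {X Y : Type*} [DecidableEq Y] (r : X → Y) (D : X →₀ ℤ) (q : Y) :
    Finsupp.mapDomain r D q = ∑ a ∈ D.support, if r a = q then D a else 0 := by
  rw [Finsupp.mapDomain, Finsupp.sum, Finsupp.finsetSum_apply]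
  refine Finset.sum_congr rfl fun a _ => ?_
  rw [Finsupp.single_apply]

/-- a push-forward is nonnegative at a point which is not the image of a negative point -/
theorem esfc_mapDomain_nonneg_at {X Y : Type*} (r : X → Y) (D : X →₀ ℤ) (q : Y)
    (h : ∀ a, D a < 0 → r a ≠ q) : 0 ≤ Finsupp.mapDomain r D q := by
  classical
  rw [esfc_mapDomain_apply]
  refine Finset.sum_nonneg fun a _ => ?_
  split_ifs with ha
  · by_contra hneg
    exact h a (not_le.mp hneg) ha
  · exact le_rfl

/-- a push-forward dominates the value at a point whose fibre contains no negative point -/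
theorem esfc_le_mapDomain_at {X Y : Type*} (r : X → Y) (D : X →₀ ℤ) (p : X)
    (h : ∀ a, D a < 0 → r a ≠ r p) : D p ≤ Finsupp.mapDomain r D (r p) := by
  classical
  rw [esfc_mapDomain_apply]
  have hnn : ∀ a ∈ D.support, 0 ≤ (if r a = r p then D a else 0) := by
    intro a _
    split_ifs with ha
    · by_contra hneg
      exact h a (not_le.mp hneg) ha
    · exact le_rfl
  by_cases hp : p ∈ D.support
  · have := Finset.single_le_sum hnn hp
    rwa [if_pos rfl] at this
  · rw [Finsupp.notMem_support_iff.mp hp]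
    exact Finset.sum_nonneg hnn

/-- the order of a negative -/
theorem esfc_ord_neg {K F : Type*} [Field K] [Field F] [Algebra K F] (P : Place K F) (x : F) :
    P.ord (-x) = P.ord x := by
  by_cases hx : x = 0
  · rw [hx, neg_zero]
  have h1 : (-x) = algebraMap K F (-1) * x := by
    rw [map_neg, map_one, neg_one_mul]
  have hm1 : algebraMap K F (-1) ≠ 0 := by
    rw [map_neg, map_one]
    exact neg_ne_zero.mpr one_ne_zero
  rw [h1, P.ord_mul hm1 hx, Fermat.Agent.X0S24.PlaceRes.ord_algebraMap P
    (neg_ne_zero.mpr one_ne_zero), zero_add]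

/-- the poles of `x - c` are poles of `x` -/
theorem esfc_ord_sub_const {K F : Type*} [Field K] [Field F] [Algebra K F] (P : Place K F)
    (x : F) (d : K) (h : P.ord (x - algebraMap K F d) < 0) : P.ord x < 0 := by
  by_contra hnn
  push Not at hnn
  by_cases hd : d = 0
  · rw [hd, map_zero, sub_zero] at h
    omega
  have hd' : algebraMap K F d ≠ 0 := by simpa using hd
  by_cases hx : x = 0
  · rw [hx, zero_sub, esfc_ord_neg, Fermat.Agent.X0S24.PlaceRes.ord_algebraMap P hd] at h
    exact lt_irrefl _ h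
  by_cases hxd : x - algebraMap K F d = 0
  · rw [hxd, Place.ord_zero] at h
    exact lt_irrefl _ h
  have h1 := Fermat.Agent.X0S24.PlaceRes.ord_add P hx (neg_ne_zero.mpr hd')
    (by rwa [← sub_eq_add_neg])
  rw [esfc_ord_neg, Fermat.Agent.X0S24.PlaceRes.ord_algebraMap P hd, ← sub_eq_add_neg] at h1
  have h2 : (0 : ℤ) ≤ min (P.ord x) 0 := le_min hnn le_rfl
  omega

variable (N : ℕ) [NeZero N] (A : ValuationSubring (AlgebraicClosure ℚ))
  (r : Place (AlgebraicClosure ℚ) ↥(modularFunctionFieldBar N) →
    Place (IsLocalRing.ResidueField A)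
      ↥(modularFunctionFieldFullC (IsLocalRing.ResidueField A) N))

/-- conservation for integral functions -/
theorem esf_cons (hr : IsPlaceReductionModL A N r) (u : asmO A N) (hu : asmRed A N u ≠ 0)
    (D : Divisor (AlgebraicClosure ℚ) ↥(modularFunctionFieldBar N))
    (hD : ∀ P, D P = P.ord (u : ↥(modularFunctionFieldBar N)))
    (Q : Place (IsLocalRing.ResidueField A)
      ↥(modularFunctionFieldFullC (IsLocalRing.ResidueField A) N)) :
    Finsupp.mapDomain r D Q = Q.ord (asmRed A N u) := by
  classical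
  obtain ⟨a, b, ha, hb, hb0, hab, hredab⟩ := exists_good_of_mem_asmO A N u
  have hρa : asmRho A a ≠ 0 := by
    intro h0
    rw [h0] at hredab
    have hred' : ((asmRed A N u :
        ↥(modularFunctionFieldFullC (IsLocalRing.ResidueField A) N)) :
        LaurentSeries (IsLocalRing.ResidueField A)) ≠ 0 := fun h => hu (Subtype.ext h)
    exact (mul_ne_zero hred' hb0) hredab
  have hιa : (⟨asmIota A a, ha.1⟩ : ↥(modularFunctionFieldBar N)) ≠ 0 := by
    intro h0
    have h1 : asmIota A a = 0 := congrArg Subtype.val h0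
    have h2 : a = 0 := asmIota_injective A (by rw [h1, map_zero])
    exact hρa (by rw [h2, map_zero])
  have hιb : (⟨asmIota A b, hb.1⟩ : ↥(modularFunctionFieldBar N)) ≠ 0 := by
    intro h0
    have h1 : asmIota A b = 0 := congrArg Subtype.val h0
    have h2 : b = 0 := asmIota_injective A (by rw [h1, map_zero])
    exact hb0 (by rw [h2, map_zero])
  have hgb : (⟨asmRho A b, hb.2⟩ :
      ↥(modularFunctionFieldFullC (IsLocalRing.ResidueField A) N)) ≠ 0 :=
    fun h0 => hb0 (congrArg Subtype.val h0)
  have hu0 : (u : ↥(modularFunctionFieldBar N)) ≠ 0 := by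
    intro h0
    have : u = 0 := Subtype.ext h0
    rw [this, map_zero] at hu
    exact hu rfl
  obtain ⟨Da, hDa⟩ : ∃ Da : Divisor (AlgebraicClosure ℚ) ↥(modularFunctionFieldBar N),
      ∀ P, Da P = P.ord (⟨asmIota A a, ha.1⟩ : ↥(modularFunctionFieldBar N)) :=
    ⟨Finsupp.ofSupportFinite _ (finite_support_bar N _ hιa), fun P => rfl⟩
  obtain ⟨Db, hDb⟩ : ∃ Db : Divisor (AlgebraicClosure ℚ) ↥(modularFunctionFieldBar N),
      ∀ P, Db P = P.ord (⟨asmIota A b, hb.1⟩ : ↥(modularFunctionFieldBar N)) :=
    ⟨Finsupp.ofSupportFinite _ (finite_support_bar N _ hιb), fun P => rfl⟩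
  have e1 : (u : ↥(modularFunctionFieldBar N)) * (⟨asmIota A b, hb.1⟩ :
      ↥(modularFunctionFieldBar N)) = ⟨asmIota A a, ha.1⟩ := Subtype.ext hab
  have e2 : asmRed A N u * (⟨asmRho A b, hb.2⟩ :
      ↥(modularFunctionFieldFullC (IsLocalRing.ResidueField A) N)) = ⟨asmRho A a, ha.2⟩ :=
    Subtype.ext hredab
  have hD' : D = Da - Db := by
    ext P
    rw [Finsupp.sub_apply, hD P, hDa P, hDb P]
    have := P.ord_mul hu0 hιb
    rw [e1] at this
    omega
  have cA := hr.2 a ha.1 ha.2 hρa Da hDa Q
  have cB := hr.2 b hb.1 hb.2 hb0 Db hDb Q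
  have h3 := Q.ord_mul hu hgb
  rw [e2] at h3
  rw [hD', Finsupp.mapDomain_sub, Finsupp.sub_apply, cA, cB]
  have h4 : Q.ord (⟨coeffMap (IsLocalRing.residue A) a, ha.2⟩ :
      ↥(modularFunctionFieldFullC (IsLocalRing.ResidueField A) N))
      = Q.ord (asmRed A N u) + Q.ord (⟨coeffMap (IsLocalRing.residue A) b, hb.2⟩ :
      ↥(modularFunctionFieldFullC (IsLocalRing.ResidueField A) N)) := h3
  omega

/-- the key inequality: a zero of `w` at `P` gives a zero of `red w` at `r P`, provided no
pole of `w` reduces to `r P` -/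
theorem esfc_key (hr : IsPlaceReductionModL A N r) (w : asmO A N) (hw : asmRed A N w ≠ 0)
    (P : Place (AlgebraicClosure ℚ) ↥(modularFunctionFieldBar N))
    (hpole : ∀ P' : Place (AlgebraicClosure ℚ) ↥(modularFunctionFieldBar N),
      P'.ord (w : ↥(modularFunctionFieldBar N)) < 0 → r P' ≠ r P)
    (hwP : 0 < P.ord (w : ↥(modularFunctionFieldBar N))) :
    0 < (r P).ord (asmRed A N w) := by
  classical
  have hw0 : (w : ↥(modularFunctionFieldBar N)) ≠ 0 := by
    intro h0
    have : w = 0 := Subtype.ext h0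
    rw [this, map_zero] at hw
    exact hw rfl
  obtain ⟨D, hD⟩ : ∃ D : Divisor (AlgebraicClosure ℚ) ↥(modularFunctionFieldBar N),
      ∀ P', D P' = P'.ord (w : ↥(modularFunctionFieldBar N)) :=
    ⟨Finsupp.ofSupportFinite _ (finite_support_bar N _ hw0), fun P' => rfl⟩
  rw [← esf_cons N A r hr w hw D hD (r P)]
  have h1 := esfc_le_mapDomain_at r D P (fun a ha => hpole a (by rwa [hD a] at ha))
  rw [hD P] at h1
  omega

/-- abstract form of the evaluation statement -/
theorem esfc_ev_abs {K F G : Type*} [Field K] [Field F] [Field G] [Algebra K F]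
    (B : ValuationSubring K) [Algebra (IsLocalRing.ResidueField B) G]
    (O : Subring F) (red : O →+* G)
    (r : Place K F → Place (IsLocalRing.ResidueField B) G)
    (hmem : ∀ c : K, algebraMap K F c ∈ O ↔ c ∈ B)
    (hred : ∀ (a : B) (h : algebraMap K F (a : K) ∈ O),
      red ⟨algebraMap K F (a : K), h⟩
        = algebraMap (IsLocalRing.ResidueField B) G (IsLocalRing.residue B a))
    (P : Place K F)
    (hkey : ∀ w : O, red w ≠ 0 → (∀ P' : Place K F, P'.ord (w : F) < 0 → r P' ≠ r P) →
      0 < P.ord (w : F) → 0 < (r P).ord (red w))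
    (u : O) (c : K)
    (hval : (u : F) = algebraMap K F c ∨ 0 < P.ord ((u : F) - algebraMap K F c))
    (hpole : ∀ P' : Place K F, P'.ord (u : F) < 0 → r P' ≠ r P) :
    ∃ hc : c ∈ B, red u = algebraMap (IsLocalRing.ResidueField B) G
        (IsLocalRing.residue B ⟨c, hc⟩)
      ∨ 0 < (r P).ord (red u - algebraMap (IsLocalRing.ResidueField B) G
        (IsLocalRing.residue B ⟨c, hc⟩)) := by
  classical
  have hcA : c ∈ B := by
    by_contra hcA
    rcases hval with huc | hordc
    · exact hcA ((hmem c).1 (huc ▸ u.2))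
    · have hc0 : c ≠ 0 := fun h => hcA (h ▸ B.zero_mem)
      have hcinv : c⁻¹ ∈ B := (B.mem_or_inv_mem c).resolve_left hcA
      have hnu : ¬ IsUnit (⟨c⁻¹, hcinv⟩ : B) := by
        intro hunit
        obtain ⟨b, hb⟩ := hunit.exists_right_inv
        apply hcA
        have h1 : c⁻¹ * (b : K) = 1 := by
          have := congrArg (fun x : B => (x : K)) hb
          simpa using this
        have h2 : (b : K) = c := by
          have h3 : c * (c⁻¹ * (b : K)) = c * 1 := by rw [h1]
          rw [← mul_assoc, mul_inv_cancel₀ hc0, one_mul, mul_one] at h3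
          exact h3
        rw [← h2]
        exact b.2
      have hmemc : algebraMap K F ((⟨c⁻¹, hcinv⟩ : B) : K) ∈ O := (hmem _).2 hcinv
      have hv0 : (u : F) - algebraMap K F c ≠ 0 := by
        intro h0
        rw [h0, Place.ord_zero] at hordc
        exact lt_irrefl _ hordc
      have hcinv0 : algebraMap K F c⁻¹ ≠ 0 := by
        simpa using hc0
      obtain ⟨w, hwdef⟩ : ∃ w : O, w = ⟨_, hmemc⟩ * u - 1 := ⟨_, rfl⟩
      have hredw : red w = -1 := by
        rw [hwdef, map_sub, map_mul, hred ⟨c⁻¹, hcinv⟩ hmemc,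
          (IsLocalRing.residue_eq_zero_iff _).2 hnu, map_zero, zero_mul, map_one, zero_sub]
      have hwF : (w : F) = algebraMap K F c⁻¹ * ((u : F) - algebraMap K F c) := by
        have h1 : (w : F) = algebraMap K F c⁻¹ * (u : F) - 1 := by
          rw [hwdef]
          rfl
        rw [h1, mul_sub, ← map_mul, inv_mul_cancel₀ hc0, map_one]
      have hordw : ∀ P' : Place K F, P'.ord (w : F) = P'.ord ((u : F) - algebraMap K F c) := by
        intro P'
        rw [hwF, P'.ord_mul hcinv0 hv0,
          Fermat.Agent.X0S24.PlaceRes.ord_algebraMap P' (inv_ne_zero hc0), zero_add]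
      have h4 := hkey w (by rw [hredw]; exact neg_ne_zero.mpr one_ne_zero)
        (fun P' h => hpole P' (esfc_ord_sub_const P' _ c (by rwa [hordw P'] at h)))
        (by rw [hordw P]; exact hordc)
      rw [hredw, esfc_ord_neg, Place.ord_one] at h4
      exact lt_irrefl _ h4
  refine ⟨hcA, ?_⟩
  by_cases h2 : red u = algebraMap (IsLocalRing.ResidueField B) G
      (IsLocalRing.residue B ⟨c, hcA⟩)
  · exact Or.inl h2
  refine Or.inr ?_
  have hmemc : algebraMap K F ((⟨c, hcA⟩ : B) : K) ∈ O := (hmem c).2 hcA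
  obtain ⟨w, hwdef⟩ : ∃ w : O, w = u - ⟨_, hmemc⟩ := ⟨_, rfl⟩
  have hredw : red w = red u - algebraMap (IsLocalRing.ResidueField B) G
      (IsLocalRing.residue B ⟨c, hcA⟩) := by
    rw [hwdef, map_sub, hred ⟨c, hcA⟩ hmemc]
  have hredw0 : red w ≠ 0 := by
    rw [hredw]
    exact sub_ne_zero.mpr h2
  have hwF : (w : F) = (u : F) - algebraMap K F c := by
    rw [hwdef]
    rfl
  have huc : (u : F) ≠ algebraMap K F c := by
    intro h
    apply hredw0
    have : w = 0 := Subtype.ext (by rw [hwF, h, sub_self]; rfl)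
    rw [this, map_zero]
  have h4 := hkey w hredw0
    (fun P' h => hpole P' (esfc_ord_sub_const P' _ c (by rwa [hwF] at h)))
    (by rw [hwF]; exact hval.resolve_left huc)
  rw [hredw] at h4
  exact h4

/-- evaluation commutes with reduction, away from the reductions of the poles -/
theorem esf_ev_val (hr : IsPlaceReductionModL A N r) (u : asmO A N)
    (P : Place (AlgebraicClosure ℚ) ↥(modularFunctionFieldBar N)) (c : AlgebraicClosure ℚ)
    (hval : EsfVal P (u : ↥(modularFunctionFieldBar N)) c)
    (hpole : ∀ P' : Place (AlgebraicClosure ℚ) ↥(modularFunctionFieldBar N),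
      P'.ord (u : ↥(modularFunctionFieldBar N)) < 0 → r P' ≠ r P) :
    ∃ hc : c ∈ A, EsfVal (r P) (asmRed A N u) (IsLocalRing.residue A ⟨c, hc⟩) :=
  esfc_ev_abs A (asmO A N) (asmRed A N) r (algebraMap_mem_asmO A N)
    (fun a h => asmRed_algebraMap A N a h) P
    (fun w hw hp hwP => esfc_key N A r hr w hw P hp hwP) u c hval hpole

/-- the reduction is regular away from the reductions of the poles -/
theorem esf_ev_reg (hr : IsPlaceReductionModL A N r) (u : asmO A N)
    (Q : Place (IsLocalRing.ResidueField A)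
      ↥(modularFunctionFieldFullC (IsLocalRing.ResidueField A) N))
    (hpole : ∀ P' : Place (AlgebraicClosure ℚ) ↥(modularFunctionFieldBar N),
      P'.ord (u : ↥(modularFunctionFieldBar N)) < 0 → r P' ≠ Q) :
    0 ≤ Q.ord (asmRed A N u) := by
  classical
  by_cases hu : asmRed A N u = 0
  · rw [hu, Place.ord_zero]
  have hu0 : (u : ↥(modularFunctionFieldBar N)) ≠ 0 := by
    intro h0
    have : u = 0 := Subtype.ext h0
    rw [this, map_zero] at hu
    exact hu rfl
  obtain ⟨D, hD⟩ : ∃ D : Divisor (AlgebraicClosure ℚ) ↥(modularFunctionFieldBar N),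
      ∀ P', D P' = P'.ord (u : ↥(modularFunctionFieldBar N)) :=
    ⟨Finsupp.ofSupportFinite _ (finite_support_bar N _ hu0), fun P' => rfl⟩
  rw [← esf_cons N A r hr u hu D hD Q]
  exact esfc_mapDomain_nonneg_at r D Q (fun a ha => hpole a (by rwa [hD a] at ha))

end Fermat.Agent.S37L
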