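import Mathlib
import Fermat.Agent.S18L.InjBasic
import Fermat.Agent.S18L.InjRiemann

/-!
# S37, block EV/SEP (owner helper5): uniqueness of the place reduction, abstract form

Let `G` be a reduction datum with orthonormal bases between two abstract curves `C`, `Cb`, and
`t` a chart with (NE) and (GE) (the output of `inst_exists_param`).  Two maps `r₁ r₂ : X → Y`
which both carry the divisor of every integral function with nonzero reduction to the divisor
of its reduction are equal.

Proof: (NE), (GE), orthonormal bases and Riemann's theorem give `deg (t)_∞ = deg (t̄)_∞` and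
equality of the genera; conservation for `t` then gives `r_* (t)_∞ = (t̄)_∞` for both maps; if
`r₁ P ≠ r₂ P` the reductions of the integral functions of `L(s (t)_∞ - P)` lie in
`L(s (t̄)_∞ - r₁ P - r₂ P)`, of dimension one less: contradiction with orthonormal bases.
-/

set_option autoImplicit false

namespace Fermat.Agent.S37L

open Fermat.Agent.RRL Fermat.Agent.S18L

variable {K F X k Fb Y : Type*} [Field K] [Field F] [Algebra K F] [Field k] [Field Fb]
  [Algebra k Fb]

/-- a nonnegative divisor of degree zero is zero -/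
theorem evabs_eq_zero_of_nonneg_of_deg {E : Y →₀ ℤ} (hE : ∀ q, 0 ≤ E q)
    (hdeg : PreCurve.deg E = 0) : E = 0 := by
  classical
  ext p
  by_cases hp : p ∈ E.support
  · unfold PreCurve.deg Finsupp.sum at hdeg
    exact (Finset.sum_eq_zero_iff_of_nonneg (fun i _ => hE i)).mp hdeg p hp
  · simpa using hp

/-- conservation for the chart and equality of degrees give `r_* (t)_∞ = (t̄)_∞` -/
theorem evabs_mapDomain_poleDiv (G : RedDatum K F k Fb) (C : Curve K F X) (Cb : Curve k Fb Y)
    (t : G.O) (htb0 : G.red t ≠ 0)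
    (hdeg : PreCurve.deg (C.toPreCurve.poleDiv (t : F))
      = PreCurve.deg (Cb.toPreCurve.poleDiv (G.red t)))
    (r : X → Y)
    (hr : ∀ u : G.O, G.red u ≠ 0 →
      Finsupp.mapDomain r (C.toPreCurve.div (u : F)) = Cb.toPreCurve.div (G.red u)) :
    Finsupp.mapDomain r (C.toPreCurve.poleDiv (t : F)) = Cb.toPreCurve.poleDiv (G.red t) := by
  classical
  have h1 := hr t htb0
  rw [C.toPreCurve.div_eq_zeroDiv_sub_poleDiv, Cb.toPreCurve.div_eq_zeroDiv_sub_poleDiv,
    Finsupp.mapDomain_sub] at h1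
  have hH := mapDomain_nonneg r (C.toPreCurve.poleDiv_nonneg (t : F))
  have hZ := mapDomain_nonneg r (C.toPreCurve.zeroDiv_nonneg (t : F))
  have key : Finsupp.mapDomain r (C.toPreCurve.poleDiv (t : F))
      - Cb.toPreCurve.poleDiv (G.red t) = 0 := by
    apply evabs_eq_zero_of_nonneg_of_deg
    · intro q
      have e1 := DFunLike.congr_fun h1 q
      rw [Finsupp.sub_apply, Finsupp.sub_apply] at e1
      have e2 := hH q
      have e3 := hZ q
      rw [Finsupp.coe_zero, Pi.zero_apply] at e2 e3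
      rw [Finsupp.sub_apply]
      have e4 := Cb.toPreCurve.poleDiv_apply htb0 q
      have e5 := Cb.toPreCurve.zeroDiv_apply htb0 q
      rcases le_total (Cb.ord q (G.red t)) 0 with h | h
      · rw [max_eq_right h] at e5
        omega
      · rw [max_eq_right (by omega : -Cb.ord q (G.red t) ≤ 0)] at e4
        omega
    · rw [PreCurve.deg_sub, deg_mapDomain, hdeg, sub_self]
  exact sub_eq_zero.mp key

theorem ev_abs_unique (G : RedDatum K F k Fb) (C : Curve K F X) (Cb : Curve k Fb Y)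
    (hOrth : G.HasOrth)
    (t : G.O) (ht : ∀ c : k, G.red t ≠ algebraMap k Fb c)
    (hNE : ∀ (s : ℕ) (x : G.O),
      (x : F) ∈ C.toPreCurve.L (s • C.toPreCurve.poleDiv (t : F)) →
        G.red x ∈ Cb.toPreCurve.L (s • Cb.toPreCurve.poleDiv (G.red t)))
    (hGE : ∃ s₀ : ℕ, ∀ s : ℕ, s₀ ≤ s →
      Module.finrank k (Cb.toPreCurve.L (s • Cb.toPreCurve.poleDiv (G.red t)))
        ≤ Module.finrank K (C.toPreCurve.L (s • C.toPreCurve.poleDiv (t : F))))
    (r₁ r₂ : X → Y)
    (h₁ : ∀ u : G.O, G.red u ≠ 0 →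
      Finsupp.mapDomain r₁ (C.toPreCurve.div (u : F)) = Cb.toPreCurve.div (G.red u))
    (h₂ : ∀ u : G.O, G.red u ≠ 0 →
      Finsupp.mapDomain r₂ (C.toPreCurve.div (u : F)) = Cb.toPreCurve.div (G.red u)) :
    r₁ = r₂ := by
  classical
  funext P
  by_contra hne
  have : Nonempty X := ⟨P⟩
  have : Nonempty Y := ⟨r₁ P⟩
  have htb0 : G.red t ≠ 0 := by
    intro h
    exact ht 0 (by rw [h, map_zero])
  have htc : ∀ c : K, (t : F) ≠ algebraMap K F c := by
    intro c h
    have hmem : algebraMap K F c ∈ G.O := h ▸ t.2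
    have hcA : c ∈ G.A := (G.algebraMap_mem c).1 hmem
    have h1 := G.red_algebraMap ⟨c, hcA⟩ hmem
    have h2 : t = ⟨algebraMap K F c, hmem⟩ := Subtype.ext h
    exact ht _ (by rw [h2]; exact h1)
  obtain ⟨g, n₀, hg⟩ := exists_genus C
  obtain ⟨gb, nb₀, hgb⟩ := exists_genus Cb
  obtain ⟨s₀, hs₀⟩ := hGE
  set H := C.toPreCurve.poleDiv (t : F) with hH
  set Hb := Cb.toPreCurve.poleDiv (G.red t) with hHb
  have hd : 0 < PreCurve.deg H := C.toPreCurve.deg_poleDiv_pos htc
  have hdb : 0 < PreCurve.deg Hb := Cb.toPreCurve.deg_poleDiv_pos ht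
  -- the dimensions agree in large degree
  have hdim : ∀ s : ℕ, s₀ ≤ s → n₀.toNat ≤ s → nb₀.toNat ≤ s →
      (s : ℤ) * PreCurve.deg H - g = (s : ℤ) * PreCurve.deg Hb - gb := by
    intro s hs hn hnb
    have e1 : n₀ ≤ PreCurve.deg (s • H) := by
      rw [PreCurve.Step2.deg_nsmul]
      have : (n₀.toNat : ℤ) ≤ (s : ℤ) := by exact_mod_cast hn
      have h0 : n₀ ≤ (n₀.toNat : ℤ) := Int.self_le_toNat n₀
      nlinarith
    have e2 : nb₀ ≤ PreCurve.deg (s • Hb) := by
      rw [PreCurve.Step2.deg_nsmul]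
      have : (nb₀.toNat : ℤ) ≤ (s : ℤ) := by exact_mod_cast hnb
      have h0 : nb₀ ≤ (nb₀.toNat : ℤ) := Int.self_le_toNat nb₀
      nlinarith
    have e3 := hg _ e1
    have e4 := hgb _ e2
    rw [PreCurve.Step2.deg_nsmul] at e3 e4
    have e5 : (Module.finrank k (Cb.toPreCurve.L (s • Hb)) : ℤ)
        ≤ Module.finrank K (C.toPreCurve.L (s • H)) := by exact_mod_cast hs₀ s hs
    have := C.toPreCurve.finite_L (s • H)
    have := Cb.toPreCurve.finite_L (s • Hb)
    have e6 : (Module.finrank K (C.toPreCurve.L (s • H)) : ℤ)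
        ≤ Module.finrank k (Cb.toPreCurve.L (s • Hb)) := by
      exact_mod_cast G.finrank_le_of_hasOrth hOrth (C.toPreCurve.L (s • H))
        (Cb.toPreCurve.L (s • Hb)) (fun u hu => hNE s u hu)
    omega
  set S : ℕ := max (max s₀ (n₀.toNat + 2)) (nb₀.toNat + 2) with hS
  have hS1 : s₀ ≤ S := le_trans (le_max_left _ _) (le_max_left _ _)
  have hS2 : n₀.toNat + 2 ≤ S := le_trans (le_max_right _ _) (le_max_left _ _)
  have hS3 : nb₀.toNat + 2 ≤ S := le_max_right _ _
  have hA := hdim S hS1 (by omega) (by omega)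
  have hB := hdim (S + 1) (by omega) (by omega) (by omega)
  push_cast at hB
  have hdeg : PreCurve.deg H = PreCurve.deg Hb := by linarith
  have hgen : g = gb := by
    rw [hdeg] at hA
    linarith
  -- the pole divisor of the chart is carried to the pole divisor of its reduction
  have hH₁ : Finsupp.mapDomain r₁ H = Hb := evabs_mapDomain_poleDiv G C Cb t htb0 hdeg r₁ h₁
  have hH₂ : Finsupp.mapDomain r₂ H = Hb := evabs_mapDomain_poleDiv G C Cb t htb0 hdeg r₂ h₂
  -- the two spaces
  set E : X →₀ ℤ := S • H - Finsupp.single P 1 with hE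
  set E' : Y →₀ ℤ := S • Hb - Finsupp.single (r₁ P) 1 - Finsupp.single (r₂ P) 1 with hE'
  have hmap₁ : Finsupp.mapDomain r₁ E = S • Hb - Finsupp.single (r₁ P) 1 := by
    rw [hE, Finsupp.mapDomain_sub, Finsupp.mapDomain_smul, hH₁, Finsupp.mapDomain_single]
  have hmap₂ : Finsupp.mapDomain r₂ E = S • Hb - Finsupp.single (r₂ P) 1 := by
    rw [hE, Finsupp.mapDomain_sub, Finsupp.mapDomain_smul, hH₂, Finsupp.mapDomain_single]
  have hinf : (S • Hb - Finsupp.single (r₁ P) 1) ⊓ (S • Hb - Finsupp.single (r₂ P) 1) ≤ E' := by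
    intro q
    rw [Finsupp.inf_apply, hE', Finsupp.sub_apply, Finsupp.sub_apply, Finsupp.sub_apply,
      Finsupp.sub_apply, Finsupp.single_apply, Finsupp.single_apply]
    by_cases hq1 : r₁ P = q
    · have hq2 : ¬ r₂ P = q := fun h => hne (hq1.trans h.symm)
      rw [if_pos hq1, if_neg hq2]
      simp
    · rw [if_neg hq1]
      simp
  have hred : ∀ u : G.O, (u : F) ∈ C.toPreCurve.L E → G.red u ∈ Cb.toPreCurve.L E' := by
    intro u hu
    have m1 := red_mem_L G C Cb r₁ h₁ E u hu
    have m2 := red_mem_L G C Cb r₂ h₂ E u hu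
    rw [hmap₁] at m1
    rw [hmap₂] at m2
    exact Cb.toPreCurve.L_mono hinf (L_inf_le Cb.toPreCurve _ _ ⟨m1, m2⟩)
  have := C.toPreCurve.finite_L E
  have := Cb.toPreCurve.finite_L E'
  have hle := G.finrank_le_of_hasOrth hOrth (C.toPreCurve.L E) (Cb.toPreCurve.L E') hred
  have hSd : ((n₀.toNat : ℤ) + 2) ≤ (S : ℤ) := by exact_mod_cast hS2
  have hSdb : ((nb₀.toNat : ℤ) + 2) ≤ (S : ℤ) := by exact_mod_cast hS3
  have hdegE : PreCurve.deg E = (S : ℤ) * PreCurve.deg H - 1 := by
    rw [hE, PreCurve.deg_sub, PreCurve.Step2.deg_nsmul, PreCurve.deg_single]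
  have hdegE' : PreCurve.deg E' = (S : ℤ) * PreCurve.deg Hb - 2 := by
    rw [hE', PreCurve.deg_sub, PreCurve.deg_sub, PreCurve.Step2.deg_nsmul, PreCurve.deg_single,
      PreCurve.deg_single]
    ring
  have f1 := hg E (by
    rw [hdegE]
    have h0 : n₀ ≤ (n₀.toNat : ℤ) := Int.self_le_toNat n₀
    nlinarith)
  have f2 := hgb E' (by
    rw [hdegE']
    have h0 : nb₀ ≤ (nb₀.toNat : ℤ) := Int.self_le_toNat nb₀
    nlinarith)
  have hle' : (Module.finrank K (C.toPreCurve.L E) : ℤ)
      ≤ Module.finrank k (Cb.toPreCurve.L E') := by exact_mod_cast hle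
  rw [f1, f2, hdegE, hdegE', hdeg, hgen] at hle'
  omega

end Fermat.Agent.S37L
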