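import Mathlib
import Fermat.Agent.S18L.InjBasic
import Fermat.Agent.S18L.InjRiemann
import Fermat.Agent.S37L.EvAbs

/-!
# S37, block EV/SEP (owner helper5): genus, surjectivity of the reduction, moving lemma
(abstract form, in the language of `RedDatum` and `Curve`)

* `ev_abs_genus`  : under (NE), (GE) and orthonormal bases the two curves have the same genus
                    (Riemann's theorem with the same constant) and `deg (t)_∞ = deg (t̄)_∞`.
* `ev_abs_surj`   : in large degree the reduction `L(E) ∩ O → L̄(r_* E)` is surjective.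
* `ev_abs_moving` : for a point `P` whose reduction lies in a finite set `T` of points of the
                    reduced curve there is a function with a simple zero at `P` and no other
                    zero or pole reducing into `T`.
-/

set_option autoImplicit false

namespace Fermat.Agent.S37L

open Fermat.Agent.RRL Fermat.Agent.S18L

variable {K F X k Fb Y : Type*} [Field K] [Field F] [Algebra K F] [Field k] [Field Fb]
  [Algebra k Fb]

/-- a nonnegative divisor is dominated pointwise by its push-forward -/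
theorem evabs_le_mapDomain (r : X → Y) {R : X →₀ ℤ} (hR : 0 ≤ R) (p : X) :
    R p ≤ Finsupp.mapDomain r R (r p) := by
  classical
  have h1 : R = Finsupp.single p (R p) + (R - Finsupp.single p (R p)) := by
    rw [add_sub_cancel]
  have h2 : (0 : X →₀ ℤ) ≤ R - Finsupp.single p (R p) := by
    intro q
    rw [Finsupp.coe_zero, Pi.zero_apply, Finsupp.sub_apply, Finsupp.single_apply]
    by_cases hq : p = q
    · rw [if_pos hq, hq, sub_self]
    · rw [if_neg hq, sub_zero]
      exact hR q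
  have h3 := mapDomain_nonneg r h2 (r p)
  rw [Finsupp.coe_zero, Pi.zero_apply] at h3
  have h4 : Finsupp.mapDomain r R (r p)
      = R p + Finsupp.mapDomain r (R - Finsupp.single p (R p)) (r p) := by
    conv_lhs => rw [h1]
    rw [Finsupp.mapDomain_add, Finsupp.add_apply, Finsupp.mapDomain_single,
      Finsupp.single_eq_same]
  omega

/-- the two curves have the same genus, and the chart has the same degree on both sides -/
theorem ev_abs_genus [Nonempty X] [Nonempty Y] (G : RedDatum K F k Fb) (C : Curve K F X)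
    (Cb : Curve k Fb Y) (hOrth : G.HasOrth)
    (t : G.O) (ht : ∀ c : k, G.red t ≠ algebraMap k Fb c)
    (hNE : ∀ (s : ℕ) (x : G.O),
      (x : F) ∈ C.toPreCurve.L (s • C.toPreCurve.poleDiv (t : F)) →
        G.red x ∈ Cb.toPreCurve.L (s • Cb.toPreCurve.poleDiv (G.red t)))
    (hGE : ∃ s₀ : ℕ, ∀ s : ℕ, s₀ ≤ s →
      Module.finrank k (Cb.toPreCurve.L (s • Cb.toPreCurve.poleDiv (G.red t)))
        ≤ Module.finrank K (C.toPreCurve.L (s • C.toPreCurve.poleDiv (t : F)))) :
    ∃ (g n₀ : ℤ),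
      (∀ E : X →₀ ℤ, n₀ ≤ PreCurve.deg E →
        (Module.finrank K (C.toPreCurve.L E) : ℤ) = PreCurve.deg E + 1 - g) ∧
      (∀ E : Y →₀ ℤ, n₀ ≤ PreCurve.deg E →
        (Module.finrank k (Cb.toPreCurve.L E) : ℤ) = PreCurve.deg E + 1 - g) ∧
      PreCurve.deg (C.toPreCurve.poleDiv (t : F))
        = PreCurve.deg (Cb.toPreCurve.poleDiv (G.red t)) := by
  classical
  have htc : ∀ c : K, (t : F) ≠ algebraMap K F c := by
    intro c h
    have hmem : algebraMap K F c ∈ G.O := h ▸ t.2
    have hcA : c ∈ G.A := (G.algebraMap_mem c).1 hmem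
    have h1 := G.red_algebraMap ⟨c, hcA⟩ hmem
    have h2 : t = ⟨algebraMap K F c, hmem⟩ := Subtype.ext h
    exact ht _ (by rw [h2]; exact h1)
  obtain ⟨g, n₀, hg⟩ := exists_genus C
  obtain ⟨gb, nb₀, hgb⟩ := exists_genus Cb
  obtain ⟨s₀, hs₀⟩ := hGE
  set H := C.toPreCurve.poleDiv (t : F) with hH
  set Hb := Cb.toPreCurve.poleDiv (G.red t) with hHb
  have hd : 0 < PreCurve.deg H := C.toPreCurve.deg_poleDiv_pos htc
  have hdb : 0 < PreCurve.deg Hb := Cb.toPreCurve.deg_poleDiv_pos ht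
  have hdim : ∀ s : ℕ, s₀ ≤ s → n₀.toNat ≤ s → nb₀.toNat ≤ s →
      (s : ℤ) * PreCurve.deg H - g = (s : ℤ) * PreCurve.deg Hb - gb := by
    intro s hs hn hnb
    have e1 : n₀ ≤ PreCurve.deg (s • H) := by
      rw [PreCurve.Step2.deg_nsmul]
      have : (n₀.toNat : ℤ) ≤ (s : ℤ) := by exact_mod_cast hn
      have h0 : n₀ ≤ (n₀.toNat : ℤ) := Int.self_le_toNat n₀
      nlinarith
    have e2 : nb₀ ≤ PreCurve.deg (s • Hb) := by
      rw [PreCurve.Step2.deg_nsmul]
      have : (nb₀.toNat : ℤ) ≤ (s : ℤ) := by exact_mod_cast hnb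
      have h0 : nb₀ ≤ (nb₀.toNat : ℤ) := Int.self_le_toNat nb₀
      nlinarith
    have e3 := hg _ e1
    have e4 := hgb _ e2
    rw [PreCurve.Step2.deg_nsmul] at e3 e4
    have e5 : (Module.finrank k (Cb.toPreCurve.L (s • Hb)) : ℤ)
        ≤ Module.finrank K (C.toPreCurve.L (s • H)) := by exact_mod_cast hs₀ s hs
    have := C.toPreCurve.finite_L (s • H)
    have := Cb.toPreCurve.finite_L (s • Hb)
    have e6 : (Module.finrank K (C.toPreCurve.L (s • H)) : ℤ)
        ≤ Module.finrank k (Cb.toPreCurve.L (s • Hb)) := by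
      exact_mod_cast G.finrank_le_of_hasOrth hOrth (C.toPreCurve.L (s • H))
        (Cb.toPreCurve.L (s • Hb)) (fun u hu => hNE s u hu)
    omega
  set S : ℕ := max (max s₀ n₀.toNat) nb₀.toNat with hS
  have hS1 : s₀ ≤ S := le_trans (le_max_left _ _) (le_max_left _ _)
  have hS2 : n₀.toNat ≤ S := le_trans (le_max_right _ _) (le_max_left _ _)
  have hS3 : nb₀.toNat ≤ S := le_max_right _ _
  have hA := hdim S hS1 hS2 hS3
  have hB := hdim (S + 1) (by omega) (by omega) (by omega)
  push_cast at hB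
  have hdeg : PreCurve.deg H = PreCurve.deg Hb := by linarith
  have hgen : g = gb := by
    rw [hdeg] at hA
    linarith
  refine ⟨g, max n₀ nb₀, fun E hE => hg E (le_trans (le_max_left _ _) hE), fun E hE => ?_, hdeg⟩
  rw [hgen]
  exact hgb E (le_trans (le_max_right _ _) hE)

/-- surjectivity of the reduction `L(E) ∩ O → L̄(r_* E)` when the target is not bigger -/
theorem ev_abs_surj_of_finrank (G : RedDatum K F k Fb) (C : Curve K F X) (Cb : Curve k Fb Y)
    (hOrth : G.HasOrth) (r : X → Y)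
    (hr : ∀ u : G.O, G.red u ≠ 0 →
      Finsupp.mapDomain r (C.toPreCurve.div (u : F)) = Cb.toPreCurve.div (G.red u))
    (E : X →₀ ℤ)
    (hfin : Module.finrank k (Cb.toPreCurve.L (Finsupp.mapDomain r E))
      ≤ Module.finrank K (C.toPreCurve.L E))
    (z : Fb) (hz : z ∈ Cb.toPreCurve.L (Finsupp.mapDomain r E)) :
    ∃ x : G.O, (x : F) ∈ C.toPreCurve.L E ∧ G.red x = z := by
  classical
  have := C.toPreCurve.finite_L E
  have := Cb.toPreCurve.finite_L (Finsupp.mapDomain r E)
  obtain ⟨w, hwU, hw⟩ := hOrth (C.toPreCurve.L E) inferInstance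
  set v : Fin (Module.finrank K (C.toPreCurve.L E)) →
      ↥(Cb.toPreCurve.L (Finsupp.mapDomain r E)) :=
    fun i => ⟨G.red (w i), red_mem_L G C Cb r hr E (w i) (hwU i)⟩ with hv
  have hvli : LinearIndependent k v := by
    apply LinearIndependent.of_comp (Cb.toPreCurve.L (Finsupp.mapDomain r E)).subtype
    exact hw
  have hcard : Fintype.card (Fin (Module.finrank K (C.toPreCurve.L E)))
      = Module.finrank k (Cb.toPreCurve.L (Finsupp.mapDomain r E)) := by
    apply le_antisymm hvli.fintype_card_le_finrank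
    rw [Fintype.card_fin]
    exact hfin
  have hspan := hvli.span_eq_top_of_card_eq_finrank' hcard
  have hzmem : (⟨z, hz⟩ : ↥(Cb.toPreCurve.L (Finsupp.mapDomain r E)))
      ∈ Submodule.span k (Set.range v) := by
    rw [hspan]
    exact Submodule.mem_top
  obtain ⟨c, hc⟩ := Submodule.mem_span_range_iff_exists_fun k |>.mp hzmem
  choose a ha using fun i => G.π_surj (c i)
  have hmem : (∑ i, ((a i : G.A) : K) • ((w i : G.O) : F)) ∈ G.O :=
    G.O.sum_mem fun i _ => G.smul_mem (a i) (w i)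
  refine ⟨⟨_, hmem⟩, ?_, ?_⟩
  · show (∑ i, ((a i : G.A) : K) • ((w i : G.O) : F)) ∈ C.toPreCurve.L E
    exact Submodule.sum_mem _ fun i _ => Submodule.smul_mem _ _ (hwU i)
  · rw [G.red_sum w a hmem]
    have h1 : ((∑ i, c i • v i : ↥(Cb.toPreCurve.L (Finsupp.mapDomain r E))) : Fb) = z :=
      congrArg Subtype.val hc
    rw [Submodule.coe_sum] at h1
    rw [← h1]
    refine Finset.sum_congr rfl fun i _ => ?_
    rw [ha i, Submodule.coe_smul, Algebra.smul_def]

/-- surjectivity of the reduction in large degree -/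
theorem ev_abs_surj [Nonempty X] [Nonempty Y] (G : RedDatum K F k Fb) (C : Curve K F X)
    (Cb : Curve k Fb Y) (hOrth : G.HasOrth)
    (t : G.O) (ht : ∀ c : k, G.red t ≠ algebraMap k Fb c)
    (hNE : ∀ (s : ℕ) (x : G.O),
      (x : F) ∈ C.toPreCurve.L (s • C.toPreCurve.poleDiv (t : F)) →
        G.red x ∈ Cb.toPreCurve.L (s • Cb.toPreCurve.poleDiv (G.red t)))
    (hGE : ∃ s₀ : ℕ, ∀ s : ℕ, s₀ ≤ s →
      Module.finrank k (Cb.toPreCurve.L (s • Cb.toPreCurve.poleDiv (G.red t)))
        ≤ Module.finrank K (C.toPreCurve.L (s • C.toPreCurve.poleDiv (t : F))))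
    (r : X → Y)
    (hr : ∀ u : G.O, G.red u ≠ 0 →
      Finsupp.mapDomain r (C.toPreCurve.div (u : F)) = Cb.toPreCurve.div (G.red u)) :
    ∃ n₁ : ℤ, ∀ E : X →₀ ℤ, n₁ ≤ PreCurve.deg E →
      ∀ z ∈ Cb.toPreCurve.L (Finsupp.mapDomain r E),
        ∃ x : G.O, (x : F) ∈ C.toPreCurve.L E ∧ G.red x = z := by
  obtain ⟨g, n₀, hg, hgb, -⟩ := ev_abs_genus G C Cb hOrth t ht hNE hGE
  refine ⟨n₀, fun E hE z hz => ev_abs_surj_of_finrank G C Cb hOrth r hr E ?_ z hz⟩
  have e1 := hg E hE
  have e2 := hgb (Finsupp.mapDomain r E) (by rw [deg_mapDomain]; exact hE)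
  rw [deg_mapDomain] at e2
  have : (Module.finrank k (Cb.toPreCurve.L (Finsupp.mapDomain r E)) : ℤ)
      = Module.finrank K (C.toPreCurve.L E) := by rw [e1, e2]
  exact le_of_eq (by exact_mod_cast this)

/-- **Moving lemma.**  If the push-forward of the effective divisor `H` of positive degree
avoids the finite set `T` and `r P ∈ T`, there is a function with a simple zero at `P` all of
whose other zeros and poles reduce outside `T`. -/
theorem ev_abs_moving [Infinite k] (G : RedDatum K F k Fb) (C : Curve K F X)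
    (Cb : Curve k Fb Y) (hOrth : G.HasOrth)
    (t : G.O) (ht : ∀ c : k, G.red t ≠ algebraMap k Fb c)
    (hNE : ∀ (s : ℕ) (x : G.O),
      (x : F) ∈ C.toPreCurve.L (s • C.toPreCurve.poleDiv (t : F)) →
        G.red x ∈ Cb.toPreCurve.L (s • Cb.toPreCurve.poleDiv (G.red t)))
    (hGE : ∃ s₀ : ℕ, ∀ s : ℕ, s₀ ≤ s →
      Module.finrank k (Cb.toPreCurve.L (s • Cb.toPreCurve.poleDiv (G.red t)))
        ≤ Module.finrank K (C.toPreCurve.L (s • C.toPreCurve.poleDiv (t : F))))
    (r : X → Y)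
    (hr : ∀ u : G.O, G.red u ≠ 0 →
      Finsupp.mapDomain r (C.toPreCurve.div (u : F)) = Cb.toPreCurve.div (G.red u))
    (H : X →₀ ℤ) (hH : 0 ≤ H) (hHdeg : 0 < PreCurve.deg H)
    (T : Finset Y) (hT : ∀ q ∈ T, Finsupp.mapDomain r H q = 0)
    (P : X) (hP : r P ∈ T) :
    ∃ x : F, x ≠ 0 ∧ C.ord P x = 1 ∧ ∀ P' : X, P' ≠ P → C.ord P' x ≠ 0 → r P' ∉ T := by
  classical
  have : Nonempty X := ⟨P⟩
  have : Nonempty Y := ⟨r P⟩
  obtain ⟨g, n₀, hg, hgb, -⟩ := ev_abs_genus G C Cb hOrth t ht hNE hGE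
  have hHb0 : 0 ≤ Finsupp.mapDomain r H := mapDomain_nonneg r hH
  set s : ℕ := n₀.toNat + 2 with hs
  set E : X →₀ ℤ := s • H - Finsupp.single P 1 with hE
  set Eb : Y →₀ ℤ := s • Finsupp.mapDomain r H - Finsupp.single (r P) 1 with hEb
  have hmapE : Finsupp.mapDomain r E = Eb := by
    rw [hE, Finsupp.mapDomain_sub, Finsupp.mapDomain_smul, Finsupp.mapDomain_single]
  have hdegE : PreCurve.deg E = (s : ℤ) * PreCurve.deg H - 1 := by
    rw [hE, PreCurve.deg_sub, PreCurve.Step2.deg_nsmul, PreCurve.deg_single]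
  have hdegEb : PreCurve.deg Eb = (s : ℤ) * PreCurve.deg H - 1 := by
    rw [← hmapE, deg_mapDomain, hdegE]
  have hsn : n₀ + 2 ≤ (s : ℤ) * PreCurve.deg H := by
    have h0 : n₀ ≤ (n₀.toNat : ℤ) := Int.self_le_toNat n₀
    have h1 : (s : ℤ) = (n₀.toNat : ℤ) + 2 := by rw [hs]; push_cast; ring
    nlinarith
  -- dimensions
  have hV := hgb Eb (by rw [hdegEb]; omega)
  have hW : ∀ q : Y, (Module.finrank k (Cb.toPreCurve.L (Eb - Finsupp.single q 1)) : ℤ)
      = PreCurve.deg Eb - 1 + 1 - g := by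
    intro q
    have := hgb (Eb - Finsupp.single q 1)
      (by rw [PreCurve.deg_sub, PreCurve.deg_single, hdegEb]; omega)
    rw [this, PreCurve.deg_sub, PreCurve.deg_single]
  -- an element of `L̄(Eb)` outside the finitely many hyperplanes `L̄(Eb - q)`, `q ∈ T`
  obtain ⟨z, hzV, hzW⟩ : ∃ z : Fb, z ∈ Cb.toPreCurve.L Eb ∧
      ∀ q ∈ T, z ∉ Cb.toPreCurve.L (Eb - Finsupp.single q 1) := by
    let S : Finset (Subspace k ↥(Cb.toPreCurve.L Eb)) := T.image fun q =>
      (Cb.toPreCurve.L (Eb - Finsupp.single q 1)).comap (Cb.toPreCurve.L Eb).subtype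
    have htop : (⊤ : Subspace k ↥(Cb.toPreCurve.L Eb)) ∉ S := by
      intro hmem
      obtain ⟨q, -, hq⟩ := Finset.mem_image.mp hmem
      have hle : Cb.toPreCurve.L Eb ≤ Cb.toPreCurve.L (Eb - Finsupp.single q 1) :=
        Submodule.comap_subtype_eq_top.mp hq
      have := Cb.toPreCurve.finite_L (Eb - Finsupp.single q 1)
      have h1 := Submodule.finrank_mono hle
      have h2 := hW q
      have h3 : (Module.finrank k ↥(Cb.toPreCurve.L Eb) : ℤ)
          ≤ Module.finrank k ↥(Cb.toPreCurve.L (Eb - Finsupp.single q 1)) := by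
        exact_mod_cast h1
      omega
    have hne := Subspace.biUnion_ne_univ_of_top_notMem htop
    obtain ⟨v, hv⟩ := (Set.ne_univ_iff_exists_notMem _).mp hne
    refine ⟨v.1, v.2, fun q hq hzq => hv ?_⟩
    exact Set.mem_iUnion₂.mpr ⟨_, Finset.mem_image_of_mem _ hq, hzq⟩
  have hz0 : z ≠ 0 := by
    rintro rfl
    exact hzW (r P) hP (Submodule.zero_mem _)
  have hzV' : ∀ q, -Eb q ≤ Cb.ord q z :=
    ((Cb.toPreCurve.mem_L Eb z).mp hzV).resolve_left hz0
  -- the orders of `z` on `T`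
  have hordT : ∀ q ∈ T, Cb.ord q z = -Eb q := by
    intro q hq
    by_contra hne
    apply hzW q hq
    rw [PreCurve.mem_L]
    refine Or.inr fun q' => ?_
    rw [Finsupp.sub_apply, Finsupp.single_apply]
    have h1 := hzV' q'
    by_cases hqq : q = q'
    · subst hqq
      rw [if_pos rfl]
      have : -Eb q ≠ Cb.ord q z := fun h => hne h.symm
      omega
    · rw [if_neg hqq]
      omega
  have hEbT : ∀ q ∈ T, Eb q = -(if r P = q then 1 else 0) := by
    intro q hq
    rw [hEb, Finsupp.sub_apply, Finsupp.smul_apply, hT q hq, Finsupp.single_apply]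
    simp
  -- lift
  obtain ⟨x, hxE, hxz⟩ := ev_abs_surj_of_finrank G C Cb hOrth r hr E (by
      rw [hmapE]
      have e1 := hg E (by rw [hdegE]; omega)
      have : (Module.finrank k ↥(Cb.toPreCurve.L Eb) : ℤ)
          = Module.finrank K ↥(C.toPreCurve.L E) := by
        rw [e1, hV, hdegE, hdegEb]
      exact le_of_eq (by exact_mod_cast this)) z (by rw [hmapE]; exact hzV)
  have hredx : G.red x ≠ 0 := by rw [hxz]; exact hz0
  have hx0 : (x : F) ≠ 0 := by
    intro h0
    have : x = 0 := Subtype.ext h0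
    rw [this, map_zero] at hredx
    exact hredx rfl
  have hxE' : ∀ p, -E p ≤ C.ord p (x : F) :=
    ((C.toPreCurve.mem_L E _).mp hxE).resolve_left hx0
  set R : X →₀ ℤ := C.toPreCurve.div (x : F) + E with hR
  have hRp : ∀ p, R p = C.ord p (x : F) + E p := by
    intro p
    rw [hR, Finsupp.add_apply, C.toPreCurve.div_apply hx0]
  have hR0 : 0 ≤ R := by
    intro p
    rw [Finsupp.coe_zero, Pi.zero_apply, hRp]
    have := hxE' p
    omega
  have hmapR : Finsupp.mapDomain r R = Cb.toPreCurve.div z + Eb := by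
    rw [hR, Finsupp.mapDomain_add, hr x hredx, hxz, hmapE]
  have hRT : ∀ p : X, r p ∈ T → R p = 0 := by
    intro p hp
    have h1 := evabs_le_mapDomain r hR0 p
    have h3 : (Cb.toPreCurve.div z + Eb) (r p) = Cb.ord (r p) z + Eb (r p) := by
      rw [Finsupp.add_apply, Cb.toPreCurve.div_apply hz0]
    rw [hmapR, h3, hordT _ hp] at h1
    have h2 := hR0 p
    rw [Finsupp.coe_zero, Pi.zero_apply] at h2
    omega
  have hHT : ∀ p : X, r p ∈ T → H p = 0 := by
    intro p hp
    have h1 := evabs_le_mapDomain r hH p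
    rw [hT _ hp] at h1
    have h2 := hH p
    rw [Finsupp.coe_zero, Pi.zero_apply] at h2
    omega
  have hord : ∀ p : X, C.ord p (x : F) = R p - (s : ℤ) * H p + (if P = p then 1 else 0) := by
    intro p
    rw [hRp, hE, Finsupp.sub_apply, Finsupp.smul_apply, Finsupp.single_apply, nsmul_eq_mul]
    ring
  refine ⟨(x : F), hx0, ?_, ?_⟩
  · rw [hord P, hRT P hP, hHT P hP, if_pos rfl]
    ring
  · intro P' hP' hne hmem
    apply hne
    rw [hord P', hRT P' hmem, hHT P' hmem, if_neg (Ne.symm hP')]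
    ring

end Fermat.Agent.S37L
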