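import Mathlib
import Fermat.Agent.S18L.InjBasic
import Fermat.Agent.S18L.InjRiemann
import Fermat.Agent.S37L.EvAbsMove

/-!
# S37, block EV/SEP (owner helper5): separation and evaluation, abstract form

* `ev_abs_sep`   : (SEP) for an effective divisor `E₀` of positive degree whose push-forward
                   avoids `Q₀ ≠ Q₁, Q₂`, there is an integral function `x ∈ L(s E₀)` whose
                   reduction vanishes at `Q₀` and has order `0` at `Q₁` and `Q₂`.
* `ev_abs_value` : (EV) an integral function `u ∈ L(H)` takes at a point `P` whose reduction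
                   avoids `r_* H` a value `c ∈ A`, and the reduction of `u` takes the value
                   `π c` at `r P`.
-/

set_option autoImplicit false

namespace Fermat.Agent.S37L

open Fermat.Agent.RRL Fermat.Agent.S18L

variable {K F X k Fb Y : Type*} [Field K] [Field F] [Algebra K F] [Field k] [Field Fb]
  [Algebra k Fb]

/-- **SEP**, abstract form. -/
theorem ev_abs_sep [Infinite k] (G : RedDatum K F k Fb) (C : Curve K F X)
    (Cb : Curve k Fb Y) (hOrth : G.HasOrth)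
    (t : G.O) (ht : ∀ c : k, G.red t ≠ algebraMap k Fb c)
    (hNE : ∀ (s : ℕ) (x : G.O),
      (x : F) ∈ C.toPreCurve.L (s • C.toPreCurve.poleDiv (t : F)) →
        G.red x ∈ Cb.toPreCurve.L (s • Cb.toPreCurve.poleDiv (G.red t)))
    (hGE : ∃ s₀ : ℕ, ∀ s : ℕ, s₀ ≤ s →
      Module.finrank k (Cb.toPreCurve.L (s • Cb.toPreCurve.poleDiv (G.red t)))
        ≤ Module.finrank K (C.toPreCurve.L (s • C.toPreCurve.poleDiv (t : F))))
    (r : X → Y)
    (hr : ∀ u : G.O, G.red u ≠ 0 →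
      Finsupp.mapDomain r (C.toPreCurve.div (u : F)) = Cb.toPreCurve.div (G.red u))
    (E₀ : X →₀ ℤ) (hdeg : 0 < PreCurve.deg E₀)
    (Q₀ Q₁ Q₂ : Y) (h0 : Finsupp.mapDomain r E₀ Q₀ = 0) (h1 : Finsupp.mapDomain r E₀ Q₁ = 0)
    (h2 : Finsupp.mapDomain r E₀ Q₂ = 0) (h01 : Q₀ ≠ Q₁) (h02 : Q₀ ≠ Q₂) :
    ∃ (s : ℕ) (x : G.O), (x : F) ∈ C.toPreCurve.L (s • E₀) ∧ G.red x ≠ 0 ∧
      0 < Cb.ord Q₀ (G.red x) ∧ Cb.ord Q₁ (G.red x) = 0 ∧ Cb.ord Q₂ (G.red x) = 0 := by
  classical
  have : Nonempty X := by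
    by_contra h
    rw [not_nonempty_iff] at h
    have h' : E₀ = 0 := Subsingleton.elim _ _
    rw [h', PreCurve.deg_zero] at hdeg
    exact lt_irrefl _ hdeg
  have : Nonempty Y := ⟨Q₀⟩
  obtain ⟨g, n₀, hg, hgb, -⟩ := ev_abs_genus G C Cb hOrth t ht hNE hGE
  set s : ℕ := n₀.toNat + 2 with hs
  set Eb : Y →₀ ℤ := s • Finsupp.mapDomain r E₀ with hEb
  have hmapE : Finsupp.mapDomain r (s • E₀) = Eb := by
    rw [hEb, Finsupp.mapDomain_smul]
  have hdegE : PreCurve.deg (s • E₀) = (s : ℤ) * PreCurve.deg E₀ := by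
    rw [PreCurve.Step2.deg_nsmul]
  have hdegEb : PreCurve.deg Eb = (s : ℤ) * PreCurve.deg E₀ := by
    rw [← hmapE, deg_mapDomain, hdegE]
  have hsn : n₀ + 2 ≤ (s : ℤ) * PreCurve.deg E₀ := by
    have h0' : n₀ ≤ (n₀.toNat : ℤ) := Int.self_le_toNat n₀
    have h1' : (s : ℤ) = (n₀.toNat : ℤ) + 2 := by rw [hs]; push_cast; ring
    nlinarith
  have hEbQ : ∀ q : Y, Finsupp.mapDomain r E₀ q = 0 → Eb q = 0 := by
    intro q hq
    rw [hEb, Finsupp.smul_apply, hq, smul_zero]
  -- dimensions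
  have hV := hgb (Eb - Finsupp.single Q₀ 1)
    (by rw [PreCurve.deg_sub, PreCurve.deg_single, hdegEb]; omega)
  have hW : ∀ q : Y,
      (Module.finrank k (Cb.toPreCurve.L (Eb - Finsupp.single Q₀ 1 - Finsupp.single q 1)) : ℤ)
        = PreCurve.deg (Eb - Finsupp.single Q₀ 1) - 1 + 1 - g := by
    intro q
    have := hgb (Eb - Finsupp.single Q₀ 1 - Finsupp.single q 1)
      (by rw [PreCurve.deg_sub, PreCurve.deg_sub, PreCurve.deg_single, PreCurve.deg_single,
        hdegEb]; omega)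
    rw [this, PreCurve.deg_sub (Eb - Finsupp.single Q₀ 1), PreCurve.deg_single]
  -- an element of `L̄(Eb - Q₀)` outside the two hyperplanes
  obtain ⟨z, hzV, hzW⟩ : ∃ z : Fb, z ∈ Cb.toPreCurve.L (Eb - Finsupp.single Q₀ 1) ∧
      ∀ q ∈ ({Q₁, Q₂} : Finset Y),
        z ∉ Cb.toPreCurve.L (Eb - Finsupp.single Q₀ 1 - Finsupp.single q 1) := by
    let S : Finset (Subspace k ↥(Cb.toPreCurve.L (Eb - Finsupp.single Q₀ 1))) :=
      ({Q₁, Q₂} : Finset Y).image fun q =>
        (Cb.toPreCurve.L (Eb - Finsupp.single Q₀ 1 - Finsupp.single q 1)).comap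
          (Cb.toPreCurve.L (Eb - Finsupp.single Q₀ 1)).subtype
    have htop : (⊤ : Subspace k ↥(Cb.toPreCurve.L (Eb - Finsupp.single Q₀ 1))) ∉ S := by
      intro hmem
      obtain ⟨q, -, hq⟩ := Finset.mem_image.mp hmem
      have hle : Cb.toPreCurve.L (Eb - Finsupp.single Q₀ 1)
          ≤ Cb.toPreCurve.L (Eb - Finsupp.single Q₀ 1 - Finsupp.single q 1) :=
        Submodule.comap_subtype_eq_top.mp hq
      have := Cb.toPreCurve.finite_L (Eb - Finsupp.single Q₀ 1 - Finsupp.single q 1)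
      have h1' := Submodule.finrank_mono hle
      have h2' := hW q
      have h3 : (Module.finrank k ↥(Cb.toPreCurve.L (Eb - Finsupp.single Q₀ 1)) : ℤ)
          ≤ Module.finrank k
            ↥(Cb.toPreCurve.L (Eb - Finsupp.single Q₀ 1 - Finsupp.single q 1)) := by
        exact_mod_cast h1'
      omega
    have hne := Subspace.biUnion_ne_univ_of_top_notMem htop
    obtain ⟨v, hv⟩ := (Set.ne_univ_iff_exists_notMem _).mp hne
    refine ⟨v.1, v.2, fun q hq hzq => hv ?_⟩
    exact Set.mem_iUnion₂.mpr ⟨_, Finset.mem_image_of_mem _ hq, hzq⟩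
  have hQ1mem : Q₁ ∈ ({Q₁, Q₂} : Finset Y) := by simp
  have hQ2mem : Q₂ ∈ ({Q₁, Q₂} : Finset Y) := by simp
  have hz0 : z ≠ 0 := by
    rintro rfl
    exact hzW Q₁ hQ1mem (Submodule.zero_mem _)
  have hzV' : ∀ q, -(Eb - Finsupp.single Q₀ 1 : Y →₀ ℤ) q ≤ Cb.ord q z :=
    ((Cb.toPreCurve.mem_L _ z).mp hzV).resolve_left hz0
  have hordT : ∀ q ∈ ({Q₁, Q₂} : Finset Y),
      Cb.ord q z = -(Eb - Finsupp.single Q₀ 1 : Y →₀ ℤ) q := by
    intro q hq
    by_contra hne
    apply hzW q hq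
    rw [PreCurve.mem_L]
    refine Or.inr fun q' => ?_
    rw [Finsupp.sub_apply _ (Finsupp.single q 1), Finsupp.single_apply]
    have h1' := hzV' q'
    by_cases hqq : q = q'
    · subst hqq
      rw [if_pos rfl]
      have : -(Eb - Finsupp.single Q₀ 1 : Y →₀ ℤ) q ≠ Cb.ord q z := fun h => hne h.symm
      omega
    · rw [if_neg hqq]
      omega
  have hval : ∀ q : Y, Finsupp.mapDomain r E₀ q = 0 → Q₀ ≠ q →
      (Eb - Finsupp.single Q₀ 1 : Y →₀ ℤ) q = 0 := by
    intro q hq hne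
    rw [Finsupp.sub_apply, hEbQ q hq, Finsupp.single_apply, if_neg hne, sub_zero]
  have hval0 : (Eb - Finsupp.single Q₀ 1 : Y →₀ ℤ) Q₀ = -1 := by
    rw [Finsupp.sub_apply, hEbQ Q₀ h0, Finsupp.single_apply, if_pos rfl, zero_sub]
  -- lift
  have hzEb : z ∈ Cb.toPreCurve.L (Finsupp.mapDomain r (s • E₀)) := by
    rw [hmapE]
    refine Cb.toPreCurve.L_mono ?_ hzV
    intro q
    rw [Finsupp.sub_apply, Finsupp.single_apply]
    split_ifs <;> omega
  obtain ⟨x, hxE, hxz⟩ := ev_abs_surj_of_finrank G C Cb hOrth r hr (s • E₀) (by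
      have e1 := hg (s • E₀) (by rw [hdegE]; omega)
      have e2 := hgb (Finsupp.mapDomain r (s • E₀)) (by rw [deg_mapDomain, hdegE]; omega)
      rw [deg_mapDomain] at e2
      have : (Module.finrank k ↥(Cb.toPreCurve.L (Finsupp.mapDomain r (s • E₀))) : ℤ)
          = Module.finrank K ↥(C.toPreCurve.L (s • E₀)) := by
        rw [e1, e2]
      exact le_of_eq (by exact_mod_cast this)) z hzEb
  refine ⟨s, x, hxE, by rw [hxz]; exact hz0, ?_, ?_, ?_⟩
  · rw [hxz]
    have := hzV' Q₀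
    rw [hval0] at this
    omega
  · rw [hxz, hordT Q₁ hQ1mem, hval Q₁ h1 h01, neg_zero]
  · rw [hxz, hordT Q₂ hQ2mem, hval Q₂ h2 h02, neg_zero]

/-- **EV**, abstract form. -/
theorem ev_abs_value (G : RedDatum K F k Fb) (C : Curve K F X) (Cb : Curve k Fb Y)
    (r : X → Y)
    (hr : ∀ u : G.O, G.red u ≠ 0 →
      Finsupp.mapDomain r (C.toPreCurve.div (u : F)) = Cb.toPreCurve.div (G.red u))
    (H : X →₀ ℤ) (hH : 0 ≤ H) (P : X) (hP : Finsupp.mapDomain r H (r P) = 0)
    (u : G.O) (hu : (u : F) ∈ C.toPreCurve.L H) :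
    ∃ c : G.A,
      ((u : F) = algebraMap K F (c : K) ∨ 0 < C.ord P ((u : F) - algebraMap K F (c : K))) ∧
      (G.red u = algebraMap k Fb (G.π c)
        ∨ 0 < Cb.ord (r P) (G.red u - algebraMap k Fb (G.π c))) := by
  classical
  have hHP : H P = 0 := by
    have h1 := evabs_le_mapDomain r hH P
    rw [hP] at h1
    have h2 := hH P
    rw [Finsupp.coe_zero, Pi.zero_apply] at h2
    omega
  by_cases hu0 : (u : F) = 0
  · refine ⟨0, Or.inl (by rw [hu0]; simp), Or.inl ?_⟩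
    have : u = 0 := Subtype.ext hu0
    rw [this, map_zero, map_zero, map_zero]
  have huL : ∀ p, -H p ≤ C.ord p (u : F) := ((C.toPreCurve.mem_L H _).mp hu).resolve_left hu0
  obtain ⟨c, hc⟩ := C.exists_residue P hu0 (by have := huL P; omega)
  -- the key inequality: a function of `L(H)` vanishing at `P` has reduction vanishing at `r P`
  have key : ∀ w : G.O, G.red w ≠ 0 → (w : F) ∈ C.toPreCurve.L H → 0 < C.ord P (w : F) →
      0 < Cb.ord (r P) (G.red w) := by
    intro w hw hwL hwP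
    have hw0 : (w : F) ≠ 0 := by
      intro h0
      have : w = 0 := Subtype.ext h0
      rw [this, map_zero] at hw
      exact hw rfl
    have hwL' : ∀ p, -H p ≤ C.ord p (w : F) :=
      ((C.toPreCurve.mem_L H _).mp hwL).resolve_left hw0
    have hR0 : (0 : X →₀ ℤ) ≤ C.toPreCurve.div (w : F) + H := by
      intro p
      rw [Finsupp.coe_zero, Pi.zero_apply, Finsupp.add_apply, C.toPreCurve.div_apply hw0]
      have := hwL' p
      omega
    have h1 := evabs_le_mapDomain r hR0 P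
    have h2 : (C.toPreCurve.div (w : F) + H) P = C.ord P (w : F) := by
      rw [Finsupp.add_apply, C.toPreCurve.div_apply hw0, hHP, add_zero]
    have h3 : Finsupp.mapDomain r (C.toPreCurve.div (w : F) + H) (r P)
        = Cb.ord (r P) (G.red w) := by
      rw [Finsupp.mapDomain_add, hr w hw, Finsupp.add_apply, Cb.toPreCurve.div_apply hw, hP,
        add_zero]
    rw [h2, h3] at h1
    omega
  have hcA : c ∈ G.A := by
    by_contra hcA
    by_cases huc : (u : F) = algebraMap K F c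
    · exact hcA ((G.algebraMap_mem c).1 (huc ▸ u.2))
    have hordc := hc.resolve_left huc
    have hc0 : c ≠ 0 := fun h => hcA (h ▸ G.A.zero_mem)
    have hcinv : c⁻¹ ∈ G.A := (G.A.mem_or_inv_mem c).resolve_left hcA
    have hnu : ¬ IsUnit (⟨c⁻¹, hcinv⟩ : G.A) :=
      G.ibas_not_isUnit ⟨c⁻¹, hcinv⟩ (by simpa using hcA)
    have hπ : G.π ⟨c⁻¹, hcinv⟩ = 0 := (G.π_eq_zero _).mpr hnu
    -- `w = c⁻¹ u - 1`
    have hmem1 : ((⟨c⁻¹, hcinv⟩ : G.A) : K) • (u : F) ∈ G.O := G.smul_mem ⟨c⁻¹, hcinv⟩ u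
    set w : G.O := ⟨_, hmem1⟩ - 1 with hw
    have hredw : G.red w = -1 := by
      rw [hw, map_sub, G.red_smul ⟨c⁻¹, hcinv⟩ u hmem1, hπ, map_zero, zero_mul, map_one,
        zero_sub]
    have hwF' : (w : F) = c⁻¹ • (u : F) - 1 := by
      rw [hw]
      rfl
    have hwF : (w : F) = algebraMap K F c⁻¹ * ((u : F) - algebraMap K F c) := by
      rw [hwF', Algebra.smul_def, mul_sub, ← map_mul, inv_mul_cancel₀ hc0, map_one]
    have hcinv0 : algebraMap K F c⁻¹ ≠ 0 := by simpa using hc0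
    have hv0 : (u : F) - algebraMap K F c ≠ 0 := sub_ne_zero.mpr huc
    have hwL : (w : F) ∈ C.toPreCurve.L H := by
      rw [hwF, ← Algebra.smul_def]
      exact Submodule.smul_mem _ _ (Submodule.sub_mem _ hu (algebraMap_mem_L C.toPreCurve hH c))
    have hwP : 0 < C.ord P (w : F) := by
      rw [hwF, C.ord_mul P hcinv0 hv0, C.ord_algebraMap P (inv_ne_zero hc0), zero_add]
      exact hordc
    have h4 := key w (by rw [hredw]; exact neg_ne_zero.mpr one_ne_zero) hwL hwP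
    rw [hredw, Cb.toPreCurve.ord_neg (r P) one_ne_zero, Cb.toPreCurve.ord_one] at h4
    exact lt_irrefl _ h4
  refine ⟨⟨c, hcA⟩, hc, ?_⟩
  by_cases h2 : G.red u = algebraMap k Fb (G.π ⟨c, hcA⟩)
  · exact Or.inl h2
  right
  have hmemc : algebraMap K F c ∈ G.O := (G.algebraMap_mem c).2 hcA
  set w : G.O := u - ⟨algebraMap K F c, hmemc⟩ with hw
  have hredw : G.red w = G.red u - algebraMap k Fb (G.π ⟨c, hcA⟩) := by
    rw [hw, map_sub, G.red_algebraMap ⟨c, hcA⟩ hmemc]
  have hredw0 : G.red w ≠ 0 := by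
    rw [hredw]
    exact sub_ne_zero.mpr h2
  have hwF : (w : F) = (u : F) - algebraMap K F c := by
    rw [hw]
    rfl
  have huc : (u : F) ≠ algebraMap K F c := by
    intro h
    apply hredw0
    have : w = 0 := Subtype.ext (by rw [hwF, h, sub_self]; rfl)
    rw [this, map_zero]
  have hwL : (w : F) ∈ C.toPreCurve.L H := by
    rw [hwF]
    exact Submodule.sub_mem _ hu (algebraMap_mem_L C.toPreCurve hH c)
  have h4 := key w hredw0 hwL (by rw [hwF]; exact hc.resolve_left huc)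
  rw [hredw] at h4
  exact h4

end Fermat.Agent.S37L
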