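import Mathlib
import Fermat.Prelude.Def_ModularCurve_ReductionModL
import Fermat.Prelude.Def_FLTPrelim_Ramification
import Fermat.Agent.S18L.AsmGauss
import Fermat.Agent.S18L.AsmBar
import Fermat.Agent.S18L.InjBasic

/-!
# S37, block EV/SEP (owner helper5): conservation for integral functions

A place reduction `r` (`IsPlaceReductionModL A N r`) carries the divisor of every integral
function `u ∈ asmO A N` with nonzero reduction to the divisor of its reduction
(the hypothesis `hr` of `red_mem_L`, `ev_abs_unique`, ...).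
-/

set_option autoImplicit false
set_option synthInstance.maxHeartbeats 400000

open ModularCurve AlgebraicCurve HahnSeries

namespace Fermat.Agent.S37L

open Fermat.Agent.RRL Fermat.Agent.S18L

set_option maxHeartbeats 800000 in
/-- conservation for integral functions -/
theorem ev_conservation (N : ℕ) [NeZero N] {ℓ : ℕ} [Fact ℓ.Prime] (hℓN : ¬ ℓ ∣ N)
    (A : ValuationSubring (AlgebraicClosure ℚ)) (hA : A.LiesOverPrime ℓ)
    (C : Curve (AlgebraicClosure ℚ) ↥(modularFunctionFieldBar N)
      (Place (AlgebraicClosure ℚ) ↥(modularFunctionFieldBar N)))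
    (hC : ∀ (P : Place (AlgebraicClosure ℚ) ↥(modularFunctionFieldBar N))
      (x : ↥(modularFunctionFieldBar N)), C.toPreCurve.ord P x = P.ord x)
    (Cb : Curve (IsLocalRing.ResidueField A)
      ↥(modularFunctionFieldFullC (IsLocalRing.ResidueField A) N)
      (Place (IsLocalRing.ResidueField A)
        ↥(modularFunctionFieldFullC (IsLocalRing.ResidueField A) N)))
    (hCb : ∀ (Q : Place (IsLocalRing.ResidueField A)
        ↥(modularFunctionFieldFullC (IsLocalRing.ResidueField A) N))
      (x : ↥(modularFunctionFieldFullC (IsLocalRing.ResidueField A) N)),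
      Cb.toPreCurve.ord Q x = Q.ord x)
    (r : Place (AlgebraicClosure ℚ) ↥(modularFunctionFieldBar N) →
      Place (IsLocalRing.ResidueField A)
        ↥(modularFunctionFieldFullC (IsLocalRing.ResidueField A) N))
    (hr : IsPlaceReductionModL A N r)
    (u : (redDatum A N hA hℓN).O) (hu : (redDatum A N hA hℓN).red u ≠ 0) :
    Finsupp.mapDomain r (C.toPreCurve.div (u : ↥(modularFunctionFieldBar N)))
      = Cb.toPreCurve.div ((redDatum A N hA hℓN).red u) := by
  classical
  obtain ⟨a, b, ha, hb, hb0, hab, hredab⟩ := exists_good_of_mem_asmO A N u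
  have hu' : asmRed A N u ≠ 0 := hu
  have hρa : asmRho A a ≠ 0 := by
    intro h0
    rw [h0] at hredab
    have hred' : ((asmRed A N u :
        ↥(modularFunctionFieldFullC (IsLocalRing.ResidueField A) N)) :
        LaurentSeries (IsLocalRing.ResidueField A)) ≠ 0 := fun h => hu' (Subtype.ext h)
    exact (mul_ne_zero hred' hb0) hredab
  have hιa : (⟨asmIota A a, ha.1⟩ : ↥(modularFunctionFieldBar N)) ≠ 0 := by
    intro h0
    have h1 : asmIota A a = 0 := congrArg Subtype.val h0
    have h2 : a = 0 := asmIota_injective A (by rw [h1, map_zero])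
    exact hρa (by rw [h2, map_zero])
  have hιb : (⟨asmIota A b, hb.1⟩ : ↥(modularFunctionFieldBar N)) ≠ 0 := by
    intro h0
    have h1 : asmIota A b = 0 := congrArg Subtype.val h0
    have h2 : b = 0 := asmIota_injective A (by rw [h1, map_zero])
    exact hb0 (by rw [h2, map_zero])
  have hga : (⟨asmRho A a, ha.2⟩ :
      ↥(modularFunctionFieldFullC (IsLocalRing.ResidueField A) N)) ≠ 0 :=
    fun h0 => hρa (congrArg Subtype.val h0)
  have hgb : (⟨asmRho A b, hb.2⟩ :
      ↥(modularFunctionFieldFullC (IsLocalRing.ResidueField A) N)) ≠ 0 :=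
    fun h0 => hb0 (congrArg Subtype.val h0)
  have hu0 : (u : ↥(modularFunctionFieldBar N)) ≠ 0 := by
    intro h0
    have : u = 0 := Subtype.ext h0
    rw [this, map_zero] at hu
    exact hu rfl
  -- conservation for the two good series
  have consA : Finsupp.mapDomain r (C.toPreCurve.div
      (⟨asmIota A a, ha.1⟩ : ↥(modularFunctionFieldBar N)))
      = Cb.toPreCurve.div (⟨asmRho A a, ha.2⟩ :
        ↥(modularFunctionFieldFullC (IsLocalRing.ResidueField A) N)) := by
    ext Q
    rw [Cb.toPreCurve.div_apply hga, hCb]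
    exact hr.2 a ha.1 ha.2 hρa _ (fun P => by rw [C.toPreCurve.div_apply hιa, hC]; rfl) Q
  have consB : Finsupp.mapDomain r (C.toPreCurve.div
      (⟨asmIota A b, hb.1⟩ : ↥(modularFunctionFieldBar N)))
      = Cb.toPreCurve.div (⟨asmRho A b, hb.2⟩ :
        ↥(modularFunctionFieldFullC (IsLocalRing.ResidueField A) N)) := by
    ext Q
    rw [Cb.toPreCurve.div_apply hgb, hCb]
    exact hr.2 b hb.1 hb.2 hb0 _ (fun P => by rw [C.toPreCurve.div_apply hιb, hC]; rfl) Q
  have e1 : (u : ↥(modularFunctionFieldBar N)) * (⟨asmIota A b, hb.1⟩ :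
      ↥(modularFunctionFieldBar N)) = ⟨asmIota A a, ha.1⟩ := Subtype.ext hab
  have e2 : (redDatum A N hA hℓN).red u * (⟨asmRho A b, hb.2⟩ :
      ↥(modularFunctionFieldFullC (IsLocalRing.ResidueField A) N)) = ⟨asmRho A a, ha.2⟩ :=
    Subtype.ext hredab
  have d1 := C.toPreCurve.div_mul hu0 hιb
  rw [e1] at d1
  have d2 := Cb.toPreCurve.div_mul hu hgb
  rw [e2] at d2
  have d1' : C.toPreCurve.div (u : ↥(modularFunctionFieldBar N))
      = C.toPreCurve.div (⟨asmIota A a, ha.1⟩ : ↥(modularFunctionFieldBar N))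
        - C.toPreCurve.div (⟨asmIota A b, hb.1⟩ : ↥(modularFunctionFieldBar N)) := by
    rw [d1, add_sub_cancel_right]
  rw [d1', Finsupp.mapDomain_sub, consA, consB, d2, add_sub_cancel_right]

end Fermat.Agent.S37L
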