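import Mathlib
import Fermat.Prelude.Def_ModularCurve_ReductionModL
import Fermat.Prelude.Def_FLTPrelim_Ramification
import Fermat.Agent.S18L.AsmFinal
import Fermat.Agent.S37L.EvAbsSep
import Fermat.Agent.S37L.EvCons
import Fermat.Agent.S37L.EsFDefs

/-!
# S37, block EV/SEP (owner helper5): the two exports for block F

* `ev_type` (T1 for `j`): `j(P) ∈ A` iff `j̄` is regular at `r P`.
* `ev_sep`  (SEP): three places `Q₀ ≠ Q₁, Q₂` of `F̄_N` of the same type `τ` are separated by the
  reduction of an integral function all of whose poles reduce to places of the other type.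

Both hold for an arbitrary place reduction `r` (`IsPlaceReductionModL A N r`) at a level with a
chart (`hcases`).
-/

set_option autoImplicit false
set_option synthInstance.maxHeartbeats 400000

open ModularCurve AlgebraicCurve HahnSeries

namespace Fermat.Agent.S37L

open Fermat.Agent.RRL Fermat.Agent.S18L Fermat.Agent.X0S24

/-- a function of `L(s E₀)` has no pole at a point whose reduction avoids `r_* E₀` -/
theorem evty_no_pole {K F X Y : Type*} [Field K] [Field F] [Algebra K F]
    (C : PreCurve K F X) (r : X → Y) (E₀ : X →₀ ℤ) (hE₀ : 0 ≤ E₀) (s : ℕ) (x : F) (hx0 : x ≠ 0)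
    (hxE : x ∈ C.L (s • E₀)) (P : X) (hP : Finsupp.mapDomain r E₀ (r P) = 0) :
    0 ≤ C.ord P x := by
  have h1 := evabs_le_mapDomain r hE₀ P
  rw [hP] at h1
  have h2 := hE₀ P
  rw [Finsupp.coe_zero, Pi.zero_apply] at h2
  have h3 := ((C.mem_L _ x).mp hxE).resolve_left hx0 P
  rw [Finsupp.smul_apply, (by omega : E₀ P = 0), smul_zero] at h3
  omega

set_option maxHeartbeats 1600000 in
/-- the curve of places of `F̄_N` and a chart with (NE), (GE) -/
theorem ev_ctx (N : ℕ) [NeZero N] {ℓ : ℕ} [Fact ℓ.Prime] (hℓN : ¬ ℓ ∣ N)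
    (A : ValuationSubring (AlgebraicClosure ℚ)) (hA : A.LiesOverPrime ℓ)
    (hcases : 5 ≤ ℓ ∨ (ℓ = 3 ∧ 2 ∣ N) ∨ (ℓ = 2 ∧ 3 ∣ N)) :
    ∃ (Cb : Curve (IsLocalRing.ResidueField A)
        ↥(modularFunctionFieldFullC (IsLocalRing.ResidueField A) N)
        (Place (IsLocalRing.ResidueField A)
          ↥(modularFunctionFieldFullC (IsLocalRing.ResidueField A) N)))
      (_ : ∀ (Q : Place (IsLocalRing.ResidueField A)
          ↥(modularFunctionFieldFullC (IsLocalRing.ResidueField A) N))
        (x : ↥(modularFunctionFieldFullC (IsLocalRing.ResidueField A) N)),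
        Cb.toPreCurve.ord Q x = Q.ord x)
      (t : (redDatum A N hA hℓN).O),
      (∀ c : IsLocalRing.ResidueField A, (redDatum A N hA hℓN).red t ≠
        algebraMap (IsLocalRing.ResidueField A)
          ↥(modularFunctionFieldFullC (IsLocalRing.ResidueField A) N) c) ∧
      (∀ (s : ℕ) (x : (redDatum A N hA hℓN).O),
        (x : ↥(modularFunctionFieldBar N)) ∈ (curveBar N).toPreCurve.L
            (s • (curveBar N).toPreCurve.poleDiv (t : ↥(modularFunctionFieldBar N))) →
          (redDatum A N hA hℓN).red x ∈ Cb.toPreCurve.L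
            (s • Cb.toPreCurve.poleDiv ((redDatum A N hA hℓN).red t))) ∧
      (∃ s₀ : ℕ, ∀ s : ℕ, s₀ ≤ s →
        Module.finrank (IsLocalRing.ResidueField A)
            (Cb.toPreCurve.L (s • Cb.toPreCurve.poleDiv ((redDatum A N hA hℓN).red t)))
          ≤ Module.finrank (AlgebraicClosure ℚ)
            ((curveBar N).toPreCurve.L
              (s • (curveBar N).toPreCurve.poleDiv (t : ↥(modularFunctionFieldBar N))))) := by
  classical
  have : IsAlgClosed (IsLocalRing.ResidueField A) := isAlgClosed_residueField A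
  have : CharP (IsLocalRing.ResidueField A) ℓ := s28x_charP ℓ A hA
  have : FiniteDimensional (crvK (IsLocalRing.ResidueField A) (crvJ (IsLocalRing.ResidueField A) N))
      ↥(modularFunctionFieldFullC (IsLocalRing.ResidueField A) N) :=
    s28x_finiteDimensional_fullC ℓ N hℓN (IsLocalRing.ResidueField A)
  have : Algebra.IsSeparable
      (crvK (IsLocalRing.ResidueField A) (crvJ (IsLocalRing.ResidueField A) N))
      ↥(modularFunctionFieldFullC (IsLocalRing.ResidueField A) N) :=
    s28x_algebra_isSeparable_fullC ℓ N hℓN (IsLocalRing.ResidueField A)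
  have halgb : ∀ u : ↥(modularFunctionFieldFullC (IsLocalRing.ResidueField A) N),
      (∀ c : IsLocalRing.ResidueField A, u ≠ algebraMap (IsLocalRing.ResidueField A)
        ↥(modularFunctionFieldFullC (IsLocalRing.ResidueField A) N) c) →
      Algebra.IsAlgebraic (IntermediateField.adjoin (IsLocalRing.ResidueField A) {u})
        ↥(modularFunctionFieldFullC (IsLocalRing.ResidueField A) N) :=
    fun u hu => crv_full_G0 (IsLocalRing.ResidueField A) N u hu
  have hfinb : ∀ x : ↥(modularFunctionFieldFullC (IsLocalRing.ResidueField A) N),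
      x ≠ 0 → {Q : Place (IsLocalRing.ResidueField A)
        ↥(modularFunctionFieldFullC (IsLocalRing.ResidueField A) N) |
          Q.ord x ≠ 0}.Finite :=
    fun x hx => crv_full_G1 (IsLocalRing.ResidueField A) N x hx
  have hconstb : ∀ x : ↥(modularFunctionFieldFullC (IsLocalRing.ResidueField A) N),
      x ≠ 0 → (∀ Q : Place (IsLocalRing.ResidueField A)
        ↥(modularFunctionFieldFullC (IsLocalRing.ResidueField A) N), 0 ≤ Q.ord x) →
      ∃ c : IsLocalRing.ResidueField A, x = algebraMap (IsLocalRing.ResidueField A)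
        ↥(modularFunctionFieldFullC (IsLocalRing.ResidueField A) N) c :=
    fun x _ hx => crv_full_G2 (IsLocalRing.ResidueField A) N x hx
  obtain ⟨t, ht, hNE, hGE⟩ := inst_exists_param N hℓN A hA hcases
    (curveBar N) (fun _ _ => rfl)
    (curveOfPlaces halgb hfinb hconstb) (fun _ _ => rfl)
  exact ⟨curveOfPlaces halgb hfinb hconstb, fun _ _ => rfl, t, ht, hNE, hGE⟩

section J

variable (N : ℕ) [NeZero N] {ℓ : ℕ} [Fact ℓ.Prime] (hℓN : ¬ ℓ ∣ N)
  (A : ValuationSubring (AlgebraicClosure ℚ)) (hA : A.LiesOverPrime ℓ)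

/-- the reduction of `j` is not constant -/
theorem evty_ht (c : IsLocalRing.ResidueField A) :
    (redDatum A N hA hℓN).red (s28xTJ A N hA hℓN) ≠
      algebraMap (IsLocalRing.ResidueField A)
        ↥(modularFunctionFieldFullC (IsLocalRing.ResidueField A) N) c := by
  intro hc
  exact s28xTJ_transcendental A N hA hℓN (hc ▸ isAlgebraic_algebraMap c)

/-- `j` is not constant -/
theorem evty_htc (c : AlgebraicClosure ℚ) :
    ((s28xTJ A N hA hℓN : (redDatum A N hA hℓN).O) : ↥(modularFunctionFieldBar N)) ≠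
      algebraMap (AlgebraicClosure ℚ) ↥(modularFunctionFieldBar N) c := by
  intro h
  have hmem : algebraMap (AlgebraicClosure ℚ) ↥(modularFunctionFieldBar N) c
      ∈ (redDatum A N hA hℓN).O := h ▸ (s28xTJ A N hA hℓN).2
  have hcA : c ∈ (redDatum A N hA hℓN).A := ((redDatum A N hA hℓN).algebraMap_mem c).1 hmem
  have h1 := (redDatum A N hA hℓN).red_algebraMap ⟨c, hcA⟩ hmem
  have h2 : s28xTJ A N hA hℓN = ⟨algebraMap (AlgebraicClosure ℚ) ↥(modularFunctionFieldBar N) c,
      hmem⟩ := Subtype.ext h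
  exact evty_ht N hℓN A hA _ (by rw [h2]; exact h1)

variable (Cb : Curve (IsLocalRing.ResidueField A)
    ↥(modularFunctionFieldFullC (IsLocalRing.ResidueField A) N)
    (Place (IsLocalRing.ResidueField A)
      ↥(modularFunctionFieldFullC (IsLocalRing.ResidueField A) N)))
  (hCb : ∀ (Q : Place (IsLocalRing.ResidueField A)
      ↥(modularFunctionFieldFullC (IsLocalRing.ResidueField A) N))
    (x : ↥(modularFunctionFieldFullC (IsLocalRing.ResidueField A) N)),
    Cb.toPreCurve.ord Q x = Q.ord x)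
  (r : Place (AlgebraicClosure ℚ) ↥(modularFunctionFieldBar N) →
    Place (IsLocalRing.ResidueField A)
      ↥(modularFunctionFieldFullC (IsLocalRing.ResidueField A) N))
  (hr : IsPlaceReductionModL A N r)

include hCb hr in
/-- **T1 for `j`**: `r_* (j)_∞ = (j̄)_∞` -/
theorem evty_poleDiv :
    Finsupp.mapDomain r ((curveBar N).toPreCurve.poleDiv
        ((s28xTJ A N hA hℓN : (redDatum A N hA hℓN).O) : ↥(modularFunctionFieldBar N)))
      = Cb.toPreCurve.poleDiv ((redDatum A N hA hℓN).red (s28xTJ A N hA hℓN)) := by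
  have e1 := (curveBar N).finrank_eq_deg_poleDiv (evty_htc N hℓN A hA)
  have e2 := Cb.finrank_eq_deg_poleDiv (evty_ht N hℓN A hA)
  rw [s28xTJ_finrank] at e1
  rw [s28xTJ_finrank_red] at e2
  exact evabs_mapDomain_poleDiv (redDatum A N hA hℓN) (curveBar N) Cb (s28xTJ A N hA hℓN)
    (fun h => evty_ht N hℓN A hA 0 (by rw [h, map_zero])) (e1.symm.trans e2) r
    (fun u hu => ev_conservation N hℓN A hA (curveBar N) (fun _ _ => rfl) Cb hCb r hr u hu)

include hCb hr in
/-- `r_* (j)_0 = (j̄)_0` -/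
theorem evty_zeroDiv :
    Finsupp.mapDomain r ((curveBar N).toPreCurve.zeroDiv
        ((s28xTJ A N hA hℓN : (redDatum A N hA hℓN).O) : ↥(modularFunctionFieldBar N)))
      = Cb.toPreCurve.zeroDiv ((redDatum A N hA hℓN).red (s28xTJ A N hA hℓN)) := by
  have h1 := ev_conservation N hℓN A hA (curveBar N) (fun _ _ => rfl) Cb hCb r hr
    (s28xTJ A N hA hℓN) (fun h => evty_ht N hℓN A hA 0 (by rw [h, map_zero]))
  rw [(curveBar N).toPreCurve.div_eq_zeroDiv_sub_poleDiv,
    Cb.toPreCurve.div_eq_zeroDiv_sub_poleDiv, Finsupp.mapDomain_sub,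
    evty_poleDiv N hℓN A hA Cb hCb r hr] at h1
  exact sub_left_injective h1

end J

set_option maxHeartbeats 1600000 in
/-- **T1 for `j`**: a place `P` of `F_N` has `j(P) ∈ A` iff its reduction is not a pole of `j̄`. -/
theorem ev_type (N : ℕ) [NeZero N] {ℓ : ℕ} [Fact ℓ.Prime] (hℓN : ¬ ℓ ∣ N)
    (A : ValuationSubring (AlgebraicClosure ℚ)) (hA : A.LiesOverPrime ℓ)
    (hcases : 5 ≤ ℓ ∨ (ℓ = 3 ∧ 2 ∣ N) ∨ (ℓ = 2 ∧ 3 ∣ N))
    (r : Place (AlgebraicClosure ℚ) ↥(modularFunctionFieldBar N) →
      Place (IsLocalRing.ResidueField A)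
        ↥(modularFunctionFieldFullC (IsLocalRing.ResidueField A) N))
    (hr : IsPlaceReductionModL A N r)
    (P : Place (AlgebraicClosure ℚ) ↥(modularFunctionFieldBar N)) :
    EsfFin N A P ↔ EsfTy N A (r P) := by
  classical
  obtain ⟨Cb, hCb, t, ht, hNE, hGE⟩ := ev_ctx N hℓN A hA hcases
  have hcons := fun u hu =>
    ev_conservation N hℓN A hA (curveBar N) (fun _ _ => rfl) Cb hCb r hr u hu
  have hT1 := evty_poleDiv N hℓN A hA Cb hCb r hr
  have htb0 : (redDatum A N hA hℓN).red (s28xTJ A N hA hℓN) ≠ 0 :=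
    fun h => evty_ht N hℓN A hA 0 (by rw [h, map_zero])
  have ht0 : ((s28xTJ A N hA hℓN : (redDatum A N hA hℓN).O) : ↥(modularFunctionFieldBar N)) ≠ 0 :=
    fun h => evty_htc N hℓN A hA 0 (by rw [h, map_zero])
  have hTy : EsfTy N A (r P) ↔
      0 ≤ Cb.ord (r P) ((redDatum A N hA hℓN).red (s28xTJ A N hA hℓN)) := by
    unfold EsfTy
    rw [hCb, s28xTJ_red]
  rw [hTy]
  constructor
  · rintro ⟨c, hc⟩
    have hc' : ((s28xTJ A N hA hℓN : (redDatum A N hA hℓN).O) : ↥(modularFunctionFieldBar N))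
          = algebraMap (AlgebraicClosure ℚ) ↥(modularFunctionFieldBar N) (c : AlgebraicClosure ℚ)
        ∨ 0 < (curveBar N).ord P
          (((s28xTJ A N hA hℓN : (redDatum A N hA hℓN).O) : ↥(modularFunctionFieldBar N))
            - algebraMap (AlgebraicClosure ℚ) ↥(modularFunctionFieldBar N)
              (c : AlgebraicClosure ℚ)) := hc
    have hcv := hc'.resolve_left (evty_htc N hℓN A hA _)
    have hmemc : algebraMap (AlgebraicClosure ℚ) ↥(modularFunctionFieldBar N)
        (c : AlgebraicClosure ℚ) ∈ (redDatum A N hA hℓN).O :=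
      ((redDatum A N hA hℓN).algebraMap_mem _).2 c.2
    set w : (redDatum A N hA hℓN).O := s28xTJ A N hA hℓN - ⟨_, hmemc⟩ with hw
    have hredw : (redDatum A N hA hℓN).red w
        = (redDatum A N hA hℓN).red (s28xTJ A N hA hℓN)
          - algebraMap (IsLocalRing.ResidueField A)
              ↥(modularFunctionFieldFullC (IsLocalRing.ResidueField A) N)
              ((redDatum A N hA hℓN).π c) := by
      rw [hw, map_sub, (redDatum A N hA hℓN).red_algebraMap c hmemc]
    have hredw0 : (redDatum A N hA hℓN).red w ≠ 0 := by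
      rw [hredw]
      exact sub_ne_zero.mpr (evty_ht N hℓN A hA _)
    have hwF : (w : ↥(modularFunctionFieldBar N))
        = ((s28xTJ A N hA hℓN : (redDatum A N hA hℓN).O) : ↥(modularFunctionFieldBar N))
          - algebraMap (AlgebraicClosure ℚ) ↥(modularFunctionFieldBar N)
            (c : AlgebraicClosure ℚ) := by
      rw [hw]
      rfl
    have hw0 : (w : ↥(modularFunctionFieldBar N)) ≠ 0 := by
      rw [hwF]
      exact sub_ne_zero.mpr (evty_htc N hℓN A hA _)
    have hwE : (w : ↥(modularFunctionFieldBar N)) ∈ (curveBar N).toPreCurve.L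
        ((curveBar N).toPreCurve.poleDiv
          ((s28xTJ A N hA hℓN : (redDatum A N hA hℓN).O) : ↥(modularFunctionFieldBar N))
          - Finsupp.single P 1) := by
      rw [PreCurve.mem_L]
      refine Or.inr fun p => ?_
      rw [Finsupp.sub_apply, Finsupp.single_apply, (curveBar N).toPreCurve.poleDiv_apply ht0 p]
      by_cases hp : P = p
      · subst hp
        rw [if_pos rfl, hwF]
        have := le_max_right (-(curveBar N).ord P
          ((s28xTJ A N hA hℓN : (redDatum A N hA hℓN).O) : ↥(modularFunctionFieldBar N))) 0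
        omega
      · rw [if_neg hp, sub_zero, hwF]
        by_cases hc0 : (c : AlgebraicClosure ℚ) = 0
        · rw [hc0, map_zero, sub_zero]
          have := le_max_left (-(curveBar N).ord p
            ((s28xTJ A N hA hℓN : (redDatum A N hA hℓN).O) : ↥(modularFunctionFieldBar N))) 0
          omega
        · have hc0' : algebraMap (AlgebraicClosure ℚ) ↥(modularFunctionFieldBar N)
              (c : AlgebraicClosure ℚ) ≠ 0 := by simpa using hc0
          have h1 := (curveBar N).toPreCurve.ord_sub p ht0 hc0' (by rw [← hwF]; exact hw0)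
          rw [(curveBar N).ord_algebraMap p hc0] at h1
          rcases le_total ((curveBar N).ord p
            ((s28xTJ A N hA hℓN : (redDatum A N hA hℓN).O) : ↥(modularFunctionFieldBar N))) 0
            with h | h
          · rw [min_eq_left h] at h1
            rw [max_eq_left (by omega)]
            omega
          · rw [min_eq_right h] at h1
            rw [max_eq_right (by omega)]
            omega
    have m := red_mem_L (redDatum A N hA hℓN) (curveBar N) Cb r hcons _ w hwE
    rw [Finsupp.mapDomain_sub, hT1, Finsupp.mapDomain_single] at m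
    have m' := ((Cb.toPreCurve.mem_L _ _).mp m).resolve_left hredw0 (r P)
    rw [Finsupp.sub_apply, Finsupp.single_apply, if_pos rfl,
      Cb.toPreCurve.poleDiv_apply htb0] at m'
    by_contra hneg
    push Not at hneg
    rw [max_eq_left (by omega)] at m'
    have hordw : Cb.ord (r P) ((redDatum A N hA hℓN).red w)
        = Cb.ord (r P) ((redDatum A N hA hℓN).red (s28xTJ A N hA hℓN)) := by
      rw [hredw]
      by_cases hπ : (redDatum A N hA hℓN).π c = 0
      · rw [hπ, map_zero, sub_zero]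
      · have hπ' : algebraMap (IsLocalRing.ResidueField A)
            ↥(modularFunctionFieldFullC (IsLocalRing.ResidueField A) N)
            ((redDatum A N hA hℓN).π c) ≠ 0 := by simpa using hπ
        rw [sub_eq_add_neg]
        refine Cb.toPreCurve.ord_add_eq_of_lt (r P) htb0 (neg_ne_zero.mpr hπ') ?_
        rw [Cb.toPreCurve.ord_neg (r P) hπ', Cb.ord_algebraMap (r P) hπ]
        exact hneg
    rw [hordw] at m'
    omega
  · intro h
    have hP0 : Finsupp.mapDomain r ((curveBar N).toPreCurve.poleDiv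
        ((s28xTJ A N hA hℓN : (redDatum A N hA hℓN).O) : ↥(modularFunctionFieldBar N))) (r P)
        = 0 := by
      rw [hT1, Cb.toPreCurve.poleDiv_apply htb0, max_eq_right (by omega)]
    have hu : ((s28xTJ A N hA hℓN : (redDatum A N hA hℓN).O) : ↥(modularFunctionFieldBar N))
        ∈ (curveBar N).toPreCurve.L ((curveBar N).toPreCurve.poleDiv
          ((s28xTJ A N hA hℓN : (redDatum A N hA hℓN).O) : ↥(modularFunctionFieldBar N))) := by
      rw [PreCurve.mem_L]
      refine Or.inr fun p => ?_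
      rw [(curveBar N).toPreCurve.poleDiv_apply ht0 p]
      have := le_max_left (-(curveBar N).ord p
        ((s28xTJ A N hA hℓN : (redDatum A N hA hℓN).O) : ↥(modularFunctionFieldBar N))) 0
      omega
    obtain ⟨c, hc, -⟩ := ev_abs_value (redDatum A N hA hℓN) (curveBar N) Cb r hcons _
      ((curveBar N).toPreCurve.poleDiv_nonneg _) P hP0 (s28xTJ A N hA hℓN) hu
    exact ⟨c, hc⟩

set_option maxHeartbeats 1600000 in
/-- **SEP**: separation of places of `F̄_N` of type `τ` by reductions of integral functions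
whose poles all reduce to places of the other type. -/
theorem ev_sep (N : ℕ) [NeZero N] {ℓ : ℕ} [Fact ℓ.Prime] (hℓN : ¬ ℓ ∣ N)
    (A : ValuationSubring (AlgebraicClosure ℚ)) (hA : A.LiesOverPrime ℓ)
    (hcases : 5 ≤ ℓ ∨ (ℓ = 3 ∧ 2 ∣ N) ∨ (ℓ = 2 ∧ 3 ∣ N))
    (r : Place (AlgebraicClosure ℚ) ↥(modularFunctionFieldBar N) →
      Place (IsLocalRing.ResidueField A)
        ↥(modularFunctionFieldFullC (IsLocalRing.ResidueField A) N))
    (hr : IsPlaceReductionModL A N r) (τ : Prop)
    (Q₀ Q₁ Q₂ : Place (IsLocalRing.ResidueField A)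
      ↥(modularFunctionFieldFullC (IsLocalRing.ResidueField A) N))
    (h₀ : EsfTy N A Q₀ ↔ τ) (h₁ : EsfTy N A Q₁ ↔ τ) (h₂ : EsfTy N A Q₂ ↔ τ)
    (h01 : Q₀ ≠ Q₁) (h02 : Q₀ ≠ Q₂) :
    ∃ u : asmO A N,
      (∀ P : Place (AlgebraicClosure ℚ) ↥(modularFunctionFieldBar N),
        P.ord (u : ↥(modularFunctionFieldBar N)) < 0 → ¬ (EsfTy N A (r P) ↔ τ)) ∧
      0 < Q₀.ord (asmRed A N u) ∧ Q₁.ord (asmRed A N u) = 0 ∧ Q₂.ord (asmRed A N u) = 0 := by
  classical
  have : IsAlgClosed (IsLocalRing.ResidueField A) := isAlgClosed_residueField A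
  have : Infinite (IsLocalRing.ResidueField A) := inferInstance
  obtain ⟨Cb, hCb, t, ht, hNE, hGE⟩ := ev_ctx N hℓN A hA hcases
  have hcons := fun u hu =>
    ev_conservation N hℓN A hA (curveBar N) (fun _ _ => rfl) Cb hCb r hr u hu
  have htb0 : (redDatum A N hA hℓN).red (s28xTJ A N hA hℓN) ≠ 0 :=
    fun h => evty_ht N hℓN A hA 0 (by rw [h, map_zero])
  have ht0 : ((s28xTJ A N hA hℓN : (redDatum A N hA hℓN).O) : ↥(modularFunctionFieldBar N)) ≠ 0 :=
    fun h => evty_htc N hℓN A hA 0 (by rw [h, map_zero])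
  have hTy : ∀ Q, EsfTy N A Q ↔
      0 ≤ Cb.ord Q ((redDatum A N hA hℓN).red (s28xTJ A N hA hℓN)) := by
    intro Q
    unfold EsfTy
    rw [hCb, s28xTJ_red]
  have hx0F : ∀ x : (redDatum A N hA hℓN).O, (redDatum A N hA hℓN).red x ≠ 0 →
      (x : ↥(modularFunctionFieldBar N)) ≠ 0 := by
    intro x hx h0
    have : x = 0 := Subtype.ext h0
    rw [this, map_zero] at hx
    exact hx rfl
  by_cases hτ : τ
  · have hQ : ∀ Q, (EsfTy N A Q ↔ τ) → Finsupp.mapDomain r ((curveBar N).toPreCurve.poleDiv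
        ((s28xTJ A N hA hℓN : (redDatum A N hA hℓN).O) : ↥(modularFunctionFieldBar N))) Q
        = 0 := by
      intro Q hQ
      have := (hTy Q).mp (hQ.mpr hτ)
      rw [evty_poleDiv N hℓN A hA Cb hCb r hr, Cb.toPreCurve.poleDiv_apply htb0,
        max_eq_right (by omega)]
    obtain ⟨s, x, hxE, hx0, e0, e1, e2⟩ := ev_abs_sep (redDatum A N hA hℓN) (curveBar N) Cb
      (hasOrth_redDatum A N hA hℓN) t ht hNE hGE r hcons _
      ((curveBar N).toPreCurve.deg_poleDiv_pos (evty_htc N hℓN A hA)) Q₀ Q₁ Q₂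
      (hQ Q₀ h₀) (hQ Q₁ h₁) (hQ Q₂ h₂) h01 h02
    refine ⟨x, fun P hP hiff => ?_, ?_, ?_, ?_⟩
    · have := evty_no_pole (curveBar N).toPreCurve r _
        ((curveBar N).toPreCurve.poleDiv_nonneg _) s
        (x : ↥(modularFunctionFieldBar N)) (hx0F x hx0) hxE P (hQ (r P) hiff)
      exact absurd hP (not_lt.mpr this)
    · rw [← hCb]; exact e0
    · rw [← hCb]; exact e1
    · rw [← hCb]; exact e2
  · have hQ : ∀ Q, (EsfTy N A Q ↔ τ) → Finsupp.mapDomain r ((curveBar N).toPreCurve.zeroDiv
        ((s28xTJ A N hA hℓN : (redDatum A N hA hℓN).O) : ↥(modularFunctionFieldBar N))) Q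
        = 0 := by
      intro Q hQ
      have : ¬ 0 ≤ Cb.ord Q ((redDatum A N hA hℓN).red (s28xTJ A N hA hℓN)) :=
        fun h => hτ (hQ.mp ((hTy Q).mpr h))
      rw [evty_zeroDiv N hℓN A hA Cb hCb r hr, Cb.toPreCurve.zeroDiv_apply htb0,
        max_eq_right (by omega)]
    have hdeg : 0 < PreCurve.deg ((curveBar N).toPreCurve.zeroDiv
        ((s28xTJ A N hA hℓN : (redDatum A N hA hℓN).O) : ↥(modularFunctionFieldBar N))) := by
      have h1 := (curveBar N).deg_div ht0
      rw [(curveBar N).toPreCurve.div_eq_zeroDiv_sub_poleDiv, PreCurve.deg_sub] at h1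
      have h2 := (curveBar N).toPreCurve.deg_poleDiv_pos (evty_htc N hℓN A hA)
      omega
    obtain ⟨s, x, hxE, hx0, e0, e1, e2⟩ := ev_abs_sep (redDatum A N hA hℓN) (curveBar N) Cb
      (hasOrth_redDatum A N hA hℓN) t ht hNE hGE r hcons _ hdeg Q₀ Q₁ Q₂
      (hQ Q₀ h₀) (hQ Q₁ h₁) (hQ Q₂ h₂) h01 h02
    refine ⟨x, fun P hP hiff => ?_, ?_, ?_, ?_⟩
    · have := evty_no_pole (curveBar N).toPreCurve r _
        ((curveBar N).toPreCurve.zeroDiv_nonneg _) s
        (x : ↥(modularFunctionFieldBar N)) (hx0F x hx0) hxE P (hQ (r P) hiff)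
      exact absurd hP (not_lt.mpr this)
    · rw [← hCb]; exact e0
    · rw [← hCb]; exact e1
    · rw [← hCb]; exact e2

end Fermat.Agent.S37L
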