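import Mathlib
import Fermat.Agent.S37L.EsFDefs
import Fermat.Agent.S37L.EvType

/-!
# S37, block F: the two inputs from the EV/SEP toolbox (proved by helper5: `ev_type`, `ev_sep`)

* `esf_type` (T1 for `j`): `j(P) ∈ A` iff `j̄` is regular at `r P`.
* `esf_sep`  (SEP): three places `Q₀ ≠ Q₁, Q₂` of `F̄_N` of the same type `τ` are separated by the
  reduction of an integral function (element of `asmO A N`) all of whose poles reduce to places
  of the other type.
-/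

set_option autoImplicit false
set_option synthInstance.maxHeartbeats 400000

open ModularCurve AlgebraicCurve HahnSeries

namespace Fermat.Agent.S37L

open Fermat.Agent.S18L

/-- **T1 for `j`**: a place `P` of `F_N` has `j(P) ∈ A` iff its reduction is not a pole of `j̄`. -/
theorem esf_type (N : ℕ) [NeZero N] {ℓ : ℕ} [Fact ℓ.Prime] (hℓN : ¬ ℓ ∣ N)
    (A : ValuationSubring (AlgebraicClosure ℚ)) (hA : A.LiesOverPrime ℓ)
    (hcases : 5 ≤ ℓ ∨ (ℓ = 3 ∧ 2 ∣ N) ∨ (ℓ = 2 ∧ 3 ∣ N))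
    (r : Place (AlgebraicClosure ℚ) ↥(modularFunctionFieldBar N) →
      Place (IsLocalRing.ResidueField A)
        ↥(modularFunctionFieldFullC (IsLocalRing.ResidueField A) N))
    (hr : IsPlaceReductionModL A N r)
    (P : Place (AlgebraicClosure ℚ) ↥(modularFunctionFieldBar N)) :
    EsfFin N A P ↔ EsfTy N A (r P) :=
  ev_type N hℓN A hA hcases r hr P

/-- **SEP**: separation of places of `F̄_N` of type `τ` by reductions of integral functions
whose poles all reduce to places of the other type. -/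
theorem esf_sep (N : ℕ) [NeZero N] {ℓ : ℕ} [Fact ℓ.Prime] (hℓN : ¬ ℓ ∣ N)
    (A : ValuationSubring (AlgebraicClosure ℚ)) (hA : A.LiesOverPrime ℓ)
    (hcases : 5 ≤ ℓ ∨ (ℓ = 3 ∧ 2 ∣ N) ∨ (ℓ = 2 ∧ 3 ∣ N))
    (r : Place (AlgebraicClosure ℚ) ↥(modularFunctionFieldBar N) →
      Place (IsLocalRing.ResidueField A)
        ↥(modularFunctionFieldFullC (IsLocalRing.ResidueField A) N))
    (hr : IsPlaceReductionModL A N r) (τ : Prop)
    (Q₀ Q₁ Q₂ : Place (IsLocalRing.ResidueField A)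
      ↥(modularFunctionFieldFullC (IsLocalRing.ResidueField A) N))
    (h₀ : EsfTy N A Q₀ ↔ τ) (h₁ : EsfTy N A Q₁ ↔ τ) (h₂ : EsfTy N A Q₂ ↔ τ)
    (h01 : Q₀ ≠ Q₁) (h02 : Q₀ ≠ Q₂) :
    ∃ u : asmO A N,
      (∀ P : Place (AlgebraicClosure ℚ) ↥(modularFunctionFieldBar N),
        P.ord (u : ↥(modularFunctionFieldBar N)) < 0 → ¬ (EsfTy N A (r P) ↔ τ)) ∧
      0 < Q₀.ord (asmRed A N u) ∧ Q₁.ord (asmRed A N u) = 0 ∧ Q₂.ord (asmRed A N u) = 0 :=
  ev_sep N hℓN A hA hcases r hr τ Q₀ Q₁ Q₂ h₀ h₁ h₂ h01 h02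

end Fermat.Agent.S37L
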