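import Mathlib
import Fermat.Prelude.Def_ModularCurve_HeckeOperator
import Fermat.Prelude.Def_ModularCurve_ReductionModL
import Fermat.Prelude.Def_FLTPrelim_Ramification
import Fermat.Agent.S28L.LowDefs
import Fermat.Agent.S37L.EsdModInt

/-!
# S37, block E (helper7): common definitions and imports for the `EsK*` files
-/

set_option autoImplicit false

noncomputable section

open ModularCurve AlgebraicCurve HahnSeries Polynomial
open scoped IntermediateField

namespace Fermat.Agent.S37L

/-- the algebraic closure of `ℚ̄((q))` -/
abbrev EskE : Type := AlgebraicClosure (LaurentSeries (AlgebraicClosure ℚ))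

/-- `F_N` acts on `EskE` through `β`: `c ↦ ι (c(q^ℓ))` -/
@[reducible] def eskAlgE (N ℓ : ℕ) [NeZero N] [NeZero ℓ] :
    Algebra ↥(modularFunctionFieldBar N) EskE :=
  ((algebraMap (LaurentSeries (AlgebraicClosure ℚ)) EskE).comp
    ((qExpand (AlgebraicClosure ℚ) ℓ).comp
      (algebraMap ↥(modularFunctionFieldBar N) (LaurentSeries (AlgebraicClosure ℚ))))).toAlgebra

end Fermat.Agent.S37L

end
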