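import Mathlib
import Fermat.Agent.S37L.EsKDefs

/-!
# S37, block E (helper7): leaf `EsKCharpoly`
-/

set_option autoImplicit false

noncomputable section

open ModularCurve AlgebraicCurve HahnSeries Polynomial
open scoped IntermediateField

namespace Fermat.Agent.S37L

section eskcharpoly131

variable {K F F' : Type*} [Field K] [Field F] [Field F'] [Algebra K F] [Algebra K F']

/-- the value of the characteristic polynomial along `φ` at `t` is the norm of `φ t - y` -/
theorem eskcharpoly131_eval (φ : F →ₐ[K] F') (hfin : FiniteAlong K φ) (y : F') (t : F) :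
    (esdCharpolyAlong φ hfin y).eval t
      = (letI := algebraAlong φ
         Algebra.norm F (φ t - y) : F) := by
  let _ := algebraAlong φ
  have : Module.Finite F F' := hfin
  change (LinearMap.charpoly (LinearMap.mulLeft F y)).eval t = Algebra.norm F (φ t - y)
  rw [LinearMap.eval_charpoly, Algebra.norm_apply]
  congr 1
  ext z
  change t • z - y * z = (φ t - y) * z
  rw [sub_mul]
  rfl

end eskcharpoly131

theorem esk_charpoly_of_norm (N ℓ : ℕ) [NeZero N] [NeZero ℓ]
    (ζ : (AlgebraicClosure ℚ)ˣ)
    (hζ : (∑ i ∈ Finset.range ℓ, ((ζ ^ i : (AlgebraicClosure ℚ)ˣ) : AlgebraicClosure ℚ)) = 0)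
    (ρ : ↥(modularFunctionFieldBar (N * ℓ)) →+* EskE)
    (hβ : ∀ g : ↥(modularFunctionFieldBar N),
        ρ (heckeBetaBar (AlgebraicClosure ℚ) N ℓ g)
          = algebraMap (LaurentSeries (AlgebraicClosure ℚ)) EskE
              (qExpand (AlgebraicClosure ℚ) ℓ (g : LaurentSeries (AlgebraicClosure ℚ))))
    (hα : ∀ g : ↥(modularFunctionFieldBar N),
        ρ (heckeAlphaBar (AlgebraicClosure ℚ) N ℓ g)
          = algebraMap (LaurentSeries (AlgebraicClosure ℚ)) EskE
              (qExpand (AlgebraicClosure ℚ) (ℓ * ℓ) (g : LaurentSeries (AlgebraicClosure ℚ))))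
    (hnorm : ∀ x : ↥(modularFunctionFieldBar (N * ℓ)),
        algebraMap (LaurentSeries (AlgebraicClosure ℚ)) EskE
            (qExpand (AlgebraicClosure ℚ) ℓ
              (((letI := algebraAlong (heckeBetaBar (AlgebraicClosure ℚ) N ℓ)
                 Algebra.norm ↥(modularFunctionFieldBar N) x :
                  ↥(modularFunctionFieldBar N)) : LaurentSeries (AlgebraicClosure ℚ))))
          = ρ x * ∏ b ∈ Finset.range ℓ,
              algebraMap (LaurentSeries (AlgebraicClosure ℚ)) EskE
                (Fermat.Agent.S28L.tw (ζ ^ b) (x : LaurentSeries (AlgebraicClosure ℚ))))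
    (g : ↥(modularFunctionFieldBar N)) :
    (esdCharpolyAlong (heckeBetaBar (AlgebraicClosure ℚ) N ℓ) (esd_finite_beta N ℓ)
        (heckeAlphaBar (AlgebraicClosure ℚ) N ℓ g)).map
        ((qExpand (AlgebraicClosure ℚ) ℓ).comp
          (algebraMap ↥(modularFunctionFieldBar N) (LaurentSeries (AlgebraicClosure ℚ))))
      = (X - Polynomial.C
            (qExpand (AlgebraicClosure ℚ) (ℓ * ℓ) (g : LaurentSeries (AlgebraicClosure ℚ))))
        * ∏ b ∈ Finset.range ℓ,
            (X - Polynomial.C
              (Fermat.Agent.S28L.tw (ζ ^ b) (g : LaurentSeries (AlgebraicClosure ℚ)))) := by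
  classical
  set β := heckeBetaBar (AlgebraicClosure ℚ) N ℓ with hβdef
  set α := heckeAlphaBar (AlgebraicClosure ℚ) N ℓ with hαdef
  have hιinj : Function.Injective
      (algebraMap (LaurentSeries (AlgebraicClosure ℚ)) EskE) :=
    (algebraMap (LaurentSeries (AlgebraicClosure ℚ)) EskE).injective
  have hCinj : Function.Injective
      (algebraMap (AlgebraicClosure ℚ) (LaurentSeries (AlgebraicClosure ℚ))) :=
    (algebraMap (AlgebraicClosure ℚ) (LaurentSeries (AlgebraicClosure ℚ))).injective
  apply Polynomial.eq_of_infinite_eval_eq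
  refine Set.Infinite.mono ?_ (Set.infinite_range_of_injective hCinj)
  rintro _ ⟨c, rfl⟩
  change _ = _
  set t : ↥(modularFunctionFieldBar N) :=
    algebraMap (AlgebraicClosure ℚ) ↥(modularFunctionFieldBar N) c with ht
  have htc : ((t : ↥(modularFunctionFieldBar N)) : LaurentSeries (AlgebraicClosure ℚ))
      = algebraMap (AlgebraicClosure ℚ) (LaurentSeries (AlgebraicClosure ℚ)) c := rfl
  have hV : qExpand (AlgebraicClosure ℚ) ℓ
      (algebraMap (AlgebraicClosure ℚ) (LaurentSeries (AlgebraicClosure ℚ)) c)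
      = algebraMap (AlgebraicClosure ℚ) (LaurentSeries (AlgebraicClosure ℚ)) c :=
    (qExpandAlgHomC (AlgebraicClosure ℚ) ℓ).commutes c
  have hft : ((qExpand (AlgebraicClosure ℚ) ℓ).comp
      (algebraMap ↥(modularFunctionFieldBar N) (LaurentSeries (AlgebraicClosure ℚ)))) t
      = algebraMap (AlgebraicClosure ℚ) (LaurentSeries (AlgebraicClosure ℚ)) c := by
    rw [RingHom.comp_apply]
    exact hV
  apply hιinj
  have hx := hnorm (β t - α g)
  have hcoe : ((β t - α g : ↥(modularFunctionFieldBar (N * ℓ))) :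
      LaurentSeries (AlgebraicClosure ℚ))
      = algebraMap (AlgebraicClosure ℚ) (LaurentSeries (AlgebraicClosure ℚ)) c
        - (g : LaurentSeries (AlgebraicClosure ℚ)) := by
    have h1 : ((β t : ↥(modularFunctionFieldBar (N * ℓ))) :
        LaurentSeries (AlgebraicClosure ℚ)) = qExpand (AlgebraicClosure ℚ) ℓ
          ((t : ↥(modularFunctionFieldBar N)) : LaurentSeries (AlgebraicClosure ℚ)) := rfl
    have h2 : ((α g : ↥(modularFunctionFieldBar (N * ℓ))) :
        LaurentSeries (AlgebraicClosure ℚ)) = (g : LaurentSeries (AlgebraicClosure ℚ)) :=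
      coe_heckeAlphaBar N ℓ g
    rw [AddSubgroupClass.coe_sub, h1, h2, htc, hV]
  rw [← hft, Polynomial.eval_map, Polynomial.eval₂_at_apply, eskcharpoly131_eval, RingHom.comp_apply]
  refine hx.trans ?_
  rw [map_sub, hβ, hα, htc, hV, hcoe, Polynomial.eval_mul, Polynomial.eval_prod, map_mul,
    map_prod, hft]
  simp only [Polynomial.eval_sub, Polynomial.eval_X, Polynomial.eval_C, map_sub,
    Fermat.Agent.S28L.tw_sub, Fermat.Agent.S28L.tw_algebraMap]

end Fermat.Agent.S37L

end
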