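import Mathlib
import Fermat.Agent.S37L.EsdMod

/-!
# S37, block D (helper6), supplement: the order of a norm

* `esd_ord_norm`      : `ord_v (N_{F'/F} f) = Σ_{w | v} ord_w f` (generic function fields);
* `esd_ord_norm_beta` : the same along `β = heckeBetaBar : F_N → F_{Nℓ}`.
-/

set_option autoImplicit false

open AlgebraicCurve ModularCurve
open scoped IntermediateField

namespace Fermat.Agent.S37L

universe uK uF uF'

/-- `ord_v (N_{F'/F} f) = Σ_{w | v} ord_w f` -/
theorem esd_ord_norm {K : Type uK} {F : Type uF} {F' : Type uF'} [Field K] [Field F] [Field F']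
    [Algebra K F] [Algebra K F'] [Algebra F F'] [IsScalarTower K F F']
    [Algebra.IsIntegral F F'] [HasPrincipalDivisors K F']
    [IsAlgClosed K] [CharZero K] (h : EsdFF K F) (h' : EsdFF K F')
    [Module.Finite F F'] (v : Place K F) (f : F') (hf : f ≠ 0) :
    v.ord (Algebra.norm F f) = ∑ w ∈ v.fiber F', w.ord f :=
  esd_inst (F' := F') v (fun R S _ _ _ _ _ _ _ _ _ _ _ _ _ _ _ _ _ _ hP =>
    esdl_norm R S v h h' hP f hf)

/-- the order of the norm along `β` -/
theorem esd_ord_norm_beta (N ℓ : ℕ) [NeZero N] [NeZero ℓ]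
    (P : Place (AlgebraicClosure ℚ) ↥(modularFunctionFieldBar N))
    (x : ↥(modularFunctionFieldBar (N * ℓ))) (hx : x ≠ 0) :
    P.ord (letI := algebraAlong (heckeBetaBar (AlgebraicClosure ℚ) N ℓ)
        Algebra.norm ↥(modularFunctionFieldBar N) x)
      = ∑ w ∈ Place.fiberAlong (heckeBetaBar (AlgebraicClosure ℚ) N ℓ) (esd_beta_integral N ℓ) P,
          w.ord x := by
  letI := algebraAlong (heckeBetaBar (AlgebraicClosure ℚ) N ℓ)
  haveI := isScalarTower_along (heckeBetaBar (AlgebraicClosure ℚ) N ℓ)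
  haveI := isIntegral_along (heckeBetaBar (AlgebraicClosure ℚ) N ℓ) (esd_beta_integral N ℓ)
  haveI : Module.Finite ↥(modularFunctionFieldBar N) ↥(modularFunctionFieldBar (N * ℓ)) :=
    esd_finite_beta N ℓ
  exact esd_ord_norm (esd_ff_bar N) (esd_ff_bar (N * ℓ)) P x hx

end Fermat.Agent.S37L
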