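import Mathlib
import Fermat.Agent.S37L.EsFDefs
import Fermat.Agent.S37L.EsFVal
import Fermat.Agent.S37L.EsFType
import Fermat.Agent.S37L.EsFCons
import Fermat.Agent.S37L.EsFCl
import Fermat.Agent.S37L.EsdMod
import Fermat.Agent.S37L.EsdNorm
import Fermat.Agent.S37L.EsKCharpoly

/-!
# S37, block F, leaf L6a–c: Hecke neighbours

`α = heckeAlphaBar`, `β = heckeBetaBar : F_N → F_{Nℓ}`; for a place `W` of `F_{Nℓ}` the places
`W ∘ α` and `W ∘ β` of `F_N` are Hecke neighbours.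

* `esf_nbr_type` : the reductions of Hecke neighbours have the same type;
* `esf_nbr_reg`  : if all poles of `u ∈ asmO A N` reduce to places of the type other than that of
                   `r P`, then `α u` is regular at every `w` above `P` via `β`;
* `esf_nbr_val`  : ... and its value `a` at `w` lies in `A`, with `ū (r (w ∘ α)) = ā`;
* `esf_chi_pole` : the poles of `χ_u (c)` reduce to places of the other type as well.
-/

set_option autoImplicit false
set_option synthInstance.maxHeartbeats 400000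

open ModularCurve AlgebraicCurve HahnSeries

namespace Fermat.Agent.S37L

open Fermat.Agent.S18L

theorem esf_nbr_type (N ℓ : ℕ) [NeZero N] [NeZero ℓ] (hℓ : ℓ.Prime) (hℓN : ¬ ℓ ∣ N)
    (A : ValuationSubring (AlgebraicClosure ℚ)) (hA : A.LiesOverPrime ℓ)
    (hcases : 5 ≤ ℓ ∨ (ℓ = 3 ∧ 2 ∣ N) ∨ (ℓ = 2 ∧ 3 ∣ N))
    (r : Place (AlgebraicClosure ℚ) ↥(modularFunctionFieldBar N) →
      Place (IsLocalRing.ResidueField A)
        ↥(modularFunctionFieldFullC (IsLocalRing.ResidueField A) N))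
    (hr : IsPlaceReductionModL A N r)
    (hα : HeckeAlphaBarIntegral (AlgebraicClosure ℚ) N ℓ)
    (hβ : HeckeBetaBarIntegral (AlgebraicClosure ℚ) N ℓ)
    (W : Place (AlgebraicClosure ℚ) ↥(modularFunctionFieldBar (N * ℓ))) :
    EsfTy N A (r (W.restrictAlong (heckeAlphaBar (AlgebraicClosure ℚ) N ℓ) hα))
      ↔ EsfTy N A (r (W.restrictAlong (heckeBetaBar (AlgebraicClosure ℚ) N ℓ) hβ)) := by
  haveI : Fact ℓ.Prime := ⟨hℓ⟩
  rw [← esf_type N hℓN A hA hcases r hr, ← esf_type N hℓN A hA hcases r hr]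
  exact esf_cl N ℓ hℓ A hα hβ W

theorem esf_nbr_reg (N ℓ : ℕ) [NeZero N] [NeZero ℓ] (hℓ : ℓ.Prime) (hℓN : ¬ ℓ ∣ N)
    (A : ValuationSubring (AlgebraicClosure ℚ)) (hA : A.LiesOverPrime ℓ)
    (hcases : 5 ≤ ℓ ∨ (ℓ = 3 ∧ 2 ∣ N) ∨ (ℓ = 2 ∧ 3 ∣ N))
    (r : Place (AlgebraicClosure ℚ) ↥(modularFunctionFieldBar N) →
      Place (IsLocalRing.ResidueField A)
        ↥(modularFunctionFieldFullC (IsLocalRing.ResidueField A) N))
    (hr : IsPlaceReductionModL A N r)
    (hα : HeckeAlphaBarIntegral (AlgebraicClosure ℚ) N ℓ)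
    (hβ : HeckeBetaBarIntegral (AlgebraicClosure ℚ) N ℓ)
    (τ : Prop) (u : asmO A N)
    (hpole : ∀ P' : Place (AlgebraicClosure ℚ) ↥(modularFunctionFieldBar N),
      P'.ord (u : ↥(modularFunctionFieldBar N)) < 0 → ¬ (EsfTy N A (r P') ↔ τ))
    (w : Place (AlgebraicClosure ℚ) ↥(modularFunctionFieldBar (N * ℓ)))
    (hw : EsfTy N A (r (w.restrictAlong (heckeBetaBar (AlgebraicClosure ℚ) N ℓ) hβ)) ↔ τ) :
    0 ≤ w.ord (heckeAlphaBar (AlgebraicClosure ℚ) N ℓ (u : ↥(modularFunctionFieldBar N))) := by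
  by_contra hneg
  have hneg' : w.ord (heckeAlphaBar (AlgebraicClosure ℚ) N ℓ
      (u : ↥(modularFunctionFieldBar N))) < 0 := not_le.mp hneg
  have hord := Place.ord_restrictAlong (heckeAlphaBar (AlgebraicClosure ℚ) N ℓ) hα w
    (u : ↥(modularFunctionFieldBar N))
  have h1 : (w.restrictAlong (heckeAlphaBar (AlgebraicClosure ℚ) N ℓ) hα).ord
      (u : ↥(modularFunctionFieldBar N)) < 0 := by
    by_contra h2
    have h3 := mul_nonneg (Int.natCast_nonneg
      (Place.ramificationIndexAlong (heckeAlphaBar (AlgebraicClosure ℚ) N ℓ) w)) (not_lt.mp h2)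
    rw [← hord] at h3
    exact hneg h3
  exact hpole _ h1 ((esf_nbr_type N ℓ hℓ hℓN A hA hcases r hr hα hβ w).trans hw)

theorem esf_nbr_val (N ℓ : ℕ) [NeZero N] [NeZero ℓ] (hℓ : ℓ.Prime) (hℓN : ¬ ℓ ∣ N)
    (A : ValuationSubring (AlgebraicClosure ℚ)) (hA : A.LiesOverPrime ℓ)
    (hcases : 5 ≤ ℓ ∨ (ℓ = 3 ∧ 2 ∣ N) ∨ (ℓ = 2 ∧ 3 ∣ N))
    (r : Place (AlgebraicClosure ℚ) ↥(modularFunctionFieldBar N) →
      Place (IsLocalRing.ResidueField A)
        ↥(modularFunctionFieldFullC (IsLocalRing.ResidueField A) N))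
    (hr : IsPlaceReductionModL A N r)
    (hα : HeckeAlphaBarIntegral (AlgebraicClosure ℚ) N ℓ)
    (hβ : HeckeBetaBarIntegral (AlgebraicClosure ℚ) N ℓ)
    (τ : Prop) (u : asmO A N)
    (hpole : ∀ P' : Place (AlgebraicClosure ℚ) ↥(modularFunctionFieldBar N),
      P'.ord (u : ↥(modularFunctionFieldBar N)) < 0 → ¬ (EsfTy N A (r P') ↔ τ))
    (w : Place (AlgebraicClosure ℚ) ↥(modularFunctionFieldBar (N * ℓ)))
    (hw : EsfTy N A (r (w.restrictAlong (heckeBetaBar (AlgebraicClosure ℚ) N ℓ) hβ)) ↔ τ)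
    (a : AlgebraicClosure ℚ)
    (ha : heckeAlphaBar (AlgebraicClosure ℚ) N ℓ (u : ↥(modularFunctionFieldBar N))
        = algebraMap (AlgebraicClosure ℚ) ↥(modularFunctionFieldBar (N * ℓ)) a ∨
      0 < w.ord (heckeAlphaBar (AlgebraicClosure ℚ) N ℓ (u : ↥(modularFunctionFieldBar N))
        - algebraMap (AlgebraicClosure ℚ) ↥(modularFunctionFieldBar (N * ℓ)) a)) :
    ∃ h : a ∈ A,
      EsfVal (r (w.restrictAlong (heckeAlphaBar (AlgebraicClosure ℚ) N ℓ) hα)) (asmRed A N u)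
        (IsLocalRing.residue A ⟨a, h⟩) := by
  have hval : EsfVal (w.restrictAlong (heckeAlphaBar (AlgebraicClosure ℚ) N ℓ) hα)
      (u : ↥(modularFunctionFieldBar N)) a :=
    (esfcl175_transport (heckeAlphaBar (AlgebraicClosure ℚ) N ℓ) hα w
      (u : ↥(modularFunctionFieldBar N)) a).mpr ha
  have hty : EsfTy N A (r (w.restrictAlong (heckeAlphaBar (AlgebraicClosure ℚ) N ℓ) hα)) ↔ τ :=
    (esf_nbr_type N ℓ hℓ hℓN A hA hcases r hr hα hβ w).trans hw
  exact esf_ev_val N A r hr u _ a hval (fun P' hP' hEq => hpole P' hP' (by rw [hEq]; exact hty))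

theorem esf_chi_pole (N ℓ : ℕ) [NeZero N] [NeZero ℓ] (hℓ : ℓ.Prime) (hℓN : ¬ ℓ ∣ N)
    (A : ValuationSubring (AlgebraicClosure ℚ)) (hA : A.LiesOverPrime ℓ)
    (hcases : 5 ≤ ℓ ∨ (ℓ = 3 ∧ 2 ∣ N) ∨ (ℓ = 2 ∧ 3 ∣ N))
    (r : Place (AlgebraicClosure ℚ) ↥(modularFunctionFieldBar N) →
      Place (IsLocalRing.ResidueField A)
        ↥(modularFunctionFieldFullC (IsLocalRing.ResidueField A) N))
    (hr : IsPlaceReductionModL A N r)
    (τ : Prop) (u : asmO A N)
    (hpole : ∀ P' : Place (AlgebraicClosure ℚ) ↥(modularFunctionFieldBar N),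
      P'.ord (u : ↥(modularFunctionFieldBar N)) < 0 → ¬ (EsfTy N A (r P') ↔ τ))
    (c : AlgebraicClosure ℚ)
    (P' : Place (AlgebraicClosure ℚ) ↥(modularFunctionFieldBar N))
    (h : P'.ord ((esdCharpolyAlong (heckeBetaBar (AlgebraicClosure ℚ) N ℓ) (esd_finite_beta N ℓ)
        (heckeAlphaBar (AlgebraicClosure ℚ) N ℓ (u : ↥(modularFunctionFieldBar N)))).eval
          (algebraMap (AlgebraicClosure ℚ) ↥(modularFunctionFieldBar N) c)) < 0) :
    ¬ (EsfTy N A (r P') ↔ τ) := by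
  intro hty
  rw [eskcharpoly131_eval] at h
  have hx : heckeBetaBar (AlgebraicClosure ℚ) N ℓ
        (algebraMap (AlgebraicClosure ℚ) ↥(modularFunctionFieldBar N) c)
      - heckeAlphaBar (AlgebraicClosure ℚ) N ℓ (u : ↥(modularFunctionFieldBar N))
      = heckeAlphaBar (AlgebraicClosure ℚ) N ℓ
        (algebraMap (AlgebraicClosure ℚ) ↥(modularFunctionFieldBar N) c
          - (u : ↥(modularFunctionFieldBar N))) := by
    rw [map_sub, AlgHom.commutes, AlgHom.commutes]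
  by_cases hx0 : heckeBetaBar (AlgebraicClosure ℚ) N ℓ
        (algebraMap (AlgebraicClosure ℚ) ↥(modularFunctionFieldBar N) c)
      - heckeAlphaBar (AlgebraicClosure ℚ) N ℓ (u : ↥(modularFunctionFieldBar N)) = 0
  · rw [hx0] at h
    letI := algebraAlong (heckeBetaBar (AlgebraicClosure ℚ) N ℓ)
    haveI : Module.Finite ↥(modularFunctionFieldBar N) ↥(modularFunctionFieldBar (N * ℓ)) :=
      esd_finite_beta N ℓ
    rw [Algebra.norm_zero, Place.ord_zero] at h
    exact lt_irrefl _ h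
  · rw [esd_ord_norm_beta N ℓ P' _ hx0] at h
    obtain ⟨w, hw, hwneg⟩ : ∃ w ∈ Place.fiberAlong (heckeBetaBar (AlgebraicClosure ℚ) N ℓ)
        (esd_beta_integral N ℓ) P',
        w.ord (heckeBetaBar (AlgebraicClosure ℚ) N ℓ
          (algebraMap (AlgebraicClosure ℚ) ↥(modularFunctionFieldBar N) c)
          - heckeAlphaBar (AlgebraicClosure ℚ) N ℓ (u : ↥(modularFunctionFieldBar N))) < 0 := by
      by_contra hcon
      have hcon' : ∀ w ∈ Place.fiberAlong (heckeBetaBar (AlgebraicClosure ℚ) N ℓ)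
          (esd_beta_integral N ℓ) P',
          0 ≤ w.ord (heckeBetaBar (AlgebraicClosure ℚ) N ℓ
            (algebraMap (AlgebraicClosure ℚ) ↥(modularFunctionFieldBar N) c)
            - heckeAlphaBar (AlgebraicClosure ℚ) N ℓ (u : ↥(modularFunctionFieldBar N))) := by
        intro w hw
        by_contra hlt
        exact hcon ⟨w, hw, not_le.mp hlt⟩
      exact absurd (Finset.sum_nonneg hcon') (not_le.mpr h)
    rw [hx] at hwneg
    have hord := Place.ord_restrictAlong (heckeAlphaBar (AlgebraicClosure ℚ) N ℓ)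
      (esd_alpha_integral N ℓ) w
      (algebraMap (AlgebraicClosure ℚ) ↥(modularFunctionFieldBar N) c
        - (u : ↥(modularFunctionFieldBar N)))
    have h1 : (w.restrictAlong (heckeAlphaBar (AlgebraicClosure ℚ) N ℓ)
        (esd_alpha_integral N ℓ)).ord
        (algebraMap (AlgebraicClosure ℚ) ↥(modularFunctionFieldBar N) c
          - (u : ↥(modularFunctionFieldBar N))) < 0 := by
      by_contra h2
      have h3 := mul_nonneg (Int.natCast_nonneg
        (Place.ramificationIndexAlong (heckeAlphaBar (AlgebraicClosure ℚ) N ℓ) w)) (not_lt.mp h2)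
      rw [← hord] at h3
      exact absurd h3 (not_le.mpr hwneg)
    have h2 : (w.restrictAlong (heckeAlphaBar (AlgebraicClosure ℚ) N ℓ)
        (esd_alpha_integral N ℓ)).ord (u : ↥(modularFunctionFieldBar N)) < 0 := by
      by_contra hnn
      have hdeg : (w.restrictAlong (heckeAlphaBar (AlgebraicClosure ℚ) N ℓ)
          (esd_alpha_integral N ℓ)).deg = 1 := esd_deg_eq_one (esd_ff_bar N) _
      obtain ⟨a, ha⟩ := esf_val_exists _ hdeg (not_lt.mp hnn)
      have hsub := esf_val_sub _ (esf_val_const (w.restrictAlong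
        (heckeAlphaBar (AlgebraicClosure ℚ) N ℓ) (esd_alpha_integral N ℓ)) c) ha
      exact absurd (esf_val_nonneg _ hsub) (not_le.mpr h1)
    have hwP : w.restrictAlong (heckeBetaBar (AlgebraicClosure ℚ) N ℓ) (esd_beta_integral N ℓ)
        = P' := Place.mem_fiberAlong.mp hw
    have hnt := esf_nbr_type N ℓ hℓ hℓN A hA hcases r hr (esd_alpha_integral N ℓ)
      (esd_beta_integral N ℓ) w
    rw [hwP] at hnt
    exact hpole _ h2 (hnt.trans hty)

end Fermat.Agent.S37L
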