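import Mathlib
import Fermat.Agent.S37L.EsKDefs

/-!
# S37, block E (helper7): leaf `EsKModEq`
-/

set_option autoImplicit false

noncomputable section

open ModularCurve AlgebraicCurve HahnSeries Polynomial
open scoped IntermediateField

namespace Fermat.Agent.S37L

theorem esk_modeq_d (ℓ : ℕ) [NeZero ℓ] [Fact ℓ.Prime] (d : ℕ) [NeZero d] (hd : ¬ ℓ ∣ d)
    (ζ : (AlgebraicClosure ℚ)ˣ)
    (hζ : (∑ i ∈ Finset.range ℓ, ((ζ ^ i : (AlgebraicClosure ℚ)ˣ) : AlgebraicClosure ℚ)) = 0) :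
    Fermat.Agent.S28L.ev2 (Fermat.Agent.S28L.LowPhi ℓ)
        (qExpand (AlgebraicClosure ℚ) (d * ℓ) (jqModC (AlgebraicClosure ℚ)))
      = (X - Polynomial.C (qExpand (AlgebraicClosure ℚ) (d * ℓ * ℓ) (jqModC (AlgebraicClosure ℚ))))
        * ∏ b ∈ Finset.range ℓ,
            (X - Polynomial.C (Fermat.Agent.S28L.tw (ζ ^ b)
              (qExpand (AlgebraicClosure ℚ) d (jqModC (AlgebraicClosure ℚ))))) := by
  have hℓ : ℓ.Prime := Fact.out
  -- `ζ ^ ℓ = 1`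
  have h2 : ∑ i ∈ Finset.range ℓ, (ζ : AlgebraicClosure ℚ) ^ i = 0 := by
    simpa [Units.val_pow_eq_pow_val] using hζ
  have hζℓ : (ζ : AlgebraicClosure ℚ) ^ ℓ = 1 := by
    have h1 := mul_geom_sum (ζ : AlgebraicClosure ℚ) ℓ
    rw [h2, mul_zero] at h1
    exact sub_eq_zero.mp h1.symm
  -- `ζ ^ d ≠ 1`
  have hζd : (ζ : AlgebraicClosure ℚ) ^ d ≠ 1 := by
    intro h1
    have hcop : Nat.gcd d ℓ = 1 :=
      Nat.Coprime.gcd_eq_one (Nat.Coprime.symm ((Nat.Prime.coprime_iff_not_dvd hℓ).mpr hd))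
    have h3 : (ζ : AlgebraicClosure ℚ) ^ Nat.gcd d ℓ = 1 := pow_gcd_eq_one.mpr ⟨h1, hζℓ⟩
    rw [hcop, pow_one] at h3
    have h4 : (ℓ : AlgebraicClosure ℚ) = 0 := by
      have h5 := h2
      rw [h3] at h5
      simpa using h5
    exact hℓ.ne_zero (by exact_mod_cast h4)
  -- the root of unity `ζ ^ d`
  have hζ' : (∑ i ∈ Finset.range ℓ,
      (((ζ ^ d) ^ i : (AlgebraicClosure ℚ)ˣ) : AlgebraicClosure ℚ)) = 0 := by
    have h1 := mul_geom_sum ((ζ : AlgebraicClosure ℚ) ^ d) ℓ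
    have h5 : ((ζ : AlgebraicClosure ℚ) ^ d) ^ ℓ = 1 := by
      rw [← pow_mul, mul_comm, pow_mul, hζℓ, one_pow]
    rw [h5, sub_self] at h1
    have h4 := (mul_eq_zero.mp h1).resolve_left (sub_ne_zero.mpr hζd)
    simpa [Units.val_pow_eq_pow_val] using h4
  -- the modular equation for `ζ ^ d`, pushed forward by `V_d`
  have h := congrArg (Polynomial.map (qExpand (AlgebraicClosure ℚ) d))
    (Fermat.Agent.S28L.LowPhi_spec ℓ (AlgebraicClosure ℚ) (ζ ^ d) hζ')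
  rw [Fermat.Agent.S28L.ev2_map, Polynomial.map_mul, Polynomial.map_sub, Polynomial.map_X,
    Polynomial.map_C, Polynomial.map_prod, qExpand_qExpand, qExpand_qExpand] at h
  rw [h]
  congr 1
  · rw [qExpand_congr (Nat.mul_assoc d ℓ ℓ).symm]
  · refine Finset.prod_congr rfl fun b _ => ?_
    rw [Polynomial.map_sub, Polynomial.map_X, Polynomial.map_C, Fermat.Agent.S28L.tw_qExpand,
      pow_right_comm ζ d b]

end Fermat.Agent.S37L

end
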