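import Mathlib
import Fermat.Agent.S37L.EsKDefs
import Fermat.Agent.S37L.EsKModEq

/-!
# S37, block E (helper7): leaf `EsKCases`
-/

set_option autoImplicit false

noncomputable section

open ModularCurve AlgebraicCurve HahnSeries Polynomial
open scoped IntermediateField

namespace Fermat.Agent.S37L

/-- a ring hom commutes with `Φ(a, y)` -/
theorem eskcases_eval_hom {A B : Type*} [CommRing A] [CommRing B] (φ : A →+* B)
    (Φ : Polynomial (Polynomial ℤ)) (y a : A) :
    φ ((Fermat.Agent.S28L.ev2 Φ y).eval a)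
      = (Fermat.Agent.S28L.ev2 Φ (φ y)).eval (φ a) := by
  rw [← Fermat.Agent.S28L.ev2_map, Polynomial.eval_map, Polynomial.eval₂_at_apply]

theorem esk_rho_cases (N ℓ : ℕ) [NeZero N] [NeZero ℓ] (hℓ : ℓ.Prime) (hℓN : ¬ ℓ ∣ N)
    (ζ : (AlgebraicClosure ℚ)ˣ)
    (hζ : (∑ i ∈ Finset.range ℓ, ((ζ ^ i : (AlgebraicClosure ℚ)ˣ) : AlgebraicClosure ℚ)) = 0)
    (ρ : ↥(modularFunctionFieldBar (N * ℓ)) →+* EskE)
    (hβ : ∀ g : ↥(modularFunctionFieldBar N),
        ρ (heckeBetaBar (AlgebraicClosure ℚ) N ℓ g)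
          = algebraMap (LaurentSeries (AlgebraicClosure ℚ)) EskE
              (qExpand (AlgebraicClosure ℚ) ℓ (g : LaurentSeries (AlgebraicClosure ℚ))))
    (d : ℕ) [NeZero d] (hd : d ∣ N) (x : ↥(modularFunctionFieldBar N))
    (hx : (x : LaurentSeries (AlgebraicClosure ℚ))
      = qExpand (AlgebraicClosure ℚ) d (jqModC (AlgebraicClosure ℚ))) :
    ρ (heckeAlphaBar (AlgebraicClosure ℚ) N ℓ x)
        = algebraMap (LaurentSeries (AlgebraicClosure ℚ)) EskE
            (qExpand (AlgebraicClosure ℚ) (d * ℓ * ℓ) (jqModC (AlgebraicClosure ℚ)))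
      ∨ ∃ b ∈ Finset.range ℓ, ρ (heckeAlphaBar (AlgebraicClosure ℚ) N ℓ x)
        = algebraMap (LaurentSeries (AlgebraicClosure ℚ)) EskE
            (Fermat.Agent.S28L.tw (ζ ^ b)
              (qExpand (AlgebraicClosure ℚ) d (jqModC (AlgebraicClosure ℚ)))) := by
  have : Fact ℓ.Prime := ⟨hℓ⟩
  have hd' : ¬ ℓ ∣ d := fun h => hℓN (h.trans hd)
  have E := esk_modeq_d ℓ d hd' ζ hζ
  -- the coordinates of `α x` and `β x` as Laurent series
  have hca : ((heckeAlphaBar (AlgebraicClosure ℚ) N ℓ x : ↥(modularFunctionFieldBar (N * ℓ))) :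
      LaurentSeries (AlgebraicClosure ℚ))
        = qExpand (AlgebraicClosure ℚ) d (jqModC (AlgebraicClosure ℚ)) := by
    rw [coe_heckeAlphaBar, hx]
  have hVV : qExpand (AlgebraicClosure ℚ) ℓ
      (qExpand (AlgebraicClosure ℚ) d (jqModC (AlgebraicClosure ℚ)))
        = qExpand (AlgebraicClosure ℚ) (d * ℓ) (jqModC (AlgebraicClosure ℚ)) := by
    rw [qExpand_qExpand]
    exact qExpand_congr (Nat.mul_comm ℓ d) _
  have hcb : ((heckeBetaBar (AlgebraicClosure ℚ) N ℓ x : ↥(modularFunctionFieldBar (N * ℓ))) :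
      LaurentSeries (AlgebraicClosure ℚ))
        = qExpand (AlgebraicClosure ℚ) (d * ℓ) (jqModC (AlgebraicClosure ℚ)) := by
    rw [coe_heckeBetaBar, hx, hVV]
  -- `α x` is a root of `Φ(X, β x)` in `F_{Nℓ}`
  have h1 : (Fermat.Agent.S28L.ev2 (Fermat.Agent.S28L.LowPhi ℓ)
      (heckeBetaBar (AlgebraicClosure ℚ) N ℓ x)).eval
        (heckeAlphaBar (AlgebraicClosure ℚ) N ℓ x) = 0 := by
    have hinj : Function.Injective (algebraMap ↥(modularFunctionFieldBar (N * ℓ))
        (LaurentSeries (AlgebraicClosure ℚ))) :=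
      RingHom.injective (algebraMap ↥(modularFunctionFieldBar (N * ℓ))
        (LaurentSeries (AlgebraicClosure ℚ)))
    apply hinj
    rw [map_zero, eskcases_eval_hom]
    show (Fermat.Agent.S28L.ev2 (Fermat.Agent.S28L.LowPhi ℓ)
      ((heckeBetaBar (AlgebraicClosure ℚ) N ℓ x : ↥(modularFunctionFieldBar (N * ℓ))) :
        LaurentSeries (AlgebraicClosure ℚ))).eval
      ((heckeAlphaBar (AlgebraicClosure ℚ) N ℓ x : ↥(modularFunctionFieldBar (N * ℓ))) :
        LaurentSeries (AlgebraicClosure ℚ)) = 0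
    rw [hcb, hca, E, Polynomial.eval_mul, Polynomial.eval_prod]
    apply mul_eq_zero_of_right
    apply Finset.prod_eq_zero (Finset.mem_range.mpr hℓ.pos)
    rw [pow_zero, Fermat.Agent.S28L.tw_one_unit, Polynomial.eval_sub, Polynomial.eval_X,
      Polynomial.eval_C, sub_self]
  -- apply `ρ`
  have hρb : ρ (heckeBetaBar (AlgebraicClosure ℚ) N ℓ x)
      = algebraMap (LaurentSeries (AlgebraicClosure ℚ)) EskE
          (qExpand (AlgebraicClosure ℚ) (d * ℓ) (jqModC (AlgebraicClosure ℚ))) := by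
    rw [hβ x, hx, hVV]
  have h2 := congrArg ρ h1
  rw [map_zero, eskcases_eval_hom, hρb, ← Fermat.Agent.S28L.ev2_map, E, Polynomial.map_mul,
    Polynomial.eval_mul, Polynomial.map_prod, Polynomial.eval_prod] at h2
  rcases mul_eq_zero.mp h2 with h | h
  · left
    rw [Polynomial.map_sub, Polynomial.map_X, Polynomial.map_C, Polynomial.eval_sub,
      Polynomial.eval_X, Polynomial.eval_C] at h
    exact sub_eq_zero.mp h
  · right
    obtain ⟨b, hb, hb0⟩ := Finset.prod_eq_zero_iff.mp h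
    rw [Polynomial.map_sub, Polynomial.map_X, Polynomial.map_C, Polynomial.eval_sub,
      Polynomial.eval_X, Polynomial.eval_C] at hb0
    exact ⟨b, hb, sub_eq_zero.mp hb0⟩

end Fermat.Agent.S37L

end
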