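import Mathlib
import Fermat.Agent.S37L.EsKDefs

/-!
# S37, block E (helper7): leaf `EsKContract`
-/

set_option autoImplicit false

noncomputable section

open ModularCurve AlgebraicCurve HahnSeries Polynomial
open scoped IntermediateField

namespace Fermat.Agent.S37L

/-- A Laurent series whose coefficient-image is a `qExpand` is itself a `qExpand`. -/
theorem eskcontract_series {R S : Type*} [CommRing R] [CommRing S] (φ : R →+* S)
    (hφ : Function.Injective φ) (ℓ : ℕ) [NeZero ℓ]
    (f : LaurentSeries R) (g : LaurentSeries S)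
    (h : coeffMap φ f = qExpand S ℓ g) :
    f ∈ Set.range (qExpand R ℓ) := by
  have hℓ : (1 : ℤ) ≤ (ℓ : ℤ) := by
    have : 0 < ℓ := Nat.pos_of_ne_zero (NeZero.ne ℓ)
    exact_mod_cast this
  -- coefficients at non-multiples of `ℓ` vanish
  have hvan : ∀ k : ℤ, ¬ (ℓ : ℤ) ∣ k → f.coeff k = 0 := by
    intro k hk
    apply hφ
    rw [map_zero, ← coeffMap_coeff, h, qExpand_coeff_of_not_dvd ℓ g hk]
  -- the support of the contracted coefficient function is bounded below
  have hbdd : BddBelow (Function.support fun n : ℤ => f.coeff ((ℓ : ℤ) * n)) := by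
    refine ⟨min f.order 0, fun n hn => ?_⟩
    have h1 : f.order ≤ (ℓ : ℤ) * n := by
      by_contra hlt
      exact hn (HahnSeries.coeff_eq_zero_of_lt_order (not_le.1 hlt))
    rcases le_or_gt 0 n with h0 | h0
    · exact (min_le_right _ _).trans h0
    · have h2 : (ℓ : ℤ) * n ≤ n := by nlinarith
      exact (min_le_left _ _).trans (h1.trans h2)
  refine ⟨HahnSeries.ofSuppBddBelow (fun n : ℤ => f.coeff ((ℓ : ℤ) * n)) hbdd, ?_⟩
  ext k
  by_cases hk : (ℓ : ℤ) ∣ k
  · obtain ⟨m, rfl⟩ := hk
    rw [qExpand_coeff_mul]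
    rfl
  · rw [qExpand_coeff_of_not_dvd ℓ _ hk, hvan k hk]

/-- `coeffMap` commutes with `qExpand`, as ring homomorphisms. -/
theorem eskcontract_comm {R S : Type*} [CommRing R] [CommRing S] (φ : R →+* S)
    (ℓ : ℕ) [NeZero ℓ] :
    (qExpand S ℓ).comp (coeffMap φ) = (coeffMap φ).comp (qExpand R ℓ) := by
  ext x k
  rw [RingHom.comp_apply, RingHom.comp_apply, coeffMap_coeff]
  by_cases hk : (ℓ : ℤ) ∣ k
  · obtain ⟨m, rfl⟩ := hk
    rw [qExpand_coeff_mul, qExpand_coeff_mul, coeffMap_coeff]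
  · rw [qExpand_coeff_of_not_dvd ℓ _ hk, qExpand_coeff_of_not_dvd ℓ _ hk, map_zero]

theorem esk_contract {R S : Type*} [CommRing R] [CommRing S] (φ : R →+* S)
    (hφ : Function.Injective φ) (ℓ : ℕ) [NeZero ℓ]
    (P : Polynomial (LaurentSeries R)) (c : Polynomial (LaurentSeries S))
    (h : P.map (coeffMap φ) = c.map (qExpand S ℓ)) :
    ∃ p : Polynomial (LaurentSeries R), p.map (qExpand R ℓ) = P ∧ p.map (coeffMap φ) = c := by
  have hlift : P ∈ Polynomial.lifts (qExpand R ℓ) := by
    rw [Polynomial.lifts_iff_coeff_lifts]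
    intro n
    refine eskcontract_series φ hφ ℓ (P.coeff n) (c.coeff n) ?_
    have := congrArg (fun Q : Polynomial (LaurentSeries S) => Q.coeff n) h
    simpa only [Polynomial.coeff_map] using this
  obtain ⟨p, hp⟩ := (Polynomial.mem_lifts P).1 hlift
  refine ⟨p, hp, ?_⟩
  apply Polynomial.map_injective (qExpand S ℓ) (qExpand_injective ℓ)
  rw [Polynomial.map_map, eskcontract_comm φ ℓ, ← Polynomial.map_map, hp, h]

end Fermat.Agent.S37L

end
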