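import Mathlib
import Fermat.Agent.S28L.DegBarAux
import Fermat.Agent.S37L.EsKDefs

/-!
# S37, block E (helper7): leaf `EsKDegJ`
-/

set_option autoImplicit false

noncomputable section

open ModularCurve AlgebraicCurve HahnSeries Polynomial
open scoped IntermediateField

namespace Fermat.Agent.S37L

/-- the coefficient embedding of `jq` is `jqModC` over the algebraic closure -/
theorem eskdegj_18_coe_jbar (M : ℕ) [NeZero M] :
    ((Fermat.Agent.X0S24.Embed.jbar M : ↥(modularFunctionFieldBar M)) :
      LaurentSeries (AlgebraicClosure ℚ)) = jqModC (AlgebraicClosure ℚ) := by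
  rw [Fermat.Agent.X0S24.Embed.coe_jbar, ← jqModC_rat]
  show coeffMap (algebraMap ℚ (AlgebraicClosure ℚ)) (jqModC ℚ) = _
  rw [coeffMap_jqModC]

theorem esk_relfinrank_j (M : ℕ) [NeZero M] :
    IntermediateField.relfinrank
      (IntermediateField.adjoin (AlgebraicClosure ℚ) {jqModC (AlgebraicClosure ℚ)})
      (modularFunctionFieldBar M) = dedekindPsi M := by
  have h1 := IntermediateField.relfinrank_map_map
    (IntermediateField.adjoin (AlgebraicClosure ℚ) {Fermat.Agent.X0S24.Embed.jbar M})
    (⊤ : IntermediateField (AlgebraicClosure ℚ) ↥(modularFunctionFieldBar M))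
    (modularFunctionFieldBar M).val
  rw [IntermediateField.adjoin_map, Set.image_singleton, ← AlgHom.fieldRange_eq_map,
    IntermediateField.fieldRange_val, IntermediateField.relfinrank_top_right] at h1
  have h2 : (modularFunctionFieldBar M).val (Fermat.Agent.X0S24.Embed.jbar M)
      = jqModC (AlgebraicClosure ℚ) := eskdegj_18_coe_jbar M
  rw [h2] at h1
  rw [h1]
  exact Fermat.Agent.S28L.DegBar.finrank_bar M

end Fermat.Agent.S37L

end
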