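import Mathlib
import Fermat.Agent.X0Count.Index
import Fermat.Agent.S37L.EsKDefs
import Fermat.Agent.S37L.EsKDegJ
import Fermat.Agent.S28L.LowTower
import Fermat.Agent.S18L.HMField

/-!
# S37, block E (helper7): leaf `EsKMu`
-/

set_option autoImplicit false

noncomputable section

open ModularCurve AlgebraicCurve HahnSeries Polynomial
open scoped IntermediateField

namespace Fermat.Agent.S37L

/-- a relative rank whose finite version is a positive number is that number -/
theorem eskmu170_relrank_of_relfinrank {K L : Type*} [Field K] [Field L] [Algebra K L]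
    (A B : IntermediateField K L) (n : ℕ) (hn : n ≠ 0)
    (h : IntermediateField.relfinrank A B = n) :
    IntermediateField.relrank A B = (n : Cardinal) := by
  rw [IntermediateField.relfinrank_eq_toNat_relrank] at h
  have hlt : IntermediateField.relrank A B < Cardinal.aleph0 := by
    by_contra hge
    rw [not_lt] at hge
    rw [Cardinal.toNat_apply_of_aleph0_le hge] at h
    exact hn h.symm
  rw [← h]
  exact (Cardinal.cast_toNat_of_lt_aleph0 hlt).symm

/-- the degree of `F` over `ℚ̄(j(q^ℓ))` from its degree over `ℚ̄(j)` (switch of the base) -/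
theorem eskmu170_switch (ℓ : ℕ) [NeZero ℓ] (hℓ : ℓ.Prime)
    (F : IntermediateField (AlgebraicClosure ℚ) (LaurentSeries (AlgebraicClosure ℚ)))
    (hj : jqModC (AlgebraicClosure ℚ) ∈ F)
    (hjl : qExpand (AlgebraicClosure ℚ) ℓ (jqModC (AlgebraicClosure ℚ)) ∈ F)
    (hF : IntermediateField.relfinrank
      (IntermediateField.adjoin (AlgebraicClosure ℚ) {jqModC (AlgebraicClosure ℚ)}) F = ℓ + 1) :
    IntermediateField.relfinrank
      (IntermediateField.adjoin (AlgebraicClosure ℚ)
        {qExpand (AlgebraicClosure ℚ) ℓ (jqModC (AlgebraicClosure ℚ))}) F = ℓ + 1 := by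
  have : Fact ℓ.Prime := ⟨hℓ⟩
  have hp : ((ℓ : ℕ) : AlgebraicClosure ℚ) ≠ 0 := Nat.cast_ne_zero.mpr hℓ.ne_zero
  have hS : Fermat.Agent.S28L.LowS (AlgebraicClosure ℚ) 1 (1 * ℓ) =
      qExpand (AlgebraicClosure ℚ) ℓ (jqModC (AlgebraicClosure ℚ)) := by
    rw [one_mul, Fermat.Agent.S28L.LowS_one]
  have hAF : IntermediateField.adjoin (AlgebraicClosure ℚ) {jqModC (AlgebraicClosure ℚ)} ≤ F := by
    rw [IntermediateField.adjoin_le_iff, Set.singleton_subset_iff]
    exact hj
  have hBF : IntermediateField.adjoin (AlgebraicClosure ℚ)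
      {qExpand (AlgebraicClosure ℚ) ℓ (jqModC (AlgebraicClosure ℚ))} ≤ F := by
    rw [IntermediateField.adjoin_le_iff, Set.singleton_subset_iff]
    exact hjl
  have h2 := eskmu170_relrank_of_relfinrank _ F (ℓ + 1) (Nat.succ_ne_zero ℓ) hF
  have h3 := Fermat.Agent.S28L.LowTw2_switch (AlgebraicClosure ℚ) ℓ hp F hAF (by rw [hS]; exact hBF)
  obtain ⟨hint, hdeg⟩ := Fermat.Agent.S28L.LowTw2_natDegree_e (AlgebraicClosure ℚ) ℓ hp
  rw [hS] at h3 hint hdeg
  have h4 := Fermat.Agent.S28L.Low_natDegree_le_relrank _ F hBF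
    (jqModC (AlgebraicClosure ℚ)) hj hint
  rw [hdeg] at h4
  have h5 : IntermediateField.relrank
      (IntermediateField.adjoin (AlgebraicClosure ℚ)
        {qExpand (AlgebraicClosure ℚ) ℓ (jqModC (AlgebraicClosure ℚ))}) F =
      ((ℓ + 1 : ℕ) : Cardinal) := le_antisymm (h3.trans h2.le) h4
  rw [IntermediateField.relfinrank_eq_toNat_relrank, h5, Cardinal.toNat_natCast]

theorem esk_relfinrank_jl (ℓ : ℕ) [NeZero ℓ] (hℓ : ℓ.Prime) :
    IntermediateField.relfinrank
      (IntermediateField.adjoin (AlgebraicClosure ℚ)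
        {qExpand (AlgebraicClosure ℚ) ℓ (jqModC (AlgebraicClosure ℚ))})
      (modularFunctionFieldBar ℓ) = ℓ + 1 := by
  have hj : jqModC (AlgebraicClosure ℚ) ∈ modularFunctionFieldBar ℓ :=
    Fermat.Agent.S18L.fullC_le_bar ℓ (jqModC_mem_full (AlgebraicClosure ℚ) ℓ)
  have hjl : qExpand (AlgebraicClosure ℚ) ℓ (jqModC (AlgebraicClosure ℚ)) ∈
      modularFunctionFieldBar ℓ :=
    Fermat.Agent.S18L.fullC_le_bar ℓ (jqModCd_mem_full (AlgebraicClosure ℚ) ℓ dvd_rfl)
  have h1 := esk_relfinrank_j ℓ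
  rw [Fermat.Agent.X0Count.ix_psi_prime hℓ] at h1
  exact eskmu170_switch ℓ hℓ (modularFunctionFieldBar ℓ) hj hjl h1

end Fermat.Agent.S37L

end
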