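import Mathlib
import Fermat.Agent.X0Count.Index
import Fermat.Agent.S37L.EsKDefs
import Fermat.Agent.S37L.EsKDegJ
import Fermat.Agent.S37L.EsKMu

/-!
# S37, block E (helper7): leaf `EsKTower`
-/

set_option autoImplicit false

noncomputable section

open ModularCurve AlgebraicCurve HahnSeries Polynomial
open scoped IntermediateField

namespace Fermat.Agent.S37L

/-- `j(q^d) ∈ F_M` for `d ∣ M` -/
theorem esktower_jd_mem (M d : ℕ) [NeZero M] [NeZero d] (hd : d ∣ M) :
    qExpand (AlgebraicClosure ℚ) d (jqModC (AlgebraicClosure ℚ)) ∈ modularFunctionFieldBar M := by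
  have h : qExpand (AlgebraicClosure ℚ) d (jqModC (AlgebraicClosure ℚ))
      = coeffEmb (AlgebraicClosure ℚ) (qExpand ℚ d jq) := by
    rw [coeffEmb, coeffMap_qExpand, ← jqModC_rat, coeffMap_jqModC]
  rw [h]
  exact coeffEmb_mem_laurentBaseChange _ (jqd_mem_full M hd)

/-- `j ∈ F_M` -/
theorem esktower_j_mem (M : ℕ) [NeZero M] :
    jqModC (AlgebraicClosure ℚ) ∈ modularFunctionFieldBar M := by
  have h := esktower_jd_mem M 1 (one_dvd M)
  rwa [qExpand_one_apply] at h

/-- `F_M ≤ F_M'` for `M ∣ M'` -/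
theorem esktower_bar_mono {M M' : ℕ} [NeZero M] [NeZero M'] (h : M ∣ M') :
    modularFunctionFieldBar M ≤ modularFunctionFieldBar M' := by
  show laurentBaseChange (AlgebraicClosure ℚ) (modularFunctionFieldFull M)
    ≤ laurentBaseChange (AlgebraicClosure ℚ) (modularFunctionFieldFull M')
  rw [laurentBaseChange, IntermediateField.adjoin_le_iff]
  rintro _ ⟨y, hy, rfl⟩
  exact coeffEmb_mem_laurentBaseChange _ (full_degeneracy_le h hy)

/-- `ψ(N) > 0` -/
theorem esktower_psi_pos (N : ℕ) (hN : N ≠ 0) : 0 < dedekindPsi N := by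
  unfold dedekindPsi
  refine Finset.sum_pos' (fun d _ => Nat.zero_le _) ⟨1, ?_, ?_⟩
  · rw [Finset.mem_filter, Nat.mem_divisors]
    exact ⟨⟨one_dvd N, hN⟩, squarefree_one⟩
  · rw [Nat.div_one]
    exact Nat.pos_of_ne_zero hN

theorem esk_relfinrank_KL (N ℓ : ℕ) [NeZero N] [NeZero ℓ] (hℓ : ℓ.Prime) (hℓN : ¬ ℓ ∣ N) :
    IntermediateField.relfinrank
      ((modularFunctionFieldBar N).map (qExpandAlgHomC (AlgebraicClosure ℚ) ℓ))
      (modularFunctionFieldBar (N * ℓ)) = ℓ + 1 := by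
  have : NeZero (N * ℓ) := ⟨Nat.mul_ne_zero (NeZero.ne N) (NeZero.ne ℓ)⟩
  have hcop : N.Coprime ℓ := ((Nat.Prime.coprime_iff_not_dvd hℓ).mpr hℓN).symm
  -- `J' = J.map V`
  have hJ'eq : IntermediateField.adjoin (AlgebraicClosure ℚ)
        {qExpand (AlgebraicClosure ℚ) ℓ (jqModC (AlgebraicClosure ℚ))}
      = (IntermediateField.adjoin (AlgebraicClosure ℚ)
          {jqModC (AlgebraicClosure ℚ)}).map (qExpandAlgHomC (AlgebraicClosure ℚ) ℓ) := by
    rw [IntermediateField.adjoin_map, Set.image_singleton]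
    rfl
  -- the inclusions
  have hJ : ∀ (M : ℕ) [NeZero M], IntermediateField.adjoin (AlgebraicClosure ℚ)
      {jqModC (AlgebraicClosure ℚ)} ≤ modularFunctionFieldBar M := by
    intro M _
    rw [IntermediateField.adjoin_le_iff]
    exact Set.singleton_subset_iff.mpr (esktower_j_mem M)
  have hℓNℓ : modularFunctionFieldBar ℓ ≤ modularFunctionFieldBar (N * ℓ) :=
    esktower_bar_mono (dvd_mul_left ℓ N)
  have hJ'ℓ : IntermediateField.adjoin (AlgebraicClosure ℚ)
      {qExpand (AlgebraicClosure ℚ) ℓ (jqModC (AlgebraicClosure ℚ))}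
      ≤ modularFunctionFieldBar ℓ := by
    rw [IntermediateField.adjoin_le_iff]
    exact Set.singleton_subset_iff.mpr (esktower_jd_mem ℓ ℓ dvd_rfl)
  have hJ'K : IntermediateField.adjoin (AlgebraicClosure ℚ)
      {qExpand (AlgebraicClosure ℚ) ℓ (jqModC (AlgebraicClosure ℚ))}
      ≤ (modularFunctionFieldBar N).map (qExpandAlgHomC (AlgebraicClosure ℚ) ℓ) := by
    rw [hJ'eq]
    exact IntermediateField.map_mono _ (hJ N)
  have hKNℓ : (modularFunctionFieldBar N).map (qExpandAlgHomC (AlgebraicClosure ℚ) ℓ)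
      ≤ modularFunctionFieldBar (N * ℓ) := by
    rintro _ ⟨x, hx, rfl⟩
    exact (heckeBetaBar (AlgebraicClosure ℚ) N ℓ ⟨x, hx⟩).2
  -- the degrees
  have e1 : IntermediateField.relfinrank
      (IntermediateField.adjoin (AlgebraicClosure ℚ)
        {qExpand (AlgebraicClosure ℚ) ℓ (jqModC (AlgebraicClosure ℚ))})
      ((modularFunctionFieldBar N).map (qExpandAlgHomC (AlgebraicClosure ℚ) ℓ))
      = dedekindPsi N := by
    rw [hJ'eq, IntermediateField.relfinrank_map_map, esk_relfinrank_j N]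
  have e2 := IntermediateField.relfinrank_mul_relfinrank (hJ ℓ) hℓNℓ
  rw [esk_relfinrank_j ℓ, esk_relfinrank_j (N * ℓ), Fermat.Agent.X0Count.ix_psi_mul hcop,
    Fermat.Agent.X0Count.ix_psi_prime hℓ] at e2
  have e3 := IntermediateField.relfinrank_mul_relfinrank hJ'ℓ hℓNℓ
  rw [esk_relfinrank_jl ℓ hℓ] at e3
  have e4 := IntermediateField.relfinrank_mul_relfinrank hJ'K hKNℓ
  rw [e1] at e4
  have hpos : 0 < dedekindPsi N := esktower_psi_pos N (NeZero.ne N)
  have e5 : dedekindPsi N * IntermediateField.relfinrank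
      ((modularFunctionFieldBar N).map (qExpandAlgHomC (AlgebraicClosure ℚ) ℓ))
      (modularFunctionFieldBar (N * ℓ)) = dedekindPsi N * (ℓ + 1) := by
    rw [e4, ← e3, e2]
  exact Nat.eq_of_mul_eq_mul_left hpos e5

end Fermat.Agent.S37L

end
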