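import Mathlib
import Fermat.Agent.S37L.EsKDefs
import Fermat.Agent.S37L.EsKTower

/-!
# S37, block E (helper7): leaf `EsKFinrank`
-/

set_option autoImplicit false

noncomputable section

open ModularCurve AlgebraicCurve HahnSeries Polynomial
open scoped IntermediateField

namespace Fermat.Agent.S37L

/-- the image of `F_N` under `q ↦ q^ℓ` lies in `F_{Nℓ}` -/
theorem eskfinrank70_le (N ℓ : ℕ) [NeZero N] [NeZero ℓ] :
    (modularFunctionFieldBar N).map (qExpandAlgHomC (AlgebraicClosure ℚ) ℓ)
      ≤ modularFunctionFieldBar (N * ℓ) := by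
  rintro _ ⟨x, hx, rfl⟩
  exact (heckeBetaBar (AlgebraicClosure ℚ) N ℓ ⟨x, hx⟩).2

/-- transfer of the degree along an algebra map `φ : A → C` between intermediate fields which
is induced by an endomorphism `V` of the ambient field -/
theorem eskfinrank70_transfer {Q L : Type*} [Field Q] [Field L] [Algebra Q L]
    (A C : IntermediateField Q L) (V : L →ₐ[Q] L) (φ : A →ₐ[Q] C)
    (hφ : ∀ x : A, ((φ x : C) : L) = V (x : L)) (hle : A.map V ≤ C) :
    finrankAlong Q φ = IntermediateField.relfinrank (A.map V) C := by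
  rw [IntermediateField.relfinrank_eq_finrank_of_le hle]
  unfold finrankAlong
  let _ : Algebra A C := algebraAlong φ
  let j : C ≃+* IntermediateField.extendScalars hle :=
    { toFun := fun x => ⟨x.1, x.2⟩
      invFun := fun x => ⟨x.1, x.2⟩
      left_inv := fun _ => rfl
      right_inv := fun _ => rfl
      map_mul' := fun _ _ => rfl
      map_add' := fun _ _ => rfl }
  refine Algebra.finrank_eq_of_equiv_equiv (A.equivMap V).toRingEquiv j ?_
  ext x
  change V (x : L) = ((φ x : C) : L)
  rw [hφ]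

theorem esk_finrank (N ℓ : ℕ) [NeZero N] [NeZero ℓ] (hℓ : ℓ.Prime) (hℓN : ¬ ℓ ∣ N) :
    finrankAlong (AlgebraicClosure ℚ) (heckeBetaBar (AlgebraicClosure ℚ) N ℓ) = ℓ + 1 := by
  rw [eskfinrank70_transfer (modularFunctionFieldBar N) (modularFunctionFieldBar (N * ℓ))
    (qExpandAlgHomC (AlgebraicClosure ℚ) ℓ) (heckeBetaBar (AlgebraicClosure ℚ) N ℓ)
    (fun _ => rfl) (eskfinrank70_le N ℓ)]
  exact esk_relfinrank_KL N ℓ hℓ hℓN

end Fermat.Agent.S37L

end
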