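import Mathlib
import Fermat.Agent.S37L.EsKDefs
import Fermat.Agent.S37L.EsKFinrank

/-!
# S37, block E (helper7): leaf `EsKEmb`
-/

set_option autoImplicit false

noncomputable section

open ModularCurve AlgebraicCurve HahnSeries Polynomial
open scoped IntermediateField

namespace Fermat.Agent.S37L

theorem eskemb71_generic {F F' E : Type*} [Field F] [Field F'] [Field E] [Algebra F F']
    [Algebra F E] [FiniteDimensional F F'] [Algebra.IsSeparable F F'] [IsAlgClosed E]
    (ℓ : ℕ) (hfr : Module.finrank F F' = ℓ + 1) (τ : ℕ → F' →ₐ[F] E)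
    (hτ : Set.InjOn τ (Finset.range ℓ)) :
    ∃ ρ : F' →ₐ[F] E, ∀ x : F',
      algebraMap F E (Algebra.norm F x) = ρ x * ∏ b ∈ Finset.range ℓ, τ b x := by
  classical
  have hcard : Fintype.card (F' →ₐ[F] E) = ℓ + 1 := by
    rw [AlgHom.card, hfr]
  set T : Finset (F' →ₐ[F] E) := (Finset.range ℓ).image τ with hT
  have hTcard : T.card = ℓ := by
    rw [hT, Finset.card_image_of_injOn hτ, Finset.card_range]
  have hcompl : (Finset.univ \ T).card = 1 := by
    rw [Finset.card_sdiff_of_subset (Finset.subset_univ T), Finset.card_univ, hcard, hTcard]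
    omega
  obtain ⟨ρ, hρ⟩ := Finset.card_eq_one.mp hcompl
  have hρT : ρ ∉ T := by
    have : ρ ∈ Finset.univ \ T := by rw [hρ]; exact Finset.mem_singleton_self ρ
    exact (Finset.mem_sdiff.mp this).2
  have huniv : (Finset.univ : Finset (F' →ₐ[F] E)) = insert ρ T := by
    rw [← Finset.sdiff_union_of_subset (Finset.subset_univ T), hρ]
    rfl
  refine ⟨ρ, fun x => ?_⟩
  rw [Algebra.norm_eq_prod_embeddings F E x, huniv, Finset.prod_insert hρT, hT,
    Finset.prod_image hτ]


theorem esk_emb (N ℓ : ℕ) [NeZero N] [NeZero ℓ] (hℓ : ℓ.Prime) (hℓN : ¬ ℓ ∣ N)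
    (ζ : (AlgebraicClosure ℚ)ˣ)
    (hζ : (∑ i ∈ Finset.range ℓ, ((ζ ^ i : (AlgebraicClosure ℚ)ˣ) : AlgebraicClosure ℚ)) = 0) :
    ∃ ρ : ↥(modularFunctionFieldBar (N * ℓ)) →+* EskE,
      (∀ g : ↥(modularFunctionFieldBar N),
        ρ (heckeBetaBar (AlgebraicClosure ℚ) N ℓ g)
          = algebraMap (LaurentSeries (AlgebraicClosure ℚ)) EskE
              (qExpand (AlgebraicClosure ℚ) ℓ (g : LaurentSeries (AlgebraicClosure ℚ)))) ∧
      ∀ x : ↥(modularFunctionFieldBar (N * ℓ)),
        algebraMap (LaurentSeries (AlgebraicClosure ℚ)) EskE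
            (qExpand (AlgebraicClosure ℚ) ℓ
              (((letI := algebraAlong (heckeBetaBar (AlgebraicClosure ℚ) N ℓ)
                 Algebra.norm ↥(modularFunctionFieldBar N) x :
                  ↥(modularFunctionFieldBar N)) : LaurentSeries (AlgebraicClosure ℚ))))
          = ρ x * ∏ b ∈ Finset.range ℓ,
              algebraMap (LaurentSeries (AlgebraicClosure ℚ)) EskE
                (Fermat.Agent.S28L.tw (ζ ^ b) (x : LaurentSeries (AlgebraicClosure ℚ))) := by
  classical
  have : Fact ℓ.Prime := ⟨hℓ⟩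
  letI := algebraAlong (heckeBetaBar (AlgebraicClosure ℚ) N ℓ)
  letI := eskAlgE N ℓ
  have hfd : FiniteDimensional ↥(modularFunctionFieldBar N) ↥(modularFunctionFieldBar (N * ℓ)) :=
    esd_finite_beta N ℓ
  have hfr : Module.finrank ↥(modularFunctionFieldBar N) ↥(modularFunctionFieldBar (N * ℓ))
      = ℓ + 1 := esk_finrank N ℓ hℓ hℓN
  -- `ζ` is a primitive `ℓ`-th root of unity
  have hζℓ' : ((ζ : (AlgebraicClosure ℚ)ˣ) : AlgebraicClosure ℚ) ^ ℓ = 1 := by
    have h := geom_sum_mul ((ζ : (AlgebraicClosure ℚ)ˣ) : AlgebraicClosure ℚ) ℓ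
    simp only [Units.val_pow_eq_pow_val] at hζ
    rw [hζ, zero_mul] at h
    exact (sub_eq_zero.mp h.symm)
  have hζℓ : ζ ^ ℓ = 1 := Units.ext (by rw [Units.val_pow_eq_pow_val, hζℓ', Units.val_one])
  have hζ1 : ζ ≠ 1 := by
    rintro rfl
    simp only [one_pow, Units.val_one, Finset.sum_const, Finset.card_range, nsmul_eq_mul,
      mul_one] at hζ
    exact hℓ.ne_zero (by exact_mod_cast hζ)
  have hord : orderOf ζ = ℓ := orderOf_eq_prime hζℓ hζ1
  -- the twisted embeddings
  let τ : ℕ → ↥(modularFunctionFieldBar (N * ℓ)) →ₐ[↥(modularFunctionFieldBar N)] EskE :=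
    fun b =>
      { ((algebraMap (LaurentSeries (AlgebraicClosure ℚ)) EskE).comp
          ((Fermat.Agent.S28L.twHom (ζ ^ b)).comp
            (algebraMap ↥(modularFunctionFieldBar (N * ℓ))
              (LaurentSeries (AlgebraicClosure ℚ))))) with
        commutes' := fun c => by
          change algebraMap (LaurentSeries (AlgebraicClosure ℚ)) EskE
              (Fermat.Agent.S28L.tw (ζ ^ b)
                ((heckeBetaBar (AlgebraicClosure ℚ) N ℓ c : ↥(modularFunctionFieldBar (N * ℓ)))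
                  : LaurentSeries (AlgebraicClosure ℚ)))
            = algebraMap (LaurentSeries (AlgebraicClosure ℚ)) EskE
                (qExpand (AlgebraicClosure ℚ) ℓ (c : LaurentSeries (AlgebraicClosure ℚ)))
          rw [coe_heckeBetaBar, Fermat.Agent.S28L.tw_qExpand_of_pow_eq_one]
          rw [← pow_mul, mul_comm, pow_mul, hζℓ, one_pow] }
  have hτapp : ∀ (b : ℕ) (x : ↥(modularFunctionFieldBar (N * ℓ))),
      τ b x = algebraMap (LaurentSeries (AlgebraicClosure ℚ)) EskE
        (Fermat.Agent.S28L.tw (ζ ^ b) (x : LaurentSeries (AlgebraicClosure ℚ))) := fun _ _ => rfl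
  have hτinj : Set.InjOn τ (Finset.range ℓ) := by
    intro b hb b' hb' hbb
    have h1 := congrArg (fun σ => σ (Fermat.Agent.X0S24.Embed.jbar (N * ℓ))) hbb
    simp only [hτapp] at h1
    have h2 := (algebraMap (LaurentSeries (AlgebraicClosure ℚ)) EskE).injective h1
    have h3 := congrArg (fun f : LaurentSeries (AlgebraicClosure ℚ) => f.coeff (-1 : ℤ)) h2
    simp only [Fermat.Agent.S28L.tw_coeff, Fermat.Agent.X0S24.Embed.coe_jbar, coeffEmb_coeff,
      coeff_jq_neg_one, map_one, mul_one] at h3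
    have h4 : (ζ ^ b) ^ (-1 : ℤ) = (ζ ^ b') ^ (-1 : ℤ) := Units.ext h3
    have h5 : ζ ^ b = ζ ^ b' := by
      have := congrArg (fun u : (AlgebraicClosure ℚ)ˣ => u⁻¹) h4
      simpa using this
    have hb1 : b < orderOf ζ := by rw [hord]; exact Finset.mem_range.mp hb
    have hb1' : b' < orderOf ζ := by rw [hord]; exact Finset.mem_range.mp hb'
    exact pow_injOn_Iio_orderOf hb1 hb1' h5
  obtain ⟨ρ, hρ⟩ := eskemb71_generic ℓ hfr τ hτinj
  refine ⟨ρ.toRingHom, fun g => ?_, fun x => ?_⟩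
  · exact ρ.commutes g
  · exact hρ x

end Fermat.Agent.S37L

end
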