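import Mathlib
import Fermat.Agent.S18L.HMField
import Fermat.Agent.S37L.EsKDefs

/-!
# S37, block E (helper7): leaf `EsKFull`
-/

set_option autoImplicit false

noncomputable section

open ModularCurve AlgebraicCurve HahnSeries Polynomial
open scoped IntermediateField

namespace Fermat.Agent.S37L

/-- `coeffEmb` maps the rational function field of level `M` into `modularFunctionFieldFullC ℚ̄ M` -/
theorem eskfull_coeffEmb_mem (M : ℕ) [NeZero M] {x : LaurentSeries ℚ}
    (hx : x ∈ modularFunctionFieldFull M) :
    coeffEmb (AlgebraicClosure ℚ) x ∈ modularFunctionFieldFullC (AlgebraicClosure ℚ) M := by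
  unfold modularFunctionFieldFull at hx
  induction hx using IntermediateField.adjoin_induction with
  | mem y hy =>
    obtain ⟨d, hne, hdvd, rfl⟩ := hy
    have := hne
    have h : coeffEmb (AlgebraicClosure ℚ) (qExpand ℚ d jq)
        = qExpand (AlgebraicClosure ℚ) d (jqModC (AlgebraicClosure ℚ)) := by
      rw [coeffEmb, coeffMap_qExpand, ← jqModC_rat, coeffMap_jqModC]
    rw [h]
    exact jqModCd_mem_full (AlgebraicClosure ℚ) M hdvd
  | algebraMap r =>
    have h : coeffEmb (AlgebraicClosure ℚ) (algebraMap ℚ (LaurentSeries ℚ) r)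
        = algebraMap (AlgebraicClosure ℚ) (LaurentSeries (AlgebraicClosure ℚ))
            (algebraMap ℚ (AlgebraicClosure ℚ) r) := by
      rw [algebraMap_laurentSeries_eq_single, algebraMap_laurentSeries_eq_single, coeffEmb,
        coeffMap_single]
    rw [h]
    exact IntermediateField.algebraMap_mem _ _
  | add y z hy hz ihy ihz =>
    rw [map_add]
    exact add_mem ihy ihz
  | inv y hy ih =>
    rw [map_inv₀]
    exact inv_mem ih
  | mul y z hy hz ihy ihz =>
    rw [map_mul]
    exact mul_mem ihy ihz

theorem esk_bar_eq_fullC (M : ℕ) [NeZero M] :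
    modularFunctionFieldBar M = modularFunctionFieldFullC (AlgebraicClosure ℚ) M := by
  apply le_antisymm
  · show laurentBaseChange (AlgebraicClosure ℚ) (modularFunctionFieldFull M) ≤ _
    rw [laurentBaseChange, IntermediateField.adjoin_le_iff]
    rintro _ ⟨x, hx, rfl⟩
    exact eskfull_coeffEmb_mem M hx
  · exact Fermat.Agent.S18L.fullC_le_bar M

end Fermat.Agent.S37L

end
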