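import Mathlib
import Fermat.Agent.S37L.EsKDefs
import Fermat.Agent.S37L.EsKFull

/-!
# S37, block E (helper7): leaf `EsKExt`
-/

set_option autoImplicit false

noncomputable section

open ModularCurve AlgebraicCurve HahnSeries Polynomial
open scoped IntermediateField

namespace Fermat.Agent.S37L

/-- the induction over the generation of `F_N` by the `j(q^d)`, `d ∣ N` -/
theorem eskext_key (N ℓ : ℕ) [NeZero N] [NeZero ℓ]
    (ρ : ↥(modularFunctionFieldBar (N * ℓ)) →+* EskE)
    (hβ : ∀ g : ↥(modularFunctionFieldBar N),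
        ρ (heckeBetaBar (AlgebraicClosure ℚ) N ℓ g)
          = algebraMap (LaurentSeries (AlgebraicClosure ℚ)) EskE
              (qExpand (AlgebraicClosure ℚ) ℓ (g : LaurentSeries (AlgebraicClosure ℚ))))
    (hgen : ∀ (d : ℕ) [NeZero d], d ∣ N → ∀ x : ↥(modularFunctionFieldBar N),
      (x : LaurentSeries (AlgebraicClosure ℚ))
          = qExpand (AlgebraicClosure ℚ) d (jqModC (AlgebraicClosure ℚ)) →
        ρ (heckeAlphaBar (AlgebraicClosure ℚ) N ℓ x)
          = algebraMap (LaurentSeries (AlgebraicClosure ℚ)) EskE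
              (qExpand (AlgebraicClosure ℚ) (d * ℓ * ℓ) (jqModC (AlgebraicClosure ℚ))))
    (y : LaurentSeries (AlgebraicClosure ℚ))
    (hy : y ∈ IntermediateField.adjoin (AlgebraicClosure ℚ)
      (divisorExpansionsC (AlgebraicClosure ℚ) N)) :
    ∀ hy' : y ∈ modularFunctionFieldBar N,
      ρ (heckeAlphaBar (AlgebraicClosure ℚ) N ℓ ⟨y, hy'⟩)
        = algebraMap (LaurentSeries (AlgebraicClosure ℚ)) EskE
            (qExpand (AlgebraicClosure ℚ) (ℓ * ℓ) y) := by
  have hF : ∀ z, z ∈ IntermediateField.adjoin (AlgebraicClosure ℚ)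
      (divisorExpansionsC (AlgebraicClosure ℚ) N) → z ∈ modularFunctionFieldBar N := by
    intro z hz
    rw [esk_bar_eq_fullC N]
    exact hz
  induction hy using IntermediateField.adjoin_induction with
  | mem x hx =>
    obtain ⟨d, hne, hd, rfl⟩ := hx
    intro hy'
    have := hne
    rw [hgen d hd ⟨_, hy'⟩ rfl, qExpand_qExpand]
    exact congrArg _ (qExpand_congr (by ring) _)
  | algebraMap c =>
    intro hy'
    have e1 : (⟨algebraMap (AlgebraicClosure ℚ) (LaurentSeries (AlgebraicClosure ℚ)) c, hy'⟩ :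
        ↥(modularFunctionFieldBar N))
        = algebraMap (AlgebraicClosure ℚ) ↥(modularFunctionFieldBar N) c := rfl
    have e2 : qExpand (AlgebraicClosure ℚ) ℓ
        (algebraMap (AlgebraicClosure ℚ) (LaurentSeries (AlgebraicClosure ℚ)) c)
        = algebraMap (AlgebraicClosure ℚ) (LaurentSeries (AlgebraicClosure ℚ)) c :=
      (qExpandAlgHomC (AlgebraicClosure ℚ) ℓ).commutes c
    have e3 : qExpand (AlgebraicClosure ℚ) (ℓ * ℓ)
        (algebraMap (AlgebraicClosure ℚ) (LaurentSeries (AlgebraicClosure ℚ)) c)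
        = algebraMap (AlgebraicClosure ℚ) (LaurentSeries (AlgebraicClosure ℚ)) c :=
      (qExpandAlgHomC (AlgebraicClosure ℚ) (ℓ * ℓ)).commutes c
    have e4 : heckeAlphaBar (AlgebraicClosure ℚ) N ℓ
        (algebraMap (AlgebraicClosure ℚ) ↥(modularFunctionFieldBar N) c)
        = heckeBetaBar (AlgebraicClosure ℚ) N ℓ
          (algebraMap (AlgebraicClosure ℚ) ↥(modularFunctionFieldBar N) c) := by
      rw [AlgHom.commutes, AlgHom.commutes]
    rw [e1, e4, hβ, e3]
    exact congrArg _ e2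
  | add x y hx hy ihx ihy =>
    intro hxy
    have hx' := hF x hx
    have hy' := hF y hy
    have e : (⟨x + y, hxy⟩ : ↥(modularFunctionFieldBar N)) = ⟨x, hx'⟩ + ⟨y, hy'⟩ := rfl
    rw [e, map_add, map_add, ihx hx', ihy hy', ← map_add, ← map_add]
  | inv x hx ihx =>
    intro hxi
    have hx' := hF x hx
    have e : (⟨x⁻¹, hxi⟩ : ↥(modularFunctionFieldBar N))
        = (⟨x, hx'⟩ : ↥(modularFunctionFieldBar N))⁻¹ := rfl
    rw [e, map_inv₀, map_inv₀, ihx hx', ← map_inv₀, ← map_inv₀]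
  | mul x y hx hy ihx ihy =>
    intro hxy
    have hx' := hF x hx
    have hy' := hF y hy
    have e : (⟨x * y, hxy⟩ : ↥(modularFunctionFieldBar N)) = ⟨x, hx'⟩ * ⟨y, hy'⟩ := rfl
    rw [e, map_mul, map_mul, ihx hx', ihy hy', ← map_mul, ← map_mul]

theorem esk_rho_alpha (N ℓ : ℕ) [NeZero N] [NeZero ℓ]
    (ρ : ↥(modularFunctionFieldBar (N * ℓ)) →+* EskE)
    (hβ : ∀ g : ↥(modularFunctionFieldBar N),
        ρ (heckeBetaBar (AlgebraicClosure ℚ) N ℓ g)
          = algebraMap (LaurentSeries (AlgebraicClosure ℚ)) EskE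
              (qExpand (AlgebraicClosure ℚ) ℓ (g : LaurentSeries (AlgebraicClosure ℚ))))
    (hgen : ∀ (d : ℕ) [NeZero d], d ∣ N → ∀ x : ↥(modularFunctionFieldBar N),
      (x : LaurentSeries (AlgebraicClosure ℚ))
          = qExpand (AlgebraicClosure ℚ) d (jqModC (AlgebraicClosure ℚ)) →
        ρ (heckeAlphaBar (AlgebraicClosure ℚ) N ℓ x)
          = algebraMap (LaurentSeries (AlgebraicClosure ℚ)) EskE
              (qExpand (AlgebraicClosure ℚ) (d * ℓ * ℓ) (jqModC (AlgebraicClosure ℚ))))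
    (g : ↥(modularFunctionFieldBar N)) :
    ρ (heckeAlphaBar (AlgebraicClosure ℚ) N ℓ g)
      = algebraMap (LaurentSeries (AlgebraicClosure ℚ)) EskE
          (qExpand (AlgebraicClosure ℚ) (ℓ * ℓ) (g : LaurentSeries (AlgebraicClosure ℚ))) := by
  have hg : (g : LaurentSeries (AlgebraicClosure ℚ)) ∈ IntermediateField.adjoin
      (AlgebraicClosure ℚ) (divisorExpansionsC (AlgebraicClosure ℚ) N) := by
    have h1 : (g : LaurentSeries (AlgebraicClosure ℚ))
        ∈ modularFunctionFieldFullC (AlgebraicClosure ℚ) N := by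
      rw [← esk_bar_eq_fullC N]
      exact g.2
    exact h1
  exact eskext_key N ℓ ρ hβ hgen (g : LaurentSeries (AlgebraicClosure ℚ)) hg g.2

end Fermat.Agent.S37L

end
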