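import Mathlib
import Fermat.Agent.S37L.EsKDefs
import Fermat.Agent.S37L.EsKCases

/-!
# S37, block E (helper7): leaf `EsKGen`
-/

set_option autoImplicit false

noncomputable section

open ModularCurve AlgebraicCurve HahnSeries Polynomial
open scoped IntermediateField

namespace Fermat.Agent.S37L

/-- a twist of a nonzero Laurent series is nonzero -/
theorem eskgen_tw_ne_zero {R : Type*} [Field R] (u : Rˣ) {f : LaurentSeries R} (hf : f ≠ 0) :
    Fermat.Agent.S28L.tw u f ≠ 0 := fun h =>
  hf (Fermat.Agent.S28L.tw_injective u (by rw [h, Fermat.Agent.S28L.tw_zero]))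

/-- twisting does not change the order -/
theorem eskgen_tw_order {R : Type*} [Field R] (u : Rˣ) (f : LaurentSeries R) :
    (Fermat.Agent.S28L.tw u f).order = f.order := by
  rcases eq_or_ne f 0 with rfl | hf
  · rw [Fermat.Agent.S28L.tw_zero]
  · have htw := eskgen_tw_ne_zero u hf
    refine le_antisymm (HahnSeries.order_le_of_coeff_ne_zero ?_)
      (HahnSeries.order_le_of_coeff_ne_zero ?_)
    · rw [Fermat.Agent.S28L.tw_coeff]
      exact mul_ne_zero (Units.ne_zero _)
        (fun h0 => hf (HahnSeries.coeff_order_eq_zero.mp h0))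
    · intro h0
      apply htw
      apply HahnSeries.coeff_order_eq_zero.mp
      rw [Fermat.Agent.S28L.tw_coeff, h0, mul_zero]

/-- the order of a finite product of nonzero Laurent series is the sum of the orders -/
theorem eskgen_order_prod {R : Type*} [Field R] {ι : Type*} (s : Finset ι)
    (f : ι → LaurentSeries R) (hf : ∀ i ∈ s, f i ≠ 0) :
    (∏ i ∈ s, f i).order = ∑ i ∈ s, (f i).order := by
  classical
  induction s using Finset.induction_on with
  | empty => simp
  | insert a s ha ih =>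
    have hs : ∀ i ∈ s, f i ≠ 0 := fun i hi => hf i (Finset.mem_insert_of_mem hi)
    have ha0 : f a ≠ 0 := hf a (Finset.mem_insert_self a s)
    have hprod : ∏ i ∈ s, f i ≠ 0 := Finset.prod_ne_zero_iff.mpr hs
    rw [Finset.prod_insert ha, Finset.sum_insert ha, HahnSeries.order_mul ha0 hprod, ih hs]

theorem esk_rho_gen (N ℓ : ℕ) [NeZero N] [NeZero ℓ] (hℓ : ℓ.Prime) (hℓN : ¬ ℓ ∣ N)
    (ζ : (AlgebraicClosure ℚ)ˣ)
    (hζ : (∑ i ∈ Finset.range ℓ, ((ζ ^ i : (AlgebraicClosure ℚ)ˣ) : AlgebraicClosure ℚ)) = 0)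
    (ρ : ↥(modularFunctionFieldBar (N * ℓ)) →+* EskE)
    (hβ : ∀ g : ↥(modularFunctionFieldBar N),
        ρ (heckeBetaBar (AlgebraicClosure ℚ) N ℓ g)
          = algebraMap (LaurentSeries (AlgebraicClosure ℚ)) EskE
              (qExpand (AlgebraicClosure ℚ) ℓ (g : LaurentSeries (AlgebraicClosure ℚ))))
    (hnorm : ∀ x : ↥(modularFunctionFieldBar (N * ℓ)),
        algebraMap (LaurentSeries (AlgebraicClosure ℚ)) EskE
            (qExpand (AlgebraicClosure ℚ) ℓ
              (((letI := algebraAlong (heckeBetaBar (AlgebraicClosure ℚ) N ℓ)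
                 Algebra.norm ↥(modularFunctionFieldBar N) x :
                  ↥(modularFunctionFieldBar N)) : LaurentSeries (AlgebraicClosure ℚ))))
          = ρ x * ∏ b ∈ Finset.range ℓ,
              algebraMap (LaurentSeries (AlgebraicClosure ℚ)) EskE
                (Fermat.Agent.S28L.tw (ζ ^ b) (x : LaurentSeries (AlgebraicClosure ℚ))))
    (d : ℕ) [NeZero d] (hd : d ∣ N) (x : ↥(modularFunctionFieldBar N))
    (hx : (x : LaurentSeries (AlgebraicClosure ℚ))
      = qExpand (AlgebraicClosure ℚ) d (jqModC (AlgebraicClosure ℚ))) :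
    ρ (heckeAlphaBar (AlgebraicClosure ℚ) N ℓ x)
        = algebraMap (LaurentSeries (AlgebraicClosure ℚ)) EskE
            (qExpand (AlgebraicClosure ℚ) (d * ℓ * ℓ) (jqModC (AlgebraicClosure ℚ))) := by
  rcases esk_rho_cases N ℓ hℓ hℓN ζ hζ ρ hβ d hd x hx with h | ⟨c, hc, h⟩
  · exact h
  · exfalso
    obtain ⟨m, hm⟩ : ∃ m : LaurentSeries (AlgebraicClosure ℚ),
        algebraMap (LaurentSeries (AlgebraicClosure ℚ)) EskE (qExpand (AlgebraicClosure ℚ) ℓ m)
          = ρ (heckeAlphaBar (AlgebraicClosure ℚ) N ℓ x) * ∏ b ∈ Finset.range ℓ,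
              algebraMap (LaurentSeries (AlgebraicClosure ℚ)) EskE
                (Fermat.Agent.S28L.tw (ζ ^ b)
                  ((heckeAlphaBar (AlgebraicClosure ℚ) N ℓ x :
                    ↥(modularFunctionFieldBar (N * ℓ))) :
                      LaurentSeries (AlgebraicClosure ℚ))) :=
      ⟨_, hnorm (heckeAlphaBar (AlgebraicClosure ℚ) N ℓ x)⟩
    rw [h, coe_heckeAlphaBar, hx, ← map_prod, ← map_mul] at hm
    have hm' := (algebraMap (LaurentSeries (AlgebraicClosure ℚ)) EskE).injective hm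
    have hg0 : qExpand (AlgebraicClosure ℚ) d (jqModC (AlgebraicClosure ℚ)) ≠ 0 :=
      Fermat.Agent.S28L.qExpand_ne_zero d (jqModC_ne_zero_of_nontrivial (AlgebraicClosure ℚ))
    have hgo : (qExpand (AlgebraicClosure ℚ) d (jqModC (AlgebraicClosure ℚ))).order
        = -(d : ℤ) := by
      rw [Fermat.Agent.S28L.qExpand_order, Fermat.Agent.S28L.jqModC_order]
      ring
    have hprod0 : ∏ b ∈ Finset.range ℓ, Fermat.Agent.S28L.tw (ζ ^ b)
        (qExpand (AlgebraicClosure ℚ) d (jqModC (AlgebraicClosure ℚ))) ≠ 0 :=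
      Finset.prod_ne_zero_iff.mpr (fun b _ => eskgen_tw_ne_zero (ζ ^ b) hg0)
    have ho := congrArg HahnSeries.order hm'
    rw [Fermat.Agent.S28L.qExpand_order,
      HahnSeries.order_mul (eskgen_tw_ne_zero (ζ ^ c) hg0) hprod0, eskgen_tw_order,
      eskgen_order_prod _ _ (fun b _ => eskgen_tw_ne_zero (ζ ^ b) hg0)] at ho
    simp only [eskgen_tw_order, hgo, Finset.sum_const, Finset.card_range, nsmul_eq_mul] at ho
    have hdvd : (ℓ : ℤ) ∣ (d : ℤ) := ⟨-(m.order + d), by linear_combination ho⟩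
    exact hℓN ((Int.natCast_dvd_natCast.mp hdvd).trans hd)

end Fermat.Agent.S37L

end
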