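import Mathlib
import Fermat.Agent.S37L.EsKDefs

/-!
# S37, block E (helper7): leaf `EsKZeta`
-/

set_option autoImplicit false

noncomputable section

open ModularCurve AlgebraicCurve HahnSeries Polynomial
open scoped IntermediateField

namespace Fermat.Agent.S37L

theorem esk_exists_zeta (ℓ : ℕ) [NeZero ℓ] (hℓ : ℓ.Prime)
    (A : ValuationSubring (AlgebraicClosure ℚ)) :
    ∃ ζ : (↥A)ˣ, (∑ i ∈ Finset.range ℓ, ((ζ ^ i : (↥A)ˣ) : ↥A)) = 0 := by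
  -- a primitive `ℓ`-th root of unity in `ℚ̄`
  obtain ⟨z, hz⟩ : ∃ z : AlgebraicClosure ℚ, IsPrimitiveRoot z ℓ := by
    have : NeZero ((ℓ : ℕ) : AlgebraicClosure ℚ) := ⟨Nat.cast_ne_zero.mpr hℓ.ne_zero⟩
    obtain ⟨z, hz⟩ := IsAlgClosed.exists_root (Polynomial.cyclotomic ℓ (AlgebraicClosure ℚ))
      (Polynomial.degree_cyclotomic_pos ℓ (AlgebraicClosure ℚ) hℓ.pos).ne'
    exact ⟨z, Polynomial.isRoot_cyclotomic_iff.mp hz⟩
  have hzℓ : z ^ ℓ = 1 := hz.pow_eq_one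
  -- it lies in the valuation ring
  have hzA : z ∈ A := by
    rcases A.mem_or_inv_mem z with h | h
    · exact h
    · have h1 : z * z ^ (ℓ - 1) = 1 := by
        rw [← pow_succ', Nat.sub_add_cancel hℓ.one_le, hzℓ]
      have h2 : z = z⁻¹ ^ (ℓ - 1) := by
        rw [inv_pow]
        exact eq_inv_of_mul_eq_one_left h1
      rw [h2]
      exact pow_mem h _
  have ha : (⟨z, hzA⟩ : A) ^ ℓ = 1 := Subtype.ext hzℓ
  refine ⟨Units.ofPowEqOne (⟨z, hzA⟩ : A) ℓ ha hℓ.ne_zero, ?_⟩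
  have hsum : ∀ i : ℕ, (((Units.ofPowEqOne (⟨z, hzA⟩ : A) ℓ ha hℓ.ne_zero) ^ i : (↥A)ˣ) : ↥A)
      = (⟨z, hzA⟩ : A) ^ i := by
    intro i
    rw [Units.val_pow_eq_pow_val, Units.val_ofPowEqOne]
  rw [Finset.sum_congr rfl (fun i _ => hsum i)]
  apply Subtype.val_injective
  have hcoe : ((∑ i ∈ Finset.range ℓ, (⟨z, hzA⟩ : A) ^ i : A) : AlgebraicClosure ℚ)
      = ∑ i ∈ Finset.range ℓ, z ^ i := by
    rw [← ValuationSubring.subtype_apply, map_sum]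
    rfl
  rw [hcoe]
  exact hz.geom_sum_eq_zero hℓ.one_lt

end Fermat.Agent.S37L

end
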