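import Mathlib
import Fermat.Agent.S37L.EsKDefs
import Fermat.Agent.S37L.EsKFull
import Fermat.Agent.S37L.EsKDegJ
import Fermat.Agent.S37L.EsKMu
import Fermat.Agent.S37L.EsKTower
import Fermat.Agent.S37L.EsKFinrank
import Fermat.Agent.S37L.EsKEmb
import Fermat.Agent.S37L.EsKModEq
import Fermat.Agent.S37L.EsKCases
import Fermat.Agent.S37L.EsKGen
import Fermat.Agent.S37L.EsKExt
import Fermat.Agent.S37L.EsKCharpoly
import Fermat.Agent.S37L.EsKContract
import Fermat.Agent.S37L.EsKRed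
import Fermat.Agent.S37L.EsKZeta

/-!
# S37, block E (helper7): the Kronecker congruence for a general integral function

Notation: `F_M = modularFunctionFieldBar M = laurentBaseChange ℚ̄ (modularFunctionFieldFull M)
⊆ ℚ̄((q))`, `ℓ ∤ N` a prime, `α = heckeAlphaBar : F_N → F_{Nℓ}` (the inclusion),
`β = heckeBetaBar : F_N → F_{Nℓ}` (`g(q) ↦ g(q^ℓ)`).  `F_{Nℓ}` is an algebra over `F_N` ALONG `β`.
`χ_g := esdCharpolyAlong β (esd_finite_beta N ℓ) (α g) ∈ F_N[X]` (helper6's term) is the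
characteristic polynomial of multiplication by `α(g)` on `F_{Nℓ}` over `β(F_N)`.

* `esk_finrank` (file `EsKFinrank`) : `[F_{Nℓ} : β(F_N)] = ℓ + 1`.
* `esk_charpoly_prod` : read in `ℚ̄((q))[X]` through `β` (coefficient `c ↦ c(q^ℓ)`),
  `χ_g = (X - g(q^(ℓ²))) ∏_{b < ℓ} (X - g(ζ^b q))`.
* `esk_kronecker` : if `g` has `A`-integral `q`-expansion `y`, then `χ_g` (coefficients read
  directly in `ℚ̄((q))`) has `A`-integral coefficients `p`, and modulo the maximal ideal
  `p̄ = (X - ȳ(q^ℓ)) (X^ℓ - σ ȳ)`, `σ` = coefficientwise Frobenius (`ȳ(q^ℓ) = (σ⁻¹ ȳ)^ℓ`).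
-/

set_option autoImplicit false

noncomputable section

open ModularCurve AlgebraicCurve HahnSeries Polynomial
open scoped IntermediateField

namespace Fermat.Agent.S37L

/-- the product formula for the characteristic polynomial: through `β` (coefficients
`c ↦ c(q^ℓ)`), `χ_g = (X - g(q^(ℓ²))) ∏_{b < ℓ} (X - g(ζ^b q))` for every `ζ` with
`1 + ζ + ⋯ + ζ^(ℓ-1) = 0` -/
theorem esk_charpoly_prod (N ℓ : ℕ) [NeZero N] [NeZero ℓ] (hℓ : ℓ.Prime) (hℓN : ¬ ℓ ∣ N)
    (g : ↥(laurentBaseChange (AlgebraicClosure ℚ) (modularFunctionFieldFull N)))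
    (ζ : (AlgebraicClosure ℚ)ˣ)
    (hζ : (∑ i ∈ Finset.range ℓ, ((ζ ^ i : (AlgebraicClosure ℚ)ˣ) : AlgebraicClosure ℚ)) = 0) :
    (esdCharpolyAlong (heckeBetaBar (AlgebraicClosure ℚ) N ℓ) (esd_finite_beta N ℓ)
        (heckeAlphaBar (AlgebraicClosure ℚ) N ℓ g)).map
        ((qExpand (AlgebraicClosure ℚ) ℓ).comp
          (algebraMap ↥(laurentBaseChange (AlgebraicClosure ℚ) (modularFunctionFieldFull N))
            (LaurentSeries (AlgebraicClosure ℚ))))
      = (X - Polynomial.C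
            (qExpand (AlgebraicClosure ℚ) (ℓ * ℓ) (g : LaurentSeries (AlgebraicClosure ℚ))))
        * ∏ b ∈ Finset.range ℓ,
            (X - Polynomial.C
              (Fermat.Agent.S28L.tw (ζ ^ b) (g : LaurentSeries (AlgebraicClosure ℚ)))) := by
  obtain ⟨ρ, hβ, hnorm⟩ := esk_emb N ℓ hℓ hℓN ζ hζ
  have hα := esk_rho_alpha N ℓ ρ hβ
    (fun d _ hd x hx => esk_rho_gen N ℓ hℓ hℓN ζ hζ ρ hβ hnorm d hd x hx)
  exact esk_charpoly_of_norm N ℓ ζ hζ ρ hβ hα hnorm g

/-- `χ` is monic -/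
theorem esk_charpoly_monic (N ℓ : ℕ) [NeZero N] [NeZero ℓ]
    (x : ↥(laurentBaseChange (AlgebraicClosure ℚ) (modularFunctionFieldFull (N * ℓ)))) :
    (esdCharpolyAlong (heckeBetaBar (AlgebraicClosure ℚ) N ℓ) (esd_finite_beta N ℓ) x).Monic := by
  letI := algebraAlong (heckeBetaBar (AlgebraicClosure ℚ) N ℓ)
  haveI : Module.Finite ↥(laurentBaseChange (AlgebraicClosure ℚ) (modularFunctionFieldFull N))
      ↥(laurentBaseChange (AlgebraicClosure ℚ) (modularFunctionFieldFull (N * ℓ))) :=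
    esd_finite_beta N ℓ
  haveI : Module.Free ↥(laurentBaseChange (AlgebraicClosure ℚ) (modularFunctionFieldFull N))
      ↥(laurentBaseChange (AlgebraicClosure ℚ) (modularFunctionFieldFull (N * ℓ))) :=
    Module.Free.of_divisionRing _ _
  exact LinearMap.charpoly_monic _

/-- `χ` has degree `ℓ + 1` -/
theorem esk_charpoly_natDegree (N ℓ : ℕ) [NeZero N] [NeZero ℓ] (hℓ : ℓ.Prime) (hℓN : ¬ ℓ ∣ N)
    (x : ↥(laurentBaseChange (AlgebraicClosure ℚ) (modularFunctionFieldFull (N * ℓ)))) :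
    (esdCharpolyAlong (heckeBetaBar (AlgebraicClosure ℚ) N ℓ) (esd_finite_beta N ℓ) x).natDegree
      = ℓ + 1 := by
  letI := algebraAlong (heckeBetaBar (AlgebraicClosure ℚ) N ℓ)
  haveI : Module.Finite ↥(laurentBaseChange (AlgebraicClosure ℚ) (modularFunctionFieldFull N))
      ↥(laurentBaseChange (AlgebraicClosure ℚ) (modularFunctionFieldFull (N * ℓ))) :=
    esd_finite_beta N ℓ
  haveI : Module.Free ↥(laurentBaseChange (AlgebraicClosure ℚ) (modularFunctionFieldFull N))
      ↥(laurentBaseChange (AlgebraicClosure ℚ) (modularFunctionFieldFull (N * ℓ))) :=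
    Module.Free.of_divisionRing _ _
  exact (LinearMap.charpoly_natDegree _).trans (esk_finrank N ℓ hℓ hℓN)

/-- **Kronecker congruence for a general integral function** `g = y ∈ F_N ∩ A((q))`:
`χ_g` has `A`-integral coefficients (the polynomial `p`), and
`p̄ = (X - ȳ(q^ℓ)) (X^ℓ - σ ȳ)` over the residue field. -/
theorem esk_kronecker (N ℓ : ℕ) [NeZero N] [NeZero ℓ] (hℓ : ℓ.Prime) (hℓN : ¬ ℓ ∣ N)
    (A : ValuationSubring (AlgebraicClosure ℚ)) (hA : A.LiesOverPrime ℓ)
    (e : IsLocalRing.ResidueField A ≃+* IsLocalRing.ResidueField A)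
    (he : ∀ a : IsLocalRing.ResidueField A, e a = a ^ ℓ)
    (y : LaurentSeries A)
    (hy : coeffMap A.subtype y
      ∈ laurentBaseChange (AlgebraicClosure ℚ) (modularFunctionFieldFull N)) :
    ∃ p : Polynomial (LaurentSeries A), p.Monic ∧ p.natDegree = ℓ + 1 ∧
      (esdCharpolyAlong (heckeBetaBar (AlgebraicClosure ℚ) N ℓ) (esd_finite_beta N ℓ)
          (heckeAlphaBar (AlgebraicClosure ℚ) N ℓ ⟨coeffMap A.subtype y, hy⟩)).map
          (algebraMap ↥(laurentBaseChange (AlgebraicClosure ℚ) (modularFunctionFieldFull N))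
            (LaurentSeries (AlgebraicClosure ℚ)))
        = p.map (coeffMap A.subtype) ∧
      p.map (coeffMap (IsLocalRing.residue A))
        = (X - Polynomial.C
              (qExpand (IsLocalRing.ResidueField A) ℓ (coeffMap (IsLocalRing.residue A) y)))
          * (X ^ ℓ - Polynomial.C
              (coeffMap (e : IsLocalRing.ResidueField A →+* IsLocalRing.ResidueField A)
                (coeffMap (IsLocalRing.residue A) y))) := by
  classical
  obtain ⟨ζ, hζ⟩ := esk_exists_zeta ℓ hℓ A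
  set ζ' : (AlgebraicClosure ℚ)ˣ :=
    Units.map ((A.subtype : ↥A →+* AlgebraicClosure ℚ) : ↥A →* AlgebraicClosure ℚ) ζ with hζ'def
  have hζ' : (∑ i ∈ Finset.range ℓ,
      ((ζ' ^ i : (AlgebraicClosure ℚ)ˣ) : AlgebraicClosure ℚ)) = 0 := by
    have h := congrArg (A.subtype : ↥A →+* AlgebraicClosure ℚ) hζ
    rw [map_sum, map_zero] at h
    rw [← h]
    refine Finset.sum_congr rfl fun i _ => ?_
    rw [hζ'def, ← map_pow]
    rfl
  set g : ↥(laurentBaseChange (AlgebraicClosure ℚ) (modularFunctionFieldFull N)) :=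
    ⟨coeffMap A.subtype y, hy⟩ with hg
  set χ := esdCharpolyAlong (heckeBetaBar (AlgebraicClosure ℚ) N ℓ) (esd_finite_beta N ℓ)
    (heckeAlphaBar (AlgebraicClosure ℚ) N ℓ g) with hχ
  have h1 := esk_charpoly_prod N ℓ hℓ hℓN g ζ' hζ'
  set P : Polynomial (LaurentSeries A) :=
    (X - Polynomial.C (qExpand ↥A (ℓ * ℓ) y))
      * ∏ b ∈ Finset.range ℓ, (X - Polynomial.C (Fermat.Agent.S28L.tw (ζ ^ b) y)) with hP
  have hPmap : P.map (coeffMap A.subtype)
      = (χ.map (algebraMap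
          ↥(laurentBaseChange (AlgebraicClosure ℚ) (modularFunctionFieldFull N))
          (LaurentSeries (AlgebraicClosure ℚ)))).map (qExpand (AlgebraicClosure ℚ) ℓ) := by
    rw [Polynomial.map_map, h1, hP, Polynomial.map_mul, Polynomial.map_sub, Polynomial.map_X,
      Polynomial.map_C, Polynomial.map_prod]
    congr 1
    · rw [Fermat.Agent.X0S24.JqMatch.coeffMap_qExpand]
    · refine Finset.prod_congr rfl fun b _ => ?_
      rw [Polynomial.map_sub, Polynomial.map_X, Polynomial.map_C,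
        Fermat.Agent.S28L.coeffMap_tw, map_pow]
  obtain ⟨p, hp1, hp2⟩ := esk_contract A.subtype Subtype.val_injective ℓ P _ hPmap
  have hinj : Function.Injective (coeffMap (A.subtype : ↥A →+* AlgebraicClosure ℚ)) :=
    Fermat.Agent.S28L.coeffMap_injective Subtype.val_injective
  have hχmonic : χ.Monic := esk_charpoly_monic N ℓ _
  have hχdeg : χ.natDegree = ℓ + 1 := esk_charpoly_natDegree N ℓ hℓ hℓN _
  refine ⟨p, ?_, ?_, hp2.symm, ?_⟩
  · exact Polynomial.monic_of_injective hinj (by rw [hp2]; exact hχmonic.map _)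
  · rw [← Polynomial.natDegree_map_eq_of_injective hinj, hp2,
      Polynomial.natDegree_map_eq_of_injective (FaithfulSMul.algebraMap_injective _ _), hχdeg]
  · apply Polynomial.map_injective (qExpand (IsLocalRing.ResidueField A) ℓ)
      (qExpand_injective (R := IsLocalRing.ResidueField A) ℓ)
    rw [Polynomial.map_map]
    have hcomm : (qExpand (IsLocalRing.ResidueField A) ℓ).comp (coeffMap (IsLocalRing.residue A))
        = (coeffMap (IsLocalRing.residue A)).comp (qExpand ↥A ℓ) :=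
      RingHom.ext fun x => (Fermat.Agent.X0S24.JqMatch.coeffMap_qExpand _ _ _).symm
    rw [hcomm, ← Polynomial.map_map, hp1]
    exact esk_red_big ℓ hℓ A hA e he ζ hζ y

end Fermat.Agent.S37L

end
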