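import Mathlib
import Fermat.Agent.S37L.EsFDefs
import Fermat.Agent.S37L.EsFVal
import Fermat.Agent.S37L.EsFFrob
import Fermat.Agent.S37L.EsdMod
import Fermat.Agent.S37L.EsK
import Fermat.Agent.S18L.S28XBridge

/-!
# S37, block F, leaf L5: the Kronecker congruence in evaluated form, for integral functions

For `u ∈ asmO A N` and a constant `c ∈ A`, with
`χ_u := esdCharpolyAlong β (esd_finite_beta N ℓ) (α u) ∈ F_N[X]`:
`χ_u(c) ∈ asmO A N` and its reduction is `(c̄ - ū(q^ℓ)) (c̄^ℓ - σ ū)`.

Route: `u = a / b` with good series `a, b` (`exists_good_of_mem_asmO`), `b̄ ≠ 0`;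
`χ_u(c) = det (c - α u) = det (α (c b - a)) / det (α b)` (multiplicativity of the determinant of
the multiplication maps over `β(F_N)`), `det (α y) = (-1)^(ℓ+1) χ_y(0)`
(`LinearMap.det_eq_sign_charpoly_coeff`, `esk_finrank`), and `χ_y(0)` for a good series `y` is
the coefficient `0` of the polynomial `p` of `esk_kronecker`, a good series with reduction
`ȳ(q^ℓ) · σ ȳ`; `asmRed_coe`, `inv_mem_asmO`.
-/

set_option autoImplicit false
set_option synthInstance.maxHeartbeats 400000

open ModularCurve AlgebraicCurve HahnSeries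

namespace Fermat.Agent.S37L

open Fermat.Agent.S18L

/-- evaluation of the characteristic polynomial of a multiplication map is a norm -/
theorem esf229_eval_charpoly {F F' : Type*} [Field F] [Field F'] [Algebra F F']
    [Module.Finite F F'] (x : F') (c : F) :
    (LinearMap.charpoly (LinearMap.mulLeft F x)).eval c
      = Algebra.norm F (algebraMap F F' c - x) := by
  classical
  have hlin : Algebra.lmul F F' (algebraMap F F' c - x)
      = c • LinearMap.id - LinearMap.mulLeft F x := by
    ext y
    simp [Algebra.smul_def]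
  rw [← LinearMap.charpoly_toMatrix _ (Module.finBasis F F'), Matrix.eval_charpoly,
    Algebra.norm_apply, ← LinearMap.det_toMatrix (Module.finBasis F F'), hlin, map_sub,
    map_smul, LinearMap.toMatrix_id]
  congr 1
  congr 1
  ext i j
  simp [Matrix.one_apply, Matrix.scalar_apply, Matrix.diagonal_apply]

theorem esf229_norm_eq {F F' : Type*} [Field F] [Field F'] [Algebra F F']
    [Module.Finite F F'] (x : F') :
    Algebra.norm F x = (-1) ^ Module.finrank F F'
      * (LinearMap.charpoly (LinearMap.mulLeft F x)).coeff 0 := by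
  rw [Algebra.norm_apply]
  exact LinearMap.det_eq_sign_charpoly_coeff (LinearMap.mulLeft F x)

theorem esf229_charpoly_mul {F F' : Type*} [Field F] [Field F'] [Algebra F F']
    [Module.Finite F F'] (x d : F') (c : F) :
    (LinearMap.charpoly (LinearMap.mulLeft F x)).eval c
        * (LinearMap.charpoly (LinearMap.mulLeft F d)).coeff 0
      = (LinearMap.charpoly (LinearMap.mulLeft F ((algebraMap F F' c - x) * d))).coeff 0 := by
  have h := map_mul (Algebra.norm F) (algebraMap F F' c - x) d
  rw [← esf229_eval_charpoly, esf229_norm_eq d, esf229_norm_eq ((algebraMap F F' c - x) * d)]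
    at h
  have hs : ((-1 : F) ^ Module.finrank F F') ≠ 0 := pow_ne_zero _ (by norm_num)
  apply mul_left_cancel₀ hs
  rw [h]
  ring

theorem esf229_charpoly_along {K F F' : Type*} [Field K] [Field F] [Field F'] [Algebra K F]
    [Algebra K F'] (β α : F →ₐ[K] F') (hfin : FiniteAlong K β) (u yb : F) (c : K) :
    (esdCharpolyAlong β hfin (α u)).eval (algebraMap K F c)
        * (esdCharpolyAlong β hfin (α yb)).coeff 0
      = (esdCharpolyAlong β hfin (α (algebraMap K F c * yb - u * yb))).coeff 0 := by
  letI := algebraAlong β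
  haveI : Module.Finite F F' := hfin
  have h := esf229_charpoly_mul (F := F) (F' := F') (α u) (α yb) (algebraMap K F c)
  have e : (algebraMap F F' (algebraMap K F c) - α u) * α yb
      = α (algebraMap K F c * yb - u * yb) := by
    have e1 : algebraMap F F' (algebraMap K F c) = α (algebraMap K F c) := by
      rw [α.commutes]
      exact β.commutes c
    rw [e1, map_sub, map_mul, map_mul]
    ring
  rw [e] at h
  exact h

theorem esf229_qexp_mem (N ℓ : ℕ) [NeZero N] [NeZero ℓ] (hℓ : ℓ.Prime) (k : Type*) [Field k]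
    [CharP k ℓ] (e : k ≃+* k) (he : ∀ a : k, e a = a ^ ℓ) {x : LaurentSeries k}
    (hx : x ∈ modularFunctionFieldFullC k N) :
    qExpand k ℓ x ∈ modularFunctionFieldFullC k N := by
  rw [esf_qexp_frob ℓ hℓ k e he x]
  exact pow_mem (coeffMap_mem_fullC k N _ hx) ℓ

/-- the constant coefficient of the characteristic polynomial of a good series is a good
series with reduction `ȳ(q^ℓ) · σ ȳ` -/
theorem esf229_coeff_zero (N ℓ : ℕ) [NeZero N] [NeZero ℓ] (hℓ : ℓ.Prime) (hℓN : ¬ ℓ ∣ N)
    (A : ValuationSubring (AlgebraicClosure ℚ)) (hA : A.LiesOverPrime ℓ)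
    (e : IsLocalRing.ResidueField A ≃+* IsLocalRing.ResidueField A)
    (he : ∀ a : IsLocalRing.ResidueField A, e a = a ^ ℓ)
    (y : LaurentSeries A) (hy : AsmGood A N y) :
    ∃ g : LaurentSeries A, AsmGood A N g ∧
      asmIota A g = (((esdCharpolyAlong (heckeBetaBar (AlgebraicClosure ℚ) N ℓ)
          (esd_finite_beta N ℓ) (heckeAlphaBar (AlgebraicClosure ℚ) N ℓ
            (⟨asmIota A y, hy.1⟩ : ↥(modularFunctionFieldBar N)))).coeff 0 :
              ↥(modularFunctionFieldBar N)) : LaurentSeries (AlgebraicClosure ℚ)) ∧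
      asmRho A g = qExpand (IsLocalRing.ResidueField A) ℓ (asmRho A y)
        * coeffMap (e : IsLocalRing.ResidueField A →+* IsLocalRing.ResidueField A)
            (asmRho A y) := by
  haveI : Fact ℓ.Prime := ⟨hℓ⟩
  haveI : CharP (IsLocalRing.ResidueField A) ℓ := s28x_charP ℓ A hA
  obtain ⟨p, -, -, h1, h2⟩ := esk_kronecker N ℓ hℓ hℓN A hA e he y hy.1
  have h1' := congrArg (fun P => Polynomial.coeff P 0) h1
  have h2' := congrArg (fun P => Polynomial.coeff P 0) h2
  simp only [Polynomial.coeff_map] at h1' h2'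
  have hι : asmIota A (p.coeff 0) = (((esdCharpolyAlong (heckeBetaBar (AlgebraicClosure ℚ) N ℓ)
          (esd_finite_beta N ℓ) (heckeAlphaBar (AlgebraicClosure ℚ) N ℓ
            (⟨asmIota A y, hy.1⟩ : ↥(modularFunctionFieldBar N)))).coeff 0 :
              ↥(modularFunctionFieldBar N)) : LaurentSeries (AlgebraicClosure ℚ)) :=
    h1'.symm
  have hρ : asmRho A (p.coeff 0) = qExpand (IsLocalRing.ResidueField A) ℓ (asmRho A y)
        * coeffMap (e : IsLocalRing.ResidueField A →+* IsLocalRing.ResidueField A)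
            (asmRho A y) := by
    refine h2'.trans ?_
    rw [Polynomial.mul_coeff_zero]
    simp only [Polynomial.coeff_sub, Polynomial.coeff_X_zero, Polynomial.coeff_C_zero,
      Polynomial.coeff_X_pow, if_neg hℓ.ne_zero.symm, zero_sub, neg_mul_neg]
    rfl
  refine ⟨p.coeff 0, ⟨?_, ?_⟩, hι, hρ⟩
  · rw [hι]
    exact SetLike.coe_mem _
  · rw [hρ]
    exact mul_mem (esf229_qexp_mem N ℓ hℓ _ e he hy.2) (coeffMap_mem_fullC _ N _ hy.2)


theorem esf_kron_eval (N ℓ : ℕ) [NeZero N] [NeZero ℓ] (hℓ : ℓ.Prime) (hℓN : ¬ ℓ ∣ N)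
    (A : ValuationSubring (AlgebraicClosure ℚ)) (hA : A.LiesOverPrime ℓ)
    (e : IsLocalRing.ResidueField A ≃+* IsLocalRing.ResidueField A)
    (he : ∀ a : IsLocalRing.ResidueField A, e a = a ^ ℓ)
    (u : asmO A N) (c : A) :
    ∃ (hz : (esdCharpolyAlong (heckeBetaBar (AlgebraicClosure ℚ) N ℓ) (esd_finite_beta N ℓ)
            (heckeAlphaBar (AlgebraicClosure ℚ) N ℓ (u : ↥(modularFunctionFieldBar N)))).eval
          (algebraMap (AlgebraicClosure ℚ) ↥(modularFunctionFieldBar N)
            (c : AlgebraicClosure ℚ)) ∈ asmO A N)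
      (h₁ : qExpand (IsLocalRing.ResidueField A) ℓ
          ((asmRed A N u : ↥(modularFunctionFieldFullC (IsLocalRing.ResidueField A) N)) :
            LaurentSeries (IsLocalRing.ResidueField A))
          ∈ modularFunctionFieldFullC (IsLocalRing.ResidueField A) N)
      (h₂ : coeffMap (e : IsLocalRing.ResidueField A →+* IsLocalRing.ResidueField A)
          ((asmRed A N u : ↥(modularFunctionFieldFullC (IsLocalRing.ResidueField A) N)) :
            LaurentSeries (IsLocalRing.ResidueField A))
          ∈ modularFunctionFieldFullC (IsLocalRing.ResidueField A) N),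
      asmRed A N ⟨_, hz⟩
        = (algebraMap (IsLocalRing.ResidueField A)
              ↥(modularFunctionFieldFullC (IsLocalRing.ResidueField A) N)
              (IsLocalRing.residue A c) - ⟨_, h₁⟩)
          * (algebraMap (IsLocalRing.ResidueField A)
                ↥(modularFunctionFieldFullC (IsLocalRing.ResidueField A) N)
                (IsLocalRing.residue A c) ^ ℓ - ⟨_, h₂⟩) := by
  haveI : Fact ℓ.Prime := ⟨hℓ⟩
  haveI : CharP (IsLocalRing.ResidueField A) ℓ := s28x_charP ℓ A hA
  obtain ⟨a, b, ha, hb, hb0, hK, hk⟩ := exists_good_of_mem_asmO A N u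
  have hyc : AsmGood A N (HahnSeries.single 0 c * b - a) := by
    rw [sub_eq_add_neg]
    exact agd_good_add A N (agd_good_mul A N (agp_good_single A N c) hb) (agd_good_neg A N ha)
  obtain ⟨gb, hgb, hgbι, hgbρ⟩ := esf229_coeff_zero N ℓ hℓ hℓN A hA e he b hb
  obtain ⟨gc, hgc, hgcι, hgcρ⟩ := esf229_coeff_zero N ℓ hℓ hℓN A hA e he _ hyc
  have hkey := esf229_charpoly_along (heckeBetaBar (AlgebraicClosure ℚ) N ℓ)
    (heckeAlphaBar (AlgebraicClosure ℚ) N ℓ) (esd_finite_beta N ℓ)
    (u : ↥(modularFunctionFieldBar N)) (⟨asmIota A b, hb.1⟩ : ↥(modularFunctionFieldBar N))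
    (c : AlgebraicClosure ℚ)
  have hsub : algebraMap (AlgebraicClosure ℚ) ↥(modularFunctionFieldBar N)
        (c : AlgebraicClosure ℚ) * (⟨asmIota A b, hb.1⟩ : ↥(modularFunctionFieldBar N))
      - (u : ↥(modularFunctionFieldBar N)) * (⟨asmIota A b, hb.1⟩ : ↥(modularFunctionFieldBar N))
      = (⟨asmIota A (HahnSeries.single 0 c * b - a), hyc.1⟩ : ↥(modularFunctionFieldBar N)) := by
    apply Subtype.ext
    have h1 : asmIota A (HahnSeries.single 0 c * b - a)
        = algebraMap (AlgebraicClosure ℚ) (LaurentSeries (AlgebraicClosure ℚ))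
            (c : AlgebraicClosure ℚ) * asmIota A b
          - ((u : ↥(modularFunctionFieldBar N)) : LaurentSeries (AlgebraicClosure ℚ))
            * asmIota A b := by
      rw [map_sub, map_mul, agp_iota_single, ← hK]
    exact h1.symm
  rw [hsub] at hkey
  have hkeyL := congrArg (fun z : ↥(modularFunctionFieldBar N) =>
    (z : LaurentSeries (AlgebraicClosure ℚ))) hkey
  simp only [MulMemClass.coe_mul] at hkeyL
  rw [← hgbι, ← hgcι] at hkeyL
  have hbσ : coeffMap (e : IsLocalRing.ResidueField A →+* IsLocalRing.ResidueField A)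
      (asmRho A b) ≠ 0 := by
    intro h0
    exact hb0 ((coeffMap (e : IsLocalRing.ResidueField A →+* IsLocalRing.ResidueField A)).injective
      (by rw [h0, map_zero]))
  have hbq : qExpand (IsLocalRing.ResidueField A) ℓ (asmRho A b) ≠ 0 := by
    intro h0
    exact hb0 ((qExpand (IsLocalRing.ResidueField A) ℓ).injective (by rw [h0, map_zero]))
  have hgb0 : asmRho A gb ≠ 0 := by
    rw [hgbρ]
    exact mul_ne_zero hbq hbσ
  have hz : (esdCharpolyAlong (heckeBetaBar (AlgebraicClosure ℚ) N ℓ) (esd_finite_beta N ℓ)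
            (heckeAlphaBar (AlgebraicClosure ℚ) N ℓ (u : ↥(modularFunctionFieldBar N)))).eval
          (algebraMap (AlgebraicClosure ℚ) ↥(modularFunctionFieldBar N)
            (c : AlgebraicClosure ℚ)) ∈ asmO A N :=
    (mem_asmO_iff A N _).2 ⟨gc, gb, hgc, hgb, hgb0, hkeyL⟩
  have hspec := asmRed_spec A N ⟨_, hz⟩ gc gb hgc hgb hgb0 hkeyL
  refine ⟨hz, esf229_qexp_mem N ℓ hℓ _ e he (SetLike.coe_mem _),
    coeffMap_mem_fullC _ N _ (SetLike.coe_mem _), ?_⟩
  apply Subtype.ext
  apply mul_right_cancel₀ hgb0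
  rw [hspec, hgcρ, hgbρ]
  have hρc : asmRho A (HahnSeries.single 0 c * b - a)
      = (algebraMap (IsLocalRing.ResidueField A) (LaurentSeries (IsLocalRing.ResidueField A))
            (IsLocalRing.residue A c)
          - ((asmRed A N u : ↥(modularFunctionFieldFullC (IsLocalRing.ResidueField A) N)) :
            LaurentSeries (IsLocalRing.ResidueField A))) * asmRho A b := by
    rw [map_sub, map_mul, agp_rho_single, ← hk]
    ring
  have hqc : qExpand (IsLocalRing.ResidueField A) ℓ
      (algebraMap (IsLocalRing.ResidueField A) (LaurentSeries (IsLocalRing.ResidueField A))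
            (IsLocalRing.residue A c))
      = algebraMap (IsLocalRing.ResidueField A) (LaurentSeries (IsLocalRing.ResidueField A))
            (IsLocalRing.residue A c) := by
    rw [algebraMap_laurentSeries_eq_single, qExpand_single, mul_zero]
  have hσc : coeffMap (e : IsLocalRing.ResidueField A →+* IsLocalRing.ResidueField A)
      (algebraMap (IsLocalRing.ResidueField A) (LaurentSeries (IsLocalRing.ResidueField A))
            (IsLocalRing.residue A c))
      = algebraMap (IsLocalRing.ResidueField A) (LaurentSeries (IsLocalRing.ResidueField A))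
            (IsLocalRing.residue A c) ^ ℓ := by
    rw [coeffMap_algebraMap, ← map_pow]
    congr 1
    exact he _
  rw [hρc, map_mul, map_mul, map_sub, map_sub, hqc, hσc]
  push_cast
  ring

end Fermat.Agent.S37L
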