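import Mathlib
import Fermat.Agent.S37L.EsFDefs
import Fermat.Agent.S37L.EsFVal
import Fermat.Agent.S37L.EsFFrob
import Fermat.Agent.S37L.EsFKron

/-!
# S37, block F, leaf L6d: the value of the reduction of `χ_u (c)` at a place `Q` of `F̄_N`

From `esf_kron_eval` (reduction of `χ_u(c)` is `(c̄ - ū(q^ℓ)) (c̄^ℓ - σ ū)`), `esf_frob_vals`
(values of `ū(q^ℓ)` and `σ ū` at `Q` from the values `b₁`, `b₂` of `ū` at `σ Q`, `σ⁻¹ Q`), the
calculus of values and `sub_pow_char`.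
-/

set_option autoImplicit false
set_option synthInstance.maxHeartbeats 400000

open ModularCurve AlgebraicCurve HahnSeries

namespace Fermat.Agent.S37L

open Fermat.Agent.S18L

theorem esf_chi_val (N ℓ : ℕ) [NeZero N] [NeZero ℓ] (hℓ : ℓ.Prime) (hℓN : ¬ ℓ ∣ N)
    (A : ValuationSubring (AlgebraicClosure ℚ)) (hA : A.LiesOverPrime ℓ)
    (e : IsLocalRing.ResidueField A ≃+* IsLocalRing.ResidueField A)
    (he : ∀ a : IsLocalRing.ResidueField A, e a = a ^ ℓ)
    (u : asmO A N) (c : A)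
    (Q : Place (IsLocalRing.ResidueField A)
      ↥(modularFunctionFieldFullC (IsLocalRing.ResidueField A) N))
    (b₁ b₂ : IsLocalRing.ResidueField A)
    (h₁ : EsfVal (esAut (IsLocalRing.ResidueField A) N e • Q) (asmRed A N u) b₁)
    (h₂ : EsfVal ((esAut (IsLocalRing.ResidueField A) N e)⁻¹ • Q) (asmRed A N u) b₂) :
    ∃ hz : (esdCharpolyAlong (heckeBetaBar (AlgebraicClosure ℚ) N ℓ) (esd_finite_beta N ℓ)
            (heckeAlphaBar (AlgebraicClosure ℚ) N ℓ (u : ↥(modularFunctionFieldBar N)))).eval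
          (algebraMap (AlgebraicClosure ℚ) ↥(modularFunctionFieldBar N)
            (c : AlgebraicClosure ℚ)) ∈ asmO A N,
      EsfVal Q (asmRed A N ⟨_, hz⟩)
        ((IsLocalRing.residue A c - b₁) * (IsLocalRing.residue A c - b₂) ^ ℓ) := by
  obtain ⟨hz, hq, hs, heq⟩ := esf_kron_eval N ℓ hℓ hℓN A hA e he u c
  refine ⟨hz, ?_⟩
  rw [heq]
  have : Fact ℓ.Prime := ⟨hℓ⟩
  have : CharP (IsLocalRing.ResidueField A) ℓ := s28x_charP ℓ A hA
  obtain ⟨⟨hq', hv₁⟩, ⟨hs', hv₂⟩⟩ := esf_frob_vals N ℓ hℓ (IsLocalRing.ResidueField A) e he Q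
    (asmRed A N u) b₁ b₂ h₁ h₂
  rw [sub_pow_char (IsLocalRing.residue A c) b₂]
  refine esf_val_mul Q (esf_val_sub Q (esf_val_const Q _) hv₁) (esf_val_sub Q ?_ hv₂)
  rw [← map_pow]
  exact esf_val_const Q _

end Fermat.Agent.S37L
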