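import Mathlib
import Fermat.Agent.S37L.EsFDefs
import Fermat.Agent.S37L.EsFVal
import Fermat.Agent.S37L.EsFType
import Fermat.Agent.S37L.EsFCons
import Fermat.Agent.S37L.EsFFrob
import Fermat.Agent.S37L.EsFNbr
import Fermat.Agent.S37L.EsFChi
import Fermat.Agent.S37L.EsdMod

/-!
# S37, block F, leaf L6: the Eichler–Shimura relation tested against an integral function

For `u ∈ asmO A N` all of whose poles reduce to places of the type other than that of `r P`:
with `v w = ū (r (w ∘ α))` for `w | P` via `β`, `b₁ = ū (σ (r P))`, `b₂ = ū (σ⁻¹ (r P))`,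
`∏_{w | P} (X - v w) ^ e_β(w) = (X - b₁) (X - b₂) ^ ℓ`.
-/

set_option autoImplicit false
set_option synthInstance.maxHeartbeats 400000

open ModularCurve AlgebraicCurve HahnSeries

namespace Fermat.Agent.S37L

open Fermat.Agent.S18L

theorem esf_test_poly (N ℓ : ℕ) [NeZero N] [NeZero ℓ] (hℓ : ℓ.Prime) (hℓN : ¬ ℓ ∣ N)
    (A : ValuationSubring (AlgebraicClosure ℚ)) (hA : A.LiesOverPrime ℓ)
    (hcases : 5 ≤ ℓ ∨ (ℓ = 3 ∧ 2 ∣ N) ∨ (ℓ = 2 ∧ 3 ∣ N))
    (r : Place (AlgebraicClosure ℚ) ↥(modularFunctionFieldBar N) →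
      Place (IsLocalRing.ResidueField A)
        ↥(modularFunctionFieldFullC (IsLocalRing.ResidueField A) N))
    (hr : IsPlaceReductionModL A N r)
    (e : IsLocalRing.ResidueField A ≃+* IsLocalRing.ResidueField A)
    (he : ∀ a : IsLocalRing.ResidueField A, e a = a ^ ℓ)
    (hα : HeckeAlphaBarIntegral (AlgebraicClosure ℚ) N ℓ)
    (hβ : HeckeBetaBarIntegral (AlgebraicClosure ℚ) N ℓ)
    (P : Place (AlgebraicClosure ℚ) ↥(modularFunctionFieldBar N)) (u : asmO A N)
    (hpole : ∀ P' : Place (AlgebraicClosure ℚ) ↥(modularFunctionFieldBar N),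
      P'.ord (u : ↥(modularFunctionFieldBar N)) < 0 → ¬ (EsfTy N A (r P') ↔ EsfTy N A (r P))) :
    ∃ (v : Place (AlgebraicClosure ℚ) ↥(modularFunctionFieldBar (N * ℓ)) →
          IsLocalRing.ResidueField A) (b₁ b₂ : IsLocalRing.ResidueField A),
      (∀ w ∈ Place.fiberAlong (heckeBetaBar (AlgebraicClosure ℚ) N ℓ) hβ P,
        EsfVal (r (w.restrictAlong (heckeAlphaBar (AlgebraicClosure ℚ) N ℓ) hα))
          (asmRed A N u) (v w)) ∧
      EsfVal (esAut (IsLocalRing.ResidueField A) N e • r P) (asmRed A N u) b₁ ∧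
      EsfVal ((esAut (IsLocalRing.ResidueField A) N e)⁻¹ • r P) (asmRed A N u) b₂ ∧
      ∏ w ∈ Place.fiberAlong (heckeBetaBar (AlgebraicClosure ℚ) N ℓ) hβ P,
          (Polynomial.X - Polynomial.C (v w))
            ^ (w.ramificationIndexAlong (heckeBetaBar (AlgebraicClosure ℚ) N ℓ))
        = (Polynomial.X - Polynomial.C b₁) * (Polynomial.X - Polynomial.C b₂) ^ ℓ := by
  classical
  have hfib : ∀ w ∈ Place.fiberAlong (heckeBetaBar (AlgebraicClosure ℚ) N ℓ) hβ P,
      (EsfTy N A (r (w.restrictAlong (heckeBetaBar (AlgebraicClosure ℚ) N ℓ) hβ))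
        ↔ EsfTy N A (r P)) := by
    intro w hw
    rw [Place.mem_fiberAlong.mp hw]
  have hx : ∀ w ∈ Place.fiberAlong (heckeBetaBar (AlgebraicClosure ℚ) N ℓ) hβ P,
      0 ≤ w.ord (heckeAlphaBar (AlgebraicClosure ℚ) N ℓ (u : ↥(modularFunctionFieldBar N))) :=
    fun w hw => esf_nbr_reg N ℓ hℓ hℓN A hA hcases r hr hα hβ _ u hpole w (hfib w hw)
  obtain ⟨a, q, ha, hq, hqprod⟩ := esd_fibre_poly_beta N ℓ P
    (heckeAlphaBar (AlgebraicClosure ℚ) N ℓ (u : ↥(modularFunctionFieldBar N))) hx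
  have hval : ∀ w ∈ Place.fiberAlong (heckeBetaBar (AlgebraicClosure ℚ) N ℓ) hβ P,
      ∃ h : a w ∈ A,
        EsfVal (r (w.restrictAlong (heckeAlphaBar (AlgebraicClosure ℚ) N ℓ) hα)) (asmRed A N u)
          (IsLocalRing.residue A ⟨a w, h⟩) :=
    fun w hw => esf_nbr_val N ℓ hℓ hℓN A hA hcases r hr hα hβ _ u hpole w (hfib w hw) (a w)
      (ha w hw)
  let a' : Place (AlgebraicClosure ℚ) ↥(modularFunctionFieldBar (N * ℓ)) → A :=
    fun w => if h : a w ∈ A then ⟨a w, h⟩ else 0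
  have ha'eq : ∀ w (h : a w ∈ A), a' w = ⟨a w, h⟩ := by
    intro w h
    simp only [a', dif_pos h]
  have ha' : ∀ w ∈ Place.fiberAlong (heckeBetaBar (AlgebraicClosure ℚ) N ℓ) hβ P,
      ((a' w : A) : AlgebraicClosure ℚ) = a w := by
    intro w hw
    obtain ⟨h, -⟩ := hval w hw
    rw [ha'eq w h]
  have hty1 : ∀ P' : Place (AlgebraicClosure ℚ) ↥(modularFunctionFieldBar N),
      P'.ord (u : ↥(modularFunctionFieldBar N)) < 0 →
        r P' ≠ esAut (IsLocalRing.ResidueField A) N e • r P := by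
    intro P' hP' heq
    apply hpole P' hP'
    rw [heq]
    exact esf_ty_smul N A e (r P)
  have hty2 : ∀ P' : Place (AlgebraicClosure ℚ) ↥(modularFunctionFieldBar N),
      P'.ord (u : ↥(modularFunctionFieldBar N)) < 0 →
        r P' ≠ (esAut (IsLocalRing.ResidueField A) N e)⁻¹ • r P := by
    intro P' hP' heq
    apply hpole P' hP'
    rw [heq]
    have h := esf_ty_smul N A e ((esAut (IsLocalRing.ResidueField A) N e)⁻¹ • r P)
    rw [smul_inv_smul] at h
    exact h.symm
  have hdeg : (r P).deg = 1 := by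
    rw [hr.1 P]
    exact esd_deg_eq_one (esd_ff_bar N) P
  obtain ⟨b₁, hb₁⟩ := esf_val_exists (esAut (IsLocalRing.ResidueField A) N e • r P)
    (by rw [SemilinearAut.deg_smul]; exact hdeg) (esf_ev_reg N A r hr u _ hty1)
  obtain ⟨b₂, hb₂⟩ := esf_val_exists ((esAut (IsLocalRing.ResidueField A) N e)⁻¹ • r P)
    (by rw [SemilinearAut.deg_smul]; exact hdeg) (esf_ev_reg N A r hr u _ hty2)
  refine ⟨fun w => IsLocalRing.residue A (a' w), b₁, b₂, ?_, hb₁, hb₂, ?_⟩
  · intro w hw
    obtain ⟨h, hv⟩ := hval w hw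
    change EsfVal _ _ (IsLocalRing.residue A (a' w))
    rw [ha'eq w h]
    exact hv
  · haveI : IsAlgClosed (IsLocalRing.ResidueField A) := isAlgClosed_residueField A
    have : Infinite (IsLocalRing.ResidueField A) := IsAlgClosed.instInfinite
    let qA : Polynomial A :=
      ∏ w ∈ Place.fiberAlong (heckeBetaBar (AlgebraicClosure ℚ) N ℓ) hβ P,
        (Polynomial.X - Polynomial.C (a' w))
          ^ (w.ramificationIndexAlong (heckeBetaBar (AlgebraicClosure ℚ) N ℓ))
    have hqA : qA.map A.subtype = q := by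
      rw [hqprod, Polynomial.map_prod]
      refine Finset.prod_congr rfl fun w hw => ?_
      rw [Polynomial.map_pow, Polynomial.map_sub, Polynomial.map_X, Polynomial.map_C]
      congr 3
      exact ha' w hw
    have hres : qA.map (IsLocalRing.residue A)
        = ∏ w ∈ Place.fiberAlong (heckeBetaBar (AlgebraicClosure ℚ) N ℓ) hβ P,
          (Polynomial.X - Polynomial.C (IsLocalRing.residue A (a' w)))
            ^ (w.ramificationIndexAlong (heckeBetaBar (AlgebraicClosure ℚ) N ℓ)) := by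
      rw [Polynomial.map_prod]
      refine Finset.prod_congr rfl fun w hw => ?_
      rw [Polynomial.map_pow, Polynomial.map_sub, Polynomial.map_X, Polynomial.map_C]
    apply Polynomial.funext
    intro x
    obtain ⟨c, rfl⟩ := IsLocalRing.residue_surjective x
    have hzval := esf_val_eval P
      (esdCharpolyAlong (heckeBetaBar (AlgebraicClosure ℚ) N ℓ) (esd_finite_beta N ℓ)
        (heckeAlphaBar (AlgebraicClosure ℚ) N ℓ (u : ↥(modularFunctionFieldBar N)))) q
      (fun i => hq i) (c : AlgebraicClosure ℚ)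
    obtain ⟨hz, hzv⟩ := esf_chi_val N ℓ hℓ hℓN A hA e he u c (r P) b₁ b₂ hb₁ hb₂
    obtain ⟨hc, hcv⟩ := esf_ev_val N A r hr ⟨_, hz⟩ P (q.eval (c : AlgebraicClosure ℚ)) hzval
      (fun P' hP' heq => esf_chi_pole N ℓ hℓ hℓN A hA hcases r hr _ u hpole
        (c : AlgebraicClosure ℚ) P' hP' (by rw [heq]))
    have huniq := esf_val_unique (r P) hcv hzv
    have h1 : (⟨q.eval (c : AlgebraicClosure ℚ), hc⟩ : A) = qA.eval c := by
      apply Subtype.ext
      change q.eval (c : AlgebraicClosure ℚ) = ((qA.eval c : A) : AlgebraicClosure ℚ)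
      rw [← hqA, Polynomial.eval_map]
      exact Polynomial.eval₂_at_apply A.subtype c
    rw [← hres, Polynomial.eval_map, Polynomial.eval₂_at_apply, ← h1, huniq]
    simp only [Polynomial.eval_mul, Polynomial.eval_sub, Polynomial.eval_X, Polynomial.eval_C,
      Polynomial.eval_pow]

end Fermat.Agent.S37L
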