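import Mathlib
import Fermat.Prelude.Def_ModularCurve_HeckeModule
import Fermat.Prelude.Def_ModularCurve_ReductionModL
import Fermat.Agent.S37L.EsFrob
import Fermat.Agent.S37L.EsFDefs
import Fermat.Agent.S37L.EsFVal
import Fermat.Agent.S37L.EsFType
import Fermat.Agent.S37L.EsFFrob
import Fermat.Agent.S37L.EsFNbr
import Fermat.Agent.S37L.EsFPoly
import Fermat.Agent.S37L.EsFCount
import Fermat.Agent.S37L.EsdMod

/-!
# S37, block F (owner helper3): the Eichler–Shimura relation at the level of places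

`esf_place`: for a place reduction `r` at a level `N` prime to `ℓ` and every place `P` of
`F_N = modularFunctionFieldBar N`,
`r_* (T_ℓ P) = Fr (r P) + ℓ · Fr⁻¹ (r P)`,
where `T_ℓ = α_* ∘ β^*` is the Hecke correspondence on divisors and `Fr = esAut k N e` is the
coefficientwise Frobenius of `F̄_N` acting on places.

Assembly: `T_ℓ P = Σ_{w | P via β} e_β(w) (w ∘ α)` (`esd_heckeDiv_single`), the counting lemma
`esf_count` with `pl w = r (w ∘ α)`, `m w = e_β(w)`, `Q₁ = Fr (r P)`, `Q₂ = Fr⁻¹ (r P)`; the test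
functions come from `esf_sep` (all places involved have the type of `r P`: `esf_nbr_type`,
`esf_ty_smul`) and `esf_test_poly`; the total multiplicity from `esf_test_poly` with `u = 0`.
-/

set_option autoImplicit false
set_option synthInstance.maxHeartbeats 400000

open ModularCurve AlgebraicCurve

namespace Fermat.Agent.S37L

theorem esf228_natDegree {ι k : Type*} [Field k] (S : Finset ι) (v : ι → k) (m : ι → ℕ) :
    (∏ w ∈ S, (Polynomial.X - Polynomial.C (v w)) ^ m w).natDegree = ∑ w ∈ S, m w := by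
  rw [Polynomial.natDegree_prod_of_monic]
  · refine Finset.sum_congr rfl fun w _ => ?_
    rw [Polynomial.natDegree_pow, Polynomial.natDegree_X_sub_C, mul_one]
  · intro w _
    exact (Polynomial.monic_X_sub_C _).pow _

theorem esf228_natDegree_rhs {k : Type*} [Field k] (b₁ b₂ : k) (ℓ : ℕ) :
    ((Polynomial.X - Polynomial.C b₁) * (Polynomial.X - Polynomial.C b₂) ^ ℓ).natDegree
      = ℓ + 1 := by
  rw [Polynomial.Monic.natDegree_mul (Polynomial.monic_X_sub_C _)
    ((Polynomial.monic_X_sub_C _).pow _), Polynomial.natDegree_pow,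
    Polynomial.natDegree_X_sub_C, Polynomial.natDegree_X_sub_C, mul_one, add_comm]

/-- **Eichler–Shimura at the level of places** (INTERFACE of block F-core). -/
theorem esf_place (N : ℕ) [NeZero N] (ℓ : ℕ) [NeZero ℓ] (hℓ : ℓ.Prime) (hℓN : ¬ ℓ ∣ N)
    (A : ValuationSubring (AlgebraicClosure ℚ)) (hA : A.LiesOverPrime ℓ)
    (hcases : 5 ≤ ℓ ∨ (ℓ = 3 ∧ 2 ∣ N) ∨ (ℓ = 2 ∧ 3 ∣ N))
    (r : Place (AlgebraicClosure ℚ) ↥(modularFunctionFieldBar N) →
      Place (IsLocalRing.ResidueField A)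
        ↥(modularFunctionFieldFullC (IsLocalRing.ResidueField A) N))
    (hr : IsPlaceReductionModL A N r)
    (e : IsLocalRing.ResidueField A ≃+* IsLocalRing.ResidueField A)
    (he : ∀ a : IsLocalRing.ResidueField A, e a = a ^ ℓ)
    (hα : HeckeAlphaBarIntegral (AlgebraicClosure ℚ) N ℓ)
    (hβ : HeckeBetaBarIntegral (AlgebraicClosure ℚ) N ℓ)
    [HasPrincipalDivisors (AlgebraicClosure ℚ) ↥(modularFunctionFieldBar (N * ℓ))]
    (P : Place (AlgebraicClosure ℚ) ↥(modularFunctionFieldBar N)) :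
    Finsupp.mapDomain r
        (Divisor.correspondence (heckeBetaBar (AlgebraicClosure ℚ) N ℓ)
          (heckeAlphaBar (AlgebraicClosure ℚ) N ℓ) hβ hα (Finsupp.single P 1))
      = Finsupp.single (esAut (IsLocalRing.ResidueField A) N e • r P) 1
        + Finsupp.single ((esAut (IsLocalRing.ResidueField A) N e)⁻¹ • r P) (ℓ : ℤ) := by
  have : Fact ℓ.Prime := ⟨hℓ⟩
  have hsingle : Divisor.correspondence (heckeBetaBar (AlgebraicClosure ℚ) N ℓ)
      (heckeAlphaBar (AlgebraicClosure ℚ) N ℓ) hβ hα (Finsupp.single P 1)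
      = ∑ w ∈ Place.fiberAlong (heckeBetaBar (AlgebraicClosure ℚ) N ℓ) hβ P,
          Finsupp.single (w.restrictAlong (heckeAlphaBar (AlgebraicClosure ℚ) N ℓ) hα)
            ((1 : ℤ) * (w.ramificationIndexAlong (heckeBetaBar (AlgebraicClosure ℚ) N ℓ) : ℤ)) :=
    esd_heckeDiv_single N ℓ P 1
  rw [hsingle, Finsupp.mapDomain_finsetSum]
  simp only [Finsupp.mapDomain_single, one_mul]
  have hty1 : EsfTy N A (esAut (IsLocalRing.ResidueField A) N e • r P) ↔ EsfTy N A (r P) :=
    esf_ty_smul N A e (r P)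
  have hty2 : EsfTy N A ((esAut (IsLocalRing.ResidueField A) N e)⁻¹ • r P)
      ↔ EsfTy N A (r P) := by
    have h := esf_ty_smul N A e ((esAut (IsLocalRing.ResidueField A) N e)⁻¹ • r P)
    rw [smul_inv_smul] at h
    exact h.symm
  have htyw : ∀ w ∈ Place.fiberAlong (heckeBetaBar (AlgebraicClosure ℚ) N ℓ) hβ P,
      EsfTy N A (r (w.restrictAlong (heckeAlphaBar (AlgebraicClosure ℚ) N ℓ) hα))
        ↔ EsfTy N A (r P) := by
    intro w hw
    have h := esf_nbr_type N ℓ hℓ hℓN A hA hcases r hr hα hβ w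
    rw [Place.mem_fiberAlong.mp hw] at h
    exact h
  have hdeg : ∑ w ∈ Place.fiberAlong (heckeBetaBar (AlgebraicClosure ℚ) N ℓ) hβ P,
      w.ramificationIndexAlong (heckeBetaBar (AlgebraicClosure ℚ) N ℓ) = ℓ + 1 := by
    obtain ⟨v, b₁, b₂, -, -, -, hpoly⟩ :=
      esf_test_poly N ℓ hℓ hℓN A hA hcases r hr e he hα hβ P 0 (by
        intro P' h
        rw [ZeroMemClass.coe_zero, Place.ord_zero] at h
        exact absurd h (lt_irrefl _))
    have h := congrArg Polynomial.natDegree hpoly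
    rw [esf228_natDegree, esf228_natDegree_rhs] at h
    exact h
  refine esf_count (k := IsLocalRing.ResidueField A)
    (Place.fiberAlong (heckeBetaBar (AlgebraicClosure ℚ) N ℓ) hβ P)
    (fun w => r (w.restrictAlong (heckeAlphaBar (AlgebraicClosure ℚ) N ℓ) hα))
    (fun w => w.ramificationIndexAlong (heckeBetaBar (AlgebraicClosure ℚ) N ℓ))
    (esAut (IsLocalRing.ResidueField A) N e • r P)
    ((esAut (IsLocalRing.ResidueField A) N e)⁻¹ • r P) ℓ hdeg ?_
  intro Q₀ hQ₀2 hQ₀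
  have hty0 : EsfTy N A Q₀ ↔ EsfTy N A (r P) := by
    rcases hQ₀ with rfl | ⟨w, hw, rfl⟩
    · exact hty1
    · exact htyw w hw
  obtain ⟨u, hpole, h0, h1, h2⟩ : ∃ u : Fermat.Agent.S18L.asmO A N,
      (∀ P' : Place (AlgebraicClosure ℚ) ↥(modularFunctionFieldBar N),
        P'.ord (u : ↥(modularFunctionFieldBar N)) < 0 →
          ¬ (EsfTy N A (r P') ↔ EsfTy N A (r P))) ∧
      0 < Q₀.ord (Fermat.Agent.S18L.asmRed A N u) ∧
      (Q₀ ≠ esAut (IsLocalRing.ResidueField A) N e • r P →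
        (esAut (IsLocalRing.ResidueField A) N e • r P).ord
          (Fermat.Agent.S18L.asmRed A N u) = 0) ∧
      ((esAut (IsLocalRing.ResidueField A) N e)⁻¹ • r P).ord
        (Fermat.Agent.S18L.asmRed A N u) = 0 := by
    by_cases h01 : Q₀ = esAut (IsLocalRing.ResidueField A) N e • r P
    · obtain ⟨u, hp, h0, -, h2⟩ := esf_sep N hℓN A hA hcases r hr (EsfTy N A (r P)) Q₀
        ((esAut (IsLocalRing.ResidueField A) N e)⁻¹ • r P)
        ((esAut (IsLocalRing.ResidueField A) N e)⁻¹ • r P) hty0 hty2 hty2 hQ₀2 hQ₀2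
      exact ⟨u, hp, h0, fun h => absurd h01 h, h2⟩
    · obtain ⟨u, hp, h0, h1, h2⟩ := esf_sep N hℓN A hA hcases r hr (EsfTy N A (r P)) Q₀
        (esAut (IsLocalRing.ResidueField A) N e • r P)
        ((esAut (IsLocalRing.ResidueField A) N e)⁻¹ • r P) hty0 hty1 hty2 h01 hQ₀2
      exact ⟨u, hp, h0, fun _ => h1, h2⟩
  have hu0 : Fermat.Agent.S18L.asmRed A N u ≠ 0 := by
    intro h
    rw [h, Place.ord_zero] at h0
    exact lt_irrefl _ h0
  obtain ⟨v, b₁, b₂, hv, hb₁, hb₂, hpoly⟩ :=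
    esf_test_poly N ℓ hℓ hℓN A hA hcases r hr e he hα hβ P u hpole
  have hz : EsfVal Q₀ (Fermat.Agent.S18L.asmRed A N u) 0 := esf_val_zero_of_ord_pos Q₀ h0
  refine ⟨v, b₁, b₂, ?_, ?_, ?_, ?_, ?_, ?_, hpoly⟩
  · intro w hw hpl
    have h := hv w hw
    rw [hpl] at h
    exact esf_val_unique Q₀ h hz
  · intro w hw hpl
    have h := hv w hw
    rw [hpl] at h
    exact esf_val_unique _ h hb₁
  · intro w hw hpl
    have h := hv w hw
    rw [hpl] at h
    exact esf_val_unique _ h hb₂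
  · intro h
    rw [← h] at hb₁
    exact esf_val_unique Q₀ hb₁ hz
  · intro h
    exact esf_val_ne_zero _ hu0 (h1 h) hb₁
  · exact esf_val_ne_zero _ hu0 h2 hb₂

end Fermat.Agent.S37L
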