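import Mathlib
import Fermat.Prelude.Def_HeckeGalois_EichlerShimura

/-!
# S37, block G: the coinduced Hecke module

Given an additive "reduction" map `red : J → J₀` into an abelian group with an additive
endomorphism `F₀` such that `red` is invariant under inertia, intertwines Frobenius elements with
`F₀`, is injective on `p`-power torsion and satisfies the Eichler–Shimura relation
`F₀² red y - F₀ red (T_ℓ y) + ℓ red y = 0`, the coinduced module
`J' = {φ : HeckeAlg →+ J₀ | ∀ S, F₀² φ S - F₀ φ (S T_ℓ) + ℓ φ S = 0}` with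
`sp x = (S ↦ red (S • x))` and `F = F₀ ∘ -` is a specialization datum in the sense of the
Prelude.
-/

set_option autoImplicit false

noncomputable section

namespace Fermat.Agent.S37L

open ModularCurve

section Coind

variable {J₀ : Type} [AddCommGroup J₀] (F₀ : J₀ →+ J₀) (ℓ : ℕ) (hℓ : ℓ.Prime)

/-- the coinduced module, as an additive subgroup of `HeckeAlg →+ J₀` -/
def esSub : AddSubgroup (HeckeAlg →+ J₀) where
  carrier := {φ | ∀ S : HeckeAlg, F₀ (F₀ (φ S)) - F₀ (φ (S * heckeGen ⟨ℓ, hℓ⟩)) + ℓ • φ S = 0}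
  zero_mem' := by
    intro S
    simp
  add_mem' := by
    intro φ ψ hφ hψ S
    have h1 := hφ S
    have h2 := hψ S
    simp only [AddMonoidHom.add_apply, map_add, smul_add]
    calc F₀ (F₀ (φ S)) + F₀ (F₀ (ψ S))
          - (F₀ (φ (S * heckeGen ⟨ℓ, hℓ⟩)) + F₀ (ψ (S * heckeGen ⟨ℓ, hℓ⟩)))
          + (ℓ • φ S + ℓ • ψ S)
        = (F₀ (F₀ (φ S)) - F₀ (φ (S * heckeGen ⟨ℓ, hℓ⟩)) + ℓ • φ S)
          + (F₀ (F₀ (ψ S)) - F₀ (ψ (S * heckeGen ⟨ℓ, hℓ⟩)) + ℓ • ψ S) := by abel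
      _ = 0 := by rw [h1, h2, add_zero]
  neg_mem' := by
    intro φ hφ S
    have h1 := hφ S
    simp only [AddMonoidHom.neg_apply, map_neg, smul_neg]
    calc -F₀ (F₀ (φ S)) - -F₀ (φ (S * heckeGen ⟨ℓ, hℓ⟩)) + -(ℓ • φ S)
        = -(F₀ (F₀ (φ S)) - F₀ (φ (S * heckeGen ⟨ℓ, hℓ⟩)) + ℓ • φ S) := by abel
      _ = 0 := by rw [h1, neg_zero]

theorem mem_esSub (φ : HeckeAlg →+ J₀) : φ ∈ esSub F₀ ℓ hℓ ↔
    ∀ S : HeckeAlg, F₀ (F₀ (φ S)) - F₀ (φ (S * heckeGen ⟨ℓ, hℓ⟩)) + ℓ • φ S = 0 :=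
  Iff.rfl

/-- translation by `T` on `HeckeAlg →+ J₀` -/
def esShift (T : HeckeAlg) (φ : HeckeAlg →+ J₀) : HeckeAlg →+ J₀ :=
  φ.comp (AddMonoidHom.mulRight T)

@[simp] theorem esShift_apply (T : HeckeAlg) (φ : HeckeAlg →+ J₀) (S : HeckeAlg) :
    esShift T φ S = φ (S * T) := rfl

theorem esShift_mem (T : HeckeAlg) {φ : HeckeAlg →+ J₀} (hφ : φ ∈ esSub F₀ ℓ hℓ) :
    esShift T φ ∈ esSub F₀ ℓ hℓ := by
  intro S
  have h := hφ (S * T)
  simp only [esShift_apply]
  rw [show S * heckeGen ⟨ℓ, hℓ⟩ * T = S * T * heckeGen ⟨ℓ, hℓ⟩ by ring]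
  exact h

/-- the Hecke module structure on the coinduced module -/
@[reducible] def esModule : Module HeckeAlg (esSub F₀ ℓ hℓ) where
  smul T φ := ⟨esShift T φ.1, esShift_mem F₀ ℓ hℓ T φ.2⟩
  one_smul φ := by
    apply Subtype.ext
    apply AddMonoidHom.ext
    intro S
    show φ.1 (S * 1) = φ.1 S
    rw [mul_one]
  mul_smul T₁ T₂ φ := by
    apply Subtype.ext
    apply AddMonoidHom.ext
    intro S
    show φ.1 (S * (T₁ * T₂)) = φ.1 (S * T₁ * T₂)
    rw [mul_assoc]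
  smul_zero T := by
    apply Subtype.ext
    apply AddMonoidHom.ext
    intro S
    rfl
  smul_add T φ ψ := by
    apply Subtype.ext
    apply AddMonoidHom.ext
    intro S
    rfl
  add_smul T₁ T₂ φ := by
    apply Subtype.ext
    apply AddMonoidHom.ext
    intro S
    show φ.1 (S * (T₁ + T₂)) = φ.1 (S * T₁) + φ.1 (S * T₂)
    rw [mul_add, map_add]
  zero_smul φ := by
    apply Subtype.ext
    apply AddMonoidHom.ext
    intro S
    show φ.1 (S * 0) = 0
    rw [mul_zero, map_zero]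

theorem esModule_smul_apply (T : HeckeAlg) (φ : esSub F₀ ℓ hℓ) (S : HeckeAlg) :
    ((letI := esModule F₀ ℓ hℓ; T • φ : esSub F₀ ℓ hℓ) : HeckeAlg →+ J₀) S = φ.1 (S * T) := rfl

/-- composition with `F₀` -/
def esFrob : esSub F₀ ℓ hℓ →+ esSub F₀ ℓ hℓ where
  toFun φ := ⟨F₀.comp φ.1, by
    intro S
    have h := φ.2 S
    simp only [AddMonoidHom.comp_apply]
    rw [← map_sub, ← map_nsmul, ← map_add, h, map_zero]⟩
  map_zero' := by
    apply Subtype.ext
    apply AddMonoidHom.ext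
    intro S
    simp
  map_add' φ ψ := by
    apply Subtype.ext
    apply AddMonoidHom.ext
    intro S
    simp

theorem esFrob_apply (φ : esSub F₀ ℓ hℓ) (S : HeckeAlg) :
    (esFrob F₀ ℓ hℓ φ : HeckeAlg →+ J₀) S = F₀ (φ.1 S) := rfl

end Coind

section Main

variable {K L : Type*} [Field K] [Field L] [Algebra K L]

/-- **Block G.** -/
theorem es_coind (p : ℕ) (J : Type*) [AddCommGroup J] [Module HeckeAlg J]
    [DistribMulAction (L ≃ₐ[K] L) J] [SMulCommClass (L ≃ₐ[K] L) HeckeAlg J]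
    (A : ValuationSubring L) (ℓ : ℕ) (hℓ : ℓ.Prime)
    (J₀ : Type) [AddCommGroup J₀] (red : J →+ J₀) (F₀ : J₀ →+ J₀)
    (hinj : ∀ x : J, (∃ n : ℕ, p ^ n • x = 0) → red x = 0 → x = 0)
    (hI : ∀ σ ∈ A.inertiaSubgroupIn K, ∀ x : J, red (σ • x) = red x)
    (hF : ∀ σ : L ≃ₐ[K] L, A.IsFrobeniusAt σ ℓ → ∀ x : J, red (σ • x) = F₀ (red x))
    (hES : ∀ y : J, F₀ (F₀ (red y)) - F₀ (red (heckeGen ⟨ℓ, hℓ⟩ • y)) + ℓ • red y = 0) :
    ∃ (J' : Type) (_ : AddCommGroup J') (_ : Module HeckeAlg J') (sp : J →+ J')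
      (F : J' →+ J'),
      IsSpecialization (K := K) p J J' A ℓ sp F ∧ SpecialFibreRelation J' ℓ hℓ F := by
  let _inst : Module HeckeAlg (esSub F₀ ℓ hℓ) := esModule F₀ ℓ hℓ
  -- the specialization map
  let sp : J →+ esSub F₀ ℓ hℓ :=
    { toFun := fun x =>
        ⟨{ toFun := fun S => red (S • x)
           map_zero' := by rw [zero_smul, map_zero]
           map_add' := fun S S' => by rw [add_smul, map_add] }, by
          intro S
          show F₀ (F₀ (red (S • x))) - F₀ (red ((S * heckeGen ⟨ℓ, hℓ⟩) • x)) + ℓ • red (S • x) = 0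
          rw [mul_comm, mul_smul]
          exact hES (S • x)⟩
      map_zero' := by
        apply Subtype.ext
        apply AddMonoidHom.ext
        intro S
        show red (S • (0 : J)) = 0
        rw [smul_zero, map_zero]
      map_add' := fun x y => by
        apply Subtype.ext
        apply AddMonoidHom.ext
        intro S
        show red (S • (x + y)) = red (S • x) + red (S • y)
        rw [smul_add, map_add] }
  have hsp : ∀ (x : J) (S : HeckeAlg), ((sp x : esSub F₀ ℓ hℓ) : HeckeAlg →+ J₀) S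
      = red (S • x) := fun _ _ => rfl
  refine ⟨esSub F₀ ℓ hℓ, inferInstance, esModule F₀ ℓ hℓ, sp, esFrob F₀ ℓ hℓ, ⟨?_, ?_, ?_, ?_⟩, ?_⟩
  · intro T x
    apply Subtype.ext
    apply AddMonoidHom.ext
    intro S
    rw [hsp, esModule_smul_apply, hsp, mul_smul]
  · intro σ hσ x
    apply Subtype.ext
    apply AddMonoidHom.ext
    intro S
    rw [hsp, hsp, ← smul_comm σ S x, hI σ hσ]
  · intro σ hσ x
    apply Subtype.ext
    apply AddMonoidHom.ext
    intro S
    rw [hsp, esFrob_apply, hsp, ← smul_comm σ S x, hF σ hσ]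
  · intro x hx hx0
    have h1 : ((sp x : esSub F₀ ℓ hℓ) : HeckeAlg →+ J₀) 1 = 0 := by
      rw [hx0]
      rfl
    rw [hsp, one_smul] at h1
    exact hinj x hx h1
  · intro y
    apply Subtype.ext
    apply AddMonoidHom.ext
    intro S
    have h := y.2 S
    show F₀ (F₀ (y.1 S)) - F₀ (y.1 (S * heckeGen ⟨ℓ, hℓ⟩)) + (ℓ • y.1) S = 0
    rw [AddMonoidHom.nsmul_apply]
    exact h

end Main

end Fermat.Agent.S37L

end
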