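import Mathlib
import Fermat.Prelude.Def_ModularCurve_HeckeModule
import Fermat.Prelude.Def_ModularCurve_ReductionModL
import Fermat.Agent.S37L.EsCoind
import Fermat.Agent.S37L.EsFrob
import Fermat.Agent.S18
import Fermat.Agent.S18L.AsmRes
import Fermat.Agent.S18L.S28XBridge

/-!
# S37: assembly from the inputs at one prime (blocks G1, G2, G3)

`EsInputs N ℓ hℓ A` bundles what the other blocks must deliver for a prime `ℓ ∤ N` and a
valuation subring `A` of `ℚ̄` over `ℓ` (`k` the residue field of `A`, `red = reductionModL A N`,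
`F₀ = esF0 k N e` the action on `JZeroC k N` of the coefficientwise Frobenius `e` of `k`):

* (G1) `inputs`  : the reduction inputs `ReductionInputsModL A N`;
* (G2) `inertia` : `red (σ • x) = red x` for `σ` in the inertia group of `A`;
* (G2) `frob`    : `red (σ • x) = F₀ (red x)` for every Frobenius element `σ` of `A`;
* (G3) `es`      : the Eichler–Shimura relation `F₀² red y - F₀ red (T_ℓ y) + ℓ red y = 0`.
-/

set_option autoImplicit false
set_option synthInstance.maxHeartbeats 400000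

open ModularCurve AlgebraicCurve

namespace Fermat.Agent.S37L

/-- the inputs of the Eichler–Shimura specialization at one prime -/
structure EsInputs (N : ℕ) [NeZero N] (ℓ : ℕ) (hℓ : ℓ.Prime)
    (A : ValuationSubring (AlgebraicClosure ℚ)) : Prop where
  inputs : ReductionInputsModL A N
  inertia : ∀ σ ∈ A.inertiaSubgroupIn ℚ, ∀ x : JZero N,
    reductionModL A N (σ • x) = reductionModL A N x
  frob : ∀ e : IsLocalRing.ResidueField A ≃+* IsLocalRing.ResidueField A,
    (∀ a : IsLocalRing.ResidueField A, e a = a ^ ℓ) →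
    ∀ σ : AlgebraicClosure ℚ ≃ₐ[ℚ] AlgebraicClosure ℚ, A.IsFrobeniusAt σ ℓ → ∀ x : JZero N,
      reductionModL A N (σ • x)
        = esF0 (IsLocalRing.ResidueField A) N e (reductionModL A N x)
  es : ∀ e : IsLocalRing.ResidueField A ≃+* IsLocalRing.ResidueField A,
    (∀ a : IsLocalRing.ResidueField A, e a = a ^ ℓ) →
    ∀ y : JZero N,
      esF0 (IsLocalRing.ResidueField A) N e
          (esF0 (IsLocalRing.ResidueField A) N e (reductionModL A N y))
        - esF0 (IsLocalRing.ResidueField A) N e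
          (reductionModL A N (heckeOperatorBar N ⟨ℓ, hℓ⟩ y))
        + ℓ • reductionModL A N y = 0

/-- the Frobenius automorphism of the residue field of a valuation subring of `ℚ̄` over `ℓ` -/
theorem exists_frobeniusEquiv_residueField (A : ValuationSubring (AlgebraicClosure ℚ))
    {ℓ : ℕ} [Fact ℓ.Prime] (hA : A.LiesOverPrime ℓ) :
    ∃ e : IsLocalRing.ResidueField A ≃+* IsLocalRing.ResidueField A,
      ∀ a : IsLocalRing.ResidueField A, e a = a ^ ℓ := by
  haveI : IsAlgClosed (IsLocalRing.ResidueField A) :=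
    Fermat.Agent.S18L.isAlgClosed_residueField A
  haveI : CharP (IsLocalRing.ResidueField A) ℓ := Fermat.Agent.S18L.s28x_charP ℓ A hA
  haveI : ExpChar (IsLocalRing.ResidueField A) ℓ := ExpChar.prime Fact.out
  haveI : PerfectRing (IsLocalRing.ResidueField A) ℓ := PerfectField.toPerfectRing ℓ
  exact ⟨frobeniusEquiv (IsLocalRing.ResidueField A) ℓ, fun a => frobeniusEquiv_apply _ _ a⟩

set_option maxHeartbeats 800000 in
theorem s37_of_inputs (N p : ℕ) [NeZero N] (hcomm : HeckeOperatorsCommuteBar N)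
    (hin : ∀ (ℓ : ℕ) (hℓ : ℓ.Prime), ¬ ℓ ∣ N →
      ∀ A : ValuationSubring (AlgebraicClosure ℚ), A.LiesOverPrime ℓ → EsInputs N ℓ hℓ A) :
    letI := heckeModuleBar N
    ∀ (_ : SMulCommClass (AlgebraicClosure ℚ ≃ₐ[ℚ] AlgebraicClosure ℚ) HeckeAlg (JZero N)),
      SpecializationExists (K := ℚ) (L := AlgebraicClosure ℚ) N p (JZero N) := by
  letI := heckeModuleBar N
  intro _ ℓ hℓ hℓNp A hA
  have hℓN : ¬ ℓ ∣ N := fun h => hℓNp (dvd_mul_of_dvd_left h p)
  have hℓp : ¬ ℓ ∣ p := fun h => hℓNp (dvd_mul_of_dvd_right h N)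
  haveI : Fact ℓ.Prime := ⟨hℓ⟩
  obtain ⟨h, hI, hF, hES⟩ := hin ℓ hℓ hℓN A hA
  obtain ⟨e, he⟩ := exists_frobeniusEquiv_residueField A hA
  refine es_coind (K := ℚ) p (JZero N) A ℓ hℓ (JZeroC (IsLocalRing.ResidueField A) N)
    (reductionModL A N) (esF0 (IsLocalRing.ResidueField A) N e) ?_ hI (hF e he) ?_
  · rintro x ⟨n, hn⟩ hx0
    exact Fermat.Agent.S18.result N hℓN A hA h (p ^ n)
      (fun hd => hℓp (hℓ.dvd_of_dvd_pow hd)) x hn hx0
  · intro y
    rw [heckeModuleBar_heckeGen_smul hcomm ⟨ℓ, hℓ⟩ y]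
    exact hES e he y

end Fermat.Agent.S37L
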