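import Mathlib
import Fermat.Agent.S37L.EsMain

/-!
# S37, block F (top): the Eichler–Shimura relation on `Pic⁰` from the place-level identity

Input: the place-level identity `r_*(T_ℓ P) = Fr (r P) + ℓ · Fr⁻¹ (r P)` for the place reduction
`r` (block F-core), the Hecke inputs (block D) and the reduction inputs (block A).
Output: the field `es` of `EsInputs`:
`F₀ (F₀ (red y)) - F₀ (red (T_ℓ y)) + ℓ • red y = 0` for all `y : JZero N`.
-/

set_option autoImplicit false
set_option synthInstance.maxHeartbeats 400000

open ModularCurve AlgebraicCurve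

namespace Fermat.Agent.S37L

section

variable {K F k Fb : Type*} [Field K] [Field F] [Algebra K F] [Field k] [Field Fb] [Algebra k Fb]

/-- abstract divisor-level identity on a set `S` of places: if
`r_*(T P) = σ (r P) + ℓ · σ⁻¹ (r P)` for all places `P ∈ S`, then
`σ σ r_* D - σ r_* (T D) + ℓ • r_* D = 0` for all divisors `D` supported in `S`. -/
theorem esft_divisor_abstract_on (r : Place K F → Place k Fb) (σ : SemilinearAut k Fb)
    (T : Divisor K F →+ Divisor K F) (ℓ : ℕ) (S : Set (Place K F))
    (hplace : ∀ P ∈ S, Finsupp.mapDomain r (T (Finsupp.single P 1))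
      = Finsupp.single (σ • r P) 1 + Finsupp.single (σ⁻¹ • r P) (ℓ : ℤ))
    (D : Divisor K F) (hD : ∀ P, D P ≠ 0 → P ∈ S) :
    σ • σ • Finsupp.mapDomain r D - σ • Finsupp.mapDomain r (T D)
      + ℓ • Finsupp.mapDomain r D = 0 := by
  classical
  induction D using Finsupp.induction with
  | zero => simp
  | single_add P n D hPD hn ih =>
    have hPS : P ∈ S := by
      apply hD P
      rw [Finsupp.add_apply, Finsupp.single_eq_same, Finsupp.notMem_support_iff.mp hPD, add_zero]
      exact hn
    have hDS : ∀ Q, D Q ≠ 0 → Q ∈ S := by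
      intro Q hQ
      apply hD Q
      have hQP : Q ≠ P := by
        rintro rfl
        exact hQ (Finsupp.notMem_support_iff.mp hPD)
      rw [Finsupp.add_apply, Finsupp.single_eq_of_ne hQP, zero_add]
      exact hQ
    have hsingle : σ • σ • Finsupp.mapDomain r (Finsupp.single P n)
        - σ • Finsupp.mapDomain r (T (Finsupp.single P n))
        + ℓ • Finsupp.mapDomain r (Finsupp.single P n) = 0 := by
      have hn : (Finsupp.single P n : Divisor K F) = n • Finsupp.single P (1 : ℤ) := by
        rw [Finsupp.smul_single, smul_eq_mul, mul_one]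
      have hT : Finsupp.mapDomain r (T (Finsupp.single P n))
          = n • (Finsupp.single (σ • r P) (1 : ℤ) + Finsupp.single (σ⁻¹ • r P) (ℓ : ℤ)) := by
        rw [hn, map_zsmul, Finsupp.mapDomain_smul, hplace P hPS]
      rw [hT, Finsupp.mapDomain_single, SemilinearAut.smul_single, SemilinearAut.smul_single,
        smul_add, Finsupp.smul_single, Finsupp.smul_single, smul_add,
        SemilinearAut.smul_single, SemilinearAut.smul_single, smul_inv_smul,
        Finsupp.smul_single]
      simp only [smul_eq_mul, mul_one, nsmul_eq_mul]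
      rw [mul_comm n (ℓ : ℤ)]
      abel
    rw [Finsupp.mapDomain_add, map_add, Finsupp.mapDomain_add, smul_add, smul_add, smul_add,
      smul_add]
    calc _ = (σ • σ • Finsupp.mapDomain r (Finsupp.single P n)
        - σ • Finsupp.mapDomain r (T (Finsupp.single P n))
        + ℓ • Finsupp.mapDomain r (Finsupp.single P n))
        + (σ • σ • Finsupp.mapDomain r D - σ • Finsupp.mapDomain r (T D)
          + ℓ • Finsupp.mapDomain r D) := by abel
      _ = 0 := by rw [hsingle, ih hDS, add_zero]

/-- abstract divisor-level identity: if `r_*(T P) = σ (r P) + ℓ · σ⁻¹ (r P)` for all places `P`,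
then `σ σ r_* D - σ r_* (T D) + ℓ • r_* D = 0` for all divisors `D`. -/
theorem esft_divisor_abstract (r : Place K F → Place k Fb) (σ : SemilinearAut k Fb)
    (T : Divisor K F →+ Divisor K F) (ℓ : ℕ)
    (hplace : ∀ P : Place K F, Finsupp.mapDomain r (T (Finsupp.single P 1))
      = Finsupp.single (σ • r P) 1 + Finsupp.single (σ⁻¹ • r P) (ℓ : ℤ))
    (D : Divisor K F) :
    σ • σ • Finsupp.mapDomain r D - σ • Finsupp.mapDomain r (T D)
      + ℓ • Finsupp.mapDomain r D = 0 :=
  esft_divisor_abstract_on r σ T ℓ Set.univ (fun P _ => hplace P) D (fun _ _ => Set.mem_univ _)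

end

set_option maxHeartbeats 800000 in
/-- **F-top, moving form**: the Eichler–Shimura relation on `Pic⁰` (field `es` of `EsInputs`)
from the place-level identity on a set `S` of places and a moving lemma (every class has a
representative supported in `S`). -/
theorem esft_es_on (N : ℕ) [NeZero N] (ℓ : ℕ) [NeZero ℓ] (hℓ : ℓ.Prime)
    (A : ValuationSubring (AlgebraicClosure ℚ))
    (h : ReductionInputsModL A N)
    (hH : HeckeInputsAlong (AlgebraicClosure ℚ) N ℓ)
    (e : IsLocalRing.ResidueField A ≃+* IsLocalRing.ResidueField A)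
    (S : Set (Place (AlgebraicClosure ℚ) (modularFunctionFieldBar N)))
    (hmove : ∀ D : Divisor.degZero (K := AlgebraicClosure ℚ) (F := modularFunctionFieldBar N),
      ∃ D' : Divisor.degZero (K := AlgebraicClosure ℚ) (F := modularFunctionFieldBar N),
        Pic0.mk D' = Pic0.mk D ∧
          ∀ P, (D' : Divisor (AlgebraicClosure ℚ) (modularFunctionFieldBar N)) P ≠ 0 → P ∈ S)
    (hplace : ∀ (hα : HeckeAlphaBarIntegral (AlgebraicClosure ℚ) N ℓ)
        (hβ : HeckeBetaBarIntegral (AlgebraicClosure ℚ) N ℓ)
        [HasPrincipalDivisors (AlgebraicClosure ℚ) (modularFunctionFieldBar (N * ℓ))]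
        (P : Place (AlgebraicClosure ℚ) (modularFunctionFieldBar N)), P ∈ S →
        Finsupp.mapDomain (placeReductionModL h)
            (Divisor.correspondence (heckeBetaBar (AlgebraicClosure ℚ) N ℓ)
              (heckeAlphaBar (AlgebraicClosure ℚ) N ℓ) hβ hα (Finsupp.single P 1))
          = Finsupp.single (esAut (IsLocalRing.ResidueField A) N e • placeReductionModL h P) 1
            + Finsupp.single
                ((esAut (IsLocalRing.ResidueField A) N e)⁻¹ • placeReductionModL h P) (ℓ : ℤ))
    (y : JZero N) :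
    esF0 (IsLocalRing.ResidueField A) N e
        (esF0 (IsLocalRing.ResidueField A) N e (reductionModL A N y))
      - esF0 (IsLocalRing.ResidueField A) N e
        (reductionModL A N (heckeOperatorBar N ⟨ℓ, hℓ⟩ y))
      + ℓ • reductionModL A N y = 0 := by
  obtain ⟨hα, hβ, hP, hfin, hFI, hN⟩ := hH
  have hP' : HasPrincipalDivisors (AlgebraicClosure ℚ) (modularFunctionFieldBar (N * ℓ)) := hP
  obtain ⟨D₀, hy⟩ := Pic0.mk_surjective y
  obtain ⟨D, hDD₀, hDS⟩ := hmove D₀
  have hy' : y = Pic0.mk D := by rw [hDD₀, hy]
  subst hy'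
  have hT : heckeOperatorBar N ⟨ℓ, hℓ⟩ (Pic0.mk D)
      = Pic0.mk (Pic0.degZeroCorrespondence (heckeBetaBar (AlgebraicClosure ℚ) N ℓ)
          (heckeAlphaBar (AlgebraicClosure ℚ) N ℓ) hβ hα hFI D) := by
    rw [heckeOperatorBar_apply]
    show heckeOperatorAlong (AlgebraicClosure ℚ) N ℓ (Pic0.mk D) = _
    rw [heckeOperatorAlong_eq hα hβ hFI hfin hN]
    rfl
  rw [hT, reductionModL_mk h, reductionModL_mk h, esF0_mk, esF0_mk, esF0_mk]
  have hdiv := esft_divisor_abstract_on (placeReductionModL h)
    (esAut (IsLocalRing.ResidueField A) N e)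
    (Divisor.correspondence (heckeBetaBar (AlgebraicClosure ℚ) N ℓ)
      (heckeAlphaBar (AlgebraicClosure ℚ) N ℓ) hβ hα) ℓ S (hplace hα hβ)
    (D : Divisor (AlgebraicClosure ℚ) (modularFunctionFieldBar N)) hDS
  have key : SemilinearAut.degZeroSMulHom (esAut (IsLocalRing.ResidueField A) N e)
        (SemilinearAut.degZeroSMulHom (esAut (IsLocalRing.ResidueField A) N e)
          (reductionDegZeroAlong (placeReductionModL h)
            (isPlaceReductionModL_placeReductionModL h).1 D))
      - SemilinearAut.degZeroSMulHom (esAut (IsLocalRing.ResidueField A) N e)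
          (reductionDegZeroAlong (placeReductionModL h)
            (isPlaceReductionModL_placeReductionModL h).1
            (Pic0.degZeroCorrespondence (heckeBetaBar (AlgebraicClosure ℚ) N ℓ)
              (heckeAlphaBar (AlgebraicClosure ℚ) N ℓ) hβ hα hFI D))
      + ℓ • reductionDegZeroAlong (placeReductionModL h)
            (isPlaceReductionModL_placeReductionModL h).1 D = 0 := by
    apply Subtype.ext
    simp only [AddSubgroupClass.coe_sub, AddSubgroup.coe_add, AddSubgroupClass.coe_nsmul,
      SemilinearAut.coe_degZeroSMulHom, coe_reductionDegZeroAlong,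
      Pic0.coe_degZeroCorrespondence, ZeroMemClass.coe_zero]
    exact hdiv
  have := congrArg (Pic0.mk (K := IsLocalRing.ResidueField A)
    (F := modularFunctionFieldFullC (IsLocalRing.ResidueField A) N)) key
  exact this

/-- **F-top**: the Eichler–Shimura relation on `Pic⁰` (field `es` of `EsInputs`) from the
place-level identity at all places. -/
theorem esft_es (N : ℕ) [NeZero N] (ℓ : ℕ) [NeZero ℓ] (hℓ : ℓ.Prime)
    (A : ValuationSubring (AlgebraicClosure ℚ))
    (h : ReductionInputsModL A N)
    (hH : HeckeInputsAlong (AlgebraicClosure ℚ) N ℓ)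
    (e : IsLocalRing.ResidueField A ≃+* IsLocalRing.ResidueField A)
    (hplace : ∀ (hα : HeckeAlphaBarIntegral (AlgebraicClosure ℚ) N ℓ)
        (hβ : HeckeBetaBarIntegral (AlgebraicClosure ℚ) N ℓ)
        [HasPrincipalDivisors (AlgebraicClosure ℚ) (modularFunctionFieldBar (N * ℓ))]
        (P : Place (AlgebraicClosure ℚ) (modularFunctionFieldBar N)),
        Finsupp.mapDomain (placeReductionModL h)
            (Divisor.correspondence (heckeBetaBar (AlgebraicClosure ℚ) N ℓ)
              (heckeAlphaBar (AlgebraicClosure ℚ) N ℓ) hβ hα (Finsupp.single P 1))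
          = Finsupp.single (esAut (IsLocalRing.ResidueField A) N e • placeReductionModL h P) 1
            + Finsupp.single
                ((esAut (IsLocalRing.ResidueField A) N e)⁻¹ • placeReductionModL h P) (ℓ : ℤ))
    (y : JZero N) :
    esF0 (IsLocalRing.ResidueField A) N e
        (esF0 (IsLocalRing.ResidueField A) N e (reductionModL A N y))
      - esF0 (IsLocalRing.ResidueField A) N e
        (reductionModL A N (heckeOperatorBar N ⟨ℓ, hℓ⟩ y))
      + ℓ • reductionModL A N y = 0 :=
  esft_es_on N ℓ hℓ A h hH e Set.univ (fun D => ⟨D, rfl, fun _ _ => Set.mem_univ _⟩)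
    (fun hα hβ _ P _ => hplace hα hβ P) y

end Fermat.Agent.S37L
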