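import Mathlib
import Fermat.Prelude.Def_ModularCurve_ReductionModL
import Fermat.Agent.S18L.AsmGauss
import Fermat.Agent.S18L.AsmBar

/-!
# S37, block G1 (second half): every principal divisor of `F_N / ℚ̄` is a difference of divisors
of good integral series (`PrincipalGeneratedByIntegral`), at every level prime to `ℓ`
-/

set_option autoImplicit false
set_option synthInstance.maxHeartbeats 400000

open ModularCurve AlgebraicCurve HahnSeries

namespace Fermat.Agent.S37L

open Fermat.Agent.S18L

variable (A : ValuationSubring (AlgebraicClosure ℚ)) (N : ℕ) [NeZero N]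

/-- the divisor of a nonzero function of `F_N` as a finitely supported function -/
theorem exists_divisor_bar (f : ↥(modularFunctionFieldBar N)) (hf : f ≠ 0) :
    ∃ D : Divisor (AlgebraicClosure ℚ) ↥(modularFunctionFieldBar N), ∀ P, D P = P.ord f := by
  classical
  refine ⟨Finsupp.ofSupportFinite (fun P => P.ord f) (finite_support_bar N f hf), fun P => rfl⟩

set_option maxHeartbeats 800000 in
theorem principalGeneratedByIntegral {ℓ : ℕ} [Fact ℓ.Prime] (hA : A.LiesOverPrime ℓ)
    (hℓN : ¬ ℓ ∣ N) : PrincipalGeneratedByIntegral A (IsLocalRing.residue A) N := by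
  classical
  intro D hD
  obtain ⟨f, hf, hDf⟩ := Divisor.mem_principal.mp hD
  obtain ⟨c, hc, hmem, hred⟩ := exists_smul_asm A N hA hℓN f hf
  obtain ⟨a, b, ha, hb, hb0, hab, hredab⟩ := exists_good_of_mem_asmO A N ⟨c • f, hmem⟩
  -- nonvanishing
  have hρa : asmRho A a ≠ 0 := by
    intro h0
    rw [h0] at hredab
    have hred' : ((asmRed A N ⟨c • f, hmem⟩ :
        ↥(modularFunctionFieldFullC (IsLocalRing.ResidueField A) N)) :
        LaurentSeries (IsLocalRing.ResidueField A)) ≠ 0 := fun h => hred (Subtype.ext h)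
    exact (mul_ne_zero hred' hb0) hredab
  have hιa : (⟨asmIota A a, ha.1⟩ : ↥(modularFunctionFieldBar N)) ≠ 0 := by
    intro h0
    have h1 : asmIota A a = 0 := congrArg Subtype.val h0
    have h2 : a = 0 := asmIota_injective A (by rw [h1, map_zero])
    exact hρa (by rw [h2, map_zero])
  have hιb : (⟨asmIota A b, hb.1⟩ : ↥(modularFunctionFieldBar N)) ≠ 0 := by
    intro h0
    have h1 : asmIota A b = 0 := congrArg Subtype.val h0
    have h2 : b = 0 := asmIota_injective A (by rw [h1, map_zero])
    exact hb0 (by rw [h2, map_zero])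
  obtain ⟨Da, hDa⟩ := exists_divisor_bar N ⟨asmIota A a, ha.1⟩ hιa
  obtain ⟨Db, hDb⟩ := exists_divisor_bar N ⟨asmIota A b, hb.1⟩ hιb
  have hDa' : Da ∈ integralPrincipalDivisors A (IsLocalRing.residue A) N :=
    ⟨a, ha.1, ha.2, hρa, hDa⟩
  have hDb' : Db ∈ integralPrincipalDivisors A (IsLocalRing.residue A) N :=
    ⟨b, hb.1, hb.2, hb0, hDb⟩
  have hD : D = Da - Db := by
    ext P
    rw [Finsupp.sub_apply, hDf P, hDa P, hDb P]
    have hcf : c • f ≠ 0 := smul_ne_zero hc hf
    have e1 : (c • f) * (⟨asmIota A b, hb.1⟩ : ↥(modularFunctionFieldBar N))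
        = ⟨asmIota A a, ha.1⟩ := Subtype.ext hab
    have e2 := P.ord_mul hcf hιb
    rw [e1] at e2
    have e3 : P.ord (c • f) = P.ord f := by
      rw [Algebra.smul_def, P.ord_mul (by simpa using hc) hf,
        Fermat.Agent.X0S24.PlaceRes.ord_algebraMap P hc, zero_add]
    rw [e2, e3]
    ring
  rw [hD]
  exact AddSubgroup.sub_mem _ (AddSubgroup.subset_closure hDa') (AddSubgroup.subset_closure hDb')

end Fermat.Agent.S37L
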