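import Mathlib
import Fermat.Agent.S18L.NmDefs

/-!
# S37, block A (place reduction with conservation): definitions (interface file, owner helper2)

Setting of the NM package of S18: `G : RedDatum K F k Fb`, a chart `t : G.O`, `NmHyp G t n`.

* `NrVal P y c`  : the function `y` takes the value `c` at the place `P`
* `NrEv G t r`   : the place map `r` reduces values of functions integral over `K[t]` at all
  places lying over points of the closed unit disc of the `t`-line
-/

set_option autoImplicit false

open scoped IntermediateField

namespace Fermat.Agent.S37L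

open Fermat.Agent.S18L AlgebraicCurve

/-- the function `y` takes the value `c` at the place `P` -/
def NrVal {κ Φ : Type*} [Field κ] [Field Φ] [Algebra κ Φ] (P : Place κ Φ) (y : Φ) (c : κ) : Prop :=
  y = algebraMap κ Φ c ∨ 0 < P.ord (y - algebraMap κ Φ c)

variable {K F k Fb : Type*} [Field K] [Field F] [Algebra K F] [Field k] [Field Fb] [Algebra k Fb]

/-- **EV** for the chart `t`: at every place `P` over a point `ρ ∈ A` of the `t`-line, every
`y ∈ O` integral over `K[t]` has its value `c` in `A`, and `red y` takes the value `π c` at
`r P`. -/
def NrEv (G : RedDatum K F k Fb) (t : G.O) (r : Place K F → Place k Fb) : Prop :=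
  ∀ (P : Place K F) (ρ : G.A), 0 < P.ord ((t : F) - algebraMap K F (ρ : K)) →
    ∀ (y : G.O), NmFin K (t : F) (y : F) → ∀ c : K, NrVal P (y : F) c →
      ∃ hc : c ∈ G.A, NrVal (r P) (G.red y) (G.π ⟨c, hc⟩)

end Fermat.Agent.S37L
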