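import Mathlib
import Fermat.Agent.S18L.NmMain
import Fermat.Agent.S37L.NrDefs

/-!
# S37, block A: basic lemmas on values of functions at places (owner helper2's pool)

Interface statements (frozen by helper2).  `NrVal P y c` : `y` takes the value `c` at `P`,
i.e. `y = c ∨ 0 < ord_P (y - c)`.
-/

set_option autoImplicit false

open scoped IntermediateField

namespace Fermat.Agent.S37L

open Fermat.Agent.S18L AlgebraicCurve

variable {κ Φ : Type*} [Field κ] [Field Φ] [Algebra κ Φ]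

/-- `x` is "small" at `P`: it vanishes at `P` -/
def nrb80_small (P : Place κ Φ) (x : Φ) : Prop := x = 0 ∨ 0 < P.ord x

theorem nrb80_nrval_iff (P : Place κ Φ) (y : Φ) (c : κ) :
    NrVal P y c ↔ nrb80_small P (y - algebraMap κ Φ c) := by
  unfold NrVal nrb80_small
  rw [sub_eq_zero]

theorem nrb80_ord_neg (P : Place κ Φ) (x : Φ) : P.ord (-x) = P.ord x := by
  rcases eq_or_ne x 0 with rfl | hx
  · rw [neg_zero]
  · have h1 : (-x) = algebraMap κ Φ (-1) * x := by
      rw [map_neg, map_one, neg_one_mul]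
    have hm1 : algebraMap κ Φ (-1) ≠ 0 := by
      rw [map_neg, map_one]; exact neg_ne_zero.mpr one_ne_zero
    rw [h1, P.ord_mul hm1 hx, X0S24.PlaceRes.ord_algebraMap P (neg_ne_zero.mpr one_ne_zero),
      zero_add]

theorem nrb80_algebraMap_ne_zero {c : κ} (hc : c ≠ 0) : algebraMap κ Φ c ≠ 0 := by
  intro h
  exact hc ((algebraMap κ Φ).injective (h.trans (map_zero _).symm))

theorem nrb80_small_add (P : Place κ Φ) {x y : Φ} (hx : nrb80_small P x) (hy : nrb80_small P y) :
    nrb80_small P (x + y) := by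
  rcases hx with rfl | hx
  · rwa [zero_add]
  rcases hy with rfl | hy
  · rw [add_zero]; exact Or.inr hx
  by_cases hxy : x + y = 0
  · exact Or.inl hxy
  · have hx0 : x ≠ 0 := by rintro rfl; rw [P.ord_zero] at hx; exact lt_irrefl _ hx
    have hy0 : y ≠ 0 := by rintro rfl; rw [P.ord_zero] at hy; exact lt_irrefl _ hy
    exact Or.inr (lt_of_lt_of_le (lt_min hx hy) (X0S24.PlaceRes.ord_add P hx0 hy0 hxy))

theorem nrb80_small_neg (P : Place κ Φ) {x : Φ} (hx : nrb80_small P x) : nrb80_small P (-x) := by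
  rcases hx with rfl | hx
  · exact Or.inl neg_zero
  · exact Or.inr (by rwa [nrb80_ord_neg])

theorem nrb80_small_mul (P : Place κ Φ) {x y : Φ} (hx : nrb80_small P x) (hy : 0 ≤ P.ord y) :
    nrb80_small P (x * y) := by
  rcases hx with rfl | hx
  · exact Or.inl (zero_mul _)
  rcases eq_or_ne y 0 with rfl | hy0
  · exact Or.inl (mul_zero _)
  have hx0 : x ≠ 0 := by rintro rfl; rw [P.ord_zero] at hx; exact lt_irrefl _ hx
  refine Or.inr ?_
  rw [P.ord_mul hx0 hy0]
  omega

theorem nrb80_ord_algebraMap_nonneg (P : Place κ Φ) (c : κ) : 0 ≤ P.ord (algebraMap κ Φ c) := by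
  rcases eq_or_ne c 0 with rfl | hc
  · rw [map_zero, P.ord_zero]
  · rw [X0S24.PlaceRes.ord_algebraMap P hc]

/-- adding a small element to a unit does not change the order -/
theorem nrb80_ord_add_small (P : Place κ Φ) {x y : Φ} (hx : x ≠ 0) (hx0 : P.ord x = 0)
    (hy : nrb80_small P y) : x + y ≠ 0 ∧ P.ord (x + y) = 0 := by
  rcases hy with rfl | hy
  · rw [add_zero]; exact ⟨hx, hx0⟩
  have hy0 : y ≠ 0 := by rintro rfl; rw [P.ord_zero] at hy; exact lt_irrefl _ hy
  have hxy : x + y ≠ 0 := by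
    intro h
    have h1 : x = -y := eq_neg_of_add_eq_zero_left h
    rw [h1, nrb80_ord_neg] at hx0
    omega
  refine ⟨hxy, ?_⟩
  have h1 := X0S24.PlaceRes.ord_add P hx hy0 hxy
  have h2 : min (P.ord (x + y)) (P.ord (-y)) ≤ P.ord (x + y + -y) :=
    X0S24.PlaceRes.ord_add P hxy (neg_ne_zero.mpr hy0) (by rwa [add_neg_cancel_right])
  rw [add_neg_cancel_right, nrb80_ord_neg] at h2
  rw [hx0] at h1 h2
  rcases le_total (P.ord (x + y)) (P.ord y) with h | h
  · rw [min_eq_left h] at h2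
    rw [min_eq_left hy.le] at h1
    omega
  · rw [min_eq_right h] at h2
    omega

theorem nrval_const (P : Place κ Φ) (c : κ) : NrVal P (algebraMap κ Φ c) c :=
  Or.inl rfl

theorem nrval_of_pos (P : Place κ Φ) {y : Φ} {c : κ}
    (h : 0 < P.ord (y - algebraMap κ Φ c)) : NrVal P y c :=
  Or.inr h

/-- a function with a nonzero value at `P` is a unit at `P` -/
theorem nrval_ord_eq_zero (P : Place κ Φ) {y : Φ} {c : κ} (h : NrVal P y c) (hc : c ≠ 0) :
    y ≠ 0 ∧ P.ord y = 0 := by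
  rw [nrb80_nrval_iff] at h
  have := nrb80_ord_add_small P (nrb80_algebraMap_ne_zero (Φ := Φ) hc)
    (X0S24.PlaceRes.ord_algebraMap P hc) h
  rwa [add_sub_cancel] at this

/-- a function with a value at `P` is regular at `P` -/
theorem nrval_ord_nonneg (P : Place κ Φ) {y : Φ} {c : κ} (h : NrVal P y c) : 0 ≤ P.ord y := by
  rcases eq_or_ne c 0 with rfl | hc
  · rcases h with rfl | h
    · rw [map_zero, P.ord_zero]
    · rw [map_zero, sub_zero] at h
      exact h.le
  · exact (nrval_ord_eq_zero P h hc).2.ge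

theorem nrval_mem (P : Place κ Φ) {y : Φ} {c : κ} (h : NrVal P y c) :
    y ∈ P.toValuationSubring := by
  rcases eq_or_ne y 0 with rfl | hy
  · exact zero_mem _
  · exact (X0S24.PlaceRes.mem_iff_ord_nonneg P hy).mpr (nrval_ord_nonneg P h)

theorem nrval_zero_iff (P : Place κ Φ) {y : Φ} (hy : y ≠ 0) : NrVal P y 0 ↔ 0 < P.ord y := by
  unfold NrVal
  rw [map_zero, sub_zero]
  exact ⟨fun h => h.resolve_left hy, Or.inr⟩

/-- the value is unique -/
theorem nrval_unique (P : Place κ Φ) {y : Φ} {c d : κ} (h : NrVal P y c) (h' : NrVal P y d) :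
    c = d := by
  by_contra hcd
  rw [nrb80_nrval_iff] at h h'
  have h1 := nrb80_small_add P h' (nrb80_small_neg P h)
  have h2 : y - algebraMap κ Φ d + -(y - algebraMap κ Φ c) = algebraMap κ Φ (c - d) := by
    rw [map_sub]; ring
  rw [h2] at h1
  have hne : c - d ≠ 0 := sub_ne_zero.mpr hcd
  rcases h1 with h1 | h1
  · exact nrb80_algebraMap_ne_zero (Φ := Φ) hne h1
  · rw [X0S24.PlaceRes.ord_algebraMap P hne] at h1
    exact lt_irrefl _ h1

theorem nrval_add (P : Place κ Φ) {y z : Φ} {c d : κ} (h : NrVal P y c) (h' : NrVal P z d) :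
    NrVal P (y + z) (c + d) := by
  rw [nrb80_nrval_iff] at h h' ⊢
  have h1 := nrb80_small_add P h h'
  have h2 : y - algebraMap κ Φ c + (z - algebraMap κ Φ d) = y + z - algebraMap κ Φ (c + d) := by
    rw [map_add]; ring
  rwa [h2] at h1

theorem nrval_neg (P : Place κ Φ) {y : Φ} {c : κ} (h : NrVal P y c) : NrVal P (-y) (-c) := by
  rw [nrb80_nrval_iff] at h ⊢
  have h1 := nrb80_small_neg P h
  have h2 : -(y - algebraMap κ Φ c) = -y - algebraMap κ Φ (-c) := by
    rw [map_neg]; ring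
  rwa [h2] at h1

theorem nrval_sub (P : Place κ Φ) {y z : Φ} {c d : κ} (h : NrVal P y c) (h' : NrVal P z d) :
    NrVal P (y - z) (c - d) := by
  rw [sub_eq_add_neg, sub_eq_add_neg]
  exact nrval_add P h (nrval_neg P h')

theorem nrval_mul (P : Place κ Φ) {y z : Φ} {c d : κ} (h : NrVal P y c) (h' : NrVal P z d) :
    NrVal P (y * z) (c * d) := by
  have hz := nrval_ord_nonneg P h'
  rw [nrb80_nrval_iff] at h h' ⊢
  have h1 := nrb80_small_add P (nrb80_small_mul P h hz)
    (nrb80_small_mul P h' (nrb80_ord_algebraMap_nonneg P c))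
  have h2 : (y - algebraMap κ Φ c) * z + (z - algebraMap κ Φ d) * algebraMap κ Φ c =
      y * z - algebraMap κ Φ (c * d) := by
    rw [map_mul]; ring
  rwa [h2] at h1

theorem nrval_pow (P : Place κ Φ) {y : Φ} {c : κ} (h : NrVal P y c) (m : ℕ) :
    NrVal P (y ^ m) (c ^ m) := by
  induction m with
  | zero =>
    rw [pow_zero, pow_zero]
    have := nrval_const (Φ := Φ) P (1 : κ)
    rwa [map_one] at this
  | succ m ih =>
    rw [pow_succ, pow_succ]
    exact nrval_mul P ih h

theorem nrval_inv (P : Place κ Φ) {y : Φ} {c : κ} (h : NrVal P y c) (hc : c ≠ 0) :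
    NrVal P y⁻¹ c⁻¹ := by
  obtain ⟨hy0, hy⟩ := nrval_ord_eq_zero P h hc
  have hc' : algebraMap κ Φ c ≠ 0 := nrb80_algebraMap_ne_zero hc
  rw [nrb80_nrval_iff] at h ⊢
  have hreg : 0 ≤ P.ord (y⁻¹ * algebraMap κ Φ c⁻¹) := by
    rw [P.ord_mul (inv_ne_zero hy0) (nrb80_algebraMap_ne_zero (inv_ne_zero hc)), P.ord_inv, hy,
      X0S24.PlaceRes.ord_algebraMap P (inv_ne_zero hc)]
    simp
  have h1 := nrb80_small_mul P (nrb80_small_neg P h) hreg
  have h2 : -(y - algebraMap κ Φ c) * (y⁻¹ * algebraMap κ Φ c⁻¹) = y⁻¹ - algebraMap κ Φ c⁻¹ := by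
    rw [map_inv₀]
    field_simp
    ring
  rwa [h2] at h1

theorem nrval_aeval (P : Place κ Φ) {y : Φ} {c : κ} (h : NrVal P y c) (p : Polynomial κ) :
    NrVal P (Polynomial.aeval y p) (p.eval c) := by
  induction p using Polynomial.induction_on' with
  | add p q hp hq =>
    rw [map_add, Polynomial.eval_add]
    exact nrval_add P hp hq
  | monomial n a =>
    rw [Polynomial.aeval_monomial, Polynomial.eval_monomial]
    exact nrval_mul P (nrval_const P a) (nrval_pow P h n)

/-- the order of `y - c` at `P` when `y` has the value `d ≠ c` there -/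
theorem nrval_ord_sub_eq_zero (P : Place κ Φ) {y : Φ} {c d : κ} (h : NrVal P y d)
    (hcd : d ≠ c) : y - algebraMap κ Φ c ≠ 0 ∧ P.ord (y - algebraMap κ Φ c) = 0 :=
  nrval_ord_eq_zero P (nrval_sub P h (nrval_const P c)) (sub_ne_zero.mpr hcd)

/-- finite support of the order function of a nonzero function (the argument of S18L `crv_G1`,
restated here since that file is not among the imports) -/
theorem nrb81_finite_ord_ne_zero (θ : Φ) (hθ : Transcendental κ θ)
    (hfin : Module.Finite κ⟮θ⟯ Φ) (hsep : Algebra.IsSeparable κ⟮θ⟯ Φ) (x : Φ) (hx : x ≠ 0) :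
    {Q : Place κ Φ | Q.ord x ≠ 0}.Finite := by
  have hθ0 : θ ≠ 0 := by
    rintro rfl
    exact hθ isAlgebraic_zero
  have hfin' : FiniteDimensional (crvK κ θ⁻¹) Φ := crv_finite_inv κ θ
  have hsep' : Algebra.IsSeparable (crvK κ θ⁻¹) Φ := crv_separable_inv κ θ
  have h1 := crvi_finite κ θ hθ x hx
  have h2 := crvi_finite κ θ⁻¹ (crv_transcendental_inv κ θ hθ) θ⁻¹ (inv_ne_zero hθ0)
  refine (h1.union h2).subset ?_
  intro Q hQ
  by_cases hQt : θ ∈ Q.toValuationSubring
  · exact Or.inl ⟨hQt, hQ⟩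
  · right
    have hinv : θ⁻¹ ∈ Q.toValuationSubring :=
      (Q.toValuationSubring.mem_or_inv_mem θ).resolve_left hQt
    refine ⟨hinv, fun h0 => hQt ?_⟩
    rw [Fermat.Agent.X0S24.PlaceRes.mem_iff_ord_nonneg Q hθ0]
    rw [Q.ord_inv] at h0
    omega

/-- divisors exist: a nonzero function has finitely many zeros and poles -/
theorem nr_exists_div (θ : Φ) (hθ : Transcendental κ θ)
    (hfin : Module.Finite κ⟮θ⟯ Φ) (hsep : Algebra.IsSeparable κ⟮θ⟯ Φ) (x : Φ) (hx : x ≠ 0) :
    ∃ D : Place κ Φ →₀ ℤ, ∀ P, D P = P.ord x :=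
  ⟨Finsupp.ofSupportFinite (fun P => P.ord x) (nrb81_finite_ord_ne_zero θ hθ hfin hsep x hx),
    fun _ => rfl⟩

/-- integrality over `κ[θ]` is regularity at all places where `θ` is regular -/
theorem nr_fin_iff (θ : Φ) (hθ : Transcendental κ θ)
    (hfin : Module.Finite κ⟮θ⟯ Φ) (hsep : Algebra.IsSeparable κ⟮θ⟯ Φ) (x : Φ) :
    NmFin κ θ x ↔ ∀ Q : Place κ Φ, 0 ≤ Q.ord θ → 0 ≤ Q.ord x :=
  (crv_isIntegral_iff κ θ hθ x).symm

end Fermat.Agent.S37L
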