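import Mathlib
import Fermat.Agent.S37L.NrDefs
import Fermat.Agent.S18L.AsmCurves
import Fermat.Agent.S18L.CrvG0
import Fermat.Agent.S18L.CrvG1
import Fermat.Agent.S18L.CrvG2
import Fermat.Agent.RR.Export

/-!
# S37, block A, supplies: the fundamental identity `nr_sup_fund` (helper74)

The zeros of `θ - a`, counted with multiplicity, are `[Φ : κ(θ)]` in number; via the
Riemann–Roch package applied to the curve of all places.
-/

set_option autoImplicit false

open scoped IntermediateField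

namespace Fermat.Agent.S37L

open Fermat.Agent.S18L AlgebraicCurve

variable {κ Φ : Type*} [Field κ] [Field Φ] [Algebra κ Φ]


/-- constants: over an algebraically closed field, algebraic elements are constants -/
theorem nrs74_const [IsAlgClosed κ] (x : Φ) (hx : IsAlgebraic κ x) :
    ∃ c : κ, x = algebraMap κ Φ c := by
  have h3 : x ∈ (algebraMap κ Φ).range :=
    minpoly.mem_range_of_degree_eq_one κ _
      (IsAlgClosed.degree_eq_one_of_irreducible κ (minpoly.irreducible hx.isIntegral))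
  obtain ⟨c, hc⟩ := h3
  exact ⟨c, hc.symm⟩

theorem nrs74_adjoin_sub (θ : Φ) (a : κ) : κ⟮θ - algebraMap κ Φ a⟯ = κ⟮θ⟯ := by
  apply le_antisymm
  · rw [IntermediateField.adjoin_simple_le_iff]
    exact sub_mem (IntermediateField.mem_adjoin_simple_self κ θ) (algebraMap_mem _ a)
  · rw [IntermediateField.adjoin_simple_le_iff]
    have h := add_mem (IntermediateField.mem_adjoin_simple_self κ (θ - algebraMap κ Φ a))
      (algebraMap_mem κ⟮θ - algebraMap κ Φ a⟯ a)
    rwa [sub_add_cancel] at h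

/-- **(S3)** fundamental identity: the zeros of `θ - a`, counted with multiplicity, are
`[Φ : κ(θ)]` in number. -/
theorem nrs74_fund [IsAlgClosed κ] (θ : Φ) (hθ : Transcendental κ θ)
    (hfin : Module.Finite κ⟮θ⟯ Φ) (hsep : Algebra.IsSeparable κ⟮θ⟯ Φ) (a : κ)
    (D : Place κ Φ →₀ ℤ) (hD : ∀ P, D P = P.ord (θ - algebraMap κ Φ a)) :
    (∑ P ∈ D.support, max (D P) 0) = (Module.finrank κ⟮θ⟯ Φ : ℤ) := by
  have hk : ∀ x : Φ, IsAlgebraic κ x → ∃ c : κ, x = algebraMap κ Φ c := nrs74_const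
  have halgθ : Algebra.IsAlgebraic (crvK κ θ) Φ := Algebra.IsAlgebraic.of_finite _ _
  have halg : ∀ u : Φ, (∀ c : κ, u ≠ algebraMap κ Φ c) → Algebra.IsAlgebraic κ⟮u⟯ Φ :=
    fun u hu => crv_G0 κ θ hθ hk u hu
  have hfs : ∀ x : Φ, x ≠ 0 → {Q : Place κ Φ | Q.ord x ≠ 0}.Finite :=
    fun x hx => crv_G1 κ θ hθ x hx
  have hconst : ∀ x : Φ, x ≠ 0 → (∀ Q : Place κ Φ, 0 ≤ Q.ord x) →
      ∃ c : κ, x = algebraMap κ Φ c := fun x _ h => crv_G2 κ θ hθ hk x h
  have hx : ∀ c : κ, θ - algebraMap κ Φ a ≠ algebraMap κ Φ c := by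
    intro c hc
    apply hθ
    have : θ = algebraMap κ Φ (c + a) := by
      rw [map_add, ← hc]; ring
    rw [this]
    exact isAlgebraic_algebraMap _
  have key := (curveOfPlaces halg hfs hconst).finsum_max_ord_eq_finrank hx
  rw [nrs74_adjoin_sub] at key
  rw [← key]
  have hcongr : (∑ᶠ p : Place κ Φ,
      max ((curveOfPlaces halg hfs hconst).ord p (θ - algebraMap κ Φ a)) 0)
      = ∑ᶠ p : Place κ Φ, max (D p) 0 :=
    finsum_congr fun p => by rw [curveOfPlaces_ord, hD]
  rw [hcongr]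
  symm
  apply finsum_eq_sum_of_support_subset
  intro P hP
  rw [Function.mem_support] at hP
  rw [Finset.mem_coe, Finsupp.mem_support_iff]
  rintro h0
  rw [h0] at hP
  exact hP (max_self 0)

end Fermat.Agent.S37L
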