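import Mathlib
import Fermat.Agent.S18L.NmMain
import Fermat.Agent.S37L.NrDefs
import Fermat.Agent.S37L.NrSupFund74
import Fermat.Agent.S18L.CrvG0

/-!
# S37, block A, supplies (owner helper2's pool): curve facts over an algebraically closed field

Interface statements (frozen by helper2).  `Φ / κ(θ)` finite separable, `κ` algebraically
closed, places = Prelude places of `Φ / κ`.
-/

set_option autoImplicit false

open scoped IntermediateField

namespace Fermat.Agent.S37L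

open Fermat.Agent.S18L AlgebraicCurve

variable {κ Φ : Type*} [Field κ] [Field Φ] [Algebra κ Φ]

/-- over an algebraically closed field, algebraic elements of an extension field are
constants -/
theorem nrs73_const [IsAlgClosed κ] (x : Φ) (hx : IsAlgebraic κ x) :
    ∃ c : κ, x = algebraMap κ Φ c := by
  have h3 : x ∈ (algebraMap κ Φ).range :=
    minpoly.mem_range_of_degree_eq_one κ _
      (IsAlgClosed.degree_eq_one_of_irreducible κ (minpoly.irreducible hx.isIntegral))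
  obtain ⟨c, hc⟩ := h3
  exact ⟨c, hc.symm⟩

/-- if `θ - a` has a zero at `Q` then `θ` is regular at `Q`. -/
theorem nrs72_regular (θ : Φ) (a : κ) (Q : Place κ Φ)
    (hQ : 0 < Q.ord (θ - algebraMap κ Φ a)) : θ ∈ Q.toValuationSubring := by
  have hne : θ - algebraMap κ Φ a ≠ 0 := by
    intro h0
    rw [h0, Place.ord_zero] at hQ
    exact lt_irrefl _ hQ
  have h1 : θ - algebraMap κ Φ a ∈ Q.toValuationSubring :=
    (Fermat.Agent.X0S24.PlaceRes.mem_iff_ord_nonneg Q hne).mpr hQ.le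
  have h2 := add_mem h1 (Q.algebraMap_mem' a)
  rwa [sub_add_cancel] at h2

/-- **(S1)** a function integral over `κ[θ]` with value `1` at `Q₀` and value `0` at all other
places over the same point `a` of the `θ`-line. -/
theorem nr_sup_idem [IsAlgClosed κ] (θ : Φ) (hθ : Transcendental κ θ)
    (hfin : Module.Finite κ⟮θ⟯ Φ) (hsep : Algebra.IsSeparable κ⟮θ⟯ Φ) (a : κ) (Q₀ : Place κ Φ)
    (hQ₀ : 0 < Q₀.ord (θ - algebraMap κ Φ a)) :
    ∃ e : Φ, NmFin κ θ e ∧ NrVal Q₀ e 1 ∧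
      ∀ Q : Place κ Φ, Q ≠ Q₀ → 0 < Q.ord (θ - algebraMap κ Φ a) → NrVal Q e 0 := by
  classical
  have : FiniteDimensional (crvK κ θ) Φ := hfin
  have : Algebra.IsSeparable (crvK κ θ) Φ := hsep
  have : IsDedekindDomain (crvB κ θ) := crv_isDedekindDomain κ θ hθ
  have : IsFractionRing (crvB κ θ) Φ := crv_isFractionRing κ θ
  have hne : θ - algebraMap κ Φ a ≠ 0 := by
    intro h0
    rw [h0, Place.ord_zero] at hQ₀
    exact lt_irrefl _ hQ₀
  have hfinS := dd_finite_support (k := κ) (L := Φ) (crvB κ θ) (θ - algebraMap κ Φ a) hne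
  obtain ⟨v₀, hv₀⟩ := ddPlace_surj (k := κ) (crvB κ θ) Q₀
    (fun b => crv_mem_place κ θ Q₀ (nrs72_regular θ a Q₀ hQ₀) b)
  obtain ⟨y, hy⟩ := IsDedekindDomain.exists_forall_sub_mem_ideal (s := hfinS.toFinset)
    (fun v : IsDedekindDomain.HeightOneSpectrum (crvB κ θ) => v.asIdeal) (fun _ => 1)
    (fun v _ => v.prime)
    (fun v _ w _ hvw h => hvw (IsDedekindDomain.HeightOneSpectrum.ext h))
    (fun v => if v.1 = v₀ then 1 else 0)
  have hmemS : ∀ v : IsDedekindDomain.HeightOneSpectrum (crvB κ θ),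
      0 < (ddPlace (k := κ) (crvB κ θ) v).ord (θ - algebraMap κ Φ a) → v ∈ hfinS.toFinset := by
    intro v hv
    rw [Set.Finite.mem_toFinset]
    exact hv.ne'
  refine ⟨(y : Φ), y.2, ?_, ?_⟩
  · have h1 := hy v₀ (hmemS v₀ (by rw [hv₀]; exact hQ₀))
    rw [if_pos rfl, pow_one] at h1
    by_cases hy1 : y - 1 = 0
    · left
      rw [map_one]
      have := congrArg (Subtype.val) (sub_eq_zero.mp hy1)
      exact this
    · right
      have h2 := (ddPlace_ord_pos_iff (k := κ) (L := Φ) (crvB κ θ) v₀ (y - 1) hy1).mpr h1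
      rw [hv₀] at h2
      rw [map_one]
      exact h2
  · intro Q hQne hQ
    obtain ⟨v, hv⟩ := ddPlace_surj (k := κ) (crvB κ θ) Q
      (fun b => crv_mem_place κ θ Q (nrs72_regular θ a Q hQ) b)
    have hvne : v ≠ v₀ := by
      rintro rfl
      exact hQne (hv.symm.trans hv₀)
    have h1 := hy v (hmemS v (by rw [hv]; exact hQ))
    rw [if_neg hvne, pow_one, sub_zero] at h1
    by_cases hy0 : y = 0
    · left
      rw [map_zero, hy0]
      rfl
    · right
      have h2 := (ddPlace_ord_pos_iff (k := κ) (L := Φ) (crvB κ θ) v y hy0).mpr h1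
      rw [hv] at h2
      rw [map_zero, sub_zero]
      exact h2

/-- **(S2)** a function integral over `κ[θ]` with a simple zero at `Q₀`. -/
theorem nr_sup_unif [IsAlgClosed κ] (θ : Φ) (hθ : Transcendental κ θ)
    (hfin : Module.Finite κ⟮θ⟯ Φ) (hsep : Algebra.IsSeparable κ⟮θ⟯ Φ) (a : κ) (Q₀ : Place κ Φ)
    (hQ₀ : 0 < Q₀.ord (θ - algebraMap κ Φ a)) :
    ∃ w : Φ, NmFin κ θ w ∧ Q₀.ord w = 1 := by
  have : FiniteDimensional (crvK κ θ) Φ := hfin
  have : Algebra.IsSeparable (crvK κ θ) Φ := hsep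
  have : IsDedekindDomain (crvB κ θ) := crv_isDedekindDomain κ θ hθ
  have : IsFractionRing (crvB κ θ) Φ := crv_isFractionRing κ θ
  obtain ⟨v₀, hv₀⟩ := ddPlace_surj (k := κ) (crvB κ θ) Q₀
    (fun b => crv_mem_place κ θ Q₀ (nrs72_regular θ a Q₀ hQ₀) b)
  obtain ⟨π, hπ⟩ := v₀.intValuation_exists_uniformizer
  refine ⟨(π : Φ), π.2, ?_⟩
  have h1 := ddPlace_ord (k := κ) (L := Φ) (crvB κ θ) v₀ (algebraMap (crvB κ θ) Φ π)
  rw [hv₀, IsDedekindDomain.HeightOneSpectrum.valuation_of_algebraMap, hπ, WithZero.log_exp,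
    neg_neg] at h1
  exact h1

/-- **(S3)** fundamental identity: the zeros of `θ - a`, counted with multiplicity, are
`[Φ : κ(θ)]` in number. -/
theorem nr_sup_fund [IsAlgClosed κ] (θ : Φ) (hθ : Transcendental κ θ)
    (hfin : Module.Finite κ⟮θ⟯ Φ) (hsep : Algebra.IsSeparable κ⟮θ⟯ Φ) (a : κ)
    (D : Place κ Φ →₀ ℤ) (hD : ∀ P, D P = P.ord (θ - algebraMap κ Φ a)) :
    (∑ P ∈ D.support, max (D P) 0) = (Module.finrank κ⟮θ⟯ Φ : ℤ) := by
  exact nrs74_fund θ hθ hfin hsep a D hD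

/-- **(S4)** every function regular at a place has a value there. -/
theorem nr_sup_val [IsAlgClosed κ] (θ : Φ) (hθ : Transcendental κ θ)
    (hfin : Module.Finite κ⟮θ⟯ Φ) (hsep : Algebra.IsSeparable κ⟮θ⟯ Φ) (P : Place κ Φ) (y : Φ)
    (hy : 0 ≤ P.ord y) : ∃ c : κ, NrVal P y c := by
  by_cases hy0 : y = 0
  · exact ⟨0, Or.inl (by rw [hy0, map_zero])⟩
  have _ : Algebra.IsAlgebraic (crvK κ θ) Φ := Algebra.IsAlgebraic.of_finite _ _
  exact Fermat.Agent.X0S24.PlaceRes.exists_residue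
    (fun u hu => crv_G0 κ θ hθ nrs73_const u hu) P hy0 hy

/-- **(S5)** every place is finite or infinite for `θ`: `θ` has a value at `P` or a pole. -/
theorem nr_sup_cases [IsAlgClosed κ] (θ : Φ) (hθ : Transcendental κ θ)
    (hfin : Module.Finite κ⟮θ⟯ Φ) (hsep : Algebra.IsSeparable κ⟮θ⟯ Φ) (P : Place κ Φ) :
    (∃ c : κ, 0 < P.ord (θ - algebraMap κ Φ c)) ∨ P.ord θ < 0 := by
  rcases lt_or_ge (P.ord θ) 0 with h | h
  · exact Or.inr h
  · obtain ⟨c, hc⟩ := nr_sup_val θ hθ hfin hsep P θ h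
    rcases hc with hc | hc
    · exact absurd (hc ▸ isAlgebraic_algebraMap c) hθ
    · exact Or.inl ⟨c, hc⟩

end Fermat.Agent.S37L
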