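import Mathlib
import Fermat.Agent.S18L.NmMain
import Fermat.Agent.S37L.NrDefs
import Fermat.Agent.S37L.NrBasic
import Fermat.Agent.S37L.NrSup

/-!
# S37, block A, part C (second cover, helper2's pool): definitions

* `NrOver G t P`    : `P` lies over a point of the closed unit disc of the `t`-line
* `nrqN G t r Q u`  : the sum of the orders of `u` over the places `P` over the closed unit disc
  with `r P = Q` (zeros minus poles of `u` in the class of `Q`)
-/

set_option autoImplicit false

open scoped IntermediateField

namespace Fermat.Agent.S37L

open Fermat.Agent.S18L AlgebraicCurve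

variable {K F k Fb : Type*} [Field K] [Field F] [Algebra K F] [Field k] [Field Fb] [Algebra k Fb]

/-- `P` lies over a point of the closed unit disc of the `t`-line -/
def NrOver (G : RedDatum K F k Fb) (t : G.O) (P : Place K F) : Prop :=
  ∃ ρ : G.A, 0 < P.ord ((t : F) - algebraMap K F (ρ : K))

open Classical in
/-- zeros minus poles of `u` in the class of `Q` -/
noncomputable def nrqN (G : RedDatum K F k Fb) (t : G.O) (r : Place K F → Place k Fb)
    (Q : Place k Fb) (u : F) : ℤ :=
  ∑ᶠ P : Place K F, if NrOver G t P ∧ r P = Q then P.ord u else 0

end Fermat.Agent.S37L
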