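import Mathlib
import Fermat.Agent.S18L.NmMain
import Fermat.Agent.S37L.NrQDefs

/-!
# S37, block A, part C (second cover): bookkeeping for the class sums `nrqN`
-/

set_option autoImplicit false

open scoped IntermediateField

namespace Fermat.Agent.S37L

open Fermat.Agent.S18L AlgebraicCurve

variable {K F k Fb : Type*} [Field K] [Field F] [Algebra K F] [Field k] [Field Fb] [Algebra k Fb]

open Classical in
/-- the class sum as a finite sum over the support of the divisor -/
theorem nrq_N_eq_sum (G : RedDatum K F k Fb) (t : G.O) (r : Place K F → Place k Fb)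
    (Q : Place k Fb) (u : F) (D : Place K F →₀ ℤ) (hD : ∀ P, D P = P.ord u) :
    nrqN G t r Q u = ∑ P ∈ D.support.filter (fun P =>
        (∃ ρ : G.A, 0 < P.ord ((t : F) - algebraMap K F (ρ : K))) ∧ r P = Q), D P := by
  unfold nrqN
  rw [finsum_eq_sum_of_support_subset (s := D.support), Finset.sum_filter]
  · refine Finset.sum_congr rfl fun P _ => ?_
    unfold NrOver
    rw [hD P]
  · intro P hP
    rw [Function.mem_support] at hP
    rw [Finset.mem_coe, Finsupp.mem_support_iff, hD P]
    intro h0
    apply hP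
    split_ifs
    · exact h0
    · rfl

open Classical in
/-- the summand of the class sum has finite support -/
theorem nrq81_finite_support [IsAlgClosed K] [CharZero K]
    (G : RedDatum K F k Fb) (t : G.O) (n : ℕ) (h : NmHyp G t n)
    (r : Place K F → Place k Fb) (Q : Place k Fb) (u : F) (hu : u ≠ 0) :
    (Function.support fun P : Place K F =>
      if NrOver G t P ∧ r P = Q then P.ord u else 0).Finite := by
  have hfin : Module.Finite K⟮(t : F)⟯ F := h.fin
  have hf := nrb81_finite_ord_ne_zero (t : F) (nms_transcendental G t n h) h.fin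
    (nms_separable (t : F)) u hu
  refine hf.subset ?_
  intro P hP
  rw [Function.mem_support] at hP
  intro h0
  apply hP
  rw [h0, ite_self]

theorem nrq81_N_zero (G : RedDatum K F k Fb) (t : G.O)
    (r : Place K F → Place k Fb) (Q : Place k Fb) : nrqN G t r Q 0 = 0 := by
  unfold nrqN
  simp only [Place.ord_zero, ite_self, finsum_zero]

theorem nrq81_N_one (G : RedDatum K F k Fb) (t : G.O)
    (r : Place K F → Place k Fb) (Q : Place k Fb) : nrqN G t r Q 1 = 0 := by
  unfold nrqN
  simp only [Place.ord_one, ite_self, finsum_zero]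

theorem nrq_N_mul [IsAlgClosed K] [CharZero K] [IsAlgClosed k]
    (G : RedDatum K F k Fb) (t : G.O) (n : ℕ) (h : NmHyp G t n)
    (r : Place K F → Place k Fb) (Q : Place k Fb) (u v : F) (hu : u ≠ 0) (hv : v ≠ 0) :
    nrqN G t r Q (u * v) = nrqN G t r Q u + nrqN G t r Q v := by
  classical
  unfold nrqN
  rw [← finsum_add_distrib (nrq81_finite_support G t n h r Q u hu)
    (nrq81_finite_support G t n h r Q v hv)]
  refine finsum_congr fun P => ?_
  split_ifs
  · exact P.ord_mul hu hv
  · rw [add_zero]

theorem nrq_N_inv [IsAlgClosed K] [CharZero K] [IsAlgClosed k]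
    (G : RedDatum K F k Fb) (t : G.O) (n : ℕ) (h : NmHyp G t n)
    (r : Place K F → Place k Fb) (Q : Place k Fb) (u : F) :
    nrqN G t r Q u⁻¹ = - nrqN G t r Q u := by
  classical
  unfold nrqN
  rw [← finsum_neg_distrib]
  refine finsum_congr fun P => ?_
  split_ifs
  · exact P.ord_inv u
  · rw [neg_zero]

theorem nrq_N_pow [IsAlgClosed K] [CharZero K] [IsAlgClosed k]
    (G : RedDatum K F k Fb) (t : G.O) (n : ℕ) (h : NmHyp G t n)
    (r : Place K F → Place k Fb) (Q : Place k Fb) (u : F) (m : ℕ) :
    nrqN G t r Q (u ^ m) = m * nrqN G t r Q u := by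
  by_cases hu : u = 0
  · subst hu
    rcases Nat.eq_zero_or_pos m with rfl | hm
    · rw [pow_zero, nrq81_N_one, Nat.cast_zero, zero_mul]
    · rw [zero_pow hm.ne', nrq81_N_zero, mul_zero]
  · induction m with
    | zero => rw [pow_zero, nrq81_N_one, Nat.cast_zero, zero_mul]
    | succ m ih =>
      rw [pow_succ, nrq_N_mul G t n h r Q _ _ (pow_ne_zero m hu) hu, ih]
      push_cast
      ring

theorem nrq_N_prod [IsAlgClosed K] [CharZero K] [IsAlgClosed k]
    (G : RedDatum K F k Fb) (t : G.O) (n : ℕ) (h : NmHyp G t n)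
    (r : Place K F → Place k Fb) (Q : Place k Fb) {ι : Type*} (s : Finset ι) (f : ι → F)
    (hf : ∀ i ∈ s, f i ≠ 0) :
    nrqN G t r Q (∏ i ∈ s, f i) = ∑ i ∈ s, nrqN G t r Q (f i) := by
  classical
  induction s using Finset.induction_on with
  | empty => rw [Finset.prod_empty, Finset.sum_empty, nrq81_N_one]
  | insert a s ha ih =>
    have hs : ∀ i ∈ s, f i ≠ 0 := fun i hi => hf i (Finset.mem_insert_of_mem hi)
    rw [Finset.prod_insert ha, Finset.sum_insert ha,
      nrq_N_mul G t n h r Q _ _ (hf a (Finset.mem_insert_self a s))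
        (Finset.prod_ne_zero_iff.mpr hs), ih hs]

/-- a function which is a unit at all places of the class has class sum zero -/
theorem nrq_N_eq_zero (G : RedDatum K F k Fb) (t : G.O) (r : Place K F → Place k Fb)
    (Q : Place k Fb) (u : F) (hu : ∀ P, NrOver G t P → r P = Q → P.ord u = 0) :
    nrqN G t r Q u = 0 := by
  unfold nrqN
  refine finsum_eq_zero_of_forall_eq_zero fun P => ?_
  split_ifs with hP
  · exact hu P hP.1 hP.2
  · rfl

theorem nrq_N_nonneg (G : RedDatum K F k Fb) (t : G.O) (r : Place K F → Place k Fb)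
    (Q : Place k Fb) (u : F) (hu : ∀ P, NrOver G t P → r P = Q → 0 ≤ P.ord u) :
    0 ≤ nrqN G t r Q u := by
  unfold nrqN
  refine finsum_nonneg fun P => ?_
  split_ifs with hP
  · exact hu P hP.1 hP.2
  · exact le_rfl

end Fermat.Agent.S37L
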