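import Mathlib
import Fermat.Agent.S18L.NmMain
import Fermat.Agent.S37L.NrQDefs

/-!
# S37, block A, part C (second cover): lifting integral functions, clearing poles
-/

set_option autoImplicit false

open scoped IntermediateField

namespace Fermat.Agent.S37L

open Fermat.Agent.S18L AlgebraicCurve

variable {K F k Fb : Type*} [Field K] [Field F] [Algebra K F] [Field k] [Field Fb] [Algebra k Fb]

/-- **(LIFT)** every function integral over `k[red t]` is the reduction of an element of `O`
integral over `K[t]` (NORMAL: `nm_exists_basis` + `nm_normal`). -/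
theorem nrq_lift [IsAlgClosed K] [CharZero K] [IsAlgClosed k]
    (G : RedDatum K F k Fb) (t : G.O) (n : ℕ) (h : NmHyp G t n) (y : Fb)
    (hy : NmFin k (G.red t) y) : ∃ e : G.O, NmFin K (t : F) (e : F) ∧ G.red e = y := by
  obtain ⟨x, hx⟩ := nm_exists_basis G t n h
  obtain ⟨p, hp⟩ := nm_normal G t n h x hx y hy
  choose P hP using fun i => Polynomial.map_surjective G.π G.π_surj (p i)
  choose hmem hred using fun i => nm_red_aeval G t (P i)
  refine ⟨∑ i, (⟨_, hmem i⟩ : G.O) * x i, ?_, ?_⟩
  · rw [NmFin, AddSubmonoidClass.coe_finsetSum]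
    refine IsIntegral.sum _ fun i _ => ?_
    rw [Subring.coe_mul]
    refine IsIntegral.mul ?_ (hx.fin i)
    exact isIntegral_algebraMap (R := Algebra.adjoin K {(t : F)})
      (x := ⟨_, Polynomial.aeval_mem_adjoin_singleton K (t : F)⟩)
  · rw [map_sum, hp]
    refine Finset.sum_congr rfl fun i _ => ?_
    rw [map_mul, hred i, hP i]

/-- **(CLEAR)** every function becomes integral over `K[t]` after multiplication by `p(t)`
for a polynomial `p` over `A` of nonzero reduction. -/
theorem nrq_clear [IsAlgClosed K] [CharZero K] [IsAlgClosed k]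
    (G : RedDatum K F k Fb) (t : G.O) (n : ℕ) (h : NmHyp G t n) (u : F) :
    ∃ p : Polynomial G.A, p.map G.π ≠ 0 ∧
      NmFin K (t : F) (Polynomial.aeval (t : F) (p.map G.A.subtype) * u) := by
  have : FiniteDimensional ↥(IntermediateField.adjoin K {(t : F)}) F := h.fin
  obtain ⟨S, hS, hint⟩ := nmoia_exists_primitive_multiple G (t : F) u
  exact ⟨S, hS, hint⟩

/-- **(CLEAR-DISC)** a function regular at all places over the residue disc of `a` becomes
integral over `K[t]` after multiplication by `p(t)` for a polynomial `p` over `A` whose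
reduction does not vanish at `a`. -/
theorem nrq_clear_disc [IsAlgClosed K] [CharZero K] [IsAlgClosed k]
    (G : RedDatum K F k Fb) (t : G.O) (n : ℕ) (h : NmHyp G t n) (a : k) (v : F)
    (hv : ∀ (P : Place K F) (ρ : G.A), G.π ρ = a →
      0 < P.ord ((t : F) - algebraMap K F (ρ : K)) → 0 ≤ P.ord v) :
    ∃ p : Polynomial G.A, (p.map G.π).eval a ≠ 0 ∧
      NmFin K (t : F) (Polynomial.aeval (t : F) (p.map G.A.subtype) * v) := by
  obtain ⟨d, hd, hdv⟩ := nrq_clear G t n h v
  obtain ⟨g, q, hfac, -, hga, hroots⟩ := nms_factor G.A G.π G.π_eq_zero d hd a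
  have hθ : Transcendental K (t : F) := nms_transcendental G t n h
  have hfin : Module.Finite K⟮(t : F)⟯ F := h.fin
  have hsep : Algebra.IsSeparable K⟮(t : F)⟯ F := nms_separable (t : F)
  refine ⟨g, hga, ?_⟩
  rw [nr_fin_iff (t : F) hθ hfin hsep]
  intro P hP
  have hdP : 0 ≤ P.ord (Polynomial.aeval (t : F) (d.map G.A.subtype) * v) :=
    (nr_fin_iff (t : F) hθ hfin hsep _).mp hdv P hP
  obtain ⟨c, hc⟩ := nr_sup_val (t : F) hθ hfin hsep P (t : F) hP
  have hgval := nrval_aeval P hc (g.map G.A.subtype)
  have hqval := nrval_aeval P hc (q.map G.A.subtype)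
  by_cases hq0 : (q.map G.A.subtype).eval c = 0
  · obtain ⟨r', hr', hπr'⟩ := hroots c hq0
    have hpos : 0 < P.ord ((t : F) - algebraMap K F (r' : K)) := by
      rw [hr']
      rcases hc with hc | hc
      · exact absurd hc (crvi_ne_algebraMap K (t : F) hθ c)
      · exact hc
    have hv0 := hv P r' hπr' hpos
    have hg0 := nrval_ord_nonneg P hgval
    rcases eq_or_ne (Polynomial.aeval (t : F) (g.map G.A.subtype)) 0 with h1 | h1
    · rw [h1, zero_mul, P.ord_zero]
    rcases eq_or_ne v 0 with h2 | h2
    · rw [h2, mul_zero, P.ord_zero]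
    rw [P.ord_mul h1 h2]
    exact add_nonneg hg0 hv0
  · obtain ⟨hqne, hqord⟩ := nrval_ord_eq_zero P hqval hq0
    rcases eq_or_ne (Polynomial.aeval (t : F) (g.map G.A.subtype) * v) 0 with h1 | h1
    · rw [h1, P.ord_zero]
    have hprod : Polynomial.aeval (t : F) (d.map G.A.subtype) * v
        = Polynomial.aeval (t : F) (q.map G.A.subtype) *
          (Polynomial.aeval (t : F) (g.map G.A.subtype) * v) := by
      rw [hfac, Polynomial.map_mul, map_mul]
      ring
    rw [hprod, P.ord_mul hqne h1, hqord, zero_add] at hdP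
    exact hdP

end Fermat.Agent.S37L
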