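import Mathlib
import Fermat.Agent.S18L.NmMain
import Fermat.Agent.S37L.NrQDefs
import Fermat.Agent.S37L.NrQA
import Fermat.Agent.S37L.NrQB

/-!
# S37, block A, part C (second cover): regularity of reductions
-/

set_option autoImplicit false

open scoped IntermediateField

namespace Fermat.Agent.S37L

open Fermat.Agent.S18L AlgebraicCurve

variable {K F k Fb : Type*} [Field K] [Field F] [Algebra K F] [Field k] [Field Fb] [Algebra k Fb]

/-- **(DISC-REG)** if `v ∈ O` is regular at all places over the residue disc of `a`, then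
`red v` is regular at all places over `a`. -/
theorem nrq_disc_reg [IsAlgClosed K] [CharZero K] [IsAlgClosed k]
    (G : RedDatum K F k Fb) (t : G.O) (n : ℕ) (h : NmHyp G t n) (a : k) (v : G.O)
    (hv : ∀ (P : Place K F) (ρ : G.A), G.π ρ = a →
      0 < P.ord ((t : F) - algebraMap K F (ρ : K)) → 0 ≤ P.ord (v : F))
    (Q : Place k Fb) (hQ : 0 < Q.ord (G.red t - algebraMap k Fb a)) :
    0 ≤ Q.ord (G.red v) := by
  obtain ⟨p, hpa, hpv⟩ := nrq_clear_disc G t n h a (v : F) hv
  obtain ⟨hpO, hpred⟩ := nm_red_aeval G t p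
  set pt : G.O := ⟨Polynomial.aeval (t : F) (p.map G.A.subtype), hpO⟩ with hpt
  have hy : NmFin K (t : F) ((pt * v : G.O) : F) := hpv
  have hyb : NmFin k (G.red t) (G.red (pt * v)) := nm_red_fin G t n h (pt * v) hy
  have hτ : NrVal Q (G.red t) a := Or.inr hQ
  have hreg : 0 ≤ Q.ord (G.red (pt * v)) :=
    (nr_fin_iff (G.red t) h.tr h.finb h.sep (G.red (pt * v))).mp hyb Q (nrval_ord_nonneg Q hτ)
  rw [map_mul, hpred] at hreg
  obtain ⟨hne, hord⟩ := nrval_ord_eq_zero Q (nrval_aeval Q hτ (p.map G.π)) hpa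
  by_cases hv0 : G.red v = 0
  · rw [hv0, Place.ord_zero]
  · rw [Q.ord_mul hne hv0, hord, zero_add] at hreg
    exact hreg

end Fermat.Agent.S37L
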