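import Mathlib
import Fermat.Agent.S18L.NmMain
import Fermat.Agent.S37L.NrQDefs
import Fermat.Agent.S37L.NrQA
import Fermat.Agent.S37L.NrQB
import Fermat.Agent.S37L.NrQC

/-!
# S37, block A, part C (second cover): regularity on a class
-/

set_option autoImplicit false

open scoped IntermediateField

namespace Fermat.Agent.S37L

open Fermat.Agent.S18L AlgebraicCurve

variable {K F k Fb : Type*} [Field K] [Field F] [Algebra K F] [Field k] [Field Fb] [Algebra k Fb]

/-- `θ` is integral over `κ[θ]` -/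
theorem nrq78_fin_self (κ : Type*) {Φ : Type*} [Field κ] [Field Φ] [Algebra κ Φ] (θ : Φ) :
    NmFin κ θ θ := by
  have h : IsIntegral (Algebra.adjoin κ {θ})
      (algebraMap (Algebra.adjoin κ {θ}) Φ ⟨θ, Algebra.subset_adjoin (Set.mem_singleton θ)⟩) :=
    isIntegral_algebraMap
  exact h

/-- regularity at a place is membership in its valuation ring -/
theorem nrq78_reg_iff {κ Φ : Type*} [Field κ] [Field Φ] [Algebra κ Φ] (P : Place κ Φ) (x : Φ) :
    0 ≤ P.ord x ↔ x ∈ P.toValuationSubring := by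
  rcases eq_or_ne x 0 with rfl | hx
  · simp [Place.ord_zero, zero_mem]
  · exact (Fermat.Agent.X0S24.PlaceRes.mem_iff_ord_nonneg P hx).symm

theorem nrq78_ord_pow {κ Φ : Type*} [Field κ] [Field Φ] [Algebra κ Φ] (P : Place κ Φ) (x : Φ)
    (hx : x ≠ 0) (m : ℕ) : P.ord (x ^ m) = m * P.ord x := by
  induction m with
  | zero => simp [Place.ord_one]
  | succ m ih =>
    rw [pow_succ, P.ord_mul (pow_ne_zero m hx) hx, ih]
    push_cast
    ring

/-- **(REG)** if `w ∈ O` is regular at all places of the class of `Q₀`, then `red w` is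
regular at `Q₀`. -/
theorem nrq_reg [IsAlgClosed K] [CharZero K] [IsAlgClosed k]
    (G : RedDatum K F k Fb) (t : G.O) (n : ℕ) (h : NmHyp G t n)
    (r : Place K F → Place k Fb) (hr : NrEv G t r)
    (a : k) (Q₀ : Place k Fb) (hQ₀ : 0 < Q₀.ord (G.red t - algebraMap k Fb a)) (w : G.O)
    (hw : ∀ P : Place K F, NrOver G t P → r P = Q₀ → 0 ≤ P.ord (w : F)) :
    0 ≤ Q₀.ord (G.red w) := by
  classical
  by_cases hrw : G.red w = 0
  · rw [hrw, Place.ord_zero]
  have hw0 : (w : F) ≠ 0 := by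
    intro h0
    apply hrw
    have : w = 0 := Subtype.ext h0
    rw [this, map_zero]
  have htr := nms_transcendental G t n h
  have hfd : FiniteDimensional K⟮(t : F)⟯ F := h.fin
  have hsep : Algebra.IsSeparable K⟮(t : F)⟯ F := nms_separable (t : F)
  have hfinS := nrb81_finite_ord_ne_zero (t : F) htr h.fin hsep (w : F) hw0
  obtain ⟨eb, hebfin, heb1, heb0⟩ := nr_sup_idem (G.red t) h.tr h.finb h.sep a Q₀ hQ₀
  obtain ⟨e, hefin, hered⟩ := nrq_lift G t n h eb hebfin
  -- regularity of `e` at the places over the closed unit disc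
  have hereg : ∀ (P : Place K F) (ρ : G.A), 0 < P.ord ((t : F) - algebraMap K F (ρ : K)) →
      0 ≤ P.ord (e : F) := fun P ρ hρ =>
    (nr_fin_iff (t : F) htr h.fin hsep (e : F)).mp hefin P
      (nrval_ord_nonneg P (nrval_of_pos P hρ))
  -- the values of `e` at the poles of `w` over the disc of `a`
  have hkey : ∀ P : Place K F, P.ord (w : F) < 0 → ∀ ρ : G.A, G.π ρ = a →
      0 < P.ord ((t : F) - algebraMap K F (ρ : K)) →
      ∃ c : G.A, G.π c = 0 ∧ NrVal P (e : F) (c : K) := by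
    intro P hneg ρ hπ hρ
    have hrP : r P ≠ Q₀ := fun hQ => absurd (hw P ⟨ρ, hρ⟩ hQ) (not_le.mpr hneg)
    obtain ⟨hcρ, hvalτ⟩ := hr P ρ hρ t (nrq78_fin_self K (t : F)) (ρ : K) (nrval_of_pos P hρ)
    have hπ' : G.π ⟨(ρ : K), hcρ⟩ = a := hπ
    rw [hπ'] at hvalτ
    have hpos : 0 < (r P).ord (G.red t - algebraMap k Fb a) := by
      rcases hvalτ with heq | hpos
      · exfalso
        apply h.tr
        rw [heq]
        exact isAlgebraic_algebraMap _
      · exact hpos
    have he0 : NrVal (r P) eb 0 := heb0 (r P) hrP hpos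
    obtain ⟨cP, hcP⟩ := nr_sup_val (t : F) htr h.fin hsep P (e : F) (hereg P ρ hρ)
    obtain ⟨hcA, hval⟩ := hr P ρ hρ e hefin cP hcP
    rw [hered] at hval
    exact ⟨⟨cP, hcA⟩, nrval_unique (r P) hval he0, hcP⟩
  set S' : Finset (Place K F) := hfinS.toFinset.filter (fun P => P.ord (w : F) < 0 ∧
    ∃ ρ : G.A, G.π ρ = a ∧ 0 < P.ord ((t : F) - algebraMap K F (ρ : K))) with hS'
  have hc : ∀ P : Place K F, ∃ c : G.A, P ∈ S' → (G.π c = 0 ∧ NrVal P (e : F) (c : K)) := by
    intro P
    by_cases hP : P ∈ S'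
    · obtain ⟨hneg, ρ, hπ, hρ⟩ := (Finset.mem_filter.mp hP).2
      obtain ⟨c, hc1, hc2⟩ := hkey P hneg ρ hπ hρ
      exact ⟨c, fun _ => ⟨hc1, hc2⟩⟩
    · exact ⟨0, fun hP' => absurd hP' hP⟩
  choose c hc using hc
  -- constants in `O`
  have hmemO : ∀ b : G.A, algebraMap K F (b : K) ∈ G.O := fun b => (G.algebraMap_mem b).mpr b.2
  set g : G.O := ∏ P ∈ S', (e - ⟨algebraMap K F (c P : K), hmemO (c P)⟩) ^ (-P.ord (w : F)).toNat
    with hg
  have hgF : (g : F) = ∏ P ∈ S', ((e : F) - algebraMap K F (c P : K)) ^ (-P.ord (w : F)).toNat := by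
    rw [hg]
    simp
  have hgred : G.red g = eb ^ (∑ P ∈ S', (-P.ord (w : F)).toNat) := by
    rw [hg, map_prod, ← Finset.prod_pow_eq_pow_sum]
    refine Finset.prod_congr rfl fun P hP => ?_
    rw [map_pow, map_sub, hered, G.red_algebraMap (c P) (hmemO (c P)), (hc P hP).1, map_zero,
      sub_zero]
  have hgval : NrVal Q₀ (G.red g) 1 := by
    rw [hgred]
    have := nrval_pow Q₀ heb1 (∑ P ∈ S', (-P.ord (w : F)).toNat)
    rwa [one_pow] at this
  obtain ⟨hg0, hgord⟩ := nrval_ord_eq_zero Q₀ hgval one_ne_zero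
  -- `w * g` is regular over the disc of `a`
  have hreg : ∀ (P : Place K F) (ρ : G.A), G.π ρ = a →
      0 < P.ord ((t : F) - algebraMap K F (ρ : K)) → 0 ≤ P.ord ((w * g : G.O) : F) := by
    intro P ρ hπ hρ
    have heP : (e : F) ∈ P.toValuationSubring := (nrq78_reg_iff P _).mp (hereg P ρ hρ)
    have hfac : ∀ P' : Place K F, ((e : F) - algebraMap K F (c P' : K)) ^ (-P'.ord (w : F)).toNat
        ∈ P.toValuationSubring := fun P' =>
      pow_mem (sub_mem heP (P.algebraMap_mem' _)) _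
    rw [nrq78_reg_iff]
    show (w : F) * (g : F) ∈ P.toValuationSubring
    rw [hgF]
    by_cases hneg : P.ord (w : F) < 0
    · have hPS : P ∈ S' := by
        rw [hS', Finset.mem_filter, Set.Finite.mem_toFinset]
        exact ⟨ne_of_lt hneg, hneg, ρ, hπ, hρ⟩
      rw [← Finset.mul_prod_erase S' _ hPS, ← mul_assoc]
      refine mul_mem ?_ (prod_mem fun P' _ => hfac P')
      have hm : ((-P.ord (w : F)).toNat : ℤ) = -P.ord (w : F) :=
        Int.toNat_of_nonneg (by linarith)
      have hm0 : (-P.ord (w : F)).toNat ≠ 0 := by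
        intro h0
        rw [h0] at hm
        simp only [Nat.cast_zero] at hm
        linarith
      rcases (hc P hPS).2 with heq | hpos
      · rw [heq, sub_self, zero_pow hm0, mul_zero]
        exact zero_mem _
      · have hne : (e : F) - algebraMap K F (c P : K) ≠ 0 := by
          intro h0
          rw [h0, Place.ord_zero] at hpos
          exact lt_irrefl _ hpos
        rw [← nrq78_reg_iff, P.ord_mul hw0 (pow_ne_zero _ hne), nrq78_ord_pow P _ hne, hm]
        nlinarith
    · have hwP : (w : F) ∈ P.toValuationSubring := (nrq78_reg_iff P _).mp (not_lt.mp hneg)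
      exact mul_mem hwP (prod_mem fun P' _ => hfac P')
  have hdr := nrq_disc_reg G t n h a (w * g) hreg Q₀ hQ₀
  rw [map_mul, Q₀.ord_mul hrw hg0, hgord, add_zero] at hdr
  exact hdr

end Fermat.Agent.S37L
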