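import Mathlib
import Fermat.Agent.S18L.NmMain
import Fermat.Agent.S37L.NrQDefs
import Fermat.Agent.S37L.NrQA
import Fermat.Agent.S37L.NrQB
import Fermat.Agent.S37L.NrQD

/-!
# S37, block A, part C (second cover): the inequality
-/

set_option autoImplicit false

open scoped IntermediateField

namespace Fermat.Agent.S37L

open Fermat.Agent.S18L AlgebraicCurve

variable {K F k Fb : Type*} [Field K] [Field F] [Algebra K F] [Field k] [Field Fb] [Algebra k Fb]

theorem nrq79_ord_pow {κ Φ : Type*} [Field κ] [Field Φ] [Algebra κ Φ] (P : Place κ Φ) (f : Φ)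
    (m : ℕ) : P.ord (f ^ m) = m * P.ord f := by
  rw [← zpow_natCast, Place.ord_zpow]

/-- constants of `A` as elements of `O` -/
def nrq79_const (G : RedDatum K F k Fb) (c : G.A) : G.O :=
  ⟨algebraMap K F (c : K), (G.algebraMap_mem _).mpr c.2⟩

theorem nrq79_red_const (G : RedDatum K F k Fb) (c : G.A) :
    G.red (nrq79_const G c) = algebraMap k Fb (G.π c) :=
  G.red_algebraMap c _

theorem nrq79_fin_const (t : F) (c : K) : NmFin K t (algebraMap K F c) := by
  have h1 : algebraMap K F c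
      = algebraMap (Algebra.adjoin K {t}) F (algebraMap K (Algebra.adjoin K {t}) c) := rfl
  rw [NmFin, h1]
  exact isIntegral_algebraMap

/-- the inequality, for the class given as an abstract finite set -/
theorem nrq79_core [IsAlgClosed K] [CharZero K] [IsAlgClosed k]
    (G : RedDatum K F k Fb) (t : G.O) (n : ℕ) (h : NmHyp G t n)
    (r : Place K F → Place k Fb) (hr : NrEv G t r)
    (a : k) (Q₀ : Place k Fb) (hQ₀ : 0 < Q₀.ord (G.red t - algebraMap k Fb a)) (u : G.O)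
    (hufin : NmFin K (t : F) (u : F)) (hu : G.red u ≠ 0)
    (D : Place K F →₀ ℤ) (hD : ∀ P, D P = P.ord (u : F)) (Z : Finset (Place K F))
    (hZ : ∀ P, P ∈ Z ↔ (D P ≠ 0 ∧ NrOver G t P ∧ r P = Q₀)) :
    Q₀.ord (G.red u) ≤ ∑ P ∈ Z, D P := by
  classical
  have htr : Transcendental K (t : F) := nms_transcendental G t n h
  have hfin : Module.Finite K⟮(t : F)⟯ F := h.fin
  have hsep : Algebra.IsSeparable K⟮(t : F)⟯ F := nms_separable (t : F)
  have hreg : ∀ x : F, NmFin K (t : F) x → ∀ P, NrOver G t P → 0 ≤ P.ord x := by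
    rintro x hx P ⟨ρ, hρ⟩
    exact (nr_fin_iff (t : F) htr hfin hsep x).mp hx P
      (nrval_ord_nonneg P (Or.inr hρ : NrVal P (t : F) (ρ : K)))
  obtain ⟨ϖb, hϖbfin, hϖb1⟩ := nr_sup_unif (G.red t) h.tr h.finb h.sep a Q₀ hQ₀
  obtain ⟨ϖ, hϖfin, hϖred⟩ := nrq_lift G t n h ϖb hϖbfin
  have hϖb0 : ϖb ≠ 0 := by
    rintro rfl
    rw [Place.ord_zero] at hϖb1
    omega
  have hϖbval : NrVal Q₀ ϖb 0 := Or.inr (by rw [map_zero, sub_zero, hϖb1]; norm_num)
  have hex : ∀ P : Place K F, ∃ c : G.A, G.π c = 0 ∧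
      (NrOver G t P → r P = Q₀ → NrVal P (ϖ : F) (c : K)) := by
    intro P
    by_cases hP : NrOver G t P ∧ r P = Q₀
    · obtain ⟨⟨ρ, hρ⟩, hrP⟩ := hP
      obtain ⟨c, hc⟩ := nr_sup_val (t : F) htr hfin hsep P (ϖ : F) (hreg _ hϖfin P ⟨ρ, hρ⟩)
      obtain ⟨hcA, hval⟩ := hr P ρ hρ ϖ hϖfin c hc
      rw [hrP, hϖred] at hval
      exact ⟨⟨c, hcA⟩, nrval_unique Q₀ hval hϖbval, fun _ _ => hc⟩
    · exact ⟨0, map_zero _, fun h1 h2 => absurd ⟨h1, h2⟩ hP⟩
  choose c hcπ hcval using hex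
  have hfacred : ∀ P, G.red (ϖ - nrq79_const G (c P)) = ϖb := by
    intro P
    rw [map_sub, nrq79_red_const, hcπ, map_zero, sub_zero, hϖred]
  have hfac0 : ∀ P, ((ϖ : F) - algebraMap K F ((c P : G.A) : K)) ≠ 0 := by
    intro P h0
    have h1 : ϖ - nrq79_const G (c P) = 0 := Subtype.ext h0
    have h2 := hfacred P
    rw [h1, map_zero] at h2
    exact hϖb0 h2.symm
  have hfacfin : ∀ P, NmFin K (t : F) ((ϖ : F) - algebraMap K F ((c P : G.A) : K)) :=
    fun P => IsIntegral.sub hϖfin (nrq79_fin_const (t : F) _)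
  have hfacpos : ∀ P, NrOver G t P → r P = Q₀ →
      1 ≤ P.ord ((ϖ : F) - algebraMap K F ((c P : G.A) : K)) := by
    intro P h1 h2
    rcases hcval P h1 h2 with h3 | h3
    · exact absurd (sub_eq_zero.mpr h3) (hfac0 P)
    · omega
  have hDnn : ∀ P, NrOver G t P → 0 ≤ D P := fun P hP => by
    rw [hD]
    exact hreg _ hufin P hP
  have hprodfin : ∀ Z' : Finset (Place K F), NmFin K (t : F)
      (∏ P ∈ Z', ((ϖ : F) - algebraMap K F ((c P : G.A) : K)) ^ (D P).toNat) :=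
    fun Z' => IsIntegral.prod _ fun P _ => IsIntegral.pow (hfacfin P) _
  obtain ⟨y, hy⟩ : ∃ y : G.O, y = ∏ P ∈ Z, (ϖ - nrq79_const G (c P)) ^ (D P).toNat := ⟨_, rfl⟩
  have hyred : G.red y = ϖb ^ (∑ P ∈ Z, (D P).toNat) := by
    rw [hy, map_prod, ← Finset.prod_pow_eq_pow_sum]
    refine Finset.prod_congr rfl fun P _ => ?_
    rw [map_pow, hfacred]
  have hyred0 : G.red y ≠ 0 := by
    rw [hyred]
    exact pow_ne_zero _ hϖb0
  have hyord : Q₀.ord (G.red y) = ∑ P ∈ Z, D P := by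
    rw [hyred, nrq79_ord_pow, hϖb1, mul_one]
    push_cast
    refine Finset.sum_congr rfl fun P hP => ?_
    exact Int.toNat_of_nonneg (hDnn P ((hZ P).mp hP).2.1)
  have hycoe : (y : F)
      = ∏ P ∈ Z, ((ϖ : F) - algebraMap K F ((c P : G.A) : K)) ^ (D P).toNat := by
    rw [hy]
    exact map_prod G.O.subtype _ _
  have hy0 : (y : F) ≠ 0 := by
    intro h0
    have h1 : y = 0 := Subtype.ext h0
    rw [h1, map_zero] at hyred0
    exact hyred0 rfl
  have hu0 : (u : F) ≠ 0 := by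
    intro h0
    have h1 : u = 0 := Subtype.ext h0
    rw [h1, map_zero] at hu
    exact hu rfl
  have huinv : ((u : F))⁻¹ ∈ G.O := G.inv_mem u hu
  obtain ⟨w, hw⟩ : ∃ w : G.O, w = y * ⟨(u : F)⁻¹, huinv⟩ := ⟨_, rfl⟩
  have hwcoe : (w : F) = (y : F) * (u : F)⁻¹ := by rw [hw]; rfl
  have hwu : w * u = y := by
    apply Subtype.ext
    show (w : F) * (u : F) = (y : F)
    rw [hwcoe, inv_mul_cancel_right₀ hu0]
  have hredmul : G.red w * G.red u = G.red y := by rw [← map_mul, hwu]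
  have hw0 : G.red w ≠ 0 := by
    intro h0
    rw [h0, zero_mul] at hredmul
    exact hyred0 hredmul.symm
  have hwreg : ∀ P : Place K F, NrOver G t P → r P = Q₀ → 0 ≤ P.ord (w : F) := by
    intro P h1 h2
    rw [hwcoe, P.ord_mul hy0 (inv_ne_zero hu0), Place.ord_inv, ← hD]
    by_cases hPZ : P ∈ Z
    · have h3 := hfacpos P h1 h2
      have h4 := hreg _ (hprodfin (Z.erase P)) P h1
      have h5 : (((D P).toNat : ℕ) : ℤ) = D P := Int.toNat_of_nonneg (hDnn P h1)
      have h6 : P.ord (y : F) = ((D P).toNat : ℤ)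
            * P.ord ((ϖ : F) - algebraMap K F ((c P : G.A) : K))
          + P.ord (∏ P' ∈ Z.erase P,
              ((ϖ : F) - algebraMap K F ((c P' : G.A) : K)) ^ (D P').toNat) := by
        rw [hycoe, ← Finset.mul_prod_erase Z _ hPZ,
          P.ord_mul (pow_ne_zero _ (hfac0 P))
            (Finset.prod_ne_zero_iff.mpr fun P' _ => pow_ne_zero _ (hfac0 P')),
          nrq79_ord_pow]
      have h7 := hDnn P h1
      nlinarith
    · have hD0 : D P = 0 := by
        by_contra hne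
        exact hPZ ((hZ P).mpr ⟨hne, h1, h2⟩)
      have h4 : 0 ≤ P.ord (y : F) := by
        rw [hycoe]
        exact hreg _ (hprodfin Z) P h1
      omega
  have hfinal := nrq_reg G t n h r hr a Q₀ hQ₀ w hwreg
  have hsplit : Q₀.ord (G.red y) = Q₀.ord (G.red w) + Q₀.ord (G.red u) := by
    rw [← hredmul, Q₀.ord_mul hw0 hu]
  omega

/-- **(INEQ)** for `u ∈ O` integral over `K[t]` of nonzero reduction, `red u` vanishes at
`Q₀` at most to the order of the number of zeros of `u` in the class of `Q₀`. -/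
theorem nrq_ineq [IsAlgClosed K] [CharZero K] [IsAlgClosed k]
    (G : RedDatum K F k Fb) (t : G.O) (n : ℕ) (h : NmHyp G t n)
    (r : Place K F → Place k Fb) (hr : NrEv G t r)
    (a : k) (Q₀ : Place k Fb) (hQ₀ : 0 < Q₀.ord (G.red t - algebraMap k Fb a)) (u : G.O)
    (hufin : NmFin K (t : F) (u : F)) (hu : G.red u ≠ 0) :
    Q₀.ord (G.red u) ≤ nrqN G t r Q₀ (u : F) := by
  classical
  have hu0 : (u : F) ≠ 0 := by
    intro h0
    have h1 : u = 0 := Subtype.ext h0
    rw [h1, map_zero] at hu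
    exact hu rfl
  have hfin : Module.Finite K⟮(t : F)⟯ F := h.fin
  obtain ⟨D, hD⟩ := nr_exists_div (t : F) (nms_transcendental G t n h) hfin
    (nms_separable (t : F)) (u : F) hu0
  rw [nrq_N_eq_sum G t r Q₀ (u : F) D hD]
  refine nrq79_core G t n h r hr a Q₀ hQ₀ u hufin hu D hD _ fun P => ?_
  rw [Finset.mem_filter, Finsupp.mem_support_iff]
  rfl

end Fermat.Agent.S37L
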