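import Mathlib
import Fermat.Agent.S18L.NmMain
import Fermat.Agent.S37L.NrQDefs
import Fermat.Agent.S37L.NrQA
import Fermat.Agent.S37L.NrQB
import Fermat.Agent.S37L.NrQE

/-!
# S37, block A, part C (second cover): conservation for `t - ρ`
-/

set_option autoImplicit false

open scoped IntermediateField

namespace Fermat.Agent.S37L

open Fermat.Agent.S18L AlgebraicCurve

variable {K F k Fb : Type*} [Field K] [Field F] [Algebra K F] [Field k] [Field Fb] [Algebra k Fb]

/-- **(STAR)** conservation for the functions `t - ρ`, `ρ ∈ A`. -/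
theorem nrq_star [IsAlgClosed K] [CharZero K] [IsAlgClosed k]
    (G : RedDatum K F k Fb) (t : G.O) (n : ℕ) (h : NmHyp G t n)
    (r : Place K F → Place k Fb) (hr : NrEv G t r)
    (ρ : G.A) (Q : Place k Fb) (hQ : 0 < Q.ord (G.red t - algebraMap k Fb (G.π ρ))) :
    nrqN G t r Q ((t : F) - algebraMap K F (ρ : K))
      = Q.ord (G.red t - algebraMap k Fb (G.π ρ)) := by
  classical
  have hfin := h.fin
  have htr : Transcendental K (t : F) := nms_transcendental G t n h
  have hsep : Algebra.IsSeparable K⟮(t : F)⟯ F := nms_separable (t : F)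
  set a : k := G.π ρ with ha
  have hmem : algebraMap K F (ρ : K) ∈ G.O := (G.algebraMap_mem _).2 ρ.2
  set uO : G.O := t - ⟨algebraMap K F (ρ : K), hmem⟩ with huO
  have hcoe : (uO : F) = (t : F) - algebraMap K F (ρ : K) := rfl
  have hred : G.red uO = G.red t - algebraMap k Fb a := by
    rw [huO, map_sub, G.red_algebraMap ρ hmem]
  have hu0 : (t : F) - algebraMap K F (ρ : K) ≠ 0 := by
    intro h0
    apply htr
    rw [sub_eq_zero.mp h0]
    exact isAlgebraic_algebraMap _
  have hub0 : G.red t - algebraMap k Fb a ≠ 0 := by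
    intro h0
    apply h.tr
    rw [sub_eq_zero.mp h0]
    exact isAlgebraic_algebraMap _
  have htfin : NmFin K (t : F) ((t : G.O) : F) :=
    isIntegral_algebraMap (R := Algebra.adjoin K {(t : F)})
      (x := ⟨_, Algebra.subset_adjoin (Set.mem_singleton _)⟩)
  have hufin : NmFin K (t : F) (uO : F) := by
    rw [hcoe]
    have hm : (t : F) - algebraMap K F (ρ : K) ∈ Algebra.adjoin K {(t : F)} :=
      sub_mem (Algebra.subset_adjoin (Set.mem_singleton _)) (Subalgebra.algebraMap_mem _ _)
    exact isIntegral_algebraMap (R := Algebra.adjoin K {(t : F)}) (x := ⟨_, hm⟩)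
  obtain ⟨D, hD⟩ := nr_exists_div (t : F) htr hfin hsep _ hu0
  obtain ⟨E, hE⟩ := nr_exists_div (G.red t) h.tr h.finb h.sep _ hub0
  have hsumD := nr_sup_fund (t : F) htr hfin hsep (ρ : K) D hD
  have hsumE := nr_sup_fund (G.red t) h.tr h.finb h.sep a E hE
  rw [h.rank] at hsumD
  rw [h.rankb] at hsumE
  set S := D.support.filter (fun P => 0 < D P) with hS
  set T := E.support.filter (fun Q => 0 < E Q) with hT
  have hmaps : ∀ P ∈ S, r P ∈ T := by
    intro P hP
    rw [hS, Finset.mem_filter] at hP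
    have hpos : 0 < P.ord ((t : F) - algebraMap K F (ρ : K)) := by rw [← hD]; exact hP.2
    obtain ⟨hc, hv⟩ := hr P ρ hpos t htfin (ρ : K) (Or.inr hpos)
    have hv' : 0 < (r P).ord (G.red t - algebraMap k Fb a) := by
      rcases hv with hv | hv
      · exact absurd (sub_eq_zero.mpr hv) hub0
      · exact hv
    rw [hT, Finset.mem_filter, Finsupp.mem_support_iff, hE]
    exact ⟨hv'.ne', hv'⟩
  have hN : ∀ Q', nrqN G t r Q' ((t : F) - algebraMap K F (ρ : K))
      = ∑ P ∈ S.filter (fun P => r P = Q'), D P := by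
    intro Q'
    rw [nrq_N_eq_sum G t r Q' _ D hD, hS, Finset.filter_filter]
    refine Finset.sum_congr ?_ (fun _ _ => rfl)
    ext P
    simp only [Finset.mem_filter, Finsupp.mem_support_iff]
    constructor
    · rintro ⟨hP, ⟨ρ', hρ'⟩, hrP⟩
      refine ⟨hP, ?_, hrP⟩
      by_cases hρρ : (ρ' : K) = ρ
      · rw [hD, ← hρρ]; exact hρ'
      · exact absurd (by rw [hD]; exact (nrval_ord_sub_eq_zero P (Or.inr hρ') hρρ).2) hP
    · rintro ⟨hP, hpos, hrP⟩
      exact ⟨hP, ⟨ρ, by rw [← hD]; exact hpos⟩, hrP⟩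
  have hle : ∀ Q' ∈ T, E Q' ≤ nrqN G t r Q' ((t : F) - algebraMap K F (ρ : K)) := by
    intro Q' hQ'
    rw [hT, Finset.mem_filter] at hQ'
    have hpos : 0 < Q'.ord (G.red t - algebraMap k Fb a) := by rw [← hE]; exact hQ'.2
    have h1 := nrq_ineq G t n h r hr a Q' hpos uO hufin (by rw [hred]; exact hub0)
    rw [hred, hcoe] at h1
    rw [hE]; exact h1
  have hsum : ∑ Q' ∈ T, E Q' = ∑ Q' ∈ T, nrqN G t r Q' ((t : F) - algebraMap K F (ρ : K)) := by
    have h1 : ∑ Q' ∈ T, nrqN G t r Q' ((t : F) - algebraMap K F (ρ : K)) = ∑ P ∈ S, D P := by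
      rw [Finset.sum_congr rfl (fun Q' _ => hN Q')]
      exact Finset.sum_fiberwise_of_maps_to hmaps _
    have h2 : ∑ P ∈ S, D P = n := by
      rw [← hsumD, hS, Finset.sum_filter]
      refine Finset.sum_congr rfl fun P _ => ?_
      split_ifs with hp
      · exact (max_eq_left hp.le).symm
      · exact (max_eq_right (not_lt.mp hp)).symm
    have h3 : ∑ Q' ∈ T, E Q' = n := by
      rw [← hsumE, hT, Finset.sum_filter]
      refine Finset.sum_congr rfl fun P _ => ?_
      split_ifs with hp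
      · exact (max_eq_left hp.le).symm
      · exact (max_eq_right (not_lt.mp hp)).symm
    rw [h1, h2, h3]
  have hQT : Q ∈ T := by
    rw [hT, Finset.mem_filter, Finsupp.mem_support_iff, hE]
    exact ⟨hQ.ne', hQ⟩
  have hfinal := (Finset.sum_eq_sum_iff_of_le hle).mp hsum Q hQT
  rw [← hfinal, hE]

end Fermat.Agent.S37L
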