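import Mathlib
import Fermat.Agent.S18L.NmMain
import Fermat.Agent.S37L.NrQDefs
import Fermat.Agent.S37L.NrQA
import Fermat.Agent.S37L.NrQB
import Fermat.Agent.S37L.NrQF

/-!
# S37, block A, part C (second cover): conservation for polynomials in `t`
-/

set_option autoImplicit false

open scoped IntermediateField

namespace Fermat.Agent.S37L

open Fermat.Agent.S18L AlgebraicCurve

variable {K F k Fb : Type*} [Field K] [Field F] [Algebra K F] [Field k] [Field Fb] [Algebra k Fb]

/-- evaluating the image of a product of linear factors -/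
theorem nrq152_aeval_prod {R S B : Type*} [CommRing R] [CommRing S] [CommRing B] [Algebra S B]
    (f : R →+* S) (m : Multiset R) (x : B) :
    Polynomial.aeval x (((m.map fun ρ => Polynomial.X - Polynomial.C ρ).prod).map f)
      = (m.map fun ρ => x - algebraMap S B (f ρ)).prod := by
  rw [Polynomial.map_multiset_prod, map_multiset_prod, Multiset.map_map, Multiset.map_map]
  congr 1
  refine Multiset.map_congr rfl (fun ρ _ => ?_)
  simp

/-- a transcendental element minus a constant is nonzero -/
theorem nrq152_sub_ne_zero {κ Φ : Type*} [Field κ] [Field Φ] [Algebra κ Φ] (θ : Φ)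
    (hθ : Transcendental κ θ) (c : κ) : θ - algebraMap κ Φ c ≠ 0 := by
  intro h0
  exact hθ ((sub_eq_zero.mp h0) ▸ isAlgebraic_algebraMap c)

/-- a product of such factors is nonzero -/
theorem nrq152_prod_ne_zero {κ Φ ι : Type*} [Field κ] [Field Φ] [Algebra κ Φ] (θ : Φ)
    (hθ : Transcendental κ θ) (m : Multiset ι) (c : ι → κ) :
    (m.map fun ρ => θ - algebraMap κ Φ (c ρ)).prod ≠ 0 := by
  apply Multiset.prod_ne_zero
  intro h0
  obtain ⟨ρ, -, hρ⟩ := Multiset.mem_map.1 h0
  exact nrq152_sub_ne_zero θ hθ (c ρ) hρ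

/-- at a place of the class of `Q` over the closed unit disc, `t` has a value in `A` whose
reduction is `a`. -/
theorem nrq152_class (G : RedDatum K F k Fb) (t : G.O)
    (r : Place K F → Place k Fb) (hr : NrEv G t r)
    (a : k) (Q : Place k Fb) (hQ : 0 < Q.ord (G.red t - algebraMap k Fb a))
    (P : Place K F) (hP : NrOver G t P) (hPQ : r P = Q) :
    ∃ ρ : G.A, NrVal P (t : F) (ρ : K) ∧ G.π ρ = a := by
  obtain ⟨ρ, hρ⟩ := hP
  have ht : NmFin K (t : F) (t : F) :=
    isIntegral_algebraMap (R := Algebra.adjoin K {(t : F)}) (A := F)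
      (x := ⟨(t : F), Algebra.subset_adjoin (Set.mem_singleton _)⟩)
  obtain ⟨hc, hv⟩ := hr P ρ hρ t ht (ρ : K) (Or.inr hρ)
  rw [hPQ] at hv
  exact ⟨ρ, Or.inr hρ, nrval_unique Q hv (Or.inr hQ)⟩

/-- conservation for products of factors `t - ρ` with `π ρ = a`. -/
theorem nrq152_prod [IsAlgClosed K] [CharZero K] [IsAlgClosed k]
    (G : RedDatum K F k Fb) (t : G.O) (n : ℕ) (h : NmHyp G t n)
    (r : Place K F → Place k Fb) (hr : NrEv G t r)
    (a : k) (Q : Place k Fb) (hQ : 0 < Q.ord (G.red t - algebraMap k Fb a))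
    (m : Multiset G.A) (hm : ∀ ρ ∈ m, G.π ρ = a) :
    nrqN G t r Q ((m.map fun ρ : G.A => (t : F) - algebraMap K F (ρ : K)).prod)
      = Q.ord ((m.map fun ρ : G.A => G.red t - algebraMap k Fb (G.π ρ)).prod) := by
  have htr : Transcendental K (t : F) := nms_transcendental G t n h
  induction m using Multiset.induction_on with
  | empty =>
    rw [Multiset.map_zero, Multiset.prod_zero, Multiset.map_zero, Multiset.prod_zero,
      Place.ord_one]
    exact nrq_N_eq_zero G t r Q 1 (fun P _ _ => P.ord_one)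
  | cons ρ m ih =>
    have hρ : G.π ρ = a := hm ρ (Multiset.mem_cons_self ρ m)
    have ih' := ih (fun σ hσ => hm σ (Multiset.mem_cons_of_mem hσ))
    rw [Multiset.map_cons, Multiset.prod_cons, Multiset.map_cons, Multiset.prod_cons,
      nrq_N_mul G t n h r Q _ _ (nrq152_sub_ne_zero (t : F) htr (ρ : K))
        (nrq152_prod_ne_zero (t : F) htr m (fun σ : G.A => (σ : K))),
      Place.ord_mul Q (nrq152_sub_ne_zero (G.red t) h.tr (G.π ρ))
        (nrq152_prod_ne_zero (G.red t) h.tr m (fun σ : G.A => G.π σ)),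
      ih', nrq_star G t n h r hr ρ Q (by rw [hρ]; exact hQ)]

/-- **(POLY)** conservation for `p(t)`, `p` a polynomial over `A` of nonzero reduction. -/
theorem nrq_poly [IsAlgClosed K] [CharZero K] [IsAlgClosed k]
    (G : RedDatum K F k Fb) (t : G.O) (n : ℕ) (h : NmHyp G t n)
    (r : Place K F → Place k Fb) (hr : NrEv G t r)
    (a : k) (Q : Place k Fb) (hQ : 0 < Q.ord (G.red t - algebraMap k Fb a))
    (p : Polynomial G.A) (hp : p.map G.π ≠ 0) :
    nrqN G t r Q (Polynomial.aeval (t : F) (p.map G.A.subtype))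
      = Q.ord (Polynomial.aeval (G.red t) (p.map G.π)) := by
  classical
  have htr : Transcendental K (t : F) := nms_transcendental G t n h
  obtain ⟨g, hh, hfac, hmon, hga, hroots⟩ := nms_factor G.A G.π G.π_eq_zero p hp a
  have hsplit : (hh.map G.A.subtype).Splits := IsAlgClosed.splits _
  have hmon' : (hh.map G.A.subtype).Monic := hmon.map _
  have hRA : ∀ ρ ∈ (hh.map G.A.subtype).roots, ρ ∈ G.A := by
    intro ρ hρ
    obtain ⟨r', hr', -⟩ := hroots ρ (Polynomial.isRoot_of_mem_roots hρ)
    exact hr' ▸ r'.2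
  obtain ⟨R', hR'⟩ := nmsfac_lift_multiset G.A _ hRA
  have hh_eq : hh = (R'.map (fun ρ => Polynomial.X - Polynomial.C ρ)).prod := by
    apply Polynomial.map_injective G.A.subtype Subtype.val_injective
    have h1 := hsplit.eq_prod_roots_of_monic hmon'
    rw [← hR', Multiset.map_map] at h1
    rw [h1, Polynomial.map_multiset_prod, Multiset.map_map]
    congr 1
    refine Multiset.map_congr rfl (fun ρ _ => ?_)
    simp
  have hπR' : ∀ ρ ∈ R', G.π ρ = a := by
    intro ρ hρ
    have hmem : (ρ : K) ∈ (hh.map G.A.subtype).roots := by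
      rw [← hR']
      exact Multiset.mem_map_of_mem _ hρ
    obtain ⟨r', hr', hr'a⟩ := hroots ρ (Polynomial.isRoot_of_mem_roots hmem)
    have : r' = ρ := Subtype.ext hr'
    rw [← this]
    exact hr'a
  -- the two evaluations
  have e1 : Polynomial.aeval (t : F) (p.map G.A.subtype)
      = Polynomial.aeval (t : F) (g.map G.A.subtype)
        * (R'.map fun ρ : G.A => (t : F) - algebraMap K F (ρ : K)).prod := by
    rw [hfac, Polynomial.map_mul, map_mul]
    congr 1
    rw [hh_eq]
    exact nrq152_aeval_prod G.A.subtype R' (t : F)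
  have e2 : Polynomial.aeval (G.red t) (p.map G.π)
      = Polynomial.aeval (G.red t) (g.map G.π)
        * (R'.map fun ρ : G.A => G.red t - algebraMap k Fb (G.π ρ)).prod := by
    rw [hfac, Polynomial.map_mul, map_mul]
    congr 1
    rw [hh_eq]
    exact nrq152_aeval_prod G.π R' (G.red t)
  -- the factor `g`
  have hgπ : g.map G.π ≠ 0 := by
    intro h0
    rw [h0, Polynomial.eval_zero] at hga
    exact hga rfl
  have hg0 : g.map G.A.subtype ≠ 0 := by
    intro h0
    have : g = 0 := Polynomial.map_injective G.A.subtype Subtype.val_injective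
      (by rw [h0, Polynomial.map_zero])
    rw [this, Polynomial.map_zero] at hgπ
    exact hgπ rfl
  have hgt : Polynomial.aeval (t : F) (g.map G.A.subtype) ≠ 0 :=
    fun h0 => hg0 (transcendental_iff.mp htr _ h0)
  have hgN : nrqN G t r Q (Polynomial.aeval (t : F) (g.map G.A.subtype)) = 0 := by
    apply nrq_N_eq_zero
    intro P hP hPQ
    obtain ⟨ρ, hval, hρ⟩ := nrq152_class G t r hr a Q hQ P hP hPQ
    have hv := nrval_aeval P hval (g.map G.A.subtype)
    refine (nrval_ord_eq_zero P hv ?_).2
    intro h0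
    have h1 : (g.map G.A.subtype).eval (G.A.subtype ρ) = G.A.subtype (g.eval ρ) :=
      Polynomial.eval_map_apply _ _
    have h2 : g.eval ρ = 0 := by
      apply Subtype.val_injective
      rw [← G.A.subtype_apply, ← h1]
      exact h0
    have h3 : (g.map G.π).eval (G.π ρ) = G.π (g.eval ρ) := Polynomial.eval_map_apply _ _
    rw [hρ, h2, map_zero] at h3
    exact hga h3
  have hgQ := nrval_ord_eq_zero Q
    (nrval_aeval Q (Or.inr hQ : NrVal Q (G.red t) a) (g.map G.π)) hga
  rw [e1, e2, nrq_N_mul G t n h r Q _ _ hgt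
      (nrq152_prod_ne_zero (t : F) htr R' (fun σ : G.A => (σ : K))),
    Place.ord_mul Q hgQ.1 (nrq152_prod_ne_zero (G.red t) h.tr R' (fun σ : G.A => G.π σ)),
    hgN, hgQ.2, nrq152_prod G t n h r hr a Q hQ R' hπR']

end Fermat.Agent.S37L
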