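import Mathlib
import Fermat.Agent.S18L.NmMain
import Fermat.Agent.S37L.NrQDefs
import Fermat.Agent.S37L.NrQA
import Fermat.Agent.S37L.NrQB
import Fermat.Agent.S37L.NrQE
import Fermat.Agent.S37L.NrQG

/-!
# S37, block A, part C (second cover): conservation for functions integral over `K[t]`
-/

set_option autoImplicit false

open scoped IntermediateField

namespace Fermat.Agent.S37L

open Fermat.Agent.S18L AlgebraicCurve

variable {K F k Fb : Type*} [Field K] [Field F] [Algebra K F] [Field k] [Field Fb] [Algebra k Fb]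

/-- a nonzero element integral over a subalgebra `R` of a field divides (inside the integral
closure) a nonzero element of `R`. -/
theorem nrq154_exists_mul_eq {Φ : Type*} [Field Φ] {R : Type*} [CommRing R] [Algebra R Φ]
    (u : Φ) (hu : IsIntegral R u) (hu0 : u ≠ 0) :
    ∃ (v : Φ) (c : R), IsIntegral R v ∧ c ≠ 0 ∧ u * v = algebraMap R Φ c := by
  obtain ⟨f, hfm, hf⟩ := hu
  have hf' : Polynomial.aeval u f = 0 := by
    rw [Polynomial.aeval_def]; exact hf
  have hf0 : f ≠ 0 := hfm.ne_zero_of_ne (by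
    intro h01
    have : algebraMap R Φ 0 = algebraMap R Φ 1 := by rw [h01]
    rw [map_zero, map_one] at this
    exact zero_ne_one this)
  obtain ⟨q, hq, hnd⟩ := Polynomial.exists_eq_pow_rootMultiplicity_mul_and_not_dvd f hf0 0
  rw [Polynomial.C_0, sub_zero] at hq hnd
  have hq0 : q.coeff 0 ≠ 0 := fun h => hnd (Polynomial.X_dvd_iff.2 h)
  have hqu : Polynomial.aeval u q = 0 := by
    rw [hq, map_mul, map_pow, Polynomial.aeval_X] at hf'
    rcases mul_eq_zero.1 hf' with h | h
    · exact absurd (pow_eq_zero_iff (M₀ := _) (fun hm => by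
        rw [hm, pow_zero] at h; exact one_ne_zero h) |>.1 h) hu0
    · exact h
  have hdiv : Polynomial.aeval u (Polynomial.divX q) * u + algebraMap R Φ (q.coeff 0) = 0 := by
    have h1 := congrArg (Polynomial.aeval u) (Polynomial.divX_mul_X_add q)
    rw [map_add, map_mul, Polynomial.aeval_X, Polynomial.aeval_C, hqu] at h1
    exact h1
  refine ⟨Polynomial.aeval u (Polynomial.divX q), -(q.coeff 0), ?_, neg_ne_zero.2 hq0, ?_⟩
  · have hmem : Polynomial.aeval u (Polynomial.divX q) ∈ Algebra.adjoin R {u} :=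
      Polynomial.aeval_mem_adjoin_singleton R u
    have hle : Algebra.adjoin R {u} ≤ integralClosure R Φ :=
      Algebra.adjoin_le (by
        intro x hx
        rw [Set.mem_singleton_iff] at hx
        rw [hx]
        exact ⟨f, hfm, hf⟩)
    exact hle hmem
  · rw [map_neg]
    linear_combination hdiv

/-- **(FIN)** conservation for `u ∈ O` integral over `K[t]` of nonzero reduction. -/
theorem nrq_fin [IsAlgClosed K] [CharZero K] [IsAlgClosed k]
    (G : RedDatum K F k Fb) (t : G.O) (n : ℕ) (h : NmHyp G t n)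
    (r : Place K F → Place k Fb) (hr : NrEv G t r)
    (a : k) (Q : Place k Fb) (hQ : 0 < Q.ord (G.red t - algebraMap k Fb a)) (u : G.O)
    (hufin : NmFin K (t : F) (u : F)) (hu : G.red u ≠ 0) :
    nrqN G t r Q (u : F) = Q.ord (G.red u) := by
  have hle := nrq_ineq G t n h r hr a Q hQ u hufin hu
  have hu0 : (u : F) ≠ 0 := by
    intro h0
    apply hu
    have hz : u = 0 := Subtype.ext h0
    rw [hz, map_zero]
  obtain ⟨v, c, hv, hc0, huv⟩ :=
    nrq154_exists_mul_eq (R := Algebra.adjoin K {(t : F)}) (u : F) hufin hu0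
  have hcF : algebraMap (Algebra.adjoin K {(t : F)}) F c = (c : F) := rfl
  rw [hcF] at huv
  obtain ⟨a0, ha0⟩ : ∃ a0 : Polynomial K, Polynomial.aeval (t : F) a0 = (c : F) := by
    have hc : (c : F) ∈ (Polynomial.aeval (R := K) (t : F)).range := by
      rw [← Algebra.adjoin_singleton_eq_range_aeval]
      exact c.2
    exact hc
  have hcF0 : (c : F) ≠ 0 := fun h0 => hc0 (Subtype.ext h0)
  have hv0 : v ≠ 0 := by
    rintro rfl
    rw [mul_zero] at huv
    exact hcF0 huv.symm
  obtain ⟨lam, hlam, hmem, hred⟩ := G.exists_smul v hv0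
  have hv'fin : NmFin K (t : F) (((⟨lam • v, hmem⟩ : G.O) : G.O) : F) := by
    show IsIntegral (Algebra.adjoin K {(t : F)}) (lam • v)
    rw [Algebra.smul_def]
    have hl : algebraMap K F lam
        = algebraMap (Algebra.adjoin K {(t : F)}) F
            (algebraMap K (Algebra.adjoin K {(t : F)}) lam) := rfl
    rw [hl]
    exact IsIntegral.mul isIntegral_algebraMap hv
  have hprod : (u : F) * (lam • v) = Polynomial.aeval (t : F) (Polynomial.C lam * a0) := by
    rw [map_mul, Polynomial.aeval_C, ha0, ← huv, Algebra.smul_def]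
    ring
  have hmemO : Polynomial.aeval (t : F) (Polynomial.C lam * a0) ∈ G.O := by
    rw [← hprod]
    exact (u * (⟨lam • v, hmem⟩ : G.O)).2
  obtain ⟨ν, hν⟩ := nmo_exists_lift_of_aeval_mem G t h.tr _ hmemO
  have hν' : ν.map G.A.subtype = Polynomial.C lam * a0 := by
    rw [hν]
    rfl
  obtain ⟨hm2, hred2⟩ := nm_red_aeval G t ν
  have huv' : u * (⟨lam • v, hmem⟩ : G.O)
      = ⟨Polynomial.aeval (t : F) (ν.map G.A.subtype), hm2⟩ := by
    apply Subtype.ext
    show (u : F) * (lam • v) = Polynomial.aeval (t : F) (ν.map G.A.subtype)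
    rw [hprod, hν']
  have hredprod : G.red u * G.red ⟨lam • v, hmem⟩
      = Polynomial.aeval (G.red t) (ν.map G.π) := by
    rw [← map_mul, huv', hred2]
  have hνπ : ν.map G.π ≠ 0 := by
    intro h0
    rw [h0, map_zero] at hredprod
    exact mul_ne_zero hu hred hredprod
  have hv'0 : lam • v ≠ 0 := smul_ne_zero hlam hv0
  have hN := nrq_N_mul G t n h r Q (u : F) (lam • v) hu0 hv'0
  have hP := nrq_poly G t n h r hr a Q hQ ν hνπ
  have hle' := nrq_ineq G t n h r hr a Q hQ ⟨lam • v, hmem⟩ hv'fin hred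
  have hord := Q.ord_mul hu hred
  rw [hredprod] at hord
  rw [hprod, ← hν', hP, hord] at hN
  have hle'' : Q.ord (G.red ⟨lam • v, hmem⟩) ≤ nrqN G t r Q (lam • v) := hle'
  omega

end Fermat.Agent.S37L
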