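import Mathlib
import Fermat.Agent.S18L.NmMain
import Fermat.Agent.S37L.NrQDefs
import Fermat.Agent.S37L.NrQA
import Fermat.Agent.S37L.NrQB
import Fermat.Agent.S37L.NrQG
import Fermat.Agent.S37L.NrQH

/-!
# S37, block A, part C (second cover): conservation in one chart
-/

set_option autoImplicit false

open scoped IntermediateField

namespace Fermat.Agent.S37L

open Fermat.Agent.S18L AlgebraicCurve

variable {K F k Fb : Type*} [Field K] [Field F] [Algebra K F] [Field k] [Field Fb] [Algebra k Fb]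

/-- **(GEN)** conservation for all `u ∈ O` of nonzero reduction. -/
theorem nrq_gen [IsAlgClosed K] [CharZero K] [IsAlgClosed k]
    (G : RedDatum K F k Fb) (t : G.O) (n : ℕ) (h : NmHyp G t n)
    (r : Place K F → Place k Fb) (hr : NrEv G t r)
    (a : k) (Q : Place k Fb) (hQ : 0 < Q.ord (G.red t - algebraMap k Fb a)) (u : G.O)
    (hu : G.red u ≠ 0) :
    nrqN G t r Q (u : F) = Q.ord (G.red u) := by
  obtain ⟨p, hp, hfin⟩ := nrq_clear G t n h (u : F)
  obtain ⟨hmem, hred⟩ := nm_red_aeval G t p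
  -- `u ≠ 0` in `F`
  have hu0 : (u : F) ≠ 0 := by
    intro h0
    apply hu
    have : u = 0 := Subtype.ext h0
    rw [this, map_zero]
  -- `p̄(τ) ≠ 0`
  have hpτ : Polynomial.aeval (G.red t) (p.map G.π) ≠ 0 := by
    intro h0
    exact hp (transcendental_iff_injective.1 h.tr (h0.trans (map_zero _).symm))
  -- `p(t) ≠ 0` in `F`
  have hpt0 : Polynomial.aeval (t : F) (p.map G.A.subtype) ≠ 0 := by
    intro h0
    apply hpτ
    rw [← hred]
    have : (⟨Polynomial.aeval (t : F) (p.map G.A.subtype), hmem⟩ : G.O) = 0 := Subtype.ext h0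
    rw [this, map_zero]
  -- `y = p(t) u`
  set y : G.O := ⟨Polynomial.aeval (t : F) (p.map G.A.subtype), hmem⟩ * u with hy
  have hyF : (y : F) = Polynomial.aeval (t : F) (p.map G.A.subtype) * (u : F) := rfl
  have hyred : G.red y = Polynomial.aeval (G.red t) (p.map G.π) * G.red u := by
    rw [hy, map_mul, hred]
  have hyred0 : G.red y ≠ 0 := by
    rw [hyred]
    exact mul_ne_zero hpτ hu
  have h1 := nrq_fin G t n h r hr a Q hQ y (by rw [hyF]; exact hfin) hyred0
  have h2 := nrq_N_mul G t n h r Q _ _ hpt0 hu0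
  have h3 := nrq_poly G t n h r hr a Q hQ p hp
  rw [hyF, h2, h3, hyred, Q.ord_mul hpτ hu] at h1
  exact add_left_cancel h1

open Classical in
/-- conservation in the chart `t` (the statement of `nr_cons_chart`) -/
theorem nrq_cons_chart [IsAlgClosed K] [CharZero K] [IsAlgClosed k]
    (G : RedDatum K F k Fb) (t : G.O) (n : ℕ) (h : NmHyp G t n)
    (r : Place K F → Place k Fb) (hr : NrEv G t r)
    (a : k) (Q : Place k Fb) (hQ : 0 < Q.ord (G.red t - algebraMap k Fb a))
    (u : G.O) (hu : G.red u ≠ 0) (D : Place K F →₀ ℤ) (hD : ∀ P, D P = P.ord (u : F)) :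
    (∑ P ∈ D.support.filter (fun P =>
        (∃ ρ : G.A, 0 < P.ord ((t : F) - algebraMap K F (ρ : K))) ∧ r P = Q), D P)
      = Q.ord (G.red u) := by
  rw [← nrq_N_eq_sum G t r Q (u : F) D hD]
  exact nrq_gen G t n h r hr a Q hQ u hu

end Fermat.Agent.S37L
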