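import Mathlib
import Fermat.Agent.S18L.NmMain
import Fermat.Agent.S37L.NrDefs
import Fermat.Agent.S37L.NrSup
import Fermat.Agent.S37L.NrQI

/-!
# S37, block A, part C (owner helper4): conservation of number in one chart

Interface statement (frozen by helper2).
-/

set_option autoImplicit false

open scoped IntermediateField

namespace Fermat.Agent.S37L

open Fermat.Agent.S18L AlgebraicCurve

variable {K F k Fb : Type*} [Field K] [Field F] [Algebra K F] [Field k] [Field Fb] [Algebra k Fb]

open Classical in
/-- **(C)** conservation in the chart `t`: for a place map `r` with the EV property, a place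
`Q` of `Fb` over the point `a` of the `red t`-line and `u ∈ O` of nonzero reduction, the orders
of `u` at the places `P` over the closed unit disc with `r P = Q` add up to `ord_Q (red u)`. -/
theorem nr_cons_chart [IsAlgClosed K] [CharZero K] [IsAlgClosed k]
    (G : RedDatum K F k Fb) (t : G.O) (n : ℕ) (h : NmHyp G t n)
    (r : Place K F → Place k Fb) (hr : NrEv G t r)
    (a : k) (Q : Place k Fb) (hQ : 0 < Q.ord (G.red t - algebraMap k Fb a))
    (u : G.O) (hu : G.red u ≠ 0) (D : Place K F →₀ ℤ) (hD : ∀ P, D P = P.ord (u : F)) :
    (∑ P ∈ D.support.filter (fun P =>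
        (∃ ρ : G.A, 0 < P.ord ((t : F) - algebraMap K F (ρ : K))) ∧ r P = Q), D P)
      = Q.ord (G.red u) := by
  exact nrq_cons_chart G t n h r hr a Q hQ u hu D hD

end Fermat.Agent.S37L
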