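import Mathlib
import Fermat.Agent.S18L.NmMain
import Fermat.Agent.S37L.NrDefs

/-!
# S37, block A, part R (helper1): Gauss-integral coordinates with unit-valued denominators

* `nrr_norm_den` : a polynomial over `K` without roots in `A` is a nonzero constant times a
  polynomial over `A` all of whose values on `A` are units
* `nrr_coords`   : an element of `O` integral over `K[t]` has, in a lifted integral basis,
  coordinates `R_i / Q` with `Q, R_i` over `A` and `Q` unit-valued on `A`
-/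

set_option autoImplicit false

open scoped IntermediateField

namespace Fermat.Agent.S37L

open Fermat.Agent.S18L AlgebraicCurve

variable {K F k Fb : Type*} [Field K] [Field F] [Algebra K F] [Field k] [Field Fb] [Algebra k Fb]

/-- a product of linear factors `X - σ` with all `σ ∉ A` is a nonzero constant multiple of a
polynomial over `A` which reduces to `1`. -/
theorem nrra1_exists_prim (G : RedDatum K F k Fb) (s : Multiset K) (hs : ∀ σ ∈ s, σ ∉ G.A) :
    ∃ (Q : Polynomial G.A) (b : K), b ≠ 0 ∧ Q.map G.π = 1 ∧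
      Q.map G.A.subtype =
        Polynomial.C b * (s.map fun σ => Polynomial.X - Polynomial.C σ).prod := by
  induction s using Multiset.induction_on with
  | empty => exact ⟨1, 1, one_ne_zero, by simp, by simp⟩
  | cons r s ih =>
    obtain ⟨Q, b, hb, hQ1, hQ2⟩ := ih (fun r' hr' => hs r' (Multiset.mem_cons_of_mem hr'))
    have hr : r ∉ G.A := hs r (Multiset.mem_cons_self r s)
    have hr0 : r ≠ 0 := by
      rintro rfl
      exact hr (zero_mem _)
    have hrinv : r⁻¹ ∈ G.A := (G.A.mem_or_inv_mem r).resolve_left hr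
    have hπ0 : G.π ⟨r⁻¹, hrinv⟩ = 0 := by
      rw [G.π_eq_zero]
      intro hu
      obtain ⟨v, hv⟩ := hu.exists_right_inv
      apply hr
      have h1 : r⁻¹ * (v : K) = 1 := congrArg Subtype.val hv
      have h2 : (v : K) = r := by
        rw [← mul_one r, ← h1, mul_inv_cancel_left₀ hr0]
      exact h2 ▸ v.2
    refine ⟨(1 - Polynomial.C ⟨r⁻¹, hrinv⟩ * Polynomial.X) * Q, -r⁻¹ * b, ?_, ?_, ?_⟩
    · exact mul_ne_zero (neg_ne_zero.2 (inv_ne_zero hr0)) hb
    · simp [hQ1, hπ0]
    · have h3 : G.A.subtype ⟨r⁻¹, hrinv⟩ = r⁻¹ := rfl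
      have h5 : (Polynomial.C r⁻¹ * Polynomial.C r : Polynomial K) = 1 := by
        rw [← Polynomial.C_mul, inv_mul_cancel₀ hr0, Polynomial.C_1]
      have h4 : (1 - Polynomial.C r⁻¹ * Polynomial.X : Polynomial K) =
          Polynomial.C (-r⁻¹) * (Polynomial.X - Polynomial.C r) := by
        rw [Polynomial.C_neg]
        linear_combination -h5
      rw [Polynomial.map_mul, Polynomial.map_sub, Polynomial.map_one, Polynomial.map_mul,
        Polynomial.map_C, Polynomial.map_X, h3, hQ2, Multiset.map_cons, Multiset.prod_cons, h4,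
        Polynomial.C_mul]
      ring

/-- a polynomial over `K` without roots in `A` is a nonzero constant times a polynomial over `A`
whose values at the points of `A` are units. -/
theorem nrr_norm_den [IsAlgClosed K] (G : RedDatum K F k Fb) (Q : Polynomial K)
    (hQ : ∀ a : G.A, Q.eval (a : K) ≠ 0) :
    ∃ (q : K) (Q₁ : Polynomial G.A), q ≠ 0 ∧ Q = Polynomial.C q * Q₁.map G.A.subtype ∧
      ∀ a : G.A, G.π (Q₁.eval a) ≠ 0 := by
  have hQ0 : Q ≠ 0 := by
    rintro rfl
    exact hQ 0 (by simp)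
  have hroots : ∀ r ∈ Q.roots, r ∉ G.A :=
    fun r hr hrA => hQ ⟨r, hrA⟩ ((Polynomial.mem_roots hQ0).1 hr)
  obtain ⟨Q₁, b, hb, hQ1, hQ2⟩ := nrra1_exists_prim G Q.roots hroots
  have hlc : Q.leadingCoeff ≠ 0 := Polynomial.leadingCoeff_ne_zero.2 hQ0
  obtain ⟨lc, hlc, S, hsplit, hQ2⟩ : ∃ lc : K, lc ≠ 0 ∧ ∃ S : Polynomial K,
      Q = Polynomial.C lc * S ∧ Q₁.map G.A.subtype = Polynomial.C b * S :=
    ⟨Q.leadingCoeff, hlc, _, (IsAlgClosed.splits Q).eq_prod_roots, hQ2⟩
  refine ⟨lc * b⁻¹, Q₁, mul_ne_zero hlc (inv_ne_zero hb), ?_, ?_⟩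
  · rw [hQ2, hsplit, ← mul_assoc, ← Polynomial.C_mul, mul_assoc, inv_mul_cancel₀ hb, mul_one]
  · intro a
    have h1 : G.π (Q₁.eval a) = (Q₁.map G.π).eval (G.π a) := by
      rw [Polynomial.eval_map, Polynomial.eval₂_at_apply]
    rw [h1, hQ1, Polynomial.eval_one]
    exact one_ne_zero

/-- coordinates in a lifted integral basis: polynomials over `A`, common denominator over `A`
with unit values on `A`. -/
theorem nrr_coords [IsAlgClosed K] [CharZero K] [IsAlgClosed k]
    (G : RedDatum K F k Fb) (t : G.O) (n : ℕ) (h : NmHyp G t n) (x : Fin n → G.O)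
    (hx : NmBasis G t n x) (w : G.O) (hw : NmFin K (t : F) (w : F)) :
    ∃ (Q : Polynomial G.A) (R : Fin n → Polynomial G.A), (∀ a : G.A, G.π (Q.eval a) ≠ 0) ∧
      Polynomial.aeval (t : F) (Q.map G.A.subtype) * (w : F)
        = ∑ i, Polynomial.aeval (t : F) ((R i).map G.A.subtype) * ((x i : G.O) : F) := by
  obtain ⟨Q, P, hQ, hQP⟩ := nm_local_basis G t n h x hx (w : F) hw
  obtain ⟨q, Q₁, hq, hQeq, hQ₁⟩ := nrr_norm_den G Q hQ
  have h1 : Polynomial.aeval (t : F) (Q₁.map G.A.subtype) =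
      Polynomial.aeval (t : F) (Polynomial.C q⁻¹ * Q) := by
    rw [hQeq, ← mul_assoc, ← Polynomial.C_mul, inv_mul_cancel₀ hq, Polynomial.C_1, one_mul]
  have hmain : Polynomial.aeval (t : F) (Q₁.map G.A.subtype) * (w : F) =
      ∑ i, Polynomial.aeval (t : F) (Polynomial.C q⁻¹ * P i) * ((x i : G.O) : F) := by
    rw [h1, map_mul, mul_assoc, hQP, Finset.mul_sum]
    refine Finset.sum_congr rfl (fun i _ => ?_)
    rw [map_mul, mul_assoc]
  have hO : ∀ i, Polynomial.aeval (t : F) (Polynomial.C q⁻¹ * P i) ∈ G.O := by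
    refine nmo_coeff_mem G t h.tr x (nma_orth_of_indep G t x hx.indep)
      (fun i => Polynomial.aeval (t : F) (Polynomial.C q⁻¹ * P i)) ?_ ?_
    · intro i
      exact IntermediateField.algebra_adjoin_le_adjoin K _
        (Polynomial.aeval_mem_adjoin_singleton K (t : F))
    · rw [← hmain]
      exact G.O.mul_mem (nmo_eval_mem G t Q₁) w.2
  choose R hR using fun i =>
    nmo_exists_lift_of_aeval_mem G t h.tr (Polynomial.C q⁻¹ * P i) (hO i)
  refine ⟨Q₁, R, hQ₁, ?_⟩
  rw [hmain]
  refine Finset.sum_congr rfl (fun i _ => ?_)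
  rw [hR i]
  rfl

end Fermat.Agent.S37L
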