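import Mathlib
import Fermat.Agent.S18L.NmMain
import Fermat.Agent.S37L.NrDefs
import Fermat.Agent.S37L.NrBasic
import Fermat.Agent.S37L.NrSup
import Fermat.Agent.S37L.NrRA

/-!
# S37, block A, part R (helper1): values of integral functions at places over the closed unit
disc lie in `A`
-/

set_option autoImplicit false

open scoped IntermediateField

namespace Fermat.Agent.S37L

open Fermat.Agent.S18L AlgebraicCurve

variable {K F k Fb : Type*} [Field K] [Field F] [Algebra K F] [Field k] [Field Fb] [Algebra k Fb]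

/-- the value of a finite sum is the sum of the values -/
theorem nrrb2_val_sum {κ Φ : Type*} [Field κ] [Field Φ] [Algebra κ Φ] (P : Place κ Φ)
    {ι : Type*} (s : Finset ι) (f : ι → Φ) (g : ι → κ)
    (hfg : ∀ i ∈ s, NrVal P (f i) (g i)) : NrVal P (∑ i ∈ s, f i) (∑ i ∈ s, g i) := by
  classical
  induction s using Finset.induction_on with
  | empty =>
    rw [Finset.sum_empty, Finset.sum_empty]
    have h0 := nrval_const P (0 : κ)
    rwa [map_zero] at h0
  | insert a s ha ih =>
    rw [Finset.sum_insert ha, Finset.sum_insert ha]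
    exact nrval_add P (hfg a (Finset.mem_insert_self a s))
      (ih fun i hi => hfg i (Finset.mem_insert_of_mem hi))

/-- **(R0)** at a place over a point `ρ ∈ A` of the `t`-line, the value of an element of `O`
integral over `K[t]` lies in `A`. -/
theorem nrr_val_mem [IsAlgClosed K] [CharZero K] [IsAlgClosed k]
    (G : RedDatum K F k Fb) (t : G.O) (n : ℕ) (h : NmHyp G t n)
    (P : Place K F) (ρ : G.A) (hP : 0 < P.ord ((t : F) - algebraMap K F (ρ : K)))
    (y : G.O) (hy : NmFin K (t : F) (y : F)) (c : K) (hc : NrVal P (y : F) c) : c ∈ G.A := by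
  classical
  obtain ⟨x, hx⟩ := nm_exists_basis G t n h
  have htr : Transcendental K (t : F) := nms_transcendental G t n h
  have hfin : Module.Finite K⟮(t : F)⟯ F := h.fin
  have hsep : Algebra.IsSeparable K⟮(t : F)⟯ F := nms_separable (t : F)
  have ht : NrVal P (t : F) (ρ : K) := nrval_of_pos P hP
  have ht0 : 0 ≤ P.ord (t : F) := nrval_ord_nonneg P ht
  -- the values of the basis elements at `P`
  have hξ : ∀ i, ∃ ξ : K, NrVal P ((x i : G.O) : F) ξ := fun i =>
    nr_sup_val (t : F) htr hfin hsep P _
      ((nr_fin_iff (t : F) htr hfin hsep _).mp (hx.fin i) P ht0)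
  choose ξ hξ using hξ
  -- a value of an integral `w ∈ O` is, up to a unit of `A`, an `A`-combination of the `ξ j`
  have key : ∀ (w : G.O) (d : K), NmFin K (t : F) (w : F) → NrVal P (w : F) d →
      ∃ (u : G.A) (r : Fin n → G.A), G.π u ≠ 0 ∧ (u : K) * d = ∑ j, (r j : K) * ξ j := by
    intro w d hw hd
    obtain ⟨Q, R, hQ, hrel⟩ := nrr_coords G t n h x hx w hw
    refine ⟨Q.eval ρ, fun j => (R j).eval ρ, hQ ρ, ?_⟩
    have hev : ∀ p : Polynomial G.A,
        (p.map G.A.subtype).eval (ρ : K) = ((p.eval ρ : G.A) : K) := by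
      intro p
      rw [Polynomial.eval_map]
      exact Polynomial.eval₂_at_apply G.A.subtype ρ
    have h1 : NrVal P (Polynomial.aeval (t : F) (Q.map G.A.subtype) * (w : F))
        ((Q.map G.A.subtype).eval (ρ : K) * d) :=
      nrval_mul P (nrval_aeval P ht _) hd
    have h2 : NrVal P
        (∑ i, Polynomial.aeval (t : F) ((R i).map G.A.subtype) * ((x i : G.O) : F))
        (∑ i, ((R i).map G.A.subtype).eval (ρ : K) * ξ i) :=
      nrrb2_val_sum P Finset.univ _ _ fun i _ => nrval_mul P (nrval_aeval P ht _) (hξ i)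
    rw [hrel] at h1
    have h3 := nrval_unique P h1 h2
    simp only [hev] at h3
    exact h3
  -- the vector of values is nonzero
  have hξ0 : ξ ≠ 0 := by
    intro h0
    have h1 : NrVal P (((1 : G.O) : G.O) : F) 1 := by
      have h2 := nrval_const P (1 : K)
      rwa [map_one] at h2
    have hone : NmFin K (t : F) (((1 : G.O) : G.O) : F) := by
      show IsIntegral (Algebra.adjoin K {(t : F)}) (1 : F)
      exact isIntegral_one
    obtain ⟨u, r, hu, hrel⟩ := key 1 1 hone h1
    rw [h0] at hrel
    simp only [Pi.zero_apply, mul_zero, Finset.sum_const_zero, mul_one] at hrel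
    apply hu
    have hu0 : u = 0 := Subtype.ext hrel
    rw [hu0, map_zero]
  -- multiplication by `c` on the values is given by a matrix over `A`
  have hM : ∀ i, ∃ m : Fin n → G.A, c * ξ i = ∑ j, (m j : K) * ξ j := by
    intro i
    obtain ⟨u, r, hu, hrel⟩ := key (y * x i) (c * ξ i) (IsIntegral.mul hy (hx.fin i))
      (nrval_mul P hc (hξ i))
    have huu : IsUnit u := by
      by_contra hnu
      exact hu ((G.π_eq_zero u).mpr hnu)
    obtain ⟨v, hv⟩ := huu.exists_left_inv
    have hvK : (v : K) * (u : K) = 1 := by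
      have h1 := congrArg (fun a : G.A => (a : K)) hv
      exact h1
    refine ⟨fun j => v * r j, ?_⟩
    calc c * ξ i = (v : K) * ((u : K) * (c * ξ i)) := by rw [← mul_assoc, hvK, one_mul]
      _ = (v : K) * ∑ j, (r j : K) * ξ j := by rw [hrel]
      _ = ∑ j, ((v * r j : G.A) : K) * ξ j := by
        rw [Finset.mul_sum]
        refine Finset.sum_congr rfl fun j _ => ?_
        rw [← mul_assoc]
        rfl
  choose M hM using hM
  -- `c` is an eigenvalue of this matrix
  have hdet : (Matrix.scalar (Fin n) c - (Matrix.of M).map G.A.subtype).det = 0 := by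
    apply Matrix.exists_mulVec_eq_zero_iff.mp
    refine ⟨ξ, hξ0, ?_⟩
    funext i
    rw [Matrix.sub_mulVec, Pi.sub_apply, Matrix.scalar_apply, Matrix.mulVec_diagonal,
      Pi.zero_apply, hM i, sub_eq_zero]
    rfl
  have hroot : ((Matrix.of M).charpoly.map G.A.subtype).eval c = 0 := by
    rw [← Matrix.charpoly_map, Matrix.eval_charpoly]
    exact hdet
  have hint : IsIntegral G.A c :=
    ⟨(Matrix.of M).charpoly, Matrix.charpoly_monic _, by
      rw [← Polynomial.eval_map]
      exact hroot⟩
  obtain ⟨a, ha⟩ := IsIntegrallyClosed.isIntegral_iff.mp hint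
  rw [← ha]
  exact a.2

end Fermat.Agent.S37L
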