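import Mathlib
import Fermat.Agent.S18L.NmMain
import Fermat.Agent.S37L.NrDefs
import Fermat.Agent.S37L.NrBasic
import Fermat.Agent.S37L.NrSup
import Fermat.Agent.S37L.NrRB

/-!
# S37, block A, part R (helper1): the evaluation at a place over the closed unit disc kills
the kernel of the reduction; lifts of integral elements; existence of values
-/

set_option autoImplicit false

open scoped IntermediateField

namespace Fermat.Agent.S37L

open Fermat.Agent.S18L AlgebraicCurve

variable {K F k Fb : Type*} [Field K] [Field F] [Algebra K F] [Field k] [Field Fb] [Algebra k Fb]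

/-- the value at `P` of an integral element of `O` with zero reduction lies in the maximal ideal
of `A`. -/
theorem nrr_ker [IsAlgClosed K] [CharZero K] [IsAlgClosed k]
    (G : RedDatum K F k Fb) (t : G.O) (n : ℕ) (h : NmHyp G t n)
    (P : Place K F) (ρ : G.A) (hP : 0 < P.ord ((t : F) - algebraMap K F (ρ : K)))
    (y : G.O) (hy : NmFin K (t : F) (y : F)) (hred : G.red y = 0) (c : K)
    (hc : NrVal P (y : F) c) : ∃ hcA : c ∈ G.A, G.π ⟨c, hcA⟩ = 0 := by
  have hcA : c ∈ G.A := nrr_val_mem G t n h P ρ hP y hy c hc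
  refine ⟨hcA, ?_⟩
  by_cases hy0 : (y : F) = 0
  · have h0 : NrVal P (y : F) 0 := by
      have h1 := nrval_const P (0 : K)
      rw [map_zero] at h1
      rw [hy0]
      exact h1
    have hc0 : c = 0 := nrval_unique P hc h0
    have h2 : (⟨c, hcA⟩ : G.A) = 0 := Subtype.ext hc0
    rw [h2, map_zero]
  · obtain ⟨a, ha, hmem, hne⟩ := G.exists_smul (y : F) hy0
    have haA : a ∉ G.A := by
      intro haA
      apply hne
      have h1 : (⟨a • (y : F), hmem⟩ : G.O) = nmoga_incl G ⟨a, haA⟩ * y := by
        apply Subtype.ext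
        change a • (y : F) = algebraMap K F a * (y : F)
        exact Algebra.smul_def a (y : F)
      rw [h1, map_mul, hred, mul_zero]
    have hainv : a⁻¹ ∈ G.A := (G.A.mem_or_inv_mem a).resolve_left haA
    have hnu : ¬ IsUnit (⟨a⁻¹, hainv⟩ : G.A) := by
      intro hu
      apply haA
      obtain ⟨b, hb⟩ := isUnit_iff_exists_inv.1 hu
      have h1 : a⁻¹ * (b : K) = 1 := congrArg Subtype.val hb
      have h2 : a = (b : K) := (inv_mul_eq_one₀ ha).1 h1
      rw [h2]
      exact b.2
    have hπinv : G.π ⟨a⁻¹, hainv⟩ = 0 := (G.π_eq_zero _).2 hnu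
    have hint : NmFin K (t : F) (a • (y : F)) := by
      unfold NmFin
      rw [Algebra.smul_def]
      exact (nmolo_isIntegral_const (t : F) a).mul hy
    have hval : NrVal P (a • (y : F)) (a * c) := by
      rw [Algebra.smul_def]
      exact nrval_mul P (nrval_const P a) hc
    have hacA : a * c ∈ G.A :=
      nrr_val_mem G t n h P ρ hP ⟨a • (y : F), hmem⟩ hint (a * c) hval
    have h1 : (⟨c, hcA⟩ : G.A) = ⟨a⁻¹, hainv⟩ * ⟨a * c, hacA⟩ := by
      apply Subtype.ext
      change c = a⁻¹ * (a * c)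
      rw [← mul_assoc, inv_mul_cancel₀ ha, one_mul]
    rw [h1, map_mul, hπinv, zero_mul]

/-- every element of `Fb` integral over `k[red t]` is the reduction of an element of `O`
integral over `K[t]`. -/
theorem nrr_lift [IsAlgClosed K] [CharZero K] [IsAlgClosed k]
    (G : RedDatum K F k Fb) (t : G.O) (n : ℕ) (h : NmHyp G t n)
    (z : Fb) (hz : NmFin k (G.red t) z) :
    ∃ y : G.O, NmFin K (t : F) (y : F) ∧ G.red y = z := by
  classical
  obtain ⟨x, hx⟩ := nm_exists_basis G t n h
  obtain ⟨p, hp⟩ := nm_normal G t n h x hx z hz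
  have hlift : ∀ i, ∃ P : Polynomial G.A, P.map G.π = p i := fun i =>
    Polynomial.map_surjective G.π G.π_surj (p i)
  choose P hP using hlift
  refine ⟨∑ i, (⟨nmoEval G (t : F) (P i), nmo_eval_mem G t (P i)⟩ : G.O) * x i, ?_, ?_⟩
  · have hcoe : ((∑ i, (⟨nmoEval G (t : F) (P i), nmo_eval_mem G t (P i)⟩ : G.O) * x i : G.O) : F)
        = ∑ i, nmoEval G (t : F) (P i) * ((x i : G.O) : F) := by
      rw [AddSubmonoidClass.coe_finsetSum]
      rfl
    unfold NmFin
    rw [hcoe]
    refine IsIntegral.sum _ fun i _ => ?_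
    exact (nmolo_isIntegral_aeval (t : F) ((P i).map (algebraMap G.A K))).mul (hx.fin i)
  · rw [map_sum, hp]
    refine Finset.sum_congr rfl fun i _ => ?_
    rw [map_mul, nmo_red_eval, hP i]

/-- an element of `O` integral over `K[t]` has a value in `A` at every place over a point of
`A`. -/
theorem nrr_exists_val [IsAlgClosed K] [CharZero K] [IsAlgClosed k]
    (G : RedDatum K F k Fb) (t : G.O) (n : ℕ) (h : NmHyp G t n)
    (P : Place K F) (ρ : G.A) (hP : 0 < P.ord ((t : F) - algebraMap K F (ρ : K)))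
    (y : G.O) (hy : NmFin K (t : F) (y : F)) : ∃ c : G.A, NrVal P (y : F) (c : K) := by
  have hfin : Module.Finite K⟮(t : F)⟯ F := h.fin
  have htr : Transcendental K (t : F) := nms_transcendental G t n h
  have hsep : Algebra.IsSeparable K⟮(t : F)⟯ F := nms_separable (t : F)
  have hreg : 0 ≤ P.ord (y : F) :=
    (nr_fin_iff (t : F) htr hfin hsep (y : F)).1 hy P (nrval_ord_nonneg P (nrval_of_pos P hP))
  obtain ⟨c, hc⟩ := nr_sup_val (t : F) htr hfin hsep P (y : F) hreg
  exact ⟨⟨c, nrr_val_mem G t n h P ρ hP y hy c hc⟩, hc⟩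

end Fermat.Agent.S37L
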