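import Mathlib
import Fermat.Agent.S18L.NmMain
import Fermat.Agent.S37L.NrDefs
import Fermat.Agent.S37L.NrBasic
import Fermat.Agent.S37L.NrSup
import Fermat.Agent.S37L.NrRC

/-!
# S37, block A, part R (helper1): the evaluation homomorphism on the integral closure of
`k[red t]` attached to a place over the closed unit disc
-/

set_option autoImplicit false

open scoped IntermediateField
open scoped IntermediateField.algebraAdjoinAdjoin

namespace Fermat.Agent.S37L

open Fermat.Agent.S18L AlgebraicCurve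

variable {K F k Fb : Type*} [Field K] [Field F] [Algebra K F] [Field k] [Field Fb] [Algebra k Fb]

/-- two integral lifts of the same element of `Fb` have values at `P` with the same residue. -/
theorem nrrd1_key [IsAlgClosed K] [CharZero K] [IsAlgClosed k]
    (G : RedDatum K F k Fb) (t : G.O) (n : ℕ) (h : NmHyp G t n)
    (P : Place K F) (ρ : G.A) (hP : 0 < P.ord ((t : F) - algebraMap K F (ρ : K)))
    (y y' : G.O) (hy : NmFin K (t : F) (y : F)) (hy' : NmFin K (t : F) (y' : F))
    (c c' : G.A) (hc : NrVal P (y : F) (c : K)) (hc' : NrVal P (y' : F) (c' : K))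
    (hred : G.red y = G.red y') : G.π c = G.π c' := by
  have h1 : NmFin K (t : F) ((y - y' : G.O) : F) := IsIntegral.sub hy hy'
  have h2 : G.red (y - y') = 0 := by rw [map_sub, hred, sub_self]
  have h3 : NrVal P ((y - y' : G.O) : F) ((c : K) - (c' : K)) := nrval_sub P hc hc'
  obtain ⟨hcA, hπ⟩ := nrr_ker G t n h P ρ hP (y - y') h1 h2 _ h3
  have h4 : (⟨(c : K) - (c' : K), hcA⟩ : G.A) = c - c' := Subtype.ext rfl
  rw [h4, map_sub, sub_eq_zero] at hπ
  exact hπ

open Classical in
/-- the value-residue function on `Fb`: `red y ↦ π (y(P))` (and `0` outside the image). -/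
noncomputable def nrrd1_f (G : RedDatum K F k Fb) (t : G.O) (P : Place K F) (z : Fb) : k :=
  if hz : ∃ (y : G.O) (c : G.A),
      NmFin K (t : F) (y : F) ∧ G.red y = z ∧ NrVal P (y : F) (c : K)
  then G.π hz.choose_spec.choose else 0

/-- KEY: `nrrd1_f (red y) = π c` for `y` integral with value `c` at `P`. -/
theorem nrrd1_f_eq [IsAlgClosed K] [CharZero K] [IsAlgClosed k]
    (G : RedDatum K F k Fb) (t : G.O) (n : ℕ) (h : NmHyp G t n)
    (P : Place K F) (ρ : G.A) (hP : 0 < P.ord ((t : F) - algebraMap K F (ρ : K)))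
    (y : G.O) (hy : NmFin K (t : F) (y : F)) (c : G.A) (hc : NrVal P (y : F) (c : K)) :
    nrrd1_f G t P (G.red y) = G.π c := by
  have hz : ∃ (y' : G.O) (c' : G.A),
      NmFin K (t : F) (y' : F) ∧ G.red y' = G.red y ∧ NrVal P (y' : F) (c' : K) :=
    ⟨y, c, hy, rfl, hc⟩
  unfold nrrd1_f
  rw [dif_pos hz]
  obtain ⟨h1, h2, h3⟩ := hz.choose_spec.choose_spec
  exact nrrd1_key G t n h P ρ hP _ _ h1 hy _ _ h3 hc h2

/-- **(R1)** the ring homomorphism `red y ↦ π (y(P))` on the integral closure of `k[red t]`. -/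
theorem nrr_exists_hom [IsAlgClosed K] [CharZero K] [IsAlgClosed k]
    (G : RedDatum K F k Fb) (t : G.O) (n : ℕ) (h : NmHyp G t n)
    (P : Place K F) (ρ : G.A) (hP : 0 < P.ord ((t : F) - algebraMap K F (ρ : K))) :
    ∃ ψ : ↥(crvB k (G.red t)) →+* k,
      ∀ (y : G.O), NmFin K (t : F) (y : F) → ∀ c : G.A, NrVal P (y : F) (c : K) →
        ∀ hz : G.red y ∈ crvB k (G.red t), ψ ⟨G.red y, hz⟩ = G.π c := by
  have hlift : ∀ z : ↥(crvB k (G.red t)), ∃ (y : G.O) (c : G.A),
      NmFin K (t : F) (y : F) ∧ G.red y = (z : Fb) ∧ NrVal P (y : F) (c : K) := by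
    intro z
    obtain ⟨y, hy, hyz⟩ := nrr_lift G t n h (z : Fb) z.2
    obtain ⟨c, hc⟩ := nrr_exists_val G t n h P ρ hP y hy
    exact ⟨y, c, hy, hyz, hc⟩
  have hone : nrrd1_f G t P (1 : Fb) = 1 := by
    have h1 : NmFin K (t : F) ((1 : G.O) : F) := isIntegral_one
    have h2 : NrVal P ((1 : G.O) : F) ((1 : G.A) : K) := by
      have := nrval_const P (1 : K) (Φ := F)
      rw [map_one] at this
      exact this
    have e := nrrd1_f_eq G t n h P ρ hP 1 h1 1 h2
    rw [map_one, map_one] at e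
    exact e
  have hzero : nrrd1_f G t P (0 : Fb) = 0 := by
    have h1 : NmFin K (t : F) ((0 : G.O) : F) := isIntegral_zero
    have h2 : NrVal P ((0 : G.O) : F) ((0 : G.A) : K) := by
      have := nrval_const P (0 : K) (Φ := F)
      rw [map_zero] at this
      exact this
    have e := nrrd1_f_eq G t n h P ρ hP 0 h1 0 h2
    rw [map_zero, map_zero] at e
    exact e
  have hmul : ∀ z z' : ↥(crvB k (G.red t)), nrrd1_f G t P ((z : Fb) * (z' : Fb))
      = nrrd1_f G t P (z : Fb) * nrrd1_f G t P (z' : Fb) := by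
    intro z z'
    obtain ⟨y, c, hy, hyz, hc⟩ := hlift z
    obtain ⟨y', c', hy', hyz', hc'⟩ := hlift z'
    have e1 := nrrd1_f_eq G t n h P ρ hP y hy c hc
    have e2 := nrrd1_f_eq G t n h P ρ hP y' hy' c' hc'
    have e3 := nrrd1_f_eq G t n h P ρ hP (y * y') (IsIntegral.mul hy hy') (c * c')
      (nrval_mul P hc hc')
    rw [map_mul, hyz, hyz', map_mul] at e3
    rw [hyz] at e1
    rw [hyz'] at e2
    rw [e3, e1, e2]
  have hadd : ∀ z z' : ↥(crvB k (G.red t)), nrrd1_f G t P ((z : Fb) + (z' : Fb))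
      = nrrd1_f G t P (z : Fb) + nrrd1_f G t P (z' : Fb) := by
    intro z z'
    obtain ⟨y, c, hy, hyz, hc⟩ := hlift z
    obtain ⟨y', c', hy', hyz', hc'⟩ := hlift z'
    have e1 := nrrd1_f_eq G t n h P ρ hP y hy c hc
    have e2 := nrrd1_f_eq G t n h P ρ hP y' hy' c' hc'
    have e3 := nrrd1_f_eq G t n h P ρ hP (y + y') (IsIntegral.add hy hy') (c + c')
      (nrval_add P hc hc')
    rw [map_add, hyz, hyz', map_add] at e3
    rw [hyz] at e1
    rw [hyz'] at e2
    rw [e3, e1, e2]
  exact ⟨{ toFun := fun z => nrrd1_f G t P (z : Fb)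
           map_one' := hone
           map_mul' := hmul
           map_zero' := hzero
           map_add' := hadd },
    fun y hy c hc _ => nrrd1_f_eq G t n h P ρ hP y hy c hc⟩

end Fermat.Agent.S37L
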