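import Mathlib
import Fermat.Agent.S18L.NmMain
import Fermat.Agent.S37L.NrDefs
import Fermat.Agent.S37L.NrBasic
import Fermat.Agent.S37L.NrSup
import Fermat.Agent.S37L.NrRD

/-!
# S37, block A, part R (helper1): the reduction of a place over the closed unit disc
-/

set_option autoImplicit false

open scoped IntermediateField
open scoped IntermediateField.algebraAdjoinAdjoin

namespace Fermat.Agent.S37L

open Fermat.Agent.S18L AlgebraicCurve IsDedekindDomain

/-- the integral closure of `k[τ]` is not a field when `τ` is transcendental. -/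
theorem nrre_not_isField (k : Type*) {L : Type*} [Field k] [Field L] [Algebra k L] (τ : L)
    (hτ : Transcendental k τ) : ¬ IsField (crvB k τ) := by
  intro hf
  have hR : IsField (crvR k τ) :=
    isField_of_isIntegral_of_isField (R := crvR k τ) (S := crvB k τ)
      (FaithfulSMul.algebraMap_injective _ _) hf
  have hτ0 : crvT k τ ≠ 0 := by
    intro h0
    apply hτ
    have h1 : τ = 0 := congrArg Subtype.val h0
    rw [h1]
    exact isAlgebraic_zero
  obtain ⟨u, hu⟩ := hR.mul_inv_cancel hτ0
  have hu' : τ * (u : L) = 1 := congrArg Subtype.val hu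
  have hmem : (u : L) ∈ (Polynomial.aeval (R := k) τ).range := by
    rw [← Algebra.adjoin_singleton_eq_range_aeval]
    exact u.2
  obtain ⟨p, hp⟩ := hmem
  have hp' : Polynomial.aeval τ p = (u : L) := hp
  have h0 : Polynomial.aeval τ (Polynomial.X * p - 1) = 0 := by
    rw [map_sub, map_mul, Polynomial.aeval_X, map_one, hp', hu', sub_self]
  have h1 := (transcendental_iff.mp hτ) _ h0
  have h2 := congrArg (Polynomial.eval 0) h1
  simp at h2

variable {K F k Fb : Type*} [Field K] [Field F] [Algebra K F] [Field k] [Field Fb] [Algebra k Fb]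

/-- the function field `Fb / k` has a place. -/
theorem nrr_nonempty_place [IsAlgClosed K] [CharZero K] [IsAlgClosed k]
    (G : RedDatum K F k Fb) (t : G.O) (n : ℕ) (h : NmHyp G t n) : Nonempty (Place k Fb) := by
  have := h.finb
  have := h.sep
  have hD : IsDedekindDomain (crvB k (G.red t)) := crv_isDedekindDomain k (G.red t) h.tr
  have hFr : IsFractionRing (crvB k (G.red t)) Fb := crv_isFractionRing k (G.red t)
  obtain ⟨p, hp0, hpp⟩ := Ring.not_isField_iff_exists_prime.mp (nrre_not_isField k (G.red t) h.tr)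
  exact ⟨ddPlace (k := k) (crvB k (G.red t)) ⟨p, hpp, hp0⟩⟩

/-- the reduction of a place `P` over a point `ρ ∈ A` of the `t`-line, with the EV property. -/
theorem nrr_exists_place [IsAlgClosed K] [CharZero K] [IsAlgClosed k]
    (G : RedDatum K F k Fb) (t : G.O) (n : ℕ) (h : NmHyp G t n)
    (P : Place K F) (ρ : G.A) (hP : 0 < P.ord ((t : F) - algebraMap K F (ρ : K))) :
    ∃ Q : Place k Fb, ∀ (y : G.O), NmFin K (t : F) (y : F) → ∀ c : K, NrVal P (y : F) c →
      ∃ hc : c ∈ G.A, NrVal Q (G.red y) (G.π ⟨c, hc⟩) := by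
  classical
  have := h.finb
  have := h.sep
  have hD : IsDedekindDomain (crvB k (G.red t)) := crv_isDedekindDomain k (G.red t) h.tr
  have hFr : IsFractionRing (crvB k (G.red t)) Fb := crv_isFractionRing k (G.red t)
  obtain ⟨ψ, hψ⟩ := nrr_exists_hom G t n h P ρ hP
  -- constants
  have hconst : ∀ a : G.A, NmFin K (t : F) ((nmoga_incl G a : G.O) : F) := fun a =>
    nmolo_isIntegral_const (t : F) (a : K)
  have hredc : ∀ a : G.A, G.red (nmoga_incl G a) = algebraMap k Fb (G.π a) := fun a =>
    G.red_algebraMap a _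
  have htint : NmFin K (t : F) (t : F) := by
    have h1 := nmolo_isIntegral_aeval (K := K) (t : F) Polynomial.X
    rwa [Polynomial.aeval_X] at h1
  -- surjectivity
  have hsurj : Function.Surjective ψ := by
    intro b
    obtain ⟨a, rfl⟩ := G.π_surj b
    have hval : NrVal P ((nmoga_incl G a : G.O) : F) (a : K) := nrval_const P (a : K)
    have hz : G.red (nmoga_incl G a) ∈ crvB k (G.red t) := nm_red_fin G t n h _ (hconst a)
    exact ⟨⟨G.red (nmoga_incl G a), hz⟩, hψ _ (hconst a) a hval hz⟩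
  have hmax : (RingHom.ker ψ).IsMaximal := RingHom.ker_isMaximal_of_surjective ψ hsurj
  -- the kernel criterion
  have hker : ∀ (y : G.O), NmFin K (t : F) (y : F) → NrVal P (y : F) 0 →
      ∀ hz : G.red y ∈ crvB k (G.red t), (⟨G.red y, hz⟩ : crvB k (G.red t)) ∈ RingHom.ker ψ := by
    intro y hy hv hz
    rw [RingHom.mem_ker]
    have h1 := hψ y hy 0 (by simpa using hv) hz
    rw [h1, map_zero]
  -- the kernel is nonzero
  have hne : RingHom.ker ψ ≠ ⊥ := by
    intro hbot
    have hy : NmFin K (t : F) ((t - nmoga_incl G ρ : G.O) : F) := by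
      have h1 : ((t - nmoga_incl G ρ : G.O) : F) = (t : F) - ((nmoga_incl G ρ : G.O) : F) := rfl
      rw [h1]
      exact IsIntegral.sub htint (hconst ρ)
    have hv : NrVal P ((t - nmoga_incl G ρ : G.O) : F) 0 := by
      right
      have h1 : ((t - nmoga_incl G ρ : G.O) : F) = (t : F) - algebraMap K F (ρ : K) := rfl
      rw [h1, map_zero, sub_zero]
      exact hP
    have hz : G.red (t - nmoga_incl G ρ) ∈ crvB k (G.red t) := nm_red_fin G t n h _ hy
    have hmem := hker _ hy hv hz
    rw [hbot, Ideal.mem_bot] at hmem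
    have h0 : G.red (t - nmoga_incl G ρ) = 0 := congrArg Subtype.val hmem
    rw [map_sub, hredc, sub_eq_zero] at h0
    apply h.tr
    rw [h0]
    exact isAlgebraic_algebraMap _
  let v : HeightOneSpectrum (crvB k (G.red t)) := ⟨RingHom.ker ψ, hmax.isPrime, hne⟩
  refine ⟨ddPlace (k := k) (crvB k (G.red t)) v, ?_⟩
  intro y hy c hc
  have hcA : c ∈ G.A := nrr_val_mem G t n h P ρ hP y hy c hc
  refine ⟨hcA, ?_⟩
  have hy1 : NmFin K (t : F) ((y - nmoga_incl G ⟨c, hcA⟩ : G.O) : F) := by
    have h1 : ((y - nmoga_incl G ⟨c, hcA⟩ : G.O) : F)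
        = (y : F) - ((nmoga_incl G ⟨c, hcA⟩ : G.O) : F) := rfl
    rw [h1]
    exact IsIntegral.sub hy (hconst ⟨c, hcA⟩)
  have hv1 : NrVal P ((y - nmoga_incl G ⟨c, hcA⟩ : G.O) : F) 0 := by
    have h1 : ((y - nmoga_incl G ⟨c, hcA⟩ : G.O) : F) = (y : F) - algebraMap K F c := rfl
    rw [h1]
    have h2 := nrval_sub P hc (nrval_const P c)
    rwa [sub_self] at h2
  have hz : G.red (y - nmoga_incl G ⟨c, hcA⟩) ∈ crvB k (G.red t) := nm_red_fin G t n h _ hy1
  have hmem := hker _ hy1 hv1 hz
  have hred : G.red (y - nmoga_incl G ⟨c, hcA⟩) = G.red y - algebraMap k Fb (G.π ⟨c, hcA⟩) := by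
    rw [map_sub, hredc]
  by_cases hb : G.red y - algebraMap k Fb (G.π ⟨c, hcA⟩) = 0
  · left
    exact sub_eq_zero.mp hb
  · right
    have hb' : (⟨G.red (y - nmoga_incl G ⟨c, hcA⟩), hz⟩ : crvB k (G.red t)) ≠ 0 := by
      intro h0
      apply hb
      rw [← hred]
      exact congrArg Subtype.val h0
    have hpos := (ddPlace_ord_pos_iff (k := k) (L := Fb) (crvB k (G.red t)) v _ hb').mpr hmem
    have h2 : algebraMap (crvB k (G.red t)) Fb
        (⟨G.red (y - nmoga_incl G ⟨c, hcA⟩), hz⟩ : crvB k (G.red t))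
        = G.red y - algebraMap k Fb (G.π ⟨c, hcA⟩) := hred
    rw [h2] at hpos
    exact hpos

end Fermat.Agent.S37L
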