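import Mathlib
import Fermat.Agent.S18L.NmMain
import Fermat.Agent.S37L.NrDefs
import Fermat.Agent.S37L.NrRE

/-!
# S37, block A, part R (owner helper1): the place map of one chart and its EV property

Interface statement (frozen by helper2).
-/

set_option autoImplicit false

open scoped IntermediateField

namespace Fermat.Agent.S37L

open Fermat.Agent.S18L AlgebraicCurve

variable {K F k Fb : Type*} [Field K] [Field F] [Algebra K F] [Field k] [Field Fb] [Algebra k Fb]

/-- **(R)** existence of a place map with the EV property for the chart `t`. -/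
theorem nr_exists_ev [IsAlgClosed K] [CharZero K] [IsAlgClosed k]
    (G : RedDatum K F k Fb) (t : G.O) (n : ℕ) (h : NmHyp G t n) :
    ∃ r : Place K F → Place k Fb, NrEv G t r := by
  classical
  obtain ⟨Q₀⟩ := nrr_nonempty_place G t n h
  have key : ∀ P : Place K F, ∃ Q : Place k Fb,
      ∀ ρ : G.A, 0 < P.ord ((t : F) - algebraMap K F (ρ : K)) →
        ∀ (y : G.O), NmFin K (t : F) (y : F) → ∀ c : K, NrVal P (y : F) c →
          ∃ hc : c ∈ G.A, NrVal Q (G.red y) (G.π ⟨c, hc⟩) := by
    intro P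
    by_cases hP : ∃ ρ : G.A, 0 < P.ord ((t : F) - algebraMap K F (ρ : K))
    · obtain ⟨ρ, hρ⟩ := hP
      obtain ⟨Q, hQ⟩ := nrr_exists_place G t n h P ρ hρ
      exact ⟨Q, fun _ _ => hQ⟩
    · exact ⟨Q₀, fun ρ hρ => absurd ⟨ρ, hρ⟩ hP⟩
  choose r hr using key
  exact ⟨r, fun P ρ hρ y hy c hc => hr P ρ hρ y hy c hc⟩

end Fermat.Agent.S37L
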