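import Mathlib
import Fermat.Agent.S18L.NmMain
import Fermat.Agent.S37L.NrDefs
import Fermat.Agent.S37L.NrBasic
import Fermat.Agent.S37L.NrSup
import Fermat.Agent.S37L.NrR
import Fermat.Agent.S37L.NrC

/-!
# S37, block A, end theorem (owner helper2): a place map with conservation of number

`nr_main`: under the standing hypotheses of the NM package for both charts `t`, `t' = t⁻¹`
there is a map `r` from the places of `F / K` to the places of `Fb / k` such that for every
`u ∈ O` of nonzero reduction `r_* (div u) = div (red u)`.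
-/

set_option autoImplicit false

open scoped IntermediateField

namespace Fermat.Agent.S37L

open Fermat.Agent.S18L AlgebraicCurve

variable {K F k Fb : Type*} [Field K] [Field F] [Algebra K F] [Field k] [Field Fb] [Algebra k Fb]

/-- a transcendental function with a value `c` at `P`: `θ - c` vanishes at `P`. -/
theorem nrm79_pos_of_val {κ Φ : Type*} [Field κ] [Field Φ] [Algebra κ Φ] (P : Place κ Φ) {θ : Φ}
    (hθ : Transcendental κ θ) {c : κ} (h : NrVal P θ c) : 0 < P.ord (θ - algebraMap κ Φ c) := by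
  rcases h with h | h
  · exact absurd (h ▸ isAlgebraic_algebraMap c) hθ
  · exact h

/-- the chart function is integral over its own polynomial ring. -/
theorem nrm79_fin_self {κ Φ : Type*} [Field κ] [Field Φ] [Algebra κ Φ] (θ : Φ) :
    NmFin κ θ θ :=
  isIntegral_algebraMap (R := Algebra.adjoin κ {θ})
    (x := ⟨θ, Algebra.subset_adjoin (Set.mem_singleton θ)⟩)

/-- a place over a point of the closed unit disc for `t` is not over a point of the open unit
disc for `t' = t⁻¹`. -/
theorem nrm79_disj (G : RedDatum K F k Fb) (t t' : G.O) (htt' : (t' : F) * (t : F) = 1)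
    (P : Place K F) (ρ ρ' : G.A) (hρ : 0 < P.ord ((t : F) - algebraMap K F (ρ : K)))
    (hρ' : 0 < P.ord ((t' : F) - algebraMap K F (ρ' : K))) : G.π ρ' ≠ 0 := by
  have h1 := nrval_mul P (Or.inr hρ' : NrVal P (t' : F) (ρ' : K))
    (Or.inr hρ : NrVal P (t : F) (ρ : K))
  rw [htt'] at h1
  have h2 := nrval_const P (1 : K)
  rw [map_one] at h2
  have h3 : (ρ' : K) * (ρ : K) = 1 := nrval_unique P h1 h2
  have hunit : IsUnit ρ' := IsUnit.of_mul_eq_one ρ (Subtype.ext h3)
  exact fun h0 => (G.π_eq_zero ρ').mp h0 hunit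

/-- every place not over the closed unit disc for `t` is over a point of the open unit disc
for `t' = t⁻¹`. -/
theorem nrm79_cover [IsAlgClosed K] [CharZero K]
    (G : RedDatum K F k Fb) (t t' : G.O) (htt' : (t' : F) * (t : F) = 1) (n : ℕ)
    (h : NmHyp G t n) (h' : NmHyp G t' n) (P : Place K F)
    (hP : ¬ ∃ ρ : G.A, 0 < P.ord ((t : F) - algebraMap K F (ρ : K))) :
    ∃ ρ' : G.A, G.π ρ' = 0 ∧ 0 < P.ord ((t' : F) - algebraMap K F (ρ' : K)) := by
  have htr : Transcendental K (t : F) := nms_transcendental G t n h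
  have htr' : Transcendental K (t' : F) := nms_transcendental G t' n h'
  have hfin : Module.Finite K⟮(t : F)⟯ F := h.fin
  have hsep : Algebra.IsSeparable K⟮(t : F)⟯ F := nms_separable (t : F)
  have htinv : (t' : F) = (t : F)⁻¹ := eq_inv_of_mul_eq_one_left htt'
  rcases nr_sup_cases (t : F) htr hfin hsep P with ⟨c, hc⟩ | hpole
  · by_cases hcA : c ∈ G.A
    · exact absurd ⟨⟨c, hcA⟩, hc⟩ hP
    · have hc0 : c ≠ 0 := by
        rintro rfl
        exact hcA G.A.zero_mem
      have hcinv : c⁻¹ ∈ G.A := (G.A.mem_or_inv_mem c).resolve_left hcA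
      have hnu : ¬ IsUnit (⟨c⁻¹, hcinv⟩ : G.A) := by
        intro hunit
        obtain ⟨b, hb⟩ := isUnit_iff_exists_inv.mp hunit
        have h1 : c⁻¹ * (b : K) = 1 := congrArg Subtype.val hb
        have h2 : (b : K) = c := by
          rw [eq_inv_of_mul_eq_one_right h1, inv_inv]
        exact hcA (h2 ▸ b.2)
      refine ⟨⟨c⁻¹, hcinv⟩, (G.π_eq_zero _).mpr hnu, ?_⟩
      have hv := nrval_inv P (Or.inr hc : NrVal P (t : F) c) hc0
      rw [← htinv] at hv
      exact nrm79_pos_of_val P htr' hv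
  · refine ⟨0, map_zero _, ?_⟩
    have h0 : (((0 : G.A) : K)) = 0 := rfl
    rw [h0, map_zero, sub_zero, htinv, Place.ord_inv]
    omega

/-- **Block A, end theorem.** -/
theorem nr_main [IsAlgClosed K] [CharZero K] [IsAlgClosed k]
    (G : RedDatum K F k Fb) (t t' : G.O) (htt' : (t' : F) * (t : F) = 1) (n : ℕ)
    (h : NmHyp G t n) (h' : NmHyp G t' n) :
    ∃ r : Place K F → Place k Fb,
      ∀ u : G.O, G.red u ≠ 0 → ∀ D : Place K F →₀ ℤ, (∀ P, D P = P.ord (u : F)) →
        ∀ Q : Place k Fb, Finsupp.mapDomain r D Q = Q.ord (G.red u) := by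
  classical
  obtain ⟨r₀, hr₀⟩ := nr_exists_ev G t n h
  obtain ⟨r₁, hr₁⟩ := nr_exists_ev G t' n h'
  have hmul : t' * t = 1 := Subtype.ext htt'
  have hred : G.red t' * G.red t = 1 := by rw [← map_mul, hmul, map_one]
  have hredinv : G.red t' = (G.red t)⁻¹ := eq_inv_of_mul_eq_one_left hred
  have hfint : NmFin K (t : F) (t : F) := nrm79_fin_self (t : F)
  have hfint' : NmFin K (t' : F) (t' : F) := nrm79_fin_self (t' : F)
  have hcover := nrm79_cover G t t' htt' n h h'
  have hdisj := nrm79_disj G t t' htt'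
  refine ⟨fun P => if (∃ ρ : G.A, 0 < P.ord ((t : F) - algebraMap K F (ρ : K))) then r₀ P
    else r₁ P, ?_⟩
  intro u hu D hD Q
  have hmap : Finsupp.mapDomain (fun P => if (∃ ρ : G.A,
        0 < P.ord ((t : F) - algebraMap K F (ρ : K))) then r₀ P else r₁ P) D Q
      = ∑ P ∈ D.support.filter (fun P => (if (∃ ρ : G.A,
        0 < P.ord ((t : F) - algebraMap K F (ρ : K))) then r₀ P else r₁ P) = Q), D P := by
    rw [Finsupp.mapDomain, Finsupp.sum, Finsupp.finsetSum_apply, Finset.sum_filter]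
    refine Finset.sum_congr rfl fun P _ => ?_
    rw [Finsupp.single_apply]
  rw [hmap]
  rcases nr_sup_cases (G.red t) h.tr h.finb h.sep Q with ⟨a, ha⟩ | hpole
  · rw [← nr_cons_chart G t n h r₀ hr₀ a Q ha u hu D hD]
    refine Finset.sum_congr ?_ (fun _ _ => rfl)
    ext P
    simp only [Finset.mem_filter]
    refine and_congr_right fun _ => ?_
    constructor
    · intro hrP
      by_cases hS : ∃ ρ : G.A, 0 < P.ord ((t : F) - algebraMap K F (ρ : K))
      · rw [if_pos hS] at hrP
        exact ⟨hS, hrP⟩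
      · exfalso
        rw [if_neg hS] at hrP
        obtain ⟨ρ', hπ, hρ'⟩ := hcover P hS
        obtain ⟨hc, hval⟩ := hr₁ P ρ' hρ' t' hfint' (ρ' : K) (Or.inr hρ')
        have hπ' : G.π ⟨(ρ' : K), hc⟩ = 0 := hπ
        rw [hrP, hπ'] at hval
        have h1 := nrval_mul Q hval (Or.inr ha : NrVal Q (G.red t) a)
        rw [hred, zero_mul] at h1
        have h2 := nrval_const Q (1 : k)
        rw [map_one] at h2
        exact zero_ne_one (nrval_unique Q h1 h2)
    · rintro ⟨hS, hrP⟩
      rw [if_pos hS]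
      exact hrP
  · have hQ' : 0 < Q.ord (G.red t' - algebraMap k Fb 0) := by
      rw [map_zero, sub_zero, hredinv, Place.ord_inv]
      omega
    rw [← nr_cons_chart G t' n h' r₁ hr₁ 0 Q hQ' u hu D hD]
    refine Finset.sum_congr ?_ (fun _ _ => rfl)
    ext P
    simp only [Finset.mem_filter]
    refine and_congr_right fun _ => ?_
    constructor
    · intro hrP
      by_cases hS : ∃ ρ : G.A, 0 < P.ord ((t : F) - algebraMap K F (ρ : K))
      · exfalso
        rw [if_pos hS] at hrP
        obtain ⟨ρ, hρ⟩ := hS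
        obtain ⟨hc, hval⟩ := hr₀ P ρ hρ t hfint (ρ : K) (Or.inr hρ)
        rw [hrP] at hval
        have := nrval_ord_nonneg Q hval
        omega
      · rw [if_neg hS] at hrP
        obtain ⟨ρ', -, hρ'⟩ := hcover P hS
        exact ⟨⟨ρ', hρ'⟩, hrP⟩
    · rintro ⟨⟨ρ', hρ'⟩, hrP⟩
      have hS : ¬ ∃ ρ : G.A, 0 < P.ord ((t : F) - algebraMap K F (ρ : K)) := by
        rintro ⟨ρ, hρ⟩
        obtain ⟨hc, hval⟩ := hr₁ P ρ' hρ' t' hfint' (ρ' : K) (Or.inr hρ')
        rw [hrP] at hval
        have h0 : NrVal Q (G.red t') 0 := Or.inr hQ'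
        exact hdisj P ρ ρ' hρ hρ' (nrval_unique Q hval h0)
      rw [if_neg hS]
      exact hrP

end Fermat.Agent.S37L
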