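import Mathlib
import Fermat.Prelude.Def_ModularCurve_ReductionModL
import Fermat.Agent.S18L.Inst
import Fermat.Agent.S18L.S28XDeg
import Fermat.Agent.S18L.CrvFull
import Fermat.Agent.S37L.NrMain
import Fermat.Agent.S37L.EsPGI

/-!
# S37, block G1: the reduction inputs `ReductionInputsModL A M` at a level with a normal chart
(glue: block A's `nr_main` at the reduction datum of `X₀(M)`, both charts; degrees;
`principalGeneratedByIntegral`)
-/

set_option autoImplicit false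
set_option synthInstance.maxHeartbeats 400000

open ModularCurve HahnSeries AlgebraicCurve
open scoped IntermediateField

namespace Fermat.Agent.S37L

open Fermat.Agent.S18L

variable {K F k Fb : Type*} [Field K] [Field F] [Algebra K F] [Field k] [Field Fb] [Algebra k Fb]

/-- block A for one chart: the standing hypotheses for `t` and the branch hypothesis for `t⁻¹` -/
theorem esg1_of_chart [IsAlgClosed K] [CharZero K] [IsAlgClosed k]
    (G : RedDatum K F k Fb) (t : G.O) (n : ℕ) (h : NmHyp G t n)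
    (hbr' : ∀ a b : G.A, a ≠ b → G.π a = G.π b →
      NmUnr K ((t : F))⁻¹ (a : K) ∨ NmUnr K ((t : F))⁻¹ (b : K)) :
    ∃ r : Place K F → Place k Fb,
      ∀ u : G.O, G.red u ≠ 0 → ∀ D : Place K F →₀ ℤ, (∀ P, D P = P.ord (u : F)) →
        ∀ Q : Place k Fb, Finsupp.mapDomain r D Q = Q.ord (G.red u) := by
  have hnc : ∀ c : k, G.red t ≠ algebraMap k Fb c := by
    intro c hc
    exact h.tr (hc ▸ isAlgebraic_algebraMap c)
  have hred0 : G.red t ≠ 0 := by
    intro h0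
    exact hnc 0 (by rw [h0, map_zero])
  have ht0 : (t : F) ≠ 0 := by
    intro h0
    have : t = 0 := Subtype.ext h0
    exact hred0 (by rw [this, map_zero])
  have htt' : (((⟨((t : F))⁻¹, G.inv_mem t hred0⟩ : G.O) : G.O) : F) * (t : F) = 1 :=
    inv_mul_cancel₀ ht0
  have h' : NmHyp G ⟨((t : F))⁻¹, G.inv_mem t hred0⟩ n :=
    nm_hyp_inv G t ⟨((t : F))⁻¹, G.inv_mem t hred0⟩ htt' n h hbr'
  exact nr_main G t ⟨((t : F))⁻¹, G.inv_mem t hred0⟩ htt' n h h'

set_option maxHeartbeats 1600000 in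
/-- block A at the reduction datum of `X₀(M)` -/
theorem esg1_exists (M : ℕ) [NeZero M] {ℓ : ℕ} [Fact ℓ.Prime] (hℓM : ¬ ℓ ∣ M)
    (A : ValuationSubring (AlgebraicClosure ℚ)) (hA : A.LiesOverPrime ℓ)
    (hcases : 5 ≤ ℓ ∨ (ℓ = 3 ∧ 2 ∣ M) ∨ (ℓ = 2 ∧ 3 ∣ M)) :
    ∃ r : Place (AlgebraicClosure ℚ) ↥(modularFunctionFieldBar M) →
        Place (IsLocalRing.ResidueField A)
          ↥(modularFunctionFieldFullC (IsLocalRing.ResidueField A) M),
      ∀ u : (redDatum A M hA hℓM).O, (redDatum A M hA hℓM).red u ≠ 0 →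
        ∀ D : Place (AlgebraicClosure ℚ) ↥(modularFunctionFieldBar M) →₀ ℤ,
          (∀ P, D P = P.ord (u : ↥(modularFunctionFieldBar M))) →
          ∀ Q, Finsupp.mapDomain r D Q = Q.ord ((redDatum A M hA hℓM).red u) := by
  classical
  haveI : IsAlgClosed (IsLocalRing.ResidueField A) := isAlgClosed_residueField A
  have hπ : ∀ a : A, (redDatum A M hA hℓM).π a = IsLocalRing.residue A a := fun _ => rfl
  rcases hcases with h5 | ⟨rfl, h2M⟩ | ⟨rfl, h3M⟩
  · have hc : (redDatum A M hA hℓM).π ((1728 : ℕ) : A) ≠ 0 := by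
      rw [hπ, map_natCast]
      exact natCast_residueField_ne_zero A hA 1728 (inst_not_dvd_1728 Fact.out h5)
    have hbrs := c0_br_j M (redDatum A M hA hℓM) ((1728 : ℕ) : A) (by push_cast; rfl) hc
    have h := s28x_nmHyp_j A M hA hℓM hbrs.1
    exact esg1_of_chart (redDatum A M hA hℓM) (s28xTJ A M hA hℓM) _ h hbrs.2
  · have hℓ2 : (3 : ℕ) ≠ 2 := by norm_num
    have hc : (redDatum A M hA hℓM).π (-((64 : ℕ) : A)) ≠ 0 := by
      rw [hπ, map_neg, map_natCast, neg_ne_zero]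
      exact natCast_residueField_ne_zero A hA 64 (by norm_num)
    have hbrs := c0_br_l2 M (redDatum A M hA hℓM)
      ((s28xT2 A M hA hℓM h2M hℓ2 : (redDatum A M hA hℓM).O) : ↥(modularFunctionFieldBar M))
      (s28xT2_rel A M hA hℓM h2M hℓ2) (-((64 : ℕ) : A)) (by push_cast; rfl) hc
    have h := s28x_nmHyp_hm2 A M hA hℓM h2M hℓ2 hbrs.1
    exact esg1_of_chart (redDatum A M hA hℓM) (s28xT2 A M hA hℓM h2M hℓ2) _ h hbrs.2
  · have hℓ3 : (2 : ℕ) ≠ 3 := by norm_num
    have hc : (redDatum A M hA hℓM).π (-((27 : ℕ) : A)) ≠ 0 := by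
      rw [hπ, map_neg, map_natCast, neg_ne_zero]
      exact natCast_residueField_ne_zero A hA 27 (by norm_num)
    have hbrs := c0_br_l3 M (redDatum A M hA hℓM)
      ((s28xT3 A M hA hℓM h3M hℓ3 : (redDatum A M hA hℓM).O) : ↥(modularFunctionFieldBar M))
      (s28xT3_rel A M hA hℓM h3M hℓ3) (-((27 : ℕ) : A)) (by push_cast; rfl) hc
    have h := s28x_nmHyp_hm3 A M hA hℓM h3M hℓ3 hbrs.1
    exact esg1_of_chart (redDatum A M hA hℓM) (s28xT3 A M hA hℓM h3M hℓ3) _ h hbrs.2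

set_option maxHeartbeats 1600000 in
/-- **G1**: a place reduction at a level with a normal chart -/
theorem esg1_placeReduction (M : ℕ) [NeZero M] {ℓ : ℕ} [Fact ℓ.Prime] (hℓM : ¬ ℓ ∣ M)
    (A : ValuationSubring (AlgebraicClosure ℚ)) (hA : A.LiesOverPrime ℓ)
    (hcases : 5 ≤ ℓ ∨ (ℓ = 3 ∧ 2 ∣ M) ∨ (ℓ = 2 ∧ 3 ∣ M)) :
    ∃ r, IsPlaceReductionModL A M r := by
  classical
  haveI : IsAlgClosed (IsLocalRing.ResidueField A) := isAlgClosed_residueField A
  haveI : CharP (IsLocalRing.ResidueField A) ℓ := s28x_charP ℓ A hA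
  haveI : FiniteDimensional
      (crvK (IsLocalRing.ResidueField A) (crvJ (IsLocalRing.ResidueField A) M))
      ↥(modularFunctionFieldFullC (IsLocalRing.ResidueField A) M) :=
    s28x_finiteDimensional_fullC ℓ M hℓM (IsLocalRing.ResidueField A)
  obtain ⟨r, hr⟩ := esg1_exists M hℓM A hA hcases
  refine ⟨r, fun P => ?_, fun y hy hyk hne D hD Q => ?_⟩
  · rw [Fermat.Agent.X0S24.PlaceRes.deg_eq_one (halg_bar M) P,
      Fermat.Agent.X0S24.PlaceRes.deg_eq_one
        (fun u hu => crv_full_G0 (IsLocalRing.ResidueField A) M u hu) (r P)]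
  · have hgood : AsmGood A M y := ⟨hy, hyk⟩
    have hne' : (redDatum A M hA hℓM).red ⟨⟨asmIota A y, hgood.1⟩, coe_mem_asmO A M y hgood⟩ ≠ 0 := by
      have e0 : (redDatum A M hA hℓM).red ⟨⟨asmIota A y, hgood.1⟩, coe_mem_asmO A M y hgood⟩
          = ⟨asmRho A y, hgood.2⟩ := asmRed_coe A M y hgood
      rw [e0]
      exact fun h0 => hne (congrArg Subtype.val h0)
    have key := hr ⟨⟨asmIota A y, hgood.1⟩, coe_mem_asmO A M y hgood⟩ hne' D hD Q
    have e1 : (redDatum A M hA hℓM).red ⟨⟨asmIota A y, hgood.1⟩, coe_mem_asmO A M y hgood⟩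
        = ⟨asmRho A y, hgood.2⟩ := asmRed_coe A M y hgood
    rw [e1] at key
    exact key

/-- **G1**: the reduction inputs at a level with a normal chart -/
theorem esg1_inputs (M : ℕ) [NeZero M] {ℓ : ℕ} [Fact ℓ.Prime] (hℓM : ¬ ℓ ∣ M)
    (A : ValuationSubring (AlgebraicClosure ℚ)) (hA : A.LiesOverPrime ℓ)
    (hcases : 5 ≤ ℓ ∨ (ℓ = 3 ∧ 2 ∣ M) ∨ (ℓ = 2 ∧ 3 ∣ M)) :
    ReductionInputsModL A M := by
  obtain ⟨r, hr⟩ := esg1_placeReduction M hℓM A hA hcases
  exact ⟨r, hr, principalGeneratedByIntegral A M hA hℓM⟩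

end Fermat.Agent.S37L
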