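import Mathlib
import Fermat.Prelude.Def_ModularCurve_ReductionModL
import Fermat.Prelude.Def_EllipticCurve_FrobeniusTrace
import Fermat.Agent.S37L.EsFrob

/-!
# S37, block G2 (owner helper5): the twist of a place reduction by the decomposition group
-/

set_option autoImplicit false
set_option synthInstance.maxHeartbeats 400000

open ModularCurve AlgebraicCurve HahnSeries

namespace Fermat.Agent.S37L

/-- the ring endomorphism of `A` induced by an element of the decomposition group -/
noncomputable def evtw_sigmaA (A : ValuationSubring (AlgebraicClosure ℚ))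
    (σ : AlgebraicClosure ℚ ≃ₐ[ℚ] AlgebraicClosure ℚ) (hσ : σ ∈ A.decompositionSubgroup ℚ) :
    A →+* A :=
  MulSemiringAction.toRingHom (A.decompositionSubgroup ℚ) A ⟨σ, hσ⟩

theorem evtw_subtype_comp (A : ValuationSubring (AlgebraicClosure ℚ))
    (σ : AlgebraicClosure ℚ ≃ₐ[ℚ] AlgebraicClosure ℚ) (hσ : σ ∈ A.decompositionSubgroup ℚ) :
    A.subtype.comp (evtw_sigmaA A σ hσ)
      = ((σ : AlgebraicClosure ℚ →+* AlgebraicClosure ℚ)).comp A.subtype :=
  RingHom.ext fun _ => rfl

theorem evtw_residue_comp (A : ValuationSubring (AlgebraicClosure ℚ))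
    (σ : AlgebraicClosure ℚ ≃ₐ[ℚ] AlgebraicClosure ℚ) (hσ : σ ∈ A.decompositionSubgroup ℚ)
    (e : IsLocalRing.ResidueField A ≃+* IsLocalRing.ResidueField A)
    (he : ∀ x : IsLocalRing.ResidueField A,
      (⟨σ, hσ⟩ : A.decompositionSubgroup ℚ) • x = e x) :
    (IsLocalRing.residue A).comp (evtw_sigmaA A σ hσ)
      = ((e : IsLocalRing.ResidueField A →+* IsLocalRing.ResidueField A)).comp
          (IsLocalRing.residue A) := by
  refine RingHom.ext fun a => ?_
  show IsLocalRing.residue A ((⟨σ, hσ⟩ : A.decompositionSubgroup ℚ) • a)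
    = e (IsLocalRing.residue A a)
  rw [IsLocalRing.ResidueField.residue_smul, he]

/-- pushing a divisor along a twisted map of places -/
theorem evtw_mapDomain {K F K' F' : Type*} [Field K] [Field F] [Algebra K F]
    [Field K'] [Field F'] [Algebra K' F']
    (g : SemilinearAut K F) (ge : SemilinearAut K' F')
    (r : Place K F → Place K' F') (D : Divisor K F) (Q : Place K' F') :
    Finsupp.mapDomain (fun P => ge⁻¹ • r (g • P)) D Q
      = Finsupp.mapDomain r (g • D) (ge • Q) := by
  have h1 : (fun P => ge⁻¹ • r (g • P)) = (ge⁻¹ • ·) ∘ r ∘ (g • ·) := rfl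
  rw [h1, Finsupp.mapDomain_comp, Finsupp.mapDomain_comp, ← SemilinearAut.divisor_smul_def,
    ← SemilinearAut.divisor_smul_def, SemilinearAut.divisor_smul_apply, inv_inv]

/-- the divisor of a twisted function -/
theorem evtw_divisor_smul_ord {K F : Type*} [Field K] [Field F] [Algebra K F]
    (g : SemilinearAut K F) (D : Divisor K F) (f : F) (hD : ∀ P : Place K F, D P = P.ord f)
    (P : Place K F) : (g • D) P = P.ord (g • f) := by
  rw [SemilinearAut.divisor_smul_apply, hD]
  have h := SemilinearAut.ord_smul g (g⁻¹ • P) f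
  rw [smul_inv_smul] at h
  exact h.symm

/-- the abstract form of the twisting argument -/
theorem evtw_final {K F K' F' : Type*} [Field K] [Field F] [Algebra K F]
    [Field K'] [Field F'] [Algebra K' F']
    (g : SemilinearAut K F) (ge : SemilinearAut K' F')
    (r : Place K F → Place K' F') (D : Divisor K F) (f' : F')
    (key : ∀ Q' : Place K' F', Finsupp.mapDomain r (g • D) Q' = Q'.ord (ge • f'))
    (Q : Place K' F') :
    Finsupp.mapDomain (fun P => ge⁻¹ • r (g • P)) D Q = Q.ord f' := by
  rw [evtw_mapDomain, key]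
  exact SemilinearAut.ord_smul ge Q f'

/-- the twisting argument over a general residue map -/
theorem evtw_along {L : Type*} [Field L] [Algebra ℚ L] (A : ValuationSubring L)
    {k : Type*} [Field k] (π : A →+* k) (N : ℕ) [NeZero N]
    (r : Place L ↥(laurentBaseChange L (modularFunctionFieldFull N)) →
      Place k ↥(modularFunctionFieldFullC k N))
    (hr : IsPlaceReductionAlong A π N r)
    (σ : L ≃ₐ[ℚ] L) (σA : A →+* A) (e : k ≃+* k)
    (h1 : A.subtype.comp σA = ((σ : L →+* L)).comp A.subtype)
    (h2 : π.comp σA = ((e : k →+* k)).comp π) :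
    IsPlaceReductionAlong A π N (fun P =>
      (esAut k N e)⁻¹ • r (arithmeticGalois (modularFunctionFieldFull N) σ • P)) := by
  have c1 : ∀ y : LaurentSeries A, coeffMap A.subtype (coeffMap σA y)
      = coeffMap (σ : L →+* L) (coeffMap A.subtype y) := by
    intro y
    rw [coeffMap_coeffMap, coeffMap_coeffMap]
    exact coeffMap_congr h1 y
  have c2 : ∀ y : LaurentSeries A, coeffMap π (coeffMap σA y)
      = coeffMap (e : k →+* k) (coeffMap π y) := by
    intro y
    rw [coeffMap_coeffMap, coeffMap_coeffMap]
    exact coeffMap_congr h2 y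
  refine ⟨fun P => ?_, ?_⟩
  · show ((esAut k N e)⁻¹ •
        r (arithmeticGalois (modularFunctionFieldFull N) σ • P)).deg = P.deg
    rw [SemilinearAut.deg_smul, hr.1, SemilinearAut.deg_smul]
  · intro y hy hyk hne D hD Q
    have hyσ : coeffMap A.subtype (coeffMap σA y)
        ∈ laurentBaseChange L (modularFunctionFieldFull N) := by
      rw [c1]
      exact coeffMap_mem_laurentBaseChange σ hy
    have hyσk : coeffMap π (coeffMap σA y) ∈ modularFunctionFieldFullC k N := by
      rw [c2]
      exact coeffMap_mem_fullC _ N _ hyk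
    have hfσ : (⟨coeffMap A.subtype (coeffMap σA y), hyσ⟩ :
        ↥(laurentBaseChange L (modularFunctionFieldFull N)))
        = arithmeticGalois (modularFunctionFieldFull N) σ •
            (⟨coeffMap A.subtype y, hy⟩ : ↥(laurentBaseChange L (modularFunctionFieldFull N))) :=
      Subtype.ext (c1 y)
    have hfσk : (⟨coeffMap π (coeffMap σA y), hyσk⟩ : ↥(modularFunctionFieldFullC k N))
        = esAut k N e • (⟨coeffMap π y, hyk⟩ : ↥(modularFunctionFieldFullC k N)) :=
      Subtype.ext (c2 y)
    have hneσ : coeffMap π (coeffMap σA y) ≠ 0 := by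
      intro h0
      have h3 : esAut k N e • (⟨coeffMap π y, hyk⟩ : ↥(modularFunctionFieldFullC k N)) = 0 := by
        rw [← hfσk]
        exact Subtype.ext h0
      rw [smul_eq_zero_iff_eq] at h3
      exact hne (congrArg Subtype.val h3)
    have hDσ : ∀ P : Place L ↥(laurentBaseChange L (modularFunctionFieldFull N)),
        (arithmeticGalois (modularFunctionFieldFull N) σ • D) P
          = P.ord (⟨coeffMap A.subtype (coeffMap σA y), hyσ⟩ :
              ↥(laurentBaseChange L (modularFunctionFieldFull N))) := by
      intro P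
      rw [hfσ]
      exact evtw_divisor_smul_ord _ D _ hD P
    have key : ∀ Q' : Place k ↥(modularFunctionFieldFullC k N),
        Finsupp.mapDomain r (arithmeticGalois (modularFunctionFieldFull N) σ • D) Q'
          = Q'.ord (esAut k N e • (⟨coeffMap π y, hyk⟩ : ↥(modularFunctionFieldFullC k N))) := by
      intro Q'
      rw [← hfσk]
      exact hr.2 (coeffMap σA y) hyσ hyσk hneσ
        (arithmeticGalois (modularFunctionFieldFull N) σ • D) hDσ Q'
    exact evtw_final _ _ r D _ key Q

/-- the twist of a place reduction by an element of the decomposition group is a place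
reduction -/
theorem ev_twist (N : ℕ) [NeZero N] (A : ValuationSubring (AlgebraicClosure ℚ))
    (r : Place (AlgebraicClosure ℚ) ↥(modularFunctionFieldBar N) →
      Place (IsLocalRing.ResidueField A)
        ↥(modularFunctionFieldFullC (IsLocalRing.ResidueField A) N))
    (hr : IsPlaceReductionModL A N r)
    (σ : AlgebraicClosure ℚ ≃ₐ[ℚ] AlgebraicClosure ℚ) (hσ : σ ∈ A.decompositionSubgroup ℚ)
    (e : IsLocalRing.ResidueField A ≃+* IsLocalRing.ResidueField A)
    (he : ∀ x : IsLocalRing.ResidueField A,
      (⟨σ, hσ⟩ : A.decompositionSubgroup ℚ) • x = e x) :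
    IsPlaceReductionModL A N (fun P =>
      (esAut (IsLocalRing.ResidueField A) N e)⁻¹ •
        r (arithmeticGalois (modularFunctionFieldFull N) σ • P)) :=
  evtw_along A (IsLocalRing.residue A) N r hr σ (evtw_sigmaA A σ hσ) e
    (evtw_subtype_comp A σ hσ) (evtw_residue_comp A σ hσ e he)

end Fermat.Agent.S37L
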