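import Mathlib
import Fermat.Prelude.Def_ModularCurve_ReductionModL
import Fermat.Prelude.Def_FLTPrelim_Ramification
import Fermat.Agent.S18L.AsmFinal
import Fermat.Agent.S37L.EvAbs
import Fermat.Agent.S37L.EvCons

/-!
# S37, block EV/SEP (owner helper5): uniqueness of the place reduction

At a level `N` prime to `ℓ` with a chart (`hcases`), a map `r` with `IsPlaceReductionModL A N r`
is unique: `ev_abs_unique` applied to the reduction datum `redDatum A N`, the curves of places
and the chart of `inst_exists_param`, with conservation `ev_conservation`.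
-/

set_option autoImplicit false
set_option synthInstance.maxHeartbeats 400000

open ModularCurve AlgebraicCurve HahnSeries

namespace Fermat.Agent.S37L

open Fermat.Agent.RRL Fermat.Agent.S18L

set_option maxHeartbeats 1600000 in
/-- **EV + SEP**: uniqueness of the place reduction at a level prime to `ℓ`. -/
theorem ev_unique (N : ℕ) [NeZero N] {ℓ : ℕ} [Fact ℓ.Prime] (hℓN : ¬ ℓ ∣ N)
    (A : ValuationSubring (AlgebraicClosure ℚ)) (hA : A.LiesOverPrime ℓ)
    (hcases : 5 ≤ ℓ ∨ (ℓ = 3 ∧ 2 ∣ N) ∨ (ℓ = 2 ∧ 3 ∣ N))
    (r₁ r₂ : Place (AlgebraicClosure ℚ) ↥(modularFunctionFieldBar N) →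
      Place (IsLocalRing.ResidueField A)
        ↥(modularFunctionFieldFullC (IsLocalRing.ResidueField A) N))
    (h₁ : IsPlaceReductionModL A N r₁) (h₂ : IsPlaceReductionModL A N r₂) : r₁ = r₂ := by
  classical
  have : IsAlgClosed (IsLocalRing.ResidueField A) := isAlgClosed_residueField A
  have : CharP (IsLocalRing.ResidueField A) ℓ := s28x_charP ℓ A hA
  have : FiniteDimensional (crvK (IsLocalRing.ResidueField A) (crvJ (IsLocalRing.ResidueField A) N))
      ↥(modularFunctionFieldFullC (IsLocalRing.ResidueField A) N) :=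
    s28x_finiteDimensional_fullC ℓ N hℓN (IsLocalRing.ResidueField A)
  have : Algebra.IsSeparable
      (crvK (IsLocalRing.ResidueField A) (crvJ (IsLocalRing.ResidueField A) N))
      ↥(modularFunctionFieldFullC (IsLocalRing.ResidueField A) N) :=
    s28x_algebra_isSeparable_fullC ℓ N hℓN (IsLocalRing.ResidueField A)
  have halgb : ∀ u : ↥(modularFunctionFieldFullC (IsLocalRing.ResidueField A) N),
      (∀ c : IsLocalRing.ResidueField A, u ≠ algebraMap (IsLocalRing.ResidueField A)
        ↥(modularFunctionFieldFullC (IsLocalRing.ResidueField A) N) c) →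
      Algebra.IsAlgebraic (IntermediateField.adjoin (IsLocalRing.ResidueField A) {u})
        ↥(modularFunctionFieldFullC (IsLocalRing.ResidueField A) N) :=
    fun u hu => crv_full_G0 (IsLocalRing.ResidueField A) N u hu
  have hfinb : ∀ x : ↥(modularFunctionFieldFullC (IsLocalRing.ResidueField A) N),
      x ≠ 0 → {Q : Place (IsLocalRing.ResidueField A)
        ↥(modularFunctionFieldFullC (IsLocalRing.ResidueField A) N) |
          Q.ord x ≠ 0}.Finite :=
    fun x hx => crv_full_G1 (IsLocalRing.ResidueField A) N x hx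
  have hconstb : ∀ x : ↥(modularFunctionFieldFullC (IsLocalRing.ResidueField A) N),
      x ≠ 0 → (∀ Q : Place (IsLocalRing.ResidueField A)
        ↥(modularFunctionFieldFullC (IsLocalRing.ResidueField A) N), 0 ≤ Q.ord x) →
      ∃ c : IsLocalRing.ResidueField A, x = algebraMap (IsLocalRing.ResidueField A)
        ↥(modularFunctionFieldFullC (IsLocalRing.ResidueField A) N) c :=
    fun x _ hx => crv_full_G2 (IsLocalRing.ResidueField A) N x hx
  obtain ⟨t, ht, hNE, hGE⟩ := inst_exists_param N hℓN A hA hcases
    (curveBar N) (fun _ _ => rfl)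
    (curveOfPlaces halgb hfinb hconstb) (fun _ _ => rfl)
  exact ev_abs_unique (redDatum A N hA hℓN) (curveBar N) (curveOfPlaces halgb hfinb hconstb)
    (hasOrth_redDatum A N hA hℓN) t ht hNE hGE r₁ r₂
    (fun u hu => ev_conservation N hℓN A hA (curveBar N) (fun _ _ => rfl)
      (curveOfPlaces halgb hfinb hconstb) (fun _ _ => rfl) r₁ h₁ u hu)
    (fun u hu => ev_conservation N hℓN A hA (curveBar N) (fun _ _ => rfl)
      (curveOfPlaces halgb hfinb hconstb) (fun _ _ => rfl) r₂ h₂ u hu)

end Fermat.Agent.S37L
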