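import Mathlib
import Fermat.Prelude.Def_ModularCurve_ReductionModL
import Fermat.Prelude.Def_EllipticCurve_FrobeniusTrace
import Fermat.Agent.S37L.EsFrob
import Fermat.Agent.S37L.EvUnique
import Fermat.Agent.S37L.EvTwist

/-!
# S37, block G2 (owner helper5): the fields `inertia` and `frob` of `EsInputs`
-/

set_option autoImplicit false
set_option synthInstance.maxHeartbeats 400000

open ModularCurve AlgebraicCurve HahnSeries

namespace Fermat.Agent.S37L

/-- the place reduction intertwines the decomposition group of `A` with the coefficientwise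
action of the induced automorphism of the residue field -/
theorem ev_place_smul (N : ℕ) [NeZero N] {ℓ : ℕ} [Fact ℓ.Prime] (hℓN : ¬ ℓ ∣ N)
    (A : ValuationSubring (AlgebraicClosure ℚ)) (hA : A.LiesOverPrime ℓ)
    (hcases : 5 ≤ ℓ ∨ (ℓ = 3 ∧ 2 ∣ N) ∨ (ℓ = 2 ∧ 3 ∣ N))
    (r : Place (AlgebraicClosure ℚ) ↥(modularFunctionFieldBar N) →
      Place (IsLocalRing.ResidueField A)
        ↥(modularFunctionFieldFullC (IsLocalRing.ResidueField A) N))
    (hr : IsPlaceReductionModL A N r)
    (σ : AlgebraicClosure ℚ ≃ₐ[ℚ] AlgebraicClosure ℚ) (hσ : σ ∈ A.decompositionSubgroup ℚ)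
    (e : IsLocalRing.ResidueField A ≃+* IsLocalRing.ResidueField A)
    (he : ∀ x : IsLocalRing.ResidueField A,
      (⟨σ, hσ⟩ : A.decompositionSubgroup ℚ) • x = e x)
    (P : Place (AlgebraicClosure ℚ) ↥(modularFunctionFieldBar N)) :
    r (arithmeticGalois (modularFunctionFieldFull N) σ • P)
      = esAut (IsLocalRing.ResidueField A) N e • r P := by
  have h := congrFun (ev_unique N hℓN A hA hcases _ r
    (ev_twist N A r hr σ hσ e he) hr) P
  rw [← h, smul_inv_smul]

/-- a place map intertwining two semilinear automorphisms intertwines them on degree-zero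
divisors -/
theorem evg2_degZero_comm {L : Type*} [Field L] [Algebra ℚ L] {k : Type*} [Field k] {N : ℕ}
    (r : Place L (laurentBaseChange L (modularFunctionFieldFull N)) →
      Place k (modularFunctionFieldFullC k N))
    (hdeg : ∀ P, (r P).deg = P.deg)
    (g : SemilinearAut L (laurentBaseChange L (modularFunctionFieldFull N)))
    (ge : SemilinearAut k (modularFunctionFieldFullC k N))
    (hcomm : ∀ P, r (g • P) = ge • r P)
    (D : Divisor.degZero (K := L) (F := laurentBaseChange L (modularFunctionFieldFull N))) :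
    reductionDegZeroAlong r hdeg (SemilinearAut.degZeroSMulHom g D)
      = SemilinearAut.degZeroSMulHom ge (reductionDegZeroAlong r hdeg D) := by
  apply Subtype.ext
  rw [coe_reductionDegZeroAlong, SemilinearAut.coe_degZeroSMulHom,
    SemilinearAut.coe_degZeroSMulHom, coe_reductionDegZeroAlong,
    SemilinearAut.divisor_smul_def, SemilinearAut.divisor_smul_def,
    ← Finsupp.mapDomain_comp, ← Finsupp.mapDomain_comp]
  congr 1
  funext P
  exact hcomm P

/-- the reduction map intertwines two semilinear automorphisms which are intertwined by the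
place reduction -/
theorem evg2_redAlong_comm {L : Type*} [Field L] [Algebra ℚ L] {A : ValuationSubring L}
    {k : Type*} [Field k] {π : A →+* k} {N : ℕ} (h : ReductionInputsAlong A π N)
    (g : SemilinearAut L (laurentBaseChange L (modularFunctionFieldFull N)))
    (ge : SemilinearAut k (modularFunctionFieldFullC k N))
    (hcomm : ∀ P, h.choose (g • P) = ge • h.choose P)
    (x : Pic0 L (laurentBaseChange L (modularFunctionFieldFull N))) :
    reductionAlong A π N (g • x) = ge • reductionAlong A π N x := by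
  obtain ⟨D, rfl⟩ := Pic0.mk_surjective x
  rw [SemilinearAut.pic0_smul_mk, reductionAlong_mk h, reductionAlong_mk h,
    SemilinearAut.pic0_smul_mk]
  exact congrArg Pic0.mk (evg2_degZero_comm h.choose h.choose_spec.1.1 g ge hcomm D)

/-- Pic⁰ level: `red (σ • x) = e • red x` -/
theorem ev_red_smul (N : ℕ) [NeZero N] {ℓ : ℕ} [Fact ℓ.Prime] (hℓN : ¬ ℓ ∣ N)
    (A : ValuationSubring (AlgebraicClosure ℚ)) (hA : A.LiesOverPrime ℓ)
    (hcases : 5 ≤ ℓ ∨ (ℓ = 3 ∧ 2 ∣ N) ∨ (ℓ = 2 ∧ 3 ∣ N))
    (σ : AlgebraicClosure ℚ ≃ₐ[ℚ] AlgebraicClosure ℚ) (hσ : σ ∈ A.decompositionSubgroup ℚ)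
    (e : IsLocalRing.ResidueField A ≃+* IsLocalRing.ResidueField A)
    (he : ∀ x : IsLocalRing.ResidueField A,
      (⟨σ, hσ⟩ : A.decompositionSubgroup ℚ) • x = e x)
    (x : JZero N) :
    reductionModL A N (σ • x)
      = esF0 (IsLocalRing.ResidueField A) N e (reductionModL A N x) := by
  by_cases h : ReductionInputsModL A N
  · exact evg2_redAlong_comm h (arithmeticGalois (modularFunctionFieldFull N) σ)
      (esAut (IsLocalRing.ResidueField A) N e)
      (fun P => ev_place_smul N hℓN A hA hcases (placeReductionModL h)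
        (isPlaceReductionModL_placeReductionModL h) σ hσ e he P) x
  · rw [reductionModL_of_not h, AddMonoidHom.zero_apply, AddMonoidHom.zero_apply, map_zero]

/-- the coefficientwise action of the identity of `k` is trivial -/
theorem evg2_esAut_refl (k : Type*) [Field k] (N : ℕ) [NeZero N] :
    esAut k N (RingEquiv.refl k) = 1 := by
  refine Subtype.ext (Prod.ext (RingEquiv.ext fun x => Subtype.ext ?_) rfl)
  show coeffMap ((RingEquiv.refl k : k ≃+* k) : k →+* k) (x : LaurentSeries k)
    = (x : LaurentSeries k)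
  rw [show ((RingEquiv.refl k : k ≃+* k) : k →+* k) = RingHom.id k from RingHom.ext fun _ => rfl,
    coeffMap_id]

/-- `F₀` for the identity of `k` is the identity -/
theorem evg2_esF0_refl (k : Type*) [Field k] (N : ℕ) [NeZero N] (z : JZeroC k N) :
    esF0 k N (RingEquiv.refl k) z = z := by
  rw [esF0_apply, evg2_esAut_refl, one_smul]

/-- **G2a**: the field `inertia` of `EsInputs` -/
theorem es_inertia (N : ℕ) [NeZero N] {ℓ : ℕ} [Fact ℓ.Prime] (hℓN : ¬ ℓ ∣ N)
    (A : ValuationSubring (AlgebraicClosure ℚ)) (hA : A.LiesOverPrime ℓ)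
    (hcases : 5 ≤ ℓ ∨ (ℓ = 3 ∧ 2 ∣ N) ∨ (ℓ = 2 ∧ 3 ∣ N)) :
    ∀ σ ∈ A.inertiaSubgroupIn ℚ, ∀ x : JZero N,
      reductionModL A N (σ • x) = reductionModL A N x := by
  intro σ hσ x
  rw [ValuationSubring.inertiaSubgroupIn, Subgroup.mem_map] at hσ
  obtain ⟨τ, hτ, rfl⟩ := hσ
  have hker : MulSemiringAction.toRingAut (A.decompositionSubgroup ℚ)
      (IsLocalRing.ResidueField A) τ = 1 := MonoidHom.mem_ker.mp hτ
  have he : ∀ a : IsLocalRing.ResidueField A,
      (⟨(A.decompositionSubgroup ℚ).subtype τ, τ.2⟩ : A.decompositionSubgroup ℚ) • a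
        = RingEquiv.refl (IsLocalRing.ResidueField A) a := by
    intro a
    have := RingEquiv.congr_fun hker a
    exact this
  rw [ev_red_smul N hℓN A hA hcases ((A.decompositionSubgroup ℚ).subtype τ) τ.2
    (RingEquiv.refl (IsLocalRing.ResidueField A)) he x, evg2_esF0_refl]

/-- **G2b**: the field `frob` of `EsInputs` -/
theorem es_frob (N : ℕ) [NeZero N] {ℓ : ℕ} [Fact ℓ.Prime] (hℓN : ¬ ℓ ∣ N)
    (A : ValuationSubring (AlgebraicClosure ℚ)) (hA : A.LiesOverPrime ℓ)
    (hcases : 5 ≤ ℓ ∨ (ℓ = 3 ∧ 2 ∣ N) ∨ (ℓ = 2 ∧ 3 ∣ N)) :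
    ∀ e : IsLocalRing.ResidueField A ≃+* IsLocalRing.ResidueField A,
      (∀ a : IsLocalRing.ResidueField A, e a = a ^ ℓ) →
      ∀ σ : AlgebraicClosure ℚ ≃ₐ[ℚ] AlgebraicClosure ℚ, A.IsFrobeniusAt σ ℓ → ∀ x : JZero N,
        reductionModL A N (σ • x)
          = esF0 (IsLocalRing.ResidueField A) N e (reductionModL A N x) := by
  intro e he σ hσ x
  exact ev_red_smul N hℓN A hA hcases σ hσ.mem_decompositionSubgroup e
    (fun a => (hσ.smul_residue_eq a).trans (he a).symm) x

end Fermat.Agent.S37L
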