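import Mathlib
import Fermat.Agent.S37L.EsMain
import Fermat.Agent.S37L.EsG1
import Fermat.Agent.S37L.EvG2
import Fermat.Agent.S37L.EsdMod
import Fermat.Agent.S37L.EsFTop
import Fermat.Agent.S37L.EsFPlace

/-!
# S37: the inputs at one prime, at a level with a normal chart
(blocks A + G1 (`inputs`), EV (`inertia`, `frob`), D/E/F (`es`))
-/

set_option autoImplicit false
set_option synthInstance.maxHeartbeats 400000

open ModularCurve AlgebraicCurve

namespace Fermat.Agent.S37L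

set_option maxHeartbeats 800000 in
theorem es_inputs (M : ℕ) [NeZero M] (ℓ : ℕ) (hℓ : ℓ.Prime) (hℓM : ¬ ℓ ∣ M)
    (hcases : 5 ≤ ℓ ∨ (ℓ = 3 ∧ 2 ∣ M) ∨ (ℓ = 2 ∧ 3 ∣ M))
    (A : ValuationSubring (AlgebraicClosure ℚ)) (hA : A.LiesOverPrime ℓ) :
    EsInputs M ℓ hℓ A := by
  haveI : Fact ℓ.Prime := ⟨hℓ⟩
  haveI : NeZero ℓ := ⟨hℓ.ne_zero⟩
  have hin : ReductionInputsModL A M := esg1_inputs M hℓM A hA hcases
  refine ⟨hin, es_inertia M hℓM A hA hcases, es_frob M hℓM A hA hcases, fun e he y => ?_⟩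
  exact esft_es M ℓ hℓ A hin (esd_heckeInputs M ℓ) e
    (fun hα hβ _ P => esf_place M ℓ hℓ hℓM A hA hcases (placeReductionModL hin)
      (isPlaceReductionModL_placeReductionModL hin) e he hα hβ P) y

end Fermat.Agent.S37L
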