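import Mathlib
import Fermat.Agent.S37L.EsdMod
import Fermat.Agent.S18L.AsmDegree

/-!
# S37, block B (helper8): pullback `π^* : J₀(N) → J₀(N')` along `F_N ⊂ F_{N'}` for `N ∣ N'`

Interface of block B2: definitions (`esbIncl`, `esbPull`) and the three statements
`esb_pull_inj` (π1), `esb_pull_smul` (π2), `esb_pull_hecke` (π3).
-/

set_option autoImplicit false
set_option synthInstance.maxHeartbeats 400000

open AlgebraicCurve ModularCurve
open scoped IntermediateField

namespace Fermat.Agent.S37L

variable {N N' : ℕ} [NeZero N] [NeZero N']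

/-- the inclusion `F_N ⊂ F_{N'}` for `N ∣ N'` -/
noncomputable def esbIncl (h : N ∣ N') :
    ↥(modularFunctionFieldBar N) →ₐ[AlgebraicClosure ℚ] ↥(modularFunctionFieldBar N') :=
  IntermediateField.inclusion (Fermat.Agent.S18L.bar_le_bar h)

@[simp]
theorem coe_esbIncl (h : N ∣ N') (x : ↥(modularFunctionFieldBar N)) :
    ((esbIncl h x : ↥(modularFunctionFieldBar N')) : LaurentSeries (AlgebraicClosure ℚ)) = x :=
  IntermediateField.coe_inclusion _ x

/-- the identity, as a linear equivalence between the two incarnations of `E'` over `E` -/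
noncomputable def esb_l1_equiv {K L : Type*} [Field K] [Field L] [Algebra K L]
    {E E' : IntermediateField K L} (hE : E ≤ E') :
    letI := algebraAlong (IntermediateField.inclusion hE)
    ↥(IntermediateField.extendScalars hE) ≃ₗ[↥E] ↥E' :=
  letI := algebraAlong (IntermediateField.inclusion hE)
  { toFun := fun x => ⟨(x : L), (IntermediateField.mem_extendScalars hE).1 x.2⟩
    invFun := fun y => ⟨(y : L), (IntermediateField.mem_extendScalars hE).2 y.2⟩
    left_inv := fun _ => rfl
    right_inv := fun _ => rfl
    map_add' := fun _ _ => rfl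
    map_smul' := fun _ _ => rfl }

theorem esb_l1_finrank {K L : Type*} [Field K] [Field L] [Algebra K L]
    {E E' : IntermediateField K L} (hE : E ≤ E') :
    finrankAlong K (IntermediateField.inclusion hE) = IntermediateField.relfinrank E E' := by
  rw [IntermediateField.relfinrank_eq_finrank_of_le hE]
  unfold finrankAlong
  letI := algebraAlong (IntermediateField.inclusion hE)
  exact (LinearEquiv.finrank_eq (esb_l1_equiv hE)).symm

theorem esb_l1_finite {K L : Type*} [Field K] [Field L] [Algebra K L]
    {E E' : IntermediateField K L} (hE : E ≤ E')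
    (hd : 0 < IntermediateField.relfinrank E E') :
    FiniteAlong K (IntermediateField.inclusion hE) := by
  rw [IntermediateField.relfinrank_eq_finrank_of_le hE] at hd
  have : Module.Finite ↥E ↥(IntermediateField.extendScalars hE) := Module.finite_of_finrank_pos hd
  unfold FiniteAlong
  letI := algebraAlong (IntermediateField.inclusion hE)
  exact Module.Finite.equiv (esb_l1_equiv hE)

theorem esb_l1_relfinrank_pos (h : N ∣ N') :
    0 < IntermediateField.relfinrank (modularFunctionFieldBar N) (modularFunctionFieldBar N') := by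
  have htower := IntermediateField.relfinrank_mul_relfinrank (Fermat.Agent.S18L.adeg_adjoin_le N)
    (Fermat.Agent.S18L.bar_le_bar h)
  rw [Fermat.Agent.S18L.adeg_relfinrank_bar, Fermat.Agent.S18L.adeg_relfinrank_bar] at htower
  have hpos := Fermat.Agent.S18L.adeg_psi_pos N'
  rw [← htower] at hpos
  exact Nat.pos_of_mul_pos_left hpos

/-- `F_{N'}` is finite over `F_N` -/
theorem esb_incl_finite (h : N ∣ N') : FiniteAlong (AlgebraicClosure ℚ) (esbIncl h) :=
  esb_l1_finite (Fermat.Agent.S18L.bar_le_bar h) (esb_l1_relfinrank_pos h)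

/-- `F_{N'}` is integral over `F_N` -/
theorem esb_incl_integral (h : N ∣ N') : (esbIncl h).toRingHom.IsIntegral := by
  letI := algebraAlong (esbIncl h)
  haveI : Module.Finite ↥(modularFunctionFieldBar N) ↥(modularFunctionFieldBar N') :=
    esb_incl_finite h
  have hint : Algebra.IsIntegral ↥(modularFunctionFieldBar N) ↥(modularFunctionFieldBar N') :=
    Algebra.IsIntegral.of_finite _ _
  exact fun x => hint.isIntegral x

/-- the degree of `F_{N'}` over `F_N` -/
theorem esb_incl_finrank (h : N ∣ N') :
    finrankAlong (AlgebraicClosure ℚ) (esbIncl h)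
      = IntermediateField.relfinrank (modularFunctionFieldBar N) (modularFunctionFieldBar N') :=
  esb_l1_finrank (Fermat.Agent.S18L.bar_le_bar h)

/-- the fundamental identity along `F_N ⊂ F_{N'}` -/
theorem esb_incl_fundamental (h : N ∣ N') :
    FundamentalIdentityAlong (AlgebraicClosure ℚ) (esbIncl h) (esb_incl_integral h) := by
  unfold FundamentalIdentityAlong
  letI := algebraAlong (esbIncl h)
  haveI := isScalarTower_along (esbIncl h)
  haveI := isIntegral_along (esbIncl h) (esb_incl_integral h)
  haveI : Module.Finite ↥(modularFunctionFieldBar N) ↥(modularFunctionFieldBar N') :=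
    esb_incl_finite h
  exact esd_fundamentalIdentity (esd_ff_bar N) (esd_ff_bar N')

/-- the pullback of divisors of degree zero along `F_N ⊂ F_{N'}` -/
noncomputable def esbPullDegZero (h : N ∣ N') :
    Divisor.degZero (K := AlgebraicClosure ℚ) (F := ↥(modularFunctionFieldBar N)) →+
      Divisor.degZero (K := AlgebraicClosure ℚ) (F := ↥(modularFunctionFieldBar N')) :=
  ((Divisor.pullbackAlong (esbIncl h) (esb_incl_integral h)).domRestrict
    (Divisor.degZero (K := AlgebraicClosure ℚ) (F := ↥(modularFunctionFieldBar N)))).codRestrict _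
    (fun D => Divisor.pullbackAlong_mem_degZero (esbIncl h) (esb_incl_integral h)
      (esb_incl_fundamental h) D.2)

@[simp]
theorem coe_esbPullDegZero (h : N ∣ N')
    (D : Divisor.degZero (K := AlgebraicClosure ℚ) (F := ↥(modularFunctionFieldBar N))) :
    (esbPullDegZero h D : Divisor (AlgebraicClosure ℚ) ↥(modularFunctionFieldBar N'))
      = Divisor.pullbackAlong (esbIncl h) (esb_incl_integral h)
          (D : Divisor (AlgebraicClosure ℚ) ↥(modularFunctionFieldBar N)) :=
  rfl

/-- the pullback `π^* : J₀(N) → J₀(N')` -/
noncomputable def esbPull (h : N ∣ N') : JZero N →+ JZero N' :=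
  QuotientAddGroup.map _ _ (esbPullDegZero h) (by
    rintro ⟨D, hD0⟩ hD
    simp only [AddSubgroup.mem_addSubgroupOf] at hD ⊢
    exact Divisor.isPrincipal_pullbackAlong (esbIncl h) (esb_incl_integral h) hD)

theorem esbPull_mk (h : N ∣ N')
    (D : Divisor.degZero (K := AlgebraicClosure ℚ) (F := ↥(modularFunctionFieldBar N))) :
    esbPull h (Pic0.mk D) = Pic0.mk (esbPullDegZero h D) :=
  rfl

end Fermat.Agent.S37L
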