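import Mathlib
import Fermat.Prelude.Def_ModularCurve_HeckeModule
import Fermat.Agent.S37L.EsbDefs

/-!
# S37, block B (π2): `π^* : J₀(N) → J₀(N')` commutes with the action of `Gal(ℚ̄/ℚ)`
-/

set_option autoImplicit false
set_option synthInstance.maxHeartbeats 400000

open AlgebraicCurve ModularCurve
open scoped IntermediateField Pointwise

namespace Fermat.Agent.S37L

section generic

variable {K F F' : Type*} [Field K] [Field F] [Field F'] [Algebra K F] [Algebra K F']
  (φ : F →ₐ[K] F') (hφ : φ.toRingHom.IsIntegral)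
  (g : SemilinearAut K F) (g' : SemilinearAut K F')
  (hc : ∀ f : F, g' • φ f = φ (g • f))

include hc in
theorem esb_gal_inv (f : F) : g'⁻¹ • φ f = φ (g⁻¹ • f) := by
  have h := hc (g⁻¹ • f)
  rw [smul_inv_smul] at h
  rw [← h, inv_smul_smul]

include hc in
theorem esb_gal_restrict (w : Place K F') :
    (g' • w).restrictAlong φ hφ = g • (w.restrictAlong φ hφ) := by
  apply Place.ext
  ext f
  rw [SemilinearAut.smul_toValuationSubring,
    ValuationSubring.mem_pointwise_smul_iff_inv_smul_mem]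
  change φ f ∈ g' • w.toValuationSubring ↔ φ (g⁻¹ • f) ∈ w.toValuationSubring
  rw [ValuationSubring.mem_pointwise_smul_iff_inv_smul_mem, esb_gal_inv φ g g' hc]

include hc in
theorem esb_gal_ord (w : Place K F') (f : F) : (g' • w).ord (φ (g • f)) = w.ord (φ f) := by
  rw [← hc, SemilinearAut.ord_smul]

include hc in
theorem esb_gal_ram (w : Place K F') :
    Place.ramificationIndexAlong φ (g' • w) = Place.ramificationIndexAlong φ w := by
  change sInf {n : ℕ | 0 < n ∧ ∃ f : F, f ≠ 0 ∧ (g' • w).ord (φ f) = n}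
    = sInf {n : ℕ | 0 < n ∧ ∃ f : F, f ≠ 0 ∧ w.ord (φ f) = n}
  congr 1
  ext n
  constructor
  · rintro ⟨hn, f, hf, hfn⟩
    refine ⟨hn, g⁻¹ • f, by simpa using hf, ?_⟩
    rw [← esb_gal_ord φ g g' hc, smul_inv_smul]
    exact hfn
  · rintro ⟨hn, f, hf, hfn⟩
    refine ⟨hn, g • f, by simpa using hf, ?_⟩
    rw [esb_gal_ord φ g g' hc]
    exact hfn

include hc in
theorem esb_gal_pullback [HasPrincipalDivisors K F'] (D : Divisor K F) :
    Divisor.pullbackAlong φ hφ (g • D) = g' • Divisor.pullbackAlong φ hφ D := by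
  ext w
  have hc' : ∀ f : F, g'⁻¹ • φ f = φ (g⁻¹ • f) := esb_gal_inv φ g g' hc
  rw [Divisor.pullbackAlong_apply, SemilinearAut.divisor_smul_apply,
    SemilinearAut.divisor_smul_apply, Divisor.pullbackAlong_apply,
    esb_gal_restrict φ hφ g⁻¹ g'⁻¹ hc', esb_gal_ram φ g⁻¹ g'⁻¹ hc']

end generic

variable {N N' : ℕ} [NeZero N] [NeZero N']

theorem esb_gal_compat (h : N ∣ N') (σ : AlgebraicClosure ℚ ≃ₐ[ℚ] AlgebraicClosure ℚ)
    (f : ↥(modularFunctionFieldBar N)) :
    arithmeticGalois (modularFunctionFieldFull N') σ • esbIncl h f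
      = esbIncl h (arithmeticGalois (modularFunctionFieldFull N) σ • f) := by
  apply Subtype.ext
  rw [coe_esbIncl, coe_arithmeticGalois_smul, coe_arithmeticGalois_smul, coe_esbIncl]

/-- (π2) `π^*` commutes with the Galois action -/
theorem esb_pull_smul (h : N ∣ N') (σ : AlgebraicClosure ℚ ≃ₐ[ℚ] AlgebraicClosure ℚ)
    (x : JZero N) : esbPull h (σ • x) = σ • esbPull h x := by
  obtain ⟨D, rfl⟩ := Pic0.mk_surjective x
  rw [galois_smul_pic0_def, SemilinearAut.pic0_smul_mk, esbPull_mk, esbPull_mk,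
    galois_smul_pic0_def, SemilinearAut.pic0_smul_mk]
  congr 1
  apply Subtype.ext
  rw [coe_esbPullDegZero, SemilinearAut.coe_degZeroSMulHom, SemilinearAut.coe_degZeroSMulHom,
    coe_esbPullDegZero]
  exact esb_gal_pullback (esbIncl h) (esb_incl_integral h) _ _ (esb_gal_compat h σ) _

end Fermat.Agent.S37L
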