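import Mathlib
import Fermat.Prelude.Def_AlgebraicCurve_Correspondence

/-!
# S37, block B (π3, helper39): definitions

`esbhNormAlong φ x` : the norm of `x ∈ F'` over `F`, for the algebra structure along `φ : F → F'`.
-/

set_option autoImplicit false

open AlgebraicCurve

namespace Fermat.Agent.S37L

variable {K F F' : Type*} [Field K] [Field F] [Field F'] [Algebra K F] [Algebra K F']

/-- the norm of `x ∈ F'` over `F`, for the algebra structure along `φ` -/
noncomputable def esbhNormAlong (φ : F →ₐ[K] F') (x : F') : F :=
  letI := algebraAlong φ
  Algebra.norm F x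

theorem esbhNormAlong_def (φ : F →ₐ[K] F') (x : F') :
    esbhNormAlong φ x = (letI := algebraAlong φ; Algebra.norm F x) := rfl

end Fermat.Agent.S37L
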