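import Mathlib
import Fermat.Prelude.Def_AlgebraicCurve_Correspondence
import Fermat.Agent.X0S24.PlaceRes
import Fermat.Agent.S37L.EsbhDefs

/-!
# S37, block B (π3, helper39), leaf (b): base change `ι^* α_* = α'_* ι'^*` for a commutative
square of function fields

```
      α'
 F₁ -----> G₁
 ^          ^
 | ι        | ι'
 F  -----> G
      α
```
Inputs: the norm formulas along `α` and `α'`, a moving lemma on `G`, and norm base change
`ι (N_{G/F} g) = N_{G₁/F₁} (ι' g)`.
-/

set_option autoImplicit false

open AlgebraicCurve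

namespace Fermat.Agent.S37L

variable {K F F₁ G G₁ : Type*} [Field K] [Field F] [Field F₁] [Field G] [Field G₁]
  [Algebra K F] [Algebra K F₁] [Algebra K G] [Algebra K G₁]

section esbh118

variable {F' : Type*} [Field F'] [Algebra K F']

/-- membership in the valuation ring of a restricted place -/
theorem esbh118_mem_restrictAlong (φ : F →ₐ[K] F') (hφ : φ.toRingHom.IsIntegral)
    (w : Place K F') (f : F) :
    f ∈ (w.restrictAlong φ hφ).toValuationSubring ↔ φ f ∈ w.toValuationSubring :=
  Iff.rfl

/-- the norm formula along `φ`, in terms of `esbhNormAlong` -/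
theorem esbh118_pushforward_ord (φ : F →ₐ[K] F') (hφ : φ.toRingHom.IsIntegral)
    (hfin : FiniteAlong K φ) (hN : NormFormulaAlong K φ hfin) (g : F') (hg : g ≠ 0)
    (D : Divisor K F') (hD : ∀ w, D w = w.ord g) (v : Place K F) :
    Divisor.pushforwardAlong φ hφ D v = v.ord (esbhNormAlong φ g) := by
  let := algebraAlong φ
  have := isScalarTower_along φ
  have := isIntegral_along φ hφ
  have : Module.Finite F F' := hfin
  exact hN g hg D hD v

end esbh118

/-- restriction of places in a commutative square -/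
theorem esbh118_restrict_square
    (ι : F →ₐ[K] F₁) (ι' : G →ₐ[K] G₁) (α : F →ₐ[K] G) (α' : F₁ →ₐ[K] G₁)
    (hsq : α'.comp ι = ι'.comp α)
    (hι : ι.toRingHom.IsIntegral) (hι' : ι'.toRingHom.IsIntegral)
    (hα : α.toRingHom.IsIntegral) (hα' : α'.toRingHom.IsIntegral) (W : Place K G₁) :
    (W.restrictAlong ι' hι').restrictAlong α hα = (W.restrictAlong α' hα').restrictAlong ι hι := by
  apply Place.ext
  ext f
  rw [esbh118_mem_restrictAlong, esbh118_mem_restrictAlong, esbh118_mem_restrictAlong,
    esbh118_mem_restrictAlong]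
  have h : α' (ι f) = ι' (α f) := DFunLike.congr_fun hsq f
  rw [h]

/-- off the fibre, the left-hand side vanishes on single places -/
theorem esbh118_left_single [HasPrincipalDivisors K F₁]
    (ι : F →ₐ[K] F₁) (α : F →ₐ[K] G)
    (hι : ι.toRingHom.IsIntegral) (hα : α.toRingHom.IsIntegral)
    (v : Place K F₁) (w : Place K G) (n : ℤ)
    (hw : w.restrictAlong α hα ≠ v.restrictAlong ι hι) :
    Divisor.pullbackAlong ι hι (Divisor.pushforwardAlong α hα (Finsupp.single w n)) v = 0 := by
  rw [Divisor.pullbackAlong_apply, Divisor.pushforwardAlong_single,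
    Finsupp.single_eq_of_ne (Ne.symm hw), mul_zero]

/-- off the fibre, the right-hand side vanishes on single places -/
theorem esbh118_right_single [HasPrincipalDivisors K G₁]
    (ι : F →ₐ[K] F₁) (ι' : G →ₐ[K] G₁) (α : F →ₐ[K] G) (α' : F₁ →ₐ[K] G₁)
    (hsq : α'.comp ι = ι'.comp α)
    (hι : ι.toRingHom.IsIntegral) (hι' : ι'.toRingHom.IsIntegral)
    (hα : α.toRingHom.IsIntegral) (hα' : α'.toRingHom.IsIntegral)
    (v : Place K F₁) (w : Place K G) (n : ℤ)
    (hw : w.restrictAlong α hα ≠ v.restrictAlong ι hι) :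
    Divisor.pushforwardAlong α' hα' (Divisor.pullbackAlong ι' hι' (Finsupp.single w n)) v = 0 := by
  rw [Divisor.pullbackAlong_single, map_sum, Finsupp.finsetSum_apply]
  refine Finset.sum_eq_zero fun W hW => ?_
  rw [Place.mem_fiberAlong] at hW
  rw [Divisor.pushforwardAlong_single]
  refine Finsupp.single_eq_of_ne ?_
  intro hv
  apply hw
  rw [← hW, hv]
  exact esbh118_restrict_square ι ι' α α' hsq hι hι' hα hα' W

/-- **base change** for push-forward and pull-back of divisors in a commutative square -/
theorem esbh_base_change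
    [HasPrincipalDivisors K F₁] [HasPrincipalDivisors K G] [HasPrincipalDivisors K G₁]
    (ι : F →ₐ[K] F₁) (ι' : G →ₐ[K] G₁) (α : F →ₐ[K] G) (α' : F₁ →ₐ[K] G₁)
    (hsq : α'.comp ι = ι'.comp α)
    (hι : ι.toRingHom.IsIntegral) (hι' : ι'.toRingHom.IsIntegral)
    (hα : α.toRingHom.IsIntegral) (hα' : α'.toRingHom.IsIntegral)
    (hfin : FiniteAlong K α) (hfin' : FiniteAlong K α')
    (hN : NormFormulaAlong K α hfin) (hN' : NormFormulaAlong K α' hfin')
    (hmove : ∀ (S : Finset (Place K G)) (n : Place K G → ℤ),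
      ∃ g : G, g ≠ 0 ∧ ∀ P ∈ S, P.ord g = n P)
    (hnorm : ∀ g : G, ι (esbhNormAlong α g) = esbhNormAlong α' (ι' g))
    (D : Divisor K G) :
    Divisor.pullbackAlong ι hι (Divisor.pushforwardAlong α hα D)
      = Divisor.pushforwardAlong α' hα' (Divisor.pullbackAlong ι' hι' D) := by
  classical
  refine Finsupp.ext fun v => ?_
  -- a principal divisor agreeing with `D` on the fibre
  obtain ⟨g, hg0, hg⟩ := hmove (Place.fiberAlong α hα (v.restrictAlong ι hι)) (fun w => D w)
  obtain ⟨D', hD', -⟩ := HasPrincipalDivisors.exists_divisor (K := K) g hg0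
  -- both sides vanish at `v` on divisors supported off the fibre
  have hoff : ∀ E : Divisor K G,
      (∀ w ∈ Place.fiberAlong α hα (v.restrictAlong ι hι), E w = 0) →
      Divisor.pullbackAlong ι hι (Divisor.pushforwardAlong α hα E) v = 0 ∧
      Divisor.pushforwardAlong α' hα' (Divisor.pullbackAlong ι' hι' E) v = 0 := by
    intro E hE
    have hsupp : ∀ w ∈ E.support, w.restrictAlong α hα ≠ v.restrictAlong ι hι := by
      intro w hw hwP
      exact (Finsupp.mem_support_iff.mp hw) (hE w (Place.mem_fiberAlong.mpr hwP))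
    have hEsum : E = ∑ w ∈ E.support, Finsupp.single w (E w) := (Finsupp.sum_single E).symm
    constructor
    · rw [hEsum, map_sum, map_sum, Finsupp.finsetSum_apply]
      exact Finset.sum_eq_zero fun w hw => esbh118_left_single ι α hι hα v w _ (hsupp w hw)
    · rw [hEsum, map_sum, map_sum, Finsupp.finsetSum_apply]
      exact Finset.sum_eq_zero fun w hw =>
        esbh118_right_single ι ι' α α' hsq hι hι' hα hα' v w _ (hsupp w hw)
  have hDD' : ∀ w ∈ Place.fiberAlong α hα (v.restrictAlong ι hι), (D - D') w = 0 := by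
    intro w hw
    rw [Finsupp.sub_apply, hD' w, hg w hw, sub_self]
  obtain ⟨hL, hR⟩ := hoff (D - D') hDD'
  -- the principal case
  have hprin : Divisor.pullbackAlong ι hι (Divisor.pushforwardAlong α hα D') v
      = Divisor.pushforwardAlong α' hα' (Divisor.pullbackAlong ι' hι' D') v := by
    rw [Divisor.pullbackAlong_apply, esbh118_pushforward_ord α hα hfin hN g hg0 D' hD',
      ← Place.ord_restrictAlong, hnorm]
    refine (esbh118_pushforward_ord α' hα' hfin' hN' (ι' g)
      ((map_ne_zero ι').mpr hg0) _ (fun W => ?_) v).symm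
    rw [Divisor.pullbackAlong_apply, hD', ← Place.ord_restrictAlong]
  have hD : D = D' + (D - D') := by abel
  rw [hD, map_add, map_add, map_add, map_add, Finsupp.add_apply, Finsupp.add_apply, hL, hR,
    hprin]

end Fermat.Agent.S37L
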