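import Mathlib
import Fermat.Prelude.Def_AlgebraicCurve_Correspondence
import Fermat.Agent.X0S24.PlaceRes

/-!
# S37, block B (π3, helper39), leaf (a): functoriality of the pullback of divisors in towers
-/

set_option autoImplicit false

open AlgebraicCurve

namespace Fermat.Agent.S37L

variable {K F F₁ F₂ : Type*} [Field K] [Field F] [Field F₁] [Field F₂]
  [Algebra K F] [Algebra K F₁] [Algebra K F₂]

/-- restriction of places is transitive -/
theorem esbh_restrictAlong_comp (φ : F →ₐ[K] F₁) (ψ : F₁ →ₐ[K] F₂)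
    (hφ : φ.toRingHom.IsIntegral) (hψ : ψ.toRingHom.IsIntegral)
    (hψφ : (ψ.comp φ).toRingHom.IsIntegral) (w : Place K F₂) :
    w.restrictAlong (ψ.comp φ) hψφ = (w.restrictAlong ψ hψ).restrictAlong φ hφ := by
  apply Place.ext
  ext x
  exact Iff.rfl

/-- ramification indices are multiplicative in towers -/
theorem esbh_ramificationIndexAlong_comp (φ : F →ₐ[K] F₁) (ψ : F₁ →ₐ[K] F₂)
    (hφ : φ.toRingHom.IsIntegral) (hψ : ψ.toRingHom.IsIntegral) (w : Place K F₂) :
    Place.ramificationIndexAlong (ψ.comp φ) w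
      = Place.ramificationIndexAlong ψ w * Place.ramificationIndexAlong φ (w.restrictAlong ψ hψ) := by
  have hψφ : (ψ.comp φ).toRingHom.IsIntegral := RingHom.IsIntegral.trans _ _ hφ hψ
  obtain ⟨f, hf0, hf⟩ := Fermat.Agent.X0S24.PlaceRes.exists_ord_eq_one
    ((w.restrictAlong ψ hψ).restrictAlong φ hφ)
  have h1 := Place.ord_restrictAlong (ψ.comp φ) hψφ w f
  rw [esbh_restrictAlong_comp φ ψ hφ hψ hψφ w, hf, mul_one] at h1
  have h2 := Place.ord_restrictAlong ψ hψ w (φ f)
  have h3 := Place.ord_restrictAlong φ hφ (w.restrictAlong ψ hψ) f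
  rw [h3, hf, mul_one] at h2
  have h4 : (ψ.comp φ) f = ψ (φ f) := rfl
  rw [h4, h2] at h1
  exact_mod_cast h1.symm

/-- the pullback of divisors is functorial -/
theorem esbh_pullbackAlong_comp [HasPrincipalDivisors K F₁] [HasPrincipalDivisors K F₂]
    (φ : F →ₐ[K] F₁) (ψ : F₁ →ₐ[K] F₂)
    (hφ : φ.toRingHom.IsIntegral) (hψ : ψ.toRingHom.IsIntegral)
    (hψφ : (ψ.comp φ).toRingHom.IsIntegral) (D : Divisor K F) :
    Divisor.pullbackAlong (ψ.comp φ) hψφ D
      = Divisor.pullbackAlong ψ hψ (Divisor.pullbackAlong φ hφ D) := by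
  ext w
  rw [Divisor.pullbackAlong_apply, Divisor.pullbackAlong_apply, Divisor.pullbackAlong_apply,
    esbh_restrictAlong_comp φ ψ hφ hψ hψφ w, esbh_ramificationIndexAlong_comp φ ψ hφ hψ w]
  push_cast
  ring

/-- the pullback only depends on the homomorphism -/
theorem esbh_pullbackAlong_congr [HasPrincipalDivisors K F₁] {φ φ' : F →ₐ[K] F₁} (h : φ = φ')
    (hφ : φ.toRingHom.IsIntegral) (hφ' : φ'.toRingHom.IsIntegral) (D : Divisor K F) :
    Divisor.pullbackAlong φ hφ D = Divisor.pullbackAlong φ' hφ' D := by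
  subst h
  rfl

end Fermat.Agent.S37L
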