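import Mathlib
import Fermat.Prelude.Def_ModularCurve_HeckeModule
import Fermat.Agent.S37L.EsbDefs

/-!
# S37, block B (π3, helper39), leaf (d): degrees and compositum in the square of modular
function fields `F_N ⊂ F_{N'}`, `F_{Nℓ} ⊂ F_{N'ℓ}`
-/

set_option autoImplicit false
set_option synthInstance.maxHeartbeats 400000

open AlgebraicCurve ModularCurve
open scoped IntermediateField

namespace Fermat.Agent.S37L

/-- the degree along the inclusion of intermediate fields `E ≤ E'` is the relative degree -/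
theorem esbh120_finrankAlong_inclusion {K L : Type*} [Field K] [Field L] [Algebra K L]
    {E E' : IntermediateField K L} (h : E ≤ E') :
    finrankAlong K (IntermediateField.inclusion h) = IntermediateField.relfinrank E E' := by
  rw [IntermediateField.relfinrank_eq_finrank_of_le h]
  unfold finrankAlong
  let _ := algebraAlong (IntermediateField.inclusion h)
  let e : ↥E' ≃ₗ[↥E] ↥(IntermediateField.extendScalars h) :=
    { toFun := fun x => ⟨x.1, x.2⟩
      invFun := fun x => ⟨x.1, x.2⟩
      map_add' := fun _ _ => rfl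
      map_smul' := fun _ _ => rfl
      left_inv := fun _ => rfl
      right_inv := fun _ => rfl }
  exact e.finrank_eq

/-- `[F_{Mℓ} : F_M] = ℓ + 1` (relative degree of intermediate fields) for a prime `ℓ ∤ M` -/
theorem esbh_relfinrank_mul_prime (M : ℕ) [NeZero M] (ℓ : ℕ) [NeZero ℓ] (hℓ : ℓ.Prime)
    (hℓM : ¬ ℓ ∣ M) :
    IntermediateField.relfinrank (modularFunctionFieldBar M) (modularFunctionFieldBar (M * ℓ))
      = ℓ + 1 := by
  have hM : M ≠ 0 := NeZero.ne M
  have htower := IntermediateField.relfinrank_mul_relfinrank (Fermat.Agent.S18L.adeg_adjoin_le M)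
    (Fermat.Agent.S18L.bar_le_bar (dvd_mul_right M ℓ))
  rw [Fermat.Agent.S18L.adeg_relfinrank_bar, Fermat.Agent.S18L.adeg_relfinrank_bar] at htower
  have hpos := Fermat.Agent.S18L.adeg_psi_pos M
  have hpsi : dedekindPsi (M * ℓ) = (ℓ + 1) * dedekindPsi M := by
    rw [mul_comm M ℓ, Fermat.Agent.X0Count.ix_psi_prime_mul hℓ hM, if_neg hℓM]
  rw [hpsi, mul_comm] at htower
  exact Nat.eq_of_mul_eq_mul_right hpos htower

/-- `[F_{Mℓ} : F_M] = ℓ + 1` along `α`, for a prime `ℓ ∤ M` -/
theorem esbh_finrank_alpha (M : ℕ) [NeZero M] (ℓ : ℕ) [NeZero ℓ] (hℓ : ℓ.Prime)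
    (hℓM : ¬ ℓ ∣ M) :
    finrankAlong (AlgebraicClosure ℚ) (heckeAlphaBar (AlgebraicClosure ℚ) M ℓ) = ℓ + 1 := by
  rw [heckeAlphaBar_eq_inclusion (h := Fermat.Agent.S18L.bar_le_bar (dvd_mul_right M ℓ)),
    esbh120_finrankAlong_inclusion]
  exact esbh_relfinrank_mul_prime M ℓ hℓ hℓM

end Fermat.Agent.S37L
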