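import Mathlib
import Fermat.Prelude.Def_AlgebraicCurve_Correspondence
import Fermat.Agent.S37L.EsbhDefs

/-!
# S37, block B (π3, helper39), leaf (c): norm base change in a commutative square of fields

If `G₁ = F₁ · G` (every element of `G₁` is a sum of products `α' c * ι' x`) and
`[G₁ : F₁] = [G : F]`, then `ι (N_{G/F} g) = N_{G₁/F₁} (ι' g)`.
-/

set_option autoImplicit false

open AlgebraicCurve

namespace Fermat.Agent.S37L

variable {K F F₁ G G₁ : Type*} [Field K] [Field F] [Field F₁] [Field G] [Field G₁]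
  [Algebra K F] [Algebra K F₁] [Algebra K G] [Algebra K G₁]

/-- norm base change, with honest algebra structures -/
theorem esbh119_norm_map {F F₁ G G₁ : Type*} [Field F] [Field F₁] [Field G] [Field G₁]
    [Algebra F G] [Algebra F₁ G₁] (ι : F →+* F₁) (ι' : G →+* G₁)
    (hsq : ∀ a : F, ι' (algebraMap F G a) = algebraMap F₁ G₁ (ι a))
    [Module.Finite F G] (hrank : Module.finrank F₁ G₁ = Module.finrank F G)
    (hspan : ∀ y : G₁, ∃ (n : ℕ) (c : Fin n → F₁) (x : Fin n → G),
      y = ∑ i, algebraMap F₁ G₁ (c i) * ι' (x i))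
    (g : G) : ι (Algebra.norm F g) = Algebra.norm F₁ (ι' g) := by
  classical
  let b := Module.finBasis F G
  -- the image of an element, expanded in the image family
  have hexp : ∀ x : G, ι' x = ∑ i, ι (b.repr x i) • ι' (b i) := by
    intro x
    conv_lhs => rw [← b.sum_repr x]
    rw [map_sum]
    refine Finset.sum_congr rfl fun i _ => ?_
    rw [Algebra.smul_def, map_mul, hsq, Algebra.smul_def]
  have hle : ⊤ ≤ Submodule.span F₁ (Set.range fun i => ι' (b i)) := by
    intro y _
    obtain ⟨n, c, x, rfl⟩ := hspan y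
    refine Submodule.sum_mem _ fun i _ => ?_
    rw [← Algebra.smul_def]
    refine Submodule.smul_mem _ _ ?_
    rw [hexp (x i)]
    refine Submodule.sum_mem _ fun j _ => ?_
    exact Submodule.smul_mem _ _ (Submodule.subset_span ⟨j, rfl⟩)
  have hcard : Fintype.card (Fin (Module.finrank F G)) = Module.finrank F₁ G₁ := by
    rw [Fintype.card_fin, hrank]
  let B' := basisOfTopLeSpanOfCardEqFinrank (fun i => ι' (b i)) hle hcard
  have hB' : ∀ i, B' i = ι' (b i) := fun i => by
    rw [coe_basisOfTopLeSpanOfCardEqFinrank]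
  have hrepr : ∀ (x : G) (i), B'.repr (ι' x) i = ι (b.repr x i) := by
    intro x i
    have h1 : ι' x = ∑ j, ι (b.repr x j) • B' j := by
      rw [hexp x]
      exact Finset.sum_congr rfl fun j _ => by rw [hB']
    rw [h1, B'.repr_sum_self]
  rw [Algebra.norm_eq_matrix_det b, Algebra.norm_eq_matrix_det B', RingHom.map_det]
  congr 1
  ext i j
  rw [RingHom.mapMatrix_apply, Matrix.map_apply, Algebra.leftMulMatrix_eq_repr_mul,
    Algebra.leftMulMatrix_eq_repr_mul, hB', ← map_mul, hrepr]

/-- **norm base change** -/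
theorem esbh_norm_base_change
    (ι : F →ₐ[K] F₁) (ι' : G →ₐ[K] G₁) (α : F →ₐ[K] G) (α' : F₁ →ₐ[K] G₁)
    (hsq : α'.comp ι = ι'.comp α) (hfin : FiniteAlong K α)
    (hrank : finrankAlong K α' = finrankAlong K α)
    (hspan : ∀ y : G₁, ∃ (n : ℕ) (c : Fin n → F₁) (x : Fin n → G),
      y = ∑ i, α' (c i) * ι' (x i))
    (g : G) : ι (esbhNormAlong α g) = esbhNormAlong α' (ι' g) := by
  let _ := algebraAlong α
  let _ := algebraAlong α'
  have : Module.Finite F G := hfin
  exact esbh119_norm_map ι.toRingHom ι'.toRingHom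
    (fun a => (DFunLike.congr_fun hsq a).symm) hrank hspan g

end Fermat.Agent.S37L
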