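import Mathlib
import Fermat.Prelude.Def_ModularCurve_HeckeModule
import Fermat.Agent.S37L.EsbDefs
import Fermat.Agent.S37L.EsbhDeg

/-!
# S37, block B (π3, helper39), leaf (d2): `F_{N'ℓ} = F_{N'} · F_{Nℓ}`

For `N ∣ N'`, `ℓ ∤ N'` prime and `[F_{N'} : F_N]` prime to `ℓ + 1`, the field `F_{N'ℓ}` is the
compositum of `F_{N'}` and `F_{Nℓ}`; since both are algebraic over `F_N`, every element of
`F_{N'ℓ}` is a finite sum of products.
-/

set_option autoImplicit false
set_option synthInstance.maxHeartbeats 400000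

open AlgebraicCurve ModularCurve
open scoped IntermediateField

namespace Fermat.Agent.S37L

theorem esbh122_arith (d m r a b e : ℕ) (hcop : Nat.Coprime d m) (hd : d ≠ 0) (hm : m ≠ 0)
    (t1 : d * a = r) (t2 : m * b = r) (t3 : r * e = d * m) : e = 1 := by
  have h1 : d * m ∣ r := Nat.Coprime.mul_dvd_of_dvd_of_dvd hcop ⟨a, t1.symm⟩ ⟨b, t2.symm⟩
  obtain ⟨k, rfl⟩ := h1
  have h2 : d * m * (k * e) = d * m * 1 := by rw [← mul_assoc, t3, mul_one]
  have h3 := Nat.eq_of_mul_eq_mul_left (Nat.pos_of_ne_zero (mul_ne_zero hd hm)) h2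
  exact Nat.eq_one_of_mul_eq_one_left h3

/-- every element of the compositum `A ⊔ B` of two intermediate fields containing `K₀`, with `A`
algebraic over `K₀`, is a finite sum of products -/
theorem esbh122_sup_sum {K L : Type*} [Field K] [Field L] [Algebra K L]
    (K₀ A B : IntermediateField K L) (hA : K₀ ≤ A) (hB : K₀ ≤ B)
    (halg : Algebra.IsAlgebraic K₀ (IntermediateField.extendScalars hA)) (y : L)
    (hy : y ∈ A ⊔ B) :
    ∃ (n : ℕ) (c : Fin n → A) (x : Fin n → B), y = ∑ i, (c i : L) * (x i : L) := by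
  have hy1 : y ∈ IntermediateField.extendScalars hA ⊔ IntermediateField.extendScalars hB := by
    rw [IntermediateField.extendScalars_sup]
    exact hy
  have hy2 : y ∈ ((IntermediateField.extendScalars hA ⊔ IntermediateField.extendScalars hB
      : IntermediateField K₀ L)).toSubalgebra := hy1
  rw [IntermediateField.sup_toSubalgebra_of_isAlgebraic_left] at hy2
  have hy3 : y ∈ Subalgebra.toSubmodule (IntermediateField.extendScalars hA).toSubalgebra
      * Subalgebra.toSubmodule (IntermediateField.extendScalars hB).toSubalgebra := by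
    rw [Subalgebra.mul_toSubmodule]
    exact hy2
  refine Submodule.mul_induction_on hy3 ?_ ?_
  · intro m hm n hn
    exact ⟨1, fun _ => ⟨m, hm⟩, fun _ => ⟨n, hn⟩, by simp⟩
  · rintro u w ⟨n₁, c₁, x₁, rfl⟩ ⟨n₂, c₂, x₂, rfl⟩
    refine ⟨n₁ + n₂, Fin.append c₁ c₂, Fin.append x₁ x₂, ?_⟩
    rw [Fin.sum_univ_add]
    simp

/-- `F_{N'ℓ} = F_{N'} ⊔ F_{Nℓ}` as intermediate fields of `ℚ̄((q))` -/
theorem esbh_sup_eq {N N' : ℕ} [NeZero N] [NeZero N'] (h : N ∣ N') (ℓ : ℕ) [NeZero ℓ]
    (hℓ : ℓ.Prime) (hℓN' : ¬ ℓ ∣ N')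
    (hcop : Nat.Coprime (IntermediateField.relfinrank (modularFunctionFieldBar N)
      (modularFunctionFieldBar N')) (ℓ + 1)) :
    modularFunctionFieldBar N' ⊔ modularFunctionFieldBar (N * ℓ)
      = modularFunctionFieldBar (N' * ℓ) := by
  have hℓN : ¬ ℓ ∣ N := fun hd => hℓN' (hd.trans h)
  have h1 : modularFunctionFieldBar N ≤ modularFunctionFieldBar N' :=
    Fermat.Agent.S18L.bar_le_bar h
  have h2 : modularFunctionFieldBar N ≤ modularFunctionFieldBar (N * ℓ) :=
    Fermat.Agent.S18L.bar_le_bar (dvd_mul_right N ℓ)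
  have h3 : modularFunctionFieldBar N' ≤ modularFunctionFieldBar (N' * ℓ) :=
    Fermat.Agent.S18L.bar_le_bar (dvd_mul_right N' ℓ)
  have h4 : modularFunctionFieldBar (N * ℓ) ≤ modularFunctionFieldBar (N' * ℓ) :=
    Fermat.Agent.S18L.bar_le_bar (Nat.mul_dvd_mul_right h ℓ)
  have hE : modularFunctionFieldBar N' ⊔ modularFunctionFieldBar (N * ℓ)
      ≤ modularFunctionFieldBar (N' * ℓ) := sup_le h3 h4
  have t1 := IntermediateField.relfinrank_mul_relfinrank h1
    (le_sup_left : modularFunctionFieldBar N'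
      ≤ modularFunctionFieldBar N' ⊔ modularFunctionFieldBar (N * ℓ))
  have t2 := IntermediateField.relfinrank_mul_relfinrank h2
    (le_sup_right : modularFunctionFieldBar (N * ℓ)
      ≤ modularFunctionFieldBar N' ⊔ modularFunctionFieldBar (N * ℓ))
  have t3 := IntermediateField.relfinrank_mul_relfinrank (h1.trans le_sup_left) hE
  have t4 := IntermediateField.relfinrank_mul_relfinrank h1 h3
  rw [esbh_relfinrank_mul_prime N ℓ hℓ hℓN] at t2
  rw [esbh_relfinrank_mul_prime N' ℓ hℓ hℓN'] at t4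
  have hd0 : IntermediateField.relfinrank (modularFunctionFieldBar N)
      (modularFunctionFieldBar N') ≠ 0 := by
    intro h0
    rw [h0, Nat.coprime_zero_left] at hcop
    have := hℓ.pos
    omega
  have key : IntermediateField.relfinrank
      (modularFunctionFieldBar N' ⊔ modularFunctionFieldBar (N * ℓ))
      (modularFunctionFieldBar (N' * ℓ)) = 1 :=
    esbh122_arith _ _ _ _ _ _ hcop hd0 (Nat.succ_ne_zero ℓ) t1 t2 (t3.trans t4.symm)
  exact le_antisymm hE (IntermediateField.relfinrank_eq_one_iff.mp key)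


/-- every element of `F_{N'ℓ}` is a sum of products of elements of `F_{N'}` and `F_{Nℓ}` -/
theorem esbh_span {N N' : ℕ} [NeZero N] [NeZero N'] (h : N ∣ N') (ℓ : ℕ) [NeZero ℓ]
    (hℓ : ℓ.Prime) (hℓN' : ¬ ℓ ∣ N')
    (hcop : Nat.Coprime (IntermediateField.relfinrank (modularFunctionFieldBar N)
      (modularFunctionFieldBar N')) (ℓ + 1))
    (y : ↥(modularFunctionFieldBar (N' * ℓ))) :
    ∃ (n : ℕ) (c : Fin n → ↥(modularFunctionFieldBar N'))
      (x : Fin n → ↥(modularFunctionFieldBar (N * ℓ))),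
      y = ∑ i, heckeAlphaBar (AlgebraicClosure ℚ) N' ℓ (c i)
        * esbIncl (Nat.mul_dvd_mul_right h ℓ) (x i) := by
  have h1 : modularFunctionFieldBar N ≤ modularFunctionFieldBar N' :=
    Fermat.Agent.S18L.bar_le_bar h
  have h2 : modularFunctionFieldBar N ≤ modularFunctionFieldBar (N * ℓ) :=
    Fermat.Agent.S18L.bar_le_bar (dvd_mul_right N ℓ)
  have hd0 : IntermediateField.relfinrank (modularFunctionFieldBar N)
      (modularFunctionFieldBar N') ≠ 0 := by
    intro h0
    rw [h0, Nat.coprime_zero_left] at hcop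
    have := hℓ.pos
    omega
  rw [IntermediateField.relfinrank_eq_finrank_of_le h1] at hd0
  have hfin : Module.Finite ↥(modularFunctionFieldBar N)
      ↥(IntermediateField.extendScalars h1) :=
    Module.finite_of_finrank_pos (Nat.pos_of_ne_zero hd0)
  have halg : Algebra.IsAlgebraic ↥(modularFunctionFieldBar N)
      ↥(IntermediateField.extendScalars h1) := Algebra.IsAlgebraic.of_finite _ _
  have hy : (y : LaurentSeries (AlgebraicClosure ℚ))
      ∈ modularFunctionFieldBar N' ⊔ modularFunctionFieldBar (N * ℓ) := by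
    rw [esbh_sup_eq h ℓ hℓ hℓN' hcop]
    exact y.2
  obtain ⟨n, c, x, hsum⟩ := esbh122_sup_sum _ _ _ h1 h2 halg _ hy
  refine ⟨n, c, x, Subtype.ext ?_⟩
  rw [hsum, AddSubmonoidClass.coe_finsetSum]
  refine Finset.sum_congr rfl fun i _ => ?_
  rw [MulMemClass.coe_mul, coe_esbIncl]
  rfl

end Fermat.Agent.S37L
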