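import Mathlib
import Fermat.Prelude.Def_ModularCurve_HeckeModule
import Fermat.Agent.S37L.EsbDefs
import Fermat.Agent.S37L.EsdMove
import Fermat.Agent.S37L.EsbhComp
import Fermat.Agent.S37L.EsbhBase
import Fermat.Agent.S37L.EsbhNorm
import Fermat.Agent.S37L.EsbhDeg
import Fermat.Agent.S37L.EsbhSpan

/-!
# S37, block B (π3, helper39): `π^* ∘ T_ℓ = T_ℓ ∘ π^*` for `π : F_N ⊂ F_{N'}`

`T_ℓ = α_* β^*`; `β'^* ι^* = ι'^* β^*` by functoriality of the pullback in the square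
`β' ∘ ι = ι' ∘ β`, and `ι^* α_* = α'_* ι'^*` by base change in the square `α' ∘ ι = ι' ∘ α`
(`F_{N'ℓ} = F_{N'} · F_{Nℓ}` with `[F_{N'ℓ} : F_{N'}] = [F_{Nℓ} : F_N] = ℓ + 1`).
-/

set_option autoImplicit false
set_option synthInstance.maxHeartbeats 400000

open AlgebraicCurve ModularCurve
open scoped IntermediateField

namespace Fermat.Agent.S37L

variable {N N' : ℕ} [NeZero N] [NeZero N']

/-- the square `α' ∘ ι = ι' ∘ α` -/
theorem esbh_square_alpha (h : N ∣ N') (ℓ : ℕ) [NeZero ℓ] :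
    (heckeAlphaBar (AlgebraicClosure ℚ) N' ℓ).comp (esbIncl h)
      = (esbIncl (Nat.mul_dvd_mul_right h ℓ)).comp (heckeAlphaBar (AlgebraicClosure ℚ) N ℓ) := by
  apply AlgHom.ext
  intro x
  apply Subtype.ext
  simp only [AlgHom.comp_apply, coe_heckeAlphaBar, coe_esbIncl]

/-- the square `β' ∘ ι = ι' ∘ β` -/
theorem esbh_square_beta (h : N ∣ N') (ℓ : ℕ) [NeZero ℓ] :
    (heckeBetaBar (AlgebraicClosure ℚ) N' ℓ).comp (esbIncl h)
      = (esbIncl (Nat.mul_dvd_mul_right h ℓ)).comp (heckeBetaBar (AlgebraicClosure ℚ) N ℓ) := by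
  apply AlgHom.ext
  intro x
  apply Subtype.ext
  simp only [AlgHom.comp_apply, coe_heckeBetaBar, coe_esbIncl]

/-- composites of integral homomorphisms are integral -/
theorem esbh_integral_comp {K F F₁ F₂ : Type*} [Field K] [Field F] [Field F₁] [Field F₂]
    [Algebra K F] [Algebra K F₁] [Algebra K F₂] (φ : F →ₐ[K] F₁) (ψ : F₁ →ₐ[K] F₂)
    (hφ : φ.toRingHom.IsIntegral) (hψ : ψ.toRingHom.IsIntegral) :
    (ψ.comp φ).toRingHom.IsIntegral :=
  RingHom.IsIntegral.trans _ _ hφ hψ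

set_option maxHeartbeats 800000 in
/-- the divisor-level identity `ι^* (T_ℓ D) = T_ℓ (ι^* D)` -/
theorem esbh_divisor (h : N ∣ N') (ℓ : ℕ) [NeZero ℓ] (hℓ : ℓ.Prime) (hℓN' : ¬ ℓ ∣ N')
    (hcop : Nat.Coprime (IntermediateField.relfinrank (modularFunctionFieldBar N)
      (modularFunctionFieldBar N')) (ℓ + 1))
    (D : Divisor (AlgebraicClosure ℚ) ↥(modularFunctionFieldBar N)) :
    Divisor.pullbackAlong (esbIncl h) (esb_incl_integral h)
        (Divisor.correspondence (heckeBetaBar (AlgebraicClosure ℚ) N ℓ)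
          (heckeAlphaBar (AlgebraicClosure ℚ) N ℓ) (esd_beta_integral N ℓ)
          (esd_alpha_integral N ℓ) D)
      = Divisor.correspondence (heckeBetaBar (AlgebraicClosure ℚ) N' ℓ)
          (heckeAlphaBar (AlgebraicClosure ℚ) N' ℓ) (esd_beta_integral N' ℓ)
          (esd_alpha_integral N' ℓ)
          (Divisor.pullbackAlong (esbIncl h) (esb_incl_integral h) D) := by
  have hℓN : ¬ ℓ ∣ N := fun hd => hℓN' (hd.trans h)
  have h' : N * ℓ ∣ N' * ℓ := Nat.mul_dvd_mul_right h ℓ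
  have hrank : finrankAlong (AlgebraicClosure ℚ) (heckeAlphaBar (AlgebraicClosure ℚ) N' ℓ)
      = finrankAlong (AlgebraicClosure ℚ) (heckeAlphaBar (AlgebraicClosure ℚ) N ℓ) := by
    rw [esbh_finrank_alpha N' ℓ hℓ hℓN', esbh_finrank_alpha N ℓ hℓ hℓN]
  have hnorm := esbh_norm_base_change (esbIncl h) (esbIncl h')
    (heckeAlphaBar (AlgebraicClosure ℚ) N ℓ) (heckeAlphaBar (AlgebraicClosure ℚ) N' ℓ)
    (esbh_square_alpha h ℓ) (esd_finite_alpha N ℓ) hrank (esbh_span h ℓ hℓ hℓN' hcop)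
  have hbase := esbh_base_change (esbIncl h) (esbIncl h')
    (heckeAlphaBar (AlgebraicClosure ℚ) N ℓ) (heckeAlphaBar (AlgebraicClosure ℚ) N' ℓ)
    (esbh_square_alpha h ℓ) (esb_incl_integral h) (esb_incl_integral h')
    (esd_alpha_integral N ℓ) (esd_alpha_integral N' ℓ)
    (esd_finite_alpha N ℓ) (esd_finite_alpha N' ℓ)
    (esd_normFormula_alpha N ℓ) (esd_normFormula_alpha N' ℓ)
    (fun S n => esd_moving (esd_ff_bar (N * ℓ)) S n) hnorm
    (Divisor.pullbackAlong (heckeBetaBar (AlgebraicClosure ℚ) N ℓ) (esd_beta_integral N ℓ) D)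
  rw [Divisor.correspondence_apply, Divisor.correspondence_apply, hbase]
  congr 1
  rw [← esbh_pullbackAlong_comp (heckeBetaBar (AlgebraicClosure ℚ) N ℓ) (esbIncl h')
      (esd_beta_integral N ℓ) (esb_incl_integral h')
      (esbh_integral_comp _ _ (esd_beta_integral N ℓ) (esb_incl_integral h')),
    ← esbh_pullbackAlong_comp (esbIncl h) (heckeBetaBar (AlgebraicClosure ℚ) N' ℓ)
      (esb_incl_integral h) (esd_beta_integral N' ℓ)
      (esbh_integral_comp _ _ (esb_incl_integral h) (esd_beta_integral N' ℓ))]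
  exact esbh_pullbackAlong_congr (esbh_square_beta h ℓ).symm _ _ D

set_option maxHeartbeats 800000 in
/-- (π3) `π^*` commutes with the Hecke operator `T_ℓ` -/
theorem esb_pull_hecke (h : N ∣ N') (ℓ : ℕ) (hℓ : ℓ.Prime) (hℓN' : ¬ ℓ ∣ N')
    (hcop : Nat.Coprime (IntermediateField.relfinrank (modularFunctionFieldBar N)
      (modularFunctionFieldBar N')) (ℓ + 1))
    (y : JZero N) :
    esbPull h (heckeOperatorBar N ⟨ℓ, hℓ⟩ y) = heckeOperatorBar N' ⟨ℓ, hℓ⟩ (esbPull h y) := by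
  haveI : NeZero ℓ := ⟨hℓ.ne_zero⟩
  obtain ⟨D, rfl⟩ := Pic0.mk_surjective y
  have hT : heckeOperatorBar N ⟨ℓ, hℓ⟩ (Pic0.mk D)
      = Pic0.mk (Pic0.degZeroCorrespondence (heckeBetaBar (AlgebraicClosure ℚ) N ℓ)
          (heckeAlphaBar (AlgebraicClosure ℚ) N ℓ) (esd_beta_integral N ℓ)
          (esd_alpha_integral N ℓ) (esd_fundamentalIdentity_beta N ℓ) D) := by
    rw [heckeOperatorBar_apply]
    show heckeOperatorAlong (AlgebraicClosure ℚ) N ℓ (Pic0.mk D) = _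
    rw [esd_heckeOperator_eq N ℓ]
    rfl
  have hT' : heckeOperatorBar N' ⟨ℓ, hℓ⟩ (Pic0.mk (esbPullDegZero h D))
      = Pic0.mk (Pic0.degZeroCorrespondence (heckeBetaBar (AlgebraicClosure ℚ) N' ℓ)
          (heckeAlphaBar (AlgebraicClosure ℚ) N' ℓ) (esd_beta_integral N' ℓ)
          (esd_alpha_integral N' ℓ) (esd_fundamentalIdentity_beta N' ℓ)
          (esbPullDegZero h D)) := by
    rw [heckeOperatorBar_apply]
    show heckeOperatorAlong (AlgebraicClosure ℚ) N' ℓ (Pic0.mk (esbPullDegZero h D)) = _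
    rw [esd_heckeOperator_eq N' ℓ]
    rfl
  rw [hT, esbPull_mk, esbPull_mk, hT']
  congr 1
  apply Subtype.ext
  rw [coe_esbPullDegZero, Pic0.coe_degZeroCorrespondence, Pic0.coe_degZeroCorrespondence,
    coe_esbPullDegZero]
  exact esbh_divisor h ℓ hℓ hℓN' hcop _

end Fermat.Agent.S37L
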