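import Mathlib
import Fermat.Agent.S37L.EsbDefs
import Fermat.Agent.S18L.AsmDescent
import Fermat.Agent.S18L.AsmBar
import Fermat.Agent.S18L.AsmDegree

/-!
# S37, block B: `π^* : J₀(N) → J₀(N')` is injective on the `m`-torsion for `m` prime to the
degree `[F_{N'} : F_N]`
-/

set_option autoImplicit false
set_option synthInstance.maxHeartbeats 400000

open AlgebraicCurve ModularCurve
open scoped IntermediateField

namespace Fermat.Agent.S37L

/-- a place below has a place above when the fundamental identity holds with nonzero degree -/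
theorem esb_inj_exists_over {K F F' : Type*} [Field K] [Field F] [Field F'] [Algebra K F]
    [Algebra K F'] [HasPrincipalDivisors K F'] (φ : F →ₐ[K] F')
    (hφ : φ.toRingHom.IsIntegral) (hFI : FundamentalIdentityAlong K φ hφ)
    (hd : finrankAlong K φ ≠ 0) (P : Place K F) (hP : P.deg ≠ 0) :
    ∃ P' : Place K F', P'.restrictAlong φ hφ = P ∧ 0 < P'.ramificationIndexAlong φ := by
  letI := algebraAlong φ
  haveI := isScalarTower_along φ
  haveI := isIntegral_along φ hφ
  haveI : FundamentalIdentity K F F' := hFI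
  have hsum := FundamentalIdentity.sum_ramificationIndex_mul_deg (K := K) (F := F) (F' := F') P
  have hne : (∑ w ∈ P.fiber F', (w.ramificationIndex F : ℤ) * (w.deg : ℤ)) ≠ 0 := by
    rw [hsum]
    exact mul_ne_zero (by exact_mod_cast hd) (by exact_mod_cast hP)
  obtain ⟨P', hP', -⟩ := Finset.exists_ne_zero_of_sum_ne_zero hne
  exact ⟨P', Place.mem_fiber.mp hP', P'.ramificationIndex_pos (F := F)⟩

variable {N N' : ℕ} [NeZero N] [NeZero N']

theorem esb_inj_relfinrank_pos (h : N ∣ N') :
    0 < IntermediateField.relfinrank (modularFunctionFieldBar N) (modularFunctionFieldBar N') := by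
  have htower := IntermediateField.relfinrank_mul_relfinrank
    (Fermat.Agent.S18L.adeg_adjoin_le N) (Fermat.Agent.S18L.bar_le_bar h)
  rw [Fermat.Agent.S18L.adeg_relfinrank_bar, Fermat.Agent.S18L.adeg_relfinrank_bar] at htower
  have hpos := Fermat.Agent.S18L.adeg_psi_pos N'
  rw [← htower] at hpos
  exact Nat.pos_of_ne_zero (by
    intro h0
    rw [h0, mul_zero] at hpos
    exact lt_irrefl _ hpos)

/-- the case `m ≠ 0` at the level of divisors -/
theorem esb_inj_principal_of_ne_zero (h : N ∣ N') (m : ℕ) (hm0 : m ≠ 0)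
    (hm : Nat.Coprime (IntermediateField.relfinrank (modularFunctionFieldBar N)
      (modularFunctionFieldBar N')) m)
    (D : Divisor (AlgebraicClosure ℚ) ↥(modularFunctionFieldBar N))
    (u : ↥(modularFunctionFieldBar N)) (hu0 : u ≠ 0)
    (hu : ∀ P : Place (AlgebraicClosure ℚ) ↥(modularFunctionFieldBar N),
      (m : ℤ) * D P = P.ord u)
    (w : ↥(modularFunctionFieldBar N')) (hw0 : w ≠ 0)
    (hw : ∀ P' : Place (AlgebraicClosure ℚ) ↥(modularFunctionFieldBar N'),
      Divisor.pullbackAlong (esbIncl h) (esb_incl_integral h) D P' = P'.ord w) :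
    Divisor.IsPrincipal D := by
  have hφu0 : esbIncl h u ≠ 0 := by
    intro h0
    exact hu0 ((esbIncl h).toRingHom.injective (by simpa using h0))
  have hwm0 : w ^ m ≠ 0 := pow_ne_zero m hw0
  have hord : ∀ P' : Place (AlgebraicClosure ℚ) ↥(modularFunctionFieldBar N'),
      P'.ord (esbIncl h u * (w ^ m)⁻¹) = 0 := by
    intro P'
    rw [P'.ord_mul hφu0 (inv_ne_zero hwm0), P'.ord_inv, ← zpow_natCast, P'.ord_zpow,
      Place.ord_restrictAlong (esbIncl h) (esb_incl_integral h) P' u, ← hu, ← hw P',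
      Divisor.pullbackAlong_apply (esbIncl h) (esb_incl_integral h) D P']
    ring
  obtain ⟨c, hc⟩ := Fermat.Agent.S18L.const_of_nonneg_bar N' _
    (mul_ne_zero hφu0 (inv_ne_zero hwm0)) (fun Q => (hord Q).ge)
  have huw : IntermediateField.inclusion (Fermat.Agent.S18L.bar_le_bar h) u = c • w ^ m := by
    rw [Algebra.smul_def, ← hc, mul_assoc, inv_mul_cancel₀ hwm0, mul_one]
    rfl
  obtain ⟨c', v, hv⟩ := Fermat.Agent.S18L.exists_pow_of_le (Fermat.Agent.S18L.bar_le_bar h)
    (esb_inj_relfinrank_pos h) m hm u hu0 c w huw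
  have hc'0 : c' ≠ 0 := by
    rintro rfl
    rw [zero_smul] at hv
    exact hu0 hv
  have hv0 : v ≠ 0 := by
    rintro rfl
    rw [zero_pow hm0, smul_zero] at hv
    exact hu0 hv
  refine ⟨v, hv0, fun P => ?_⟩
  have e1 := hu P
  rw [hv, Algebra.smul_def, P.ord_mul (by simpa using hc'0) (pow_ne_zero m hv0),
    Fermat.Agent.X0S24.PlaceRes.ord_algebraMap P hc'0, zero_add, ← zpow_natCast,
    P.ord_zpow] at e1
  have hm' : (m : ℤ) ≠ 0 := by exact_mod_cast hm0
  exact mul_left_cancel₀ hm' e1

/-- the case of degree one at the level of divisors -/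
theorem esb_inj_principal_of_deg_one (h : N ∣ N')
    (hd : IntermediateField.relfinrank (modularFunctionFieldBar N)
      (modularFunctionFieldBar N') = 1)
    (D : Divisor (AlgebraicClosure ℚ) ↥(modularFunctionFieldBar N))
    (w : ↥(modularFunctionFieldBar N')) (hw0 : w ≠ 0)
    (hw : ∀ P' : Place (AlgebraicClosure ℚ) ↥(modularFunctionFieldBar N'),
      Divisor.pullbackAlong (esbIncl h) (esb_incl_integral h) D P' = P'.ord w) :
    Divisor.IsPrincipal D := by
  have hle : modularFunctionFieldBar N' ≤ modularFunctionFieldBar N :=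
    IntermediateField.relfinrank_eq_one_iff.mp hd
  set v : ↥(modularFunctionFieldBar N) := ⟨(w : LaurentSeries (AlgebraicClosure ℚ)), hle w.2⟩
    with hvdef
  have hφv : esbIncl h v = w := Subtype.ext (by rw [coe_esbIncl])
  have hv0 : v ≠ 0 := by
    intro h0
    rw [h0, map_zero] at hφv
    exact hw0 hφv.symm
  refine ⟨v, hv0, fun P => ?_⟩
  have hfin : finrankAlong (AlgebraicClosure ℚ) (esbIncl h) ≠ 0 := by
    rw [esb_incl_finrank h, hd]
    exact one_ne_zero
  have hdeg : P.deg ≠ 0 := by
    rw [Fermat.Agent.X0S24.PlaceRes.deg_eq_one (Fermat.Agent.S18L.halg_bar N) P]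
    exact one_ne_zero
  obtain ⟨P', hP', he⟩ := esb_inj_exists_over (esbIncl h) (esb_incl_integral h)
    (esb_incl_fundamental h) hfin P hdeg
  have h1 := hw P'
  rw [← hφv, Place.ord_restrictAlong (esbIncl h) (esb_incl_integral h) P' v,
    Divisor.pullbackAlong_apply (esbIncl h) (esb_incl_integral h) D P', hP'] at h1
  have he' : ((Place.ramificationIndexAlong (esbIncl h) P' : ℕ) : ℤ) ≠ 0 := by
    exact_mod_cast he.ne'
  exact mul_left_cancel₀ he' h1

/-- (π1) `π^*` is injective on the `m`-torsion for `m` prime to the degree -/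
theorem esb_pull_inj (h : N ∣ N') (m : ℕ)
    (hm : Nat.Coprime (IntermediateField.relfinrank (modularFunctionFieldBar N)
      (modularFunctionFieldBar N')) m)
    (x : JZero N) (hx : m • x = 0) (h0 : esbPull h x = 0) : x = 0 := by
  obtain ⟨D, rfl⟩ := Pic0.mk_surjective x
  rw [esbPull_mk] at h0
  have h0' := (QuotientAddGroup.eq_zero_iff _).mp h0
  rw [AddSubgroup.mem_addSubgroupOf, coe_esbPullDegZero] at h0'
  obtain ⟨w, hw0, hw⟩ := Divisor.mem_principal.mp h0'
  have hprin : Divisor.IsPrincipal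
      (D : Divisor (AlgebraicClosure ℚ) ↥(modularFunctionFieldBar N)) := by
    rcases Nat.eq_zero_or_pos m with hm0 | hmpos
    · subst hm0
      exact esb_inj_principal_of_deg_one h ((Nat.coprime_zero_right _).mp hm) _ w hw0 hw
    · have hx' : Pic0.mk (m • D) = 0 := hx
      have hx'' := (QuotientAddGroup.eq_zero_iff _).mp hx'
      rw [AddSubgroup.mem_addSubgroupOf] at hx''
      obtain ⟨u, hu0, hu⟩ := Divisor.mem_principal.mp hx''
      refine esb_inj_principal_of_ne_zero h m hmpos.ne' hm _ u hu0 (fun P => ?_) w hw0 hw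
      rw [← hu P]
      simp
  refine (QuotientAddGroup.eq_zero_iff _).mpr ?_
  rw [AddSubgroup.mem_addSubgroupOf]
  exact Divisor.mem_principal.mpr hprin

end Fermat.Agent.S37L
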