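import Mathlib
import Fermat.Agent.S37L.EsbInj
import Fermat.Agent.S37L.EsbGal
import Fermat.Agent.S37L.EsbHecke

/-!
# S37, block B (helper8): the three properties of `π^* : J₀(N) → J₀(N')`

* `esb_pull_inj`   (π1, `EsbInj`): `π^*` is injective on the `m`-torsion for `m` prime to
  `[F_{N'} : F_N]`;
* `esb_pull_smul`  (π2, `EsbGal`): `π^*` commutes with the action of `Gal(ℚ̄/ℚ)`;
* `esb_pull_hecke` (π3, `EsbHecke`): `π^* ∘ T_ℓ = T_ℓ ∘ π^*` for `ℓ ∤ N'`, `[F_{N'} : F_N]` prime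
  to `ℓ + 1`.
-/
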