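import Mathlib
import Fermat.Agent.S37L.EsMain
import Fermat.Agent.S37L.EsbPull

/-!
# S37: top assembly through the auxiliary level `N' = auxLevel N ℓ`

The inputs `EsInputs M ℓ hℓ A` are only needed at levels `M` with a normal chart
(`5 ≤ ℓ`, or `ℓ = 3 ∧ 2 ∣ M`, or `ℓ = 2 ∧ 3 ∣ M`); the level `N` is reached through the
pullback `π^* : J₀(N) → J₀(N')`.
-/

set_option autoImplicit false
set_option synthInstance.maxHeartbeats 400000

open ModularCurve AlgebraicCurve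

namespace Fermat.Agent.S37L

open Fermat.Agent.S18L

theorem esb_coprime_succ (N : ℕ) [NeZero N] (ℓ : ℕ) [Fact ℓ.Prime] :
    Nat.Coprime (IntermediateField.relfinrank (modularFunctionFieldBar N)
      (modularFunctionFieldBar (auxLevel N ℓ))) (ℓ + 1) := by
  have hc : Nat.Coprime ℓ (ℓ + 1) := by simp
  rcases adeg_relfinrank_cases N ℓ with h | h | h <;> rw [h]
  · exact Nat.coprime_one_left _
  · exact hc
  · exact hc.pow_left 2

set_option maxHeartbeats 1600000 in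
theorem s37_of_good_inputs (N p : ℕ) [NeZero N] (hcomm : HeckeOperatorsCommuteBar N)
    (hin : ∀ (M : ℕ) [NeZero M] (ℓ : ℕ) (hℓ : ℓ.Prime), ¬ ℓ ∣ M →
      (5 ≤ ℓ ∨ (ℓ = 3 ∧ 2 ∣ M) ∨ (ℓ = 2 ∧ 3 ∣ M)) →
      ∀ A : ValuationSubring (AlgebraicClosure ℚ), A.LiesOverPrime ℓ → EsInputs M ℓ hℓ A) :
    letI := heckeModuleBar N
    ∀ (_ : SMulCommClass (AlgebraicClosure ℚ ≃ₐ[ℚ] AlgebraicClosure ℚ) HeckeAlg (JZero N)),
      SpecializationExists (K := ℚ) (L := AlgebraicClosure ℚ) N p (JZero N) := by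
  letI := heckeModuleBar N
  intro _ ℓ hℓ hℓNp A hA
  have hℓN : ¬ ℓ ∣ N := fun h => hℓNp (dvd_mul_of_dvd_left h p)
  have hℓp : ¬ ℓ ∣ p := fun h => hℓNp (dvd_mul_of_dvd_right h N)
  haveI : Fact ℓ.Prime := ⟨hℓ⟩
  have hℓN' : ¬ ℓ ∣ auxLevel N ℓ := not_dvd_auxLevel hℓN
  have hdvd : N ∣ auxLevel N ℓ := dvd_auxLevel N ℓ
  obtain ⟨h, hI, hF, hES⟩ := hin (auxLevel N ℓ) ℓ hℓ hℓN' (auxLevel_cases N ℓ) A hA
  obtain ⟨e, he⟩ := exists_frobeniusEquiv_residueField A hA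
  refine es_coind (K := ℚ) p (JZero N) A ℓ hℓ
    (JZeroC (IsLocalRing.ResidueField A) (auxLevel N ℓ))
    ((reductionModL A (auxLevel N ℓ)).comp (esbPull hdvd))
    (esF0 (IsLocalRing.ResidueField A) (auxLevel N ℓ) e) ?_ ?_ ?_ ?_
  · rintro x ⟨n, hn⟩ hx0
    have hpn : ¬ ℓ ∣ p ^ n := fun hd => hℓp (hℓ.dvd_of_dvd_pow hd)
    have h1 : esbPull hdvd x = 0 := by
      refine Fermat.Agent.S18.result (auxLevel N ℓ) hℓN' A hA h (p ^ n) hpn (esbPull hdvd x) ?_ hx0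
      rw [← map_nsmul, hn, map_zero]
    exact esb_pull_inj hdvd (p ^ n) (relfinrank_auxLevel N ℓ (p ^ n) hpn).2 x hn h1
  · intro σ hσ x
    rw [AddMonoidHom.comp_apply, AddMonoidHom.comp_apply, esb_pull_smul hdvd σ x]
    exact hI σ hσ (esbPull hdvd x)
  · intro σ hσ x
    rw [AddMonoidHom.comp_apply, AddMonoidHom.comp_apply, esb_pull_smul hdvd σ x]
    exact hF e he σ hσ (esbPull hdvd x)
  · intro y
    rw [heckeModuleBar_heckeGen_smul hcomm ⟨ℓ, hℓ⟩ y]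
    rw [AddMonoidHom.comp_apply, AddMonoidHom.comp_apply,
      esb_pull_hecke hdvd ℓ hℓ hℓN' (esb_coprime_succ N ℓ) y]
    exact hES e he (esbPull hdvd y)

end Fermat.Agent.S37L
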