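import Mathlib
import Fermat.Agent.S18L.S28XBridge
import Fermat.Agent.S37L.EsKDefs

/-!
# S37, block E (helper7): leaf `EsKRed`
-/

set_option autoImplicit false

noncomputable section

open ModularCurve AlgebraicCurve HahnSeries Polynomial
open scoped IntermediateField

namespace Fermat.Agent.S37L

theorem eskred69_frob_ps (ℓ : ℕ) [NeZero ℓ] (hℓ : ℓ.Prime) (k : Type*) [Field k] [CharP k ℓ]
    (e : k →+* k) (he : ∀ a : k, e a = a ^ ℓ) (g : PowerSeries k) :
    (HahnSeries.ofPowerSeries ℤ k g) ^ ℓ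
      = qExpand k ℓ (coeffMap e (HahnSeries.ofPowerSeries ℤ k g)) := by
  have : Fact ℓ.Prime := ⟨hℓ⟩
  have : ExpChar k ℓ := ExpChar.prime hℓ
  have hfrob : e = frobenius k ℓ := RingHom.ext fun a => by rw [he, frobenius_def]
  subst hfrob
  have hℓ0 : ℓ ≠ 0 := hℓ.ne_zero
  have h1 : g ^ ℓ = PowerSeries.map (frobenius k ℓ) (PowerSeries.expand ℓ hℓ0 g) :=
    (MvPowerSeries.map_frobenius_expand ℓ hℓ0).symm
  rw [← map_pow, h1]
  ext n
  by_cases hn : ((ℓ : ℕ) : ℤ) ∣ n
  · obtain ⟨m, rfl⟩ := hn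
    rw [qExpand_coeff_mul, coeffMap_coeff]
    rcases lt_or_ge m 0 with hm | hm
    · have hneg : ((ℓ : ℕ) : ℤ) * m < 0 :=
        mul_neg_of_pos_of_neg (by exact_mod_cast hℓ.pos) hm
      rw [PowerSeries.coeff_coe, if_pos hneg, PowerSeries.coeff_coe, if_pos hm, map_zero]
    · obtain ⟨j, rfl⟩ := Int.eq_ofNat_of_zero_le hm
      rw [show ((ℓ : ℕ) : ℤ) * (j : ℤ) = ((ℓ * j : ℕ) : ℤ) by push_cast; ring,
        HahnSeries.ofPowerSeries_apply_coeff, HahnSeries.ofPowerSeries_apply_coeff,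
        PowerSeries.coeff_map, PowerSeries.coeff_expand_mul]
  · rw [qExpand_coeff_of_not_dvd ℓ _ hn]
    rcases lt_or_ge n 0 with hm | hm
    · rw [PowerSeries.coeff_coe, if_pos hm]
    · obtain ⟨j, rfl⟩ := Int.eq_ofNat_of_zero_le hm
      have hj : ¬ ℓ ∣ j := fun h => hn (by exact_mod_cast h)
      rw [HahnSeries.ofPowerSeries_apply_coeff, PowerSeries.coeff_map,
        PowerSeries.coeff_expand_of_not_dvd ℓ hℓ0 g hj, map_zero]

/-- Frobenius on Laurent series in characteristic `ℓ`: `f(q)^ℓ = (σ f)(q^ℓ)` -/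
theorem esk_frob_series (ℓ : ℕ) [NeZero ℓ] (hℓ : ℓ.Prime) (k : Type*) [Field k] [CharP k ℓ] (e : k →+* k) (he : ∀ a : k, e a = a ^ ℓ) (f : LaurentSeries k) : f ^ ℓ = qExpand k ℓ (coeffMap e f) := by
  have hf : f = (HahnSeries.single f.order (1 : k)) *
      (HahnSeries.ofPowerSeries ℤ k f.powerSeriesPart) :=
    (LaurentSeries.single_order_mul_powerSeriesPart f).symm
  have hs : (HahnSeries.single f.order (1 : k)) ^ ℓ
      = qExpand k ℓ (coeffMap e (HahnSeries.single f.order (1 : k))) := by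
    rw [HahnSeries.single_pow, coeffMap_single, qExpand_single, he, nsmul_eq_mul]
  conv_lhs => rw [hf]
  conv_rhs => rw [hf]
  rw [mul_pow, map_mul, map_mul, hs, eskred69_frob_ps ℓ hℓ k e he]

theorem esk_red_big (ℓ : ℕ) [NeZero ℓ] (hℓ : ℓ.Prime)
    (A : ValuationSubring (AlgebraicClosure ℚ)) (hA : A.LiesOverPrime ℓ)
    (e : IsLocalRing.ResidueField A ≃+* IsLocalRing.ResidueField A)
    (he : ∀ a : IsLocalRing.ResidueField A, e a = a ^ ℓ)
    (ζ : (↥A)ˣ) (hζ : (∑ i ∈ Finset.range ℓ, ((ζ ^ i : (↥A)ˣ) : ↥A)) = 0)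
    (y : LaurentSeries A) :
    ((X - Polynomial.C (qExpand ↥A (ℓ * ℓ) y))
        * ∏ b ∈ Finset.range ℓ, (X - Polynomial.C (Fermat.Agent.S28L.tw (ζ ^ b) y))).map
        (coeffMap (IsLocalRing.residue A))
      = ((X - Polynomial.C
            (qExpand (IsLocalRing.ResidueField A) ℓ (coeffMap (IsLocalRing.residue A) y)))
          * (X ^ ℓ - Polynomial.C
              (coeffMap (e : IsLocalRing.ResidueField A →+* IsLocalRing.ResidueField A)
                (coeffMap (IsLocalRing.residue A) y)))).map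
          (qExpand (IsLocalRing.ResidueField A) ℓ) := by
  have : Fact ℓ.Prime := ⟨hℓ⟩
  have hchar : CharP (IsLocalRing.ResidueField A) ℓ := Fermat.Agent.S18L.s28x_charP ℓ A hA
  have hζ1 : IsLocalRing.residue A (ζ : ↥A) = 1 := by
    have hsum : ∑ i ∈ Finset.range ℓ, (IsLocalRing.residue A (ζ : ↥A)) ^ i = 0 := by
      have h1 := congrArg (IsLocalRing.residue A) hζ
      rw [map_sum, map_zero] at h1
      rw [← h1]
      refine Finset.sum_congr rfl fun i _ => ?_
      rw [Units.val_pow_eq_pow_val, map_pow]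
    have hpow : (IsLocalRing.residue A (ζ : ↥A)) ^ ℓ = 1 := by
      have h2 := mul_geom_sum (IsLocalRing.residue A (ζ : ↥A)) ℓ
      rw [hsum, mul_zero] at h2
      exact (sub_eq_zero.mp h2.symm)
    have h0 : (IsLocalRing.residue A (ζ : ↥A) - 1) ^ ℓ = 0 := by
      rw [sub_pow_char, hpow, one_pow, sub_self]
    exact sub_eq_zero.mp (pow_eq_zero_iff hℓ.ne_zero |>.mp h0)
  have hu : ∀ b : ℕ, Units.map ((IsLocalRing.residue A : ↥A →+* IsLocalRing.ResidueField A) :
      ↥A →* IsLocalRing.ResidueField A) (ζ ^ b) = 1 := by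
    intro b
    apply Units.ext
    rw [map_pow, Units.val_pow_eq_pow_val, Units.coe_map]
    show (IsLocalRing.residue A (ζ : ↥A)) ^ b = 1
    rw [hζ1, one_pow]
  have htw : ∀ b : ℕ, coeffMap (IsLocalRing.residue A) (Fermat.Agent.S28L.tw (ζ ^ b) y)
      = coeffMap (IsLocalRing.residue A) y := by
    intro b
    rw [Fermat.Agent.S28L.coeffMap_tw, hu, Fermat.Agent.S28L.tw_one_unit]
  have hCharLS : CharP (LaurentSeries (IsLocalRing.ResidueField A)) ℓ :=
    charP_of_injective_algebraMap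
      (algebraMap (IsLocalRing.ResidueField A)
        (LaurentSeries (IsLocalRing.ResidueField A))).injective ℓ
  rw [Polynomial.map_mul, Polynomial.map_mul, Polynomial.map_prod]
  simp only [Polynomial.map_sub, Polynomial.map_X, Polynomial.map_C, Polynomial.map_pow, htw]
  rw [Finset.prod_const, Finset.card_range, sub_pow_char, ← Polynomial.C_pow,
    esk_frob_series ℓ hℓ (IsLocalRing.ResidueField A) e he,
    Fermat.Agent.X0S24.JqMatch.coeffMap_qExpand, qExpand_qExpand]

end Fermat.Agent.S37L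

end
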